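/-
TW / WP7a-bis (helper68).  The *reduced function model* of a flat model.

Let `R` be a PID with fraction field `F`, `K ⊇ F` with `K^{Aut(K/F)} = F`, `H` a commutative Hopf
algebra, finite over `R`, and `e : WithConv (H →ₐ[R] K) ≃ M` a multiplicative bijection of its group of
`K`-points with an additive group `M`.  The image `H'` of `H` in `Fun(M, K)` (`h ↦ (m ↦ (e.symm m) h)`)
is again a finite flat cocommutative Hopf algebra over `R` with the same `K`-points, *and* it is
"generically étale by construction": it embeds into `Fun(M, K)`.  Consequently (no Cartier theorem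
needed) `N • M = 0` implies `[N] = η ∘ ε` on `H'`, i.e. `(toConv (AlgHom.id R H')) ^ N = 1`, and
`rank H' = #M`.  Built on helper64's `S19/Shell64` (`HopfFunData`).
-/
import Mathlib
import Fermat.Agent.S19.Shell64.Main

set_option autoImplicit false

noncomputable section

open scoped TensorProduct

namespace Fermat.Agent.TW.FF.ReducedModel68

open Fermat.Agent.S19.Shell64

/-! ### Multiplication by `N` on a function Hopf order -/

section FunData

variable {R K M H I : Type*} [CommRing R] [Field K] [Algebra R K] [AddCommGroup M]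
  [CommRing H] [Algebra R H] (D : HopfFunData R K M H I)

/-- convolution of two endomorphisms which act on functions by substitution. -/
theorem φ_convMul_apply (P Q : H →ₐ[R] H) (a b : M → M)
    (hP : ∀ h m, D.φ (P h) m = D.φ h (a m)) (hQ : ∀ h m, D.φ (Q h) m = D.φ h (b m))
    (h : H) (m : M) :
    letI := D.bialgebra
    D.φ ((WithConv.toConv P * WithConv.toConv Q).ofConv h) m = D.φ h (a m + b m) := by
  let _ := D.bialgebra
  have key : ∀ t : H ⊗[R] H,
      D.φ (Algebra.TensorProduct.lift P Q (fun _ _ => Commute.all _ _) t) m =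
        D.μ₂ t (a m, b m) := by
    intro t
    have h1 : (Pi.evalAlgHom R (fun _ : M => K) m).comp
        (D.φ.comp (Algebra.TensorProduct.lift P Q (fun _ _ => Commute.all _ _))) =
        (Pi.evalAlgHom R (fun _ : M × M => K) (a m, b m)).comp D.μ₂ := by
      apply Algebra.TensorProduct.ext'
      intro x y
      simp [hP, hQ]
    exact AlgHom.congr_fun h1 t
  have h2 := AlgHom.convMul_apply (WithConv.toConv P) (WithConv.toConv Q) h
  have h3 : (Coalgebra.comul h : H ⊗[R] H) = D.comulAlg h := rfl
  rw [h3] at h2
  change D.φ ((WithConv.toConv P * WithConv.toConv Q).ofConv h) m = _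
  rw [h2]
  change D.φ (Algebra.TensorProduct.lift P Q (fun _ _ => Commute.all _ _) (D.comulAlg h)) m = _
  rw [key, HopfFunData.μ₂_comulAlg]

/-- the `k`-th convolution power of the identity is "substitute `k • m`". -/
theorem φ_convPow_id (k : ℕ) (h : H) (m : M) :
    letI := D.bialgebra
    D.φ (((WithConv.toConv (AlgHom.id R H)) ^ k).ofConv h) m = D.φ h (k • m) := by
  let _ := D.bialgebra
  induction k generalizing h m with
  | zero =>
    rw [pow_zero, zero_smul]
    change D.φ (algebraMap R H (D.counitAlg h)) m = _
    rw [AlgHom.commutes, ← D.algebraMap_counitAlg]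
    rfl
  | succ k ih =>
    rw [pow_succ, succ_nsmul]
    have h1 := φ_convMul_apply D ((WithConv.toConv (AlgHom.id R H)) ^ k).ofConv (AlgHom.id R H)
      (fun m => k • m) (fun m => m) (fun h m => ih h m) (fun _ _ => rfl) h m
    rw [WithConv.toConv_ofConv] at h1
    exact h1

/-- if `N` kills `M` then `[N] = η ∘ ε`. -/
theorem convPow_id_eq_one (N : ℕ) (hN : ∀ m : M, N • m = 0) :
    letI := D.bialgebra
    (WithConv.toConv (AlgHom.id R H)) ^ N = 1 := by
  let _ := D.bialgebra
  apply WithConv.ofConv_injective
  ext h
  apply D.φ_inj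
  funext m
  rw [φ_convPow_id, hN]
  change _ = D.φ (algebraMap R H (D.counitAlg h)) m
  rw [AlgHom.commutes, ← D.algebraMap_counitAlg]
  rfl

end FunData

section Generic

variable {R F K M : Type} [CommRing R] [IsDomain R] [IsPrincipalIdealRing R] [Field F] [Field K]
  [Algebra R F] [IsFractionRing R F] [Algebra F K] [Algebra R K] [IsScalarTower R F K]
  [AddCommGroup M]
variable {H : Type} [CommRing H] [HopfAlgebra R H]
variable (e : WithConv (H →ₐ[R] K) ≃ M)

/-- post-composition of a point with a Galois automorphism. -/
def galComp (σ : K ≃ₐ[F] K) (f : H →ₐ[R] K) : H →ₐ[R] K :=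
  ((σ : K →ₐ[F] K).restrictScalars R).comp f

omit [IsDomain R] [IsPrincipalIdealRing R] [IsFractionRing R F] in
@[simp] theorem galComp_apply (σ : K ≃ₐ[F] K) (f : H →ₐ[R] K) (h : H) :
    galComp σ f h = σ (f h) := rfl

/-- the Galois action on `M` transported through `e`. -/
def galSmul (σ : K ≃ₐ[F] K) (m : M) : M :=
  e (WithConv.toConv (galComp σ (e.symm m).ofConv))

omit [IsDomain R] [IsPrincipalIdealRing R] [IsFractionRing R F] [AddCommGroup M] in
theorem symm_galSmul (σ : K ≃ₐ[F] K) (m : M) (h : H) :
    (e.symm (galSmul e σ m)).ofConv h = σ ((e.symm m).ofConv h) := by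
  simp [galSmul]

/-- the transported action as a `MulAction`. -/
@[reducible] def galMulAction : MulAction (K ≃ₐ[F] K) M where
  smul := galSmul e
  one_smul m := by
    change galSmul e 1 m = m
    apply e.symm.injective
    apply WithConv.ofConv_injective
    ext h
    rw [symm_galSmul]
    rfl
  mul_smul σ τ m := by
    change galSmul e (σ * τ) m = galSmul e σ (galSmul e τ m)
    apply e.symm.injective
    apply WithConv.ofConv_injective
    ext h
    rw [symm_galSmul, symm_galSmul, symm_galSmul]
    rfl

/-- the realisation of `H` as functions on `M`. -/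
def funMap : H →ₐ[R] (M → K) := AlgHom.pi fun m => (e.symm m).ofConv

omit [IsDomain R] [IsPrincipalIdealRing R] [Field F] [Algebra R F] [IsFractionRing R F]
  [Algebra F K] [IsScalarTower R F K] [AddCommGroup M] in
@[simp] theorem funMap_apply (h : H) (m : M) : funMap e h m = (e.symm m).ofConv h := rfl

omit [IsDomain R] [IsPrincipalIdealRing R] [Field F] [Algebra R F] [IsFractionRing R F]
  [Algebra F K] [IsScalarTower R F K] in
/-- `f ∘ S` is the convolution inverse of a point `f`. -/
theorem comp_antipode_convMul (f : H →ₐ[R] K) :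
    WithConv.toConv (f.comp (HopfAlgebra.antipodeAlgHom R H)) * WithConv.toConv f = 1 := by
  have h1 := AlgHom.comp_convMul_distrib f (WithConv.toConv (HopfAlgebra.antipodeAlgHom R H))
    (WithConv.toConv (AlgHom.id R H))
  rw [AlgHom.antipode_id_cancel] at h1
  apply WithConv.ofConv_injective
  simp only [AlgHom.comp_id] at h1
  rw [← h1]
  ext h
  simp [AlgHom.convOne_apply]

section Mul

variable (hmul : ∀ f g : WithConv (H →ₐ[R] K), e (f * g) = e f + e g)
include hmul

omit [IsDomain R] [IsPrincipalIdealRing R] [Field F] [Algebra R F] [IsFractionRing R F]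
  [Algebra F K] [IsScalarTower R F K] in
theorem e_one : e 1 = 0 := by
  have := hmul 1 1
  rw [one_mul] at this
  simpa using this

omit [IsDomain R] [IsPrincipalIdealRing R] [Field F] [Algebra R F] [IsFractionRing R F]
  [Algebra F K] [IsScalarTower R F K] in
theorem symm_zero : e.symm 0 = 1 := by
  rw [Equiv.symm_apply_eq, e_one e hmul]

omit [IsDomain R] [IsPrincipalIdealRing R] [Field F] [Algebra R F] [IsFractionRing R F]
  [Algebra F K] [IsScalarTower R F K] in
theorem symm_add (m m' : M) : e.symm (m + m') = e.symm m * e.symm m' := by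
  rw [Equiv.symm_apply_eq, hmul, Equiv.apply_symm_apply, Equiv.apply_symm_apply]

omit [IsDomain R] [IsPrincipalIdealRing R] [Field F] [Algebra R F] [IsFractionRing R F]
  [Algebra F K] [IsScalarTower R F K] in
theorem symm_neg (m : M) :
    e.symm (-m) = WithConv.toConv ((e.symm m).ofConv.comp (HopfAlgebra.antipodeAlgHom R H)) := by
  rw [Equiv.symm_apply_eq]
  have h1 := comp_antipode_convMul (e.symm m).ofConv
  have h2 := congrArg e h1
  rw [hmul, e_one e hmul, WithConv.toConv_ofConv, Equiv.apply_symm_apply] at h2
  exact (eq_neg_of_add_eq_zero_left h2).symm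

omit [IsDomain R] [IsPrincipalIdealRing R] [Field F] [Algebra R F] [IsFractionRing R F]
  [Algebra F K] [IsScalarTower R F K] in
theorem funMap_add (h : H) (m m' : M) :
    funMap e h (m + m') = Algebra.TensorProduct.lift (e.symm m).ofConv (e.symm m').ofConv
      (fun _ _ => Commute.all _ _) (Coalgebra.comul h) := by
  rw [funMap_apply, symm_add e hmul, AlgHom.convMul_apply]

omit [IsDomain R] [IsPrincipalIdealRing R] [Field F] [Algebra R F] [IsFractionRing R F]
  [Algebra F K] [IsScalarTower R F K] in
theorem funMap_zero (h : H) : funMap e h 0 = algebraMap R K (Coalgebra.counit h) := by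
  rw [funMap_apply, symm_zero e hmul]
  rfl

omit [IsDomain R] [IsPrincipalIdealRing R] [Field F] [Algebra R F] [IsFractionRing R F]
  [Algebra F K] [IsScalarTower R F K] in
theorem funMap_neg (h : H) (m : M) :
    funMap e h (-m) = funMap e (HopfAlgebra.antipodeAlgHom R H h) m := by
  rw [funMap_apply, symm_neg e hmul]
  rfl

end Mul

section Data

/-- the reduced model, as a subalgebra of `Fun(M, K)`. -/
def redAlg : Subalgebra R (M → K) := (funMap e).range

/-- the projection `H → H'`. -/
def toRed : H →ₐ[R] redAlg e := (funMap e).rangeRestrict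

omit [IsDomain R] [IsPrincipalIdealRing R] [Field F] [Algebra R F] [IsFractionRing R F]
  [Algebra F K] [IsScalarTower R F K] [AddCommGroup M] in
theorem toRed_surjective : Function.Surjective (toRed e) := (funMap e).rangeRestrict_surjective

omit [IsDomain R] [IsPrincipalIdealRing R] [Field F] [Algebra R F] [IsFractionRing R F]
  [Algebra F K] [IsScalarTower R F K] [AddCommGroup M] in
@[simp] theorem toRed_apply (h : H) (m : M) : ((toRed e h : redAlg e) : M → K) m = funMap e h m :=
  rfl

omit [IsDomain R] [IsPrincipalIdealRing R] [Field F] [Algebra R F] [IsFractionRing R F]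
  [Algebra F K] [IsScalarTower R F K] [AddCommGroup M] in
theorem finite_redAlg [Module.Finite R H] : Module.Finite R (redAlg e) :=
  Module.Finite.of_surjective (toRed e).toLinearMap (toRed_surjective e)

omit [IsDomain R] [IsPrincipalIdealRing R] [IsFractionRing R F] [AddCommGroup M] in
theorem isEquivariantFun_of_mem {h : M → K} (hh : h ∈ redAlg e) :
    @IsEquivariantFun F K M _ _ _ (galMulAction e) h := by
  obtain ⟨h₀, rfl⟩ := hh
  intro σ m
  exact symm_galSmul e σ m h₀

include F in
omit [AddCommGroup M] in
theorem free_redAlg [Module.Finite R H] : Module.Free R (redAlg e) := by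
  have : Module.Finite R (redAlg e) := finite_redAlg e
  have : Module.IsTorsionFree R (M → K) := isTorsionFree_fun (F := F)
  have : Module.IsTorsionFree R (redAlg e) :=
    Function.Injective.moduleIsTorsionFree (fun h : redAlg e => (h : M → K))
      Subtype.val_injective (fun _ _ => rfl)
  exact Module.free_of_finite_type_torsion_free'

omit [IsDomain R] [IsPrincipalIdealRing R] [Field F] [Algebra R F] [IsFractionRing R F]
  [Algebra F K] [IsScalarTower R F K] [AddCommGroup M] in
theorem prodEval_map_toRed (t : H ⊗[R] H) (m m' : M) :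
    prodEval (redAlg e).val (redAlg e).val (Algebra.TensorProduct.map (toRed e) (toRed e) t)
      (m, m') = Algebra.TensorProduct.lift (e.symm m).ofConv (e.symm m').ofConv
        (fun _ _ => Commute.all _ _) t := by
  have h : (Pi.evalAlgHom R (fun _ : M × M => K) (m, m')).comp
      ((prodEval (redAlg e).val (redAlg e).val).comp
        (Algebra.TensorProduct.map (toRed e) (toRed e))) =
      Algebra.TensorProduct.lift (e.symm m).ofConv (e.symm m').ofConv
        (fun _ _ => Commute.all _ _) := by
    apply Algebra.TensorProduct.ext'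
    intro a b
    simp
  exact AlgHom.congr_fun h t

section HopfData

variable [Module.Finite R H] (hfix : FixedFieldEqBase F K)
  (hmul : ∀ f g : WithConv (H →ₐ[R] K), e (f * g) = e f + e g)

/-- the function Hopf order data of the reduced model. -/
def redData :
    letI := free_redAlg (F := F) e
    HopfFunData R K M (redAlg e) (Module.Free.ChooseBasisIndex R (redAlg e)) :=
  letI := free_redAlg (F := F) e
  letI := finite_redAlg e
  { φ := (redAlg e).val
    φ_inj := Subtype.val_injective
    b := Module.Free.chooseBasis R (redAlg e)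
    b_indep := by
      let _ := galMulAction (F := F) e
      exact basis_linearIndependent hfix (redAlg e) (fun h hh => isEquivariantFun_of_mem e hh) _
    algebraMap_inj := algebraMap_injective_of_tower (F := F)
    mul_mem := by
      intro h
      obtain ⟨h₀, rfl⟩ := toRed_surjective e h
      refine ⟨Algebra.TensorProduct.map (toRed e) (toRed e) (Coalgebra.comul h₀), fun m m' => ?_⟩
      rw [prodEval_map_toRed]
      exact (funMap_add e hmul h₀ m m').symm
    one_mem := by
      intro h
      obtain ⟨h₀, rfl⟩ := toRed_surjective e h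
      exact ⟨Coalgebra.counit h₀, (funMap_zero e hmul h₀).symm⟩
    inv_mem := by
      intro h
      obtain ⟨h₀, rfl⟩ := toRed_surjective e h
      exact ⟨toRed e (HopfAlgebra.antipodeAlgHom R H h₀), fun m => (funMap_neg e hmul h₀ m).symm⟩ }

omit [IsDomain R] [IsPrincipalIdealRing R] [IsFractionRing R F] [Module.Finite R H]
  [AddCommGroup M] in
/-- the transported action agrees with any map `act` satisfying the equivariance clause. -/
theorem act_eq_galSmul (act : (K ≃ₐ[F] K) → M → M)
    (hact : ∀ (σ : K ≃ₐ[F] K) (f g : WithConv (H →ₐ[R] K)),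
      (∀ h : H, g h = σ (f h)) → e g = act σ (e f)) (σ : K ≃ₐ[F] K) (m : M) :
    act σ m = galSmul e σ m := by
  have := hact σ (e.symm m) (WithConv.toConv (galComp σ (e.symm m).ofConv)) (fun h => rfl)
  rw [Equiv.apply_symm_apply] at this
  exact this.symm

include hfix hmul in
/-- **The reduced function model.** -/
theorem exists_reduced_model (act : (K ≃ₐ[F] K) → M → M)
    (hact : ∀ (σ : K ≃ₐ[F] K) (f g : WithConv (H →ₐ[R] K)),
      (∀ h : H, g h = σ (f h)) → e g = act σ (e f)) :
    ∃ (H' : Type) (_ : CommRing H') (_ : HopfAlgebra R H'),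
      Module.Finite R H' ∧ Module.Free R H' ∧ Coalgebra.IsCocomm R H' ∧
      (∀ N : ℕ, (∀ m : M, N • m = 0) → (WithConv.toConv (AlgHom.id R H')) ^ N = 1) ∧
      (∀ x : H', (∀ f : H' →ₐ[R] K, f x = 0) → x = 0) ∧
      Module.finrank R H' = Nat.card M ∧
      ∃ e' : WithConv (H' →ₐ[R] K) ≃ M,
        (∀ f g : WithConv (H' →ₐ[R] K), e' (f * g) = e' f + e' g) ∧
        ∀ (σ : K ≃ₐ[F] K) (f g : WithConv (H' →ₐ[R] K)),
          (∀ h : H', g h = σ (f h)) → e' g = act σ (e' f) := by
  classical
  let _ := free_redAlg (F := F) e
  let _ := finite_redAlg e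
  let D := redData e hfix hmul
  have hsep : ∀ m m' : M, m ≠ m' → ∃ h : redAlg e, D.φ h m ≠ D.φ h m' := by
    intro m m' hmm
    have h1 : (e.symm m).ofConv ≠ (e.symm m').ofConv := fun h =>
      hmm (e.symm.injective (WithConv.ofConv_injective h))
    obtain ⟨h₀, hh₀⟩ := DFunLike.exists_ne h1
    exact ⟨toRed e h₀, hh₀⟩
  have hfinM : Finite M := finite_of_separates D.φ D.b hsep
  have hbij : Function.Bijective (evalPt D.φ) := evalPt_bijective D.φ D.b D.b_indep hsep
  let _ := D.hopfAlgebra
  refine ⟨redAlg e, inferInstance, D.hopfAlgebra, inferInstance, inferInstance, D.isCocomm,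
    fun N hN => convPow_id_eq_one D N hN, ?_, ?_, ?_⟩
  · intro x hx
    apply D.φ_inj
    funext m
    have := hx (evalPt D.φ m)
    rw [map_zero]
    exact this
  · cases nonempty_fintype M
    have h1 := (linearIndependent_algHom_basis D.b (evalPt D.φ) hbij.1).fintype_card_le_finrank
    have h2 := D.b_indep.fintype_card_le_finrank
    rw [Module.finrank_fintype_fun_eq_card] at h1 h2
    rw [Module.finrank_eq_card_basis D.b, Nat.card_eq_fintype_card]
    omega
  · let e' : WithConv (redAlg e →ₐ[R] K) ≃ M :=
      (WithConv.equiv _).trans (Equiv.ofBijective (evalPt D.φ) hbij).symm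
    have he : ∀ (f : WithConv (redAlg e →ₐ[R] K)) (m : M),
        e' f = m ↔ f.ofConv = evalPt D.φ m := by
      intro f m
      simp only [e', Equiv.trans_apply, WithConv.equiv_apply, Equiv.symm_apply_eq,
        Equiv.ofBijective_apply]
    refine ⟨e', ?_, ?_⟩
    · intro f g
      rw [he]
      have hf := (he f (e' f)).mp rfl
      have hg := (he g (e' g)).mp rfl
      apply AlgHom.ext
      intro c
      have h1 : (f * g).ofConv c =
          Algebra.TensorProduct.lift f.ofConv g.ofConv (fun _ _ => Commute.all _ _)
            (D.comulAlg c) := AlgHom.convMul_apply f g c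
      rw [h1, hf, hg]
      have h2 : ∀ t : redAlg e ⊗[R] redAlg e,
          Algebra.TensorProduct.lift (evalPt D.φ (e' f)) (evalPt D.φ (e' g))
            (fun _ _ => Commute.all _ _) t = D.μ₂ t (e' f, e' g) := by
        intro t
        have h3 : Algebra.TensorProduct.lift (evalPt D.φ (e' f)) (evalPt D.φ (e' g))
            (fun _ _ => Commute.all _ _) =
            (Pi.evalAlgHom R (fun _ : M × M => K) (e' f, e' g)).comp D.μ₂ := by
          apply Algebra.TensorProduct.ext'
          intro a c
          simp
        exact AlgHom.congr_fun h3 t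
      rw [h2]
      simp
    · intro σ f g hfg
      rw [act_eq_galSmul e act hact, he]
      have hf := (he f (e' f)).mp rfl
      apply AlgHom.ext
      intro c
      have h1 : g.ofConv c = σ (f.ofConv c) := hfg c
      rw [h1, hf]
      simp only [evalPt_apply]
      obtain ⟨c₀, rfl⟩ := toRed_surjective e c
      exact (symm_galSmul e σ (e' f) c₀).symm

end HopfData

end Data

end Generic

end Fermat.Agent.TW.FF.ReducedModel68
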