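/-
TW / WP7 B1 (helper68).  *Function orders*: the "function form" of a finite flat cocommutative Hopf
algebra with étale generic fibre.  `R` a PID with fraction field `F`, `K ⊇ F` with `K^{Aut(K/F)} = F`,
`M` an additive group with an action of `Aut(K/F)`.  A function order on `M` is an `R`-subalgebra `H` of
`Fun(M, K)`, finite over `R`, consisting of equivariant functions, separating the points of `M` and closed
under the translation comultiplication.  By helper64's shell theorem a function order gives a flat model
of `M`; by `ReducedModel68` every flat model gives a function order.  All closure properties of flat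
models (subgroups, quotients, products) are proved on function orders.
-/
import Mathlib
import Fermat.Agent.S19.Shell64.Main
import Fermat.Agent.TW.FF.ReducedModel68

set_option autoImplicit false

noncomputable section

open scoped TensorProduct

namespace Fermat.Agent.TW.FF.FunOrder68

open Fermat.Agent.S19.Shell64 Fermat.Agent.TW.FF.ReducedModel68

/-- every tensor is a finite sum of pure tensors, indexed by `Fin n`. -/
theorem exists_fin_sum_tmul {R A B : Type*} [CommSemiring R] [AddCommMonoid A] [AddCommMonoid B]
    [Module R A] [Module R B] (t : A ⊗[R] B) :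
    ∃ (n : ℕ) (a : Fin n → A) (b : Fin n → B), t = ∑ i, a i ⊗ₜ[R] b i := by
  induction t using TensorProduct.induction_on with
  | zero => exact ⟨0, Fin.elim0, Fin.elim0, by simp⟩
  | tmul x y => exact ⟨1, fun _ => x, fun _ => y, by simp⟩
  | add x y hx hy =>
    obtain ⟨n, a, b, rfl⟩ := hx
    obtain ⟨m, a', b', rfl⟩ := hy
    refine ⟨n + m, Fin.append a a', Fin.append b b', ?_⟩
    rw [Fin.sum_univ_add]
    simp

/-- a function order on `M`. -/
structure IsFunOrder (R F : Type) {K M : Type} [CommRing R] [Field F] [Field K] [Algebra R K]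
    [Algebra F K] [AddCommGroup M] [MulAction (K ≃ₐ[F] K) M] (H : Subalgebra R (M → K)) : Prop where
  finite : Module.Finite R H
  equivariant : ∀ h ∈ H, IsEquivariantFun F h
  separates : ∀ m m' : M, m ≠ m' → ∃ h ∈ H, h m ≠ h m'
  comul : ∀ h ∈ H, ∃ (n : ℕ) (a b : Fin n → H), ∀ m m' : M,
    h (m + m') = ∑ i, (a i : M → K) m * (b i : M → K) m'

section Generic

variable {R F K M : Type} [CommRing R] [IsDomain R] [IsPrincipalIdealRing R] [Field F] [Field K]
  [Algebra R F] [IsFractionRing R F] [Algebra F K] [Algebra R K] [IsScalarTower R F K]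
  [AddCommGroup M]

/-- a function order gives a flat model (helper64's shell theorem). -/
theorem IsFunOrder.exists_model [DistribMulAction (K ≃ₐ[F] K) M] (hfix : FixedFieldEqBase F K)
    {H : Subalgebra R (M → K)} (hH : IsFunOrder R F H) :
    ∃ (Hh : Type) (_ : CommRing Hh) (_ : HopfAlgebra R Hh),
      Module.Finite R Hh ∧ Module.Flat R Hh ∧ Coalgebra.IsCocomm R Hh ∧
      ∃ e : WithConv (Hh →ₐ[R] K) ≃ M,
        (∀ f g, e (f * g) = e f + e g) ∧
        ∀ (σ : K ≃ₐ[F] K) (f g : WithConv (Hh →ₐ[R] K)),
          (∀ h : Hh, g h = σ (f h)) → e g = σ • e f :=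
  haveI := hH.finite
  exists_hopfAlgebra_of_functionOrder' hfix H hH.equivariant hH.separates hH.comul

section OfModel

variable {H : Type} [CommRing H] [HopfAlgebra R H] (e : WithConv (H →ₐ[R] K) ≃ M)
  (hmul : ∀ f g : WithConv (H →ₐ[R] K), e (f * g) = e f + e g)

omit [IsDomain R] [IsPrincipalIdealRing R] [IsFractionRing R F] [AddCommGroup M] in
theorem galComp_convMul (σ : K ≃ₐ[F] K) (f g : WithConv (H →ₐ[R] K)) :
    WithConv.toConv (galComp σ (f * g).ofConv) =
      WithConv.toConv (galComp σ f.ofConv) * WithConv.toConv (galComp σ g.ofConv) := by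
  apply WithConv.ofConv_injective
  exact AlgHom.comp_convMul_distrib ((σ : K →ₐ[F] K).restrictScalars R) f g

include hmul in
omit [IsDomain R] [IsPrincipalIdealRing R] [IsFractionRing R F] in
theorem galSmul_add (σ : K ≃ₐ[F] K) (m m' : M) :
    galSmul e σ (m + m') = galSmul e σ m + galSmul e σ m' := by
  unfold galSmul
  rw [symm_add e hmul, galComp_convMul, hmul]

include hmul in
omit [IsDomain R] [IsPrincipalIdealRing R] [IsFractionRing R F] in
theorem galSmul_zero (σ : K ≃ₐ[F] K) : galSmul e σ (0 : M) = 0 := by
  have h := galSmul_add e hmul σ 0 0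
  rw [add_zero] at h
  simpa using h

/-- the transported Galois action as a `DistribMulAction`. -/
@[reducible] def galDistribMulAction : DistribMulAction (K ≃ₐ[F] K) M :=
  { galMulAction (F := F) e with
    smul_zero := fun σ => galSmul_zero e hmul σ
    smul_add := fun σ m m' => galSmul_add e hmul σ m m' }

include hmul in
omit [IsDomain R] [IsPrincipalIdealRing R] [IsFractionRing R F] in
/-- **a flat model gives a function order** (for the transported Galois action). -/
theorem isFunOrder_redAlg [Module.Finite R H] :
    @IsFunOrder R F K M _ _ _ _ _ _ (galMulAction (F := F) e) (redAlg e) := by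
  let _ := galMulAction (F := F) e
  refine ⟨finite_redAlg e, fun h hh => isEquivariantFun_of_mem e hh, ?_, ?_⟩
  · intro m m' hmm
    have h1 : (e.symm m).ofConv ≠ (e.symm m').ofConv := fun h =>
      hmm (e.symm.injective (WithConv.ofConv_injective h))
    obtain ⟨h₀, hh₀⟩ := DFunLike.exists_ne h1
    exact ⟨funMap e h₀, ⟨h₀, rfl⟩, hh₀⟩
  · rintro _ ⟨h₀, rfl⟩
    obtain ⟨n, a, b, hab⟩ := exists_fin_sum_tmul (Coalgebra.comul (R := R) h₀)
    refine ⟨n, fun i => toRed e (a i), fun i => toRed e (b i), fun m m' => ?_⟩
    change funMap e h₀ (m + m') = _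
    rw [funMap_add e hmul, hab, map_sum]
    simp

end OfModel

end Generic

end Fermat.Agent.TW.FF.FunOrder68
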