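/-
TW / WP7a (helper68).  `FlatModel p M act`: the `G_ℚ`-module `M` is the group of `ℚ̄`-points of a finite
flat commutative cocommutative Hopf algebra over `ℤ_(p)` -- literally the existential used by the frozen
`GaloisRepAdic.IsFlatAt` (and by the frozen statement S19).  `LocalFlatModel p M act`: the same shape over
`ℤ_[p]`, with points in `PadicAlgCl p` and the local Galois group `Gal(PadicAlgCl p / ℚ_[p])` (which is
the Prelude's `ExtCitation.primeLocalGaloisGroup`).
-/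
import Mathlib
import Fermat.Prelude.Def_GaloisRep_Flat
import Fermat.Prelude.Def_GaloisRep_CompletionBridge

set_option autoImplicit false

noncomputable section

namespace Fermat.Agent.TW.FF.FlatModel68

/-- `ℤ_(p)` as a type (the subring `GaloisRep.ratLocalizedAt p` of `ℚ`). -/
abbrev Zloc (p : ℕ) : Type := ↥(GaloisRep.ratLocalizedAt p)

/-- `Gal(ℚ̄/ℚ)`. -/
abbrev GQ : Type := AlgebraicClosure ℚ ≃ₐ[ℚ] AlgebraicClosure ℚ

/-- `Gal(ℚ̄_p/ℚ_p)`. -/
abbrev GQp (p : ℕ) [Fact p.Prime] : Type := PadicAlgCl p ≃ₐ[ℚ_[p]] PadicAlgCl p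

/-- `M` (with the maps `act σ`) is the group of `ℚ̄`-points of a finite flat commutative cocommutative
Hopf algebra over `ℤ_(p)`, Galois-equivariantly. -/
def FlatModel (p : ℕ) (M : Type) [AddCommGroup M] (act : GQ → M → M) : Prop :=
  ∃ (H : Type) (_ : CommRing H) (_ : HopfAlgebra (GaloisRep.ratLocalizedAt p) H),
    Module.Finite (GaloisRep.ratLocalizedAt p) H ∧
    Module.Flat (GaloisRep.ratLocalizedAt p) H ∧
    Coalgebra.IsCocomm (GaloisRep.ratLocalizedAt p) H ∧
    ∃ e : WithConv (H →ₐ[GaloisRep.ratLocalizedAt p] AlgebraicClosure ℚ) ≃ M,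
      (∀ f g : WithConv (H →ₐ[GaloisRep.ratLocalizedAt p] AlgebraicClosure ℚ),
        e (f * g) = e f + e g) ∧
      ∀ (σ : GQ) (f g : WithConv (H →ₐ[GaloisRep.ratLocalizedAt p] AlgebraicClosure ℚ)),
        (∀ h : H, g h = σ (f h)) → e g = act σ (e f)

/-- `IsFlatAt` in terms of `FlatModel` (definitional). -/
theorem isFlatAt_iff {A : Type} [CommRing A] [IsLocalRing A] (ρ : GaloisRepAdic A) (p : ℕ) :
    ρ.IsFlatAt p ↔ Finite (IsLocalRing.ResidueField A) ∧ ∀ I : Ideal A, Finite (A ⧸ I) →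
      FlatModel p (ρ.V ⧸ (I • (⊤ : Submodule A ρ.V))) (fun σ => ρ.levelAction I σ) :=
  Iff.rfl

/-- `M` (with the maps `act τ`) is the group of `ℚ̄_p`-points of a finite flat commutative cocommutative
Hopf algebra over `ℤ_p`, equivariantly for `Gal(ℚ̄_p/ℚ_p)`. -/
def LocalFlatModel (p : ℕ) [Fact p.Prime] (M : Type) [AddCommGroup M] (act : GQp p → M → M) : Prop :=
  ∃ (H : Type) (_ : CommRing H) (_ : HopfAlgebra ℤ_[p] H),
    Module.Finite ℤ_[p] H ∧ Module.Flat ℤ_[p] H ∧ Coalgebra.IsCocomm ℤ_[p] H ∧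
    ∃ e : WithConv (H →ₐ[ℤ_[p]] PadicAlgCl p) ≃ M,
      (∀ f g : WithConv (H →ₐ[ℤ_[p]] PadicAlgCl p), e (f * g) = e f + e g) ∧
      ∀ (τ : GQp p) (f g : WithConv (H →ₐ[ℤ_[p]] PadicAlgCl p)),
        (∀ h : H, g h = τ (f h)) → e g = act τ (e f)

/-- Transport of a flat model along an equivariant additive isomorphism. -/
theorem FlatModel.of_addEquiv {p : ℕ} {M N : Type} [AddCommGroup M] [AddCommGroup N]
    {actM : GQ → M → M} {actN : GQ → N → N} (φ : M ≃+ N)
    (hφ : ∀ σ m, φ (actM σ m) = actN σ (φ m)) (h : FlatModel p M actM) : FlatModel p N actN := by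
  obtain ⟨H, i1, i2, hfin, hflat, hco, e, hmul, hact⟩ := h
  refine ⟨H, i1, i2, hfin, hflat, hco, e.trans φ.toEquiv, ?_, ?_⟩
  · intro f g
    simp [hmul]
  · intro σ f g hfg
    simp [hact σ f g hfg, hφ]

/-- Transport of a local flat model along an equivariant additive isomorphism. -/
theorem LocalFlatModel.of_addEquiv {p : ℕ} [Fact p.Prime] {M N : Type} [AddCommGroup M]
    [AddCommGroup N] {actM : GQp p → M → M} {actN : GQp p → N → N} (φ : M ≃+ N)
    (hφ : ∀ τ m, φ (actM τ m) = actN τ (φ m)) (h : LocalFlatModel p M actM) :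
    LocalFlatModel p N actN := by
  obtain ⟨H, i1, i2, hfin, hflat, hco, e, hmul, hact⟩ := h
  refine ⟨H, i1, i2, hfin, hflat, hco, e.trans φ.toEquiv, ?_, ?_⟩
  · intro f g
    simp [hmul]
  · intro τ f g hfg
    simp [hact τ f g hfg, hφ]

end Fermat.Agent.TW.FF.FlatModel68
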