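/-
TW / WP7 B1 (helper68).  Closure of function orders under products:
the product order is the image of `H₁ ⊗ H₂` in `Fun(M₁ × M₂, K)`.
-/
import Mathlib
import Fermat.Agent.TW.FF.FunOrder68

set_option autoImplicit false

noncomputable section

open scoped TensorProduct

namespace Fermat.Agent.TW.FF.ClosureProd68

open Fermat.Agent.S19.Shell64 Fermat.Agent.TW.FF.FunOrder68

variable {R F K M₁ M₂ : Type} [CommRing R] [Field F] [Field K] [Algebra R K] [Algebra F K]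
  [AddCommGroup M₁] [AddCommGroup M₂]
  [DistribMulAction (K ≃ₐ[F] K) M₁] [DistribMulAction (K ≃ₐ[F] K) M₂]
  (H₁ : Subalgebra R (M₁ → K)) (H₂ : Subalgebra R (M₂ → K))

/-- the product order. -/
def prodAlg : Subalgebra R (M₁ × M₂ → K) := (prodEval H₁.val H₂.val).range

/-- the projection `H₁ ⊗ H₂ → prodAlg`. -/
def toProd : H₁ ⊗[R] H₂ →ₐ[R] prodAlg H₁ H₂ := (prodEval H₁.val H₂.val).rangeRestrict

omit [Field F] [Algebra F K] [AddCommGroup M₁] [AddCommGroup M₂]
  [DistribMulAction (K ≃ₐ[F] K) M₁] [DistribMulAction (K ≃ₐ[F] K) M₂] in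
@[simp] theorem toProd_tmul (a : H₁) (b : H₂) (p : M₁ × M₂) :
    ((toProd H₁ H₂ (a ⊗ₜ[R] b) : prodAlg H₁ H₂) : M₁ × M₂ → K) p =
      (a : M₁ → K) p.1 * (b : M₂ → K) p.2 := rfl

/-- re-indexing a comultiplication formula by `Fin n`. -/
theorem exists_fin_of_fintype {M : Type} [AddCommGroup M] {H : Subalgebra R (M → K)} {h : M → K}
    {ι : Type} [Fintype ι] (a b : ι → H)
    (hab : ∀ m m' : M, h (m + m') = ∑ i, (a i : M → K) m * (b i : M → K) m') :
    ∃ (n : ℕ) (a' b' : Fin n → H), ∀ m m' : M,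
      h (m + m') = ∑ i, (a' i : M → K) m * (b' i : M → K) m' := by
  refine ⟨Fintype.card ι, a ∘ (Fintype.equivFin ι).symm, b ∘ (Fintype.equivFin ι).symm,
    fun m m' => ?_⟩
  rw [hab]
  exact Fintype.sum_equiv (Fintype.equivFin ι) _ _ (fun i => by simp)

variable {H₁ H₂}

/-- **function orders are closed under products.** -/
theorem IsFunOrder.prod (h₁ : IsFunOrder R F H₁) (h₂ : IsFunOrder R F H₂) :
    IsFunOrder R F (prodAlg H₁ H₂) := by
  have := h₁.finite
  have := h₂.finite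
  have hsurj : Function.Surjective (toProd H₁ H₂) := (prodEval H₁.val H₂.val).rangeRestrict_surjective
  refine ⟨Module.Finite.of_surjective (toProd H₁ H₂).toLinearMap hsurj, ?_, ?_, ?_⟩
  · intro x hx σ p
    obtain ⟨t, rfl⟩ := (AlgHom.mem_range _).mp hx
    clear hx
    induction t using TensorProduct.induction_on with
    | zero => simp
    | tmul a b =>
      change (a : M₁ → K) (σ • p).1 * (b : M₂ → K) (σ • p).2 = σ ((a : M₁ → K) p.1 * (b : M₂ → K) p.2)
      rw [map_mul, Prod.smul_fst, Prod.smul_snd, h₁.equivariant _ a.2, h₂.equivariant _ b.2]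
    | add x y hx hy =>
      rw [map_add, Pi.add_apply, Pi.add_apply, hx, hy, map_add]
  · rintro ⟨m₁, m₂⟩ ⟨m₁', m₂'⟩ hne
    by_cases h1 : m₁ = m₁'
    · have h2 : m₂ ≠ m₂' := fun h => hne (by rw [h1, h])
      obtain ⟨b, hb, hbne⟩ := h₂.separates m₂ m₂' h2
      refine ⟨_, (toProd H₁ H₂ ((1 : H₁) ⊗ₜ[R] ⟨b, hb⟩)).2, ?_⟩
      rw [toProd_tmul, toProd_tmul]
      simpa using hbne
    · obtain ⟨a, ha, hane⟩ := h₁.separates m₁ m₁' h1
      refine ⟨_, (toProd H₁ H₂ ((⟨a, ha⟩ : H₁) ⊗ₜ[R] (1 : H₂))).2, ?_⟩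
      rw [toProd_tmul, toProd_tmul]
      simpa using hane
  · intro x hx
    obtain ⟨t, rfl⟩ := (AlgHom.mem_range _).mp hx
    clear hx
    induction t using TensorProduct.induction_on with
    | zero => exact ⟨0, Fin.elim0, Fin.elim0, fun _ _ => by simp⟩
    | tmul a b =>
      obtain ⟨k₁, a₁, a₂, ha⟩ := h₁.comul a a.2
      obtain ⟨k₂, b₁, b₂, hb⟩ := h₂.comul b b.2
      refine exists_fin_of_fintype (ι := Fin k₁ × Fin k₂)
        (fun ij => toProd H₁ H₂ (a₁ ij.1 ⊗ₜ[R] b₁ ij.2))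
        (fun ij => toProd H₁ H₂ (a₂ ij.1 ⊗ₜ[R] b₂ ij.2)) (fun p p' => ?_)
      change (a : M₁ → K) (p + p').1 * (b : M₂ → K) (p + p').2 = _
      rw [Prod.fst_add, Prod.snd_add, ha, hb, Finset.sum_mul_sum, Fintype.sum_prod_type]
      refine Finset.sum_congr rfl (fun i _ => Finset.sum_congr rfl (fun j _ => ?_))
      rw [toProd_tmul, toProd_tmul]
      ring
    | add x y hx hy =>
      obtain ⟨k₁, a₁, a₂, ha⟩ := hx
      obtain ⟨k₂, b₁, b₂, hb⟩ := hy
      refine ⟨k₁ + k₂, Fin.append a₁ b₁, Fin.append a₂ b₂, fun p p' => ?_⟩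
      rw [map_add, Pi.add_apply, ha, hb, Fin.sum_univ_add]
      simp

end Fermat.Agent.TW.FF.ClosureProd68
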