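/-
TW / WP7 B1 (helper68).  Closure of function orders under Galois-stable subgroups:
restrict the functions.
-/
import Mathlib
import Fermat.Agent.TW.FF.FunOrder68

set_option autoImplicit false

noncomputable section

open scoped TensorProduct

namespace Fermat.Agent.TW.FF.ClosureSub68

open Fermat.Agent.S19.Shell64 Fermat.Agent.TW.FF.FunOrder68

variable {R F K M : Type} [CommRing R] [Field F] [Field K] [Algebra R K] [Algebra F K]
  [AddCommGroup M] [DistribMulAction (K ≃ₐ[F] K) M]
  (N : AddSubgroup M) (hN : ∀ (σ : K ≃ₐ[F] K) (n : M), n ∈ N → σ • n ∈ N)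

/-- the induced action on a stable subgroup. -/
@[reducible] def subAction : DistribMulAction (K ≃ₐ[F] K) N where
  smul σ n := ⟨σ • (n : M), hN σ n n.2⟩
  one_smul _ := Subtype.ext (one_smul _ _)
  mul_smul _ _ _ := Subtype.ext (mul_smul _ _ _)
  smul_zero σ := Subtype.ext (smul_zero σ)
  smul_add σ _ _ := Subtype.ext (smul_add σ _ _)

/-- restriction of functions to the subgroup. -/
def resAlg (H : Subalgebra R (M → K)) : Subalgebra R (N → K) :=
  H.map (pullAlg R K (fun n : N => (n : M)))

include hN in
/-- **function orders restrict to stable subgroups.** -/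
theorem IsFunOrder.restrict {H : Subalgebra R (M → K)} (hH : IsFunOrder R F H) :
    @IsFunOrder R F K N _ _ _ _ _ _ (subAction N hN).toMulAction (resAlg N H) := by
  let _ := subAction N hN
  have := hH.finite
  refine ⟨?_, ?_, ?_, ?_⟩
  · exact Module.Finite.of_surjective
      ((pullAlg R K (fun n : N => (n : M))).subalgebraMap H).toLinearMap
      (AlgHom.subalgebraMap_surjective H _)
  · rintro _ ⟨h, hh, rfl⟩ σ n
    exact hH.equivariant h hh σ n
  · intro n n' hnn
    obtain ⟨h, hh, hne⟩ := hH.separates n n' (fun h => hnn (Subtype.ext h))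
    exact ⟨_, ⟨h, hh, rfl⟩, hne⟩
  · rintro _ ⟨h, hh, rfl⟩
    obtain ⟨k, a, b, hab⟩ := hH.comul h hh
    refine ⟨k, fun i => (pullAlg R K (fun n : N => (n : M))).subalgebraMap H (a i),
      fun i => (pullAlg R K (fun n : N => (n : M))).subalgebraMap H (b i), fun n n' => ?_⟩
    exact hab n n'

end Fermat.Agent.TW.FF.ClosureSub68
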