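/-
TW / WP7 B1 (helper68).  Closure of function orders under quotients by Galois-stable subgroups:
the quotient order consists of the `N`-invariant functions of `H`, viewed as functions on `M ⧸ N`.
-/
import Mathlib
import Fermat.Agent.TW.FF.FunOrder68
import Fermat.Agent.TW.FF.ClosureSub68

set_option autoImplicit false

noncomputable section

open scoped TensorProduct

namespace Fermat.Agent.TW.FF.ClosureQuot68

open Fermat.Agent.S19.Shell64 Fermat.Agent.TW.FF.FunOrder68

section Action

variable {G M : Type} [Group G] [AddCommGroup M] [DistribMulAction G M]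
  (N : AddSubgroup M) (hN : ∀ (σ : G) (n : M), n ∈ N → σ • n ∈ N)

/-- the action of `σ` on `M ⧸ N`. -/
def quotSmul (σ : G) : M ⧸ N →+ M ⧸ N :=
  QuotientAddGroup.map N N (DistribSMul.toAddMonoidHom M σ) (fun n hn => hN σ n hn)

@[simp] theorem quotSmul_mk (σ : G) (m : M) :
    quotSmul N hN σ (QuotientAddGroup.mk m) = QuotientAddGroup.mk (σ • m) := rfl

/-- the induced action on the quotient by a stable subgroup. -/
@[reducible] def quotAction : DistribMulAction G (M ⧸ N) where
  smul σ q := quotSmul N hN σ q
  one_smul q := by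
    induction q using QuotientAddGroup.induction_on with
    | H m => change quotSmul N hN 1 (QuotientAddGroup.mk m) = _; rw [quotSmul_mk, one_smul]
  mul_smul σ τ q := by
    induction q using QuotientAddGroup.induction_on with
    | H m =>
      change quotSmul N hN (σ * τ) (QuotientAddGroup.mk m) =
        quotSmul N hN σ (quotSmul N hN τ (QuotientAddGroup.mk m))
      rw [quotSmul_mk, quotSmul_mk, quotSmul_mk, mul_smul]
  smul_zero σ := map_zero (quotSmul N hN σ)
  smul_add σ q q' := map_add (quotSmul N hN σ) q q'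

end Action

section Core

variable {R F K M : Type} [CommRing R] [IsDomain R] [IsPrincipalIdealRing R] [Field F] [Field K]
  [Algebra R F] [IsFractionRing R F] [Algebra F K] [Algebra R K] [IsScalarTower R F K]
  [AddCommGroup M] [DistribMulAction (K ≃ₐ[F] K) M]
  (N : AddSubgroup M) (H : Subalgebra R (M → K))

/-- pull back functions from the quotient. -/
def pullQ : ((M ⧸ N) → K) →ₐ[R] (M → K) := pullAlg R K (QuotientAddGroup.mk : M → M ⧸ N)

omit [IsDomain R] [IsPrincipalIdealRing R] [Field F] [Algebra R F] [IsFractionRing R F]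
  [Algebra F K] [IsScalarTower R F K] [DistribMulAction (K ≃ₐ[F] K) M] in
@[simp] theorem pullQ_apply (g : (M ⧸ N) → K) (m : M) : pullQ (R := R) N g m = g (QuotientAddGroup.mk m) := rfl

omit [IsDomain R] [IsPrincipalIdealRing R] [Field F] [Algebra R F] [IsFractionRing R F]
  [Algebra F K] [IsScalarTower R F K] [DistribMulAction (K ≃ₐ[F] K) M] in
theorem pullQ_injective : Function.Injective (pullQ (R := R) (K := K) N) := by
  intro g g' h
  funext q
  induction q using QuotientAddGroup.induction_on with
  | H m => exact congrFun h m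

/-- the quotient order: functions on `M ⧸ N` whose pull-back lies in `H`. -/
def quotAlg : Subalgebra R ((M ⧸ N) → K) := H.comap (pullQ N)

/-- the inclusion of the quotient order into `H`. -/
def quotIncl : quotAlg N H →ₐ[R] H :=
  ((pullQ N).comp (quotAlg N H).val).codRestrict H (fun g => g.2)

omit [IsDomain R] [IsPrincipalIdealRing R] [Field F] [Algebra R F] [IsFractionRing R F]
  [Algebra F K] [IsScalarTower R F K] [DistribMulAction (K ≃ₐ[F] K) M] in
@[simp] theorem quotIncl_apply (g : quotAlg N H) (m : M) :
    ((quotIncl N H g : H) : M → K) m = (g : (M ⧸ N) → K) (QuotientAddGroup.mk m) := rfl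

omit [IsDomain R] [IsPrincipalIdealRing R] [Field F] [Algebra R F] [IsFractionRing R F]
  [Algebra F K] [IsScalarTower R F K] [DistribMulAction (K ≃ₐ[F] K) M] in
theorem quotIncl_injective : Function.Injective (quotIncl N H) := by
  intro g g' h
  apply Subtype.ext
  apply pullQ_injective (R := R) N
  exact congrArg Subtype.val h

/-- sum of the translates of a function by the elements of `N`. -/
def sumTr [Fintype N] (h : M → K) : M → K := fun m => ∑ n : N, h (m + n)

omit [IsDomain R] [IsPrincipalIdealRing R] [Field F] [Algebra R F] [IsFractionRing R F]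
  [Algebra F K] [IsScalarTower R F K] [DistribMulAction (K ≃ₐ[F] K) M] [Algebra R K] in
theorem sumTr_add_mem [Fintype N] (h : M → K) (m : M) {n₀ : M} (hn₀ : n₀ ∈ N) :
    sumTr N h (m + n₀) = sumTr N h m := by
  unfold sumTr
  refine Fintype.sum_equiv (Equiv.addLeft (⟨n₀, hn₀⟩ : N)) _ _ (fun n => ?_)
  simp [add_assoc]

omit [IsDomain R] [IsPrincipalIdealRing R] [Field F] [Algebra R F] [IsFractionRing R F]
  [Algebra F K] [IsScalarTower R F K] [DistribMulAction (K ≃ₐ[F] K) M] in
/-- the image of the quotient order in `H` consists of the `N`-invariant functions. -/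
theorem mem_range_quotIncl_iff (h : H) :
    h ∈ LinearMap.range (quotIncl N H).toLinearMap ↔
      ∀ m : M, ∀ n ∈ N, (h : M → K) (m + n) = (h : M → K) m := by
  constructor
  · rintro ⟨g, rfl⟩ m n hn
    change ((quotIncl N H g : H) : M → K) (m + n) = ((quotIncl N H g : H) : M → K) m
    rw [quotIncl_apply, quotIncl_apply]
    have : (QuotientAddGroup.mk (m + n) : M ⧸ N) = QuotientAddGroup.mk m := by
      rw [QuotientAddGroup.eq]
      simpa using hn
    rw [this]
  · intro hinv
    have hpull : pullQ (R := R) N (fun q : M ⧸ N => (h : M → K) q.out) = (h : M → K) := by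
      funext m
      obtain ⟨n, hn⟩ := QuotientAddGroup.mk_out_eq_add N m
      rw [pullQ_apply, hn]
      exact hinv m n n.2
    refine ⟨⟨fun q : M ⧸ N => (h : M → K) q.out, ?_⟩, ?_⟩
    · change pullQ (R := R) N _ ∈ H
      rw [hpull]
      exact h.2
    · apply Subtype.ext
      exact hpull

section Order

variable (hfix : FixedFieldEqBase F K)
  (hN : ∀ (σ : K ≃ₐ[F] K) (n : M), n ∈ N → σ • n ∈ N)
  {H} (hH : IsFunOrder R F H)

include hfix in
omit [AddCommGroup M] [DistribMulAction (K ≃ₐ[F] K) M] in
/-- a Galois-invariant element of `K` which is integral over `R` lies in `R`. -/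
theorem mem_range_of_fixed_of_isIntegral {x : K}
    (hx : ∀ σ : K ≃ₐ[F] K, σ x = x) (hint : IsIntegral R x) : ∃ r : R, algebraMap R K r = x := by
  obtain ⟨y, hy⟩ := hfix x hx
  rw [← hy, isIntegral_algebraMap_iff (algebraMap F K).injective] at hint
  obtain ⟨r, hr⟩ := IsIntegrallyClosed.isIntegral_iff.mp hint
  exact ⟨r, by rw [IsScalarTower.algebraMap_apply R F K, hr, hy]⟩

include hfix hN hH in
/-- the sum of the values of `b ∈ H` over `N` lies in `R`. -/
theorem sum_eval_mem_range [Fintype N] {b : M → K} (hb : b ∈ H) :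
    ∃ r : R, algebraMap R K r = ∑ n : N, b n := by
  have := hH.finite
  apply mem_range_of_fixed_of_isIntegral hfix
  · intro σ
    rw [map_sum]
    let _ := ClosureSub68.subAction N hN
    refine Fintype.sum_equiv (MulAction.toPerm σ : Equiv.Perm N) _ _ (fun n => ?_)
    exact (hH.equivariant b hb σ n).symm
  · refine IsIntegral.sum _ (fun n _ => ?_)
    exact (Algebra.IsIntegral.isIntegral (R := R) (⟨b, hb⟩ : H)).map (evalPt H.val (n : M))

include hfix hN hH in
/-- the sum of the `N`-translates of `h ∈ H` lies in `H`. -/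
theorem sumTr_mem [Fintype N] {h : M → K} (hh : h ∈ H) : sumTr N h ∈ H := by
  obtain ⟨k, a, b, hab⟩ := hH.comul h hh
  choose r hr using fun i => sum_eval_mem_range N hfix hN hH (b i).2
  have : sumTr N h = ∑ i, r i • (a i : M → K) := by
    funext m
    unfold sumTr
    simp only [hab, Finset.sum_apply]
    rw [Finset.sum_comm]
    refine Finset.sum_congr rfl (fun i _ => ?_)
    rw [← Finset.mul_sum, ← hr i, Pi.smul_apply, Algebra.smul_def, mul_comm]
  rw [this]
  exact H.sum_mem fun i _ => H.smul_mem (a i).2 (r i)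

/-- the sum of translates, as a function on the quotient. -/
def sumTrQ [Fintype N] (h : M → K) : (M ⧸ N) → K := fun q => sumTr N h q.out

omit [IsDomain R] [IsPrincipalIdealRing R] [Field F] [Algebra R F] [IsFractionRing R F]
  [Algebra F K] [IsScalarTower R F K] [DistribMulAction (K ≃ₐ[F] K) M] [Algebra R K] in
@[simp] theorem sumTrQ_mk [Fintype N] (h : M → K) (m : M) :
    sumTrQ N h (QuotientAddGroup.mk m) = sumTr N h m := by
  obtain ⟨n, hn⟩ := QuotientAddGroup.mk_out_eq_add N m
  rw [sumTrQ, hn, sumTr_add_mem N h m n.2]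

/-- the trace map `H → H_Q`, `h ↦ (m + N ↦ ∑_{n ∈ N} h (m + n))`. -/
def trQ [Fintype N] : H →ₗ[R] quotAlg N H where
  toFun h := ⟨sumTrQ N (h : M → K), by
    change pullQ (R := R) N (sumTrQ N (h : M → K)) ∈ H
    have : pullQ (R := R) N (sumTrQ N (h : M → K)) = sumTr N (h : M → K) :=
      funext fun m => sumTrQ_mk N _ m
    rw [this]
    exact sumTr_mem N hfix hN hH h.2⟩
  map_add' h h' := by
    apply Subtype.ext
    funext q
    induction q using QuotientAddGroup.induction_on with
    | H m =>
      change sumTrQ N ((h + h' : H) : M → K) (QuotientAddGroup.mk m) =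
        sumTrQ N (h : M → K) (QuotientAddGroup.mk m) + sumTrQ N (h' : M → K) (QuotientAddGroup.mk m)
      simp only [sumTrQ_mk, sumTr]
      rw [← Finset.sum_add_distrib]
      rfl
  map_smul' r h := by
    apply Subtype.ext
    funext q
    induction q using QuotientAddGroup.induction_on with
    | H m =>
      change sumTrQ N ((r • h : H) : M → K) (QuotientAddGroup.mk m) =
        r • sumTrQ N (h : M → K) (QuotientAddGroup.mk m)
      simp only [sumTrQ_mk, sumTr]
      rw [Finset.smul_sum]
      rfl

omit [IsFractionRing R F] in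
theorem trQ_apply_mk [IsFractionRing R F] [Fintype N] (h : H) (m : M) :
    ((trQ N hfix hN hH h : quotAlg N H) : (M ⧸ N) → K) (QuotientAddGroup.mk m) =
      ∑ n : N, (h : M → K) (m + n) :=
  sumTrQ_mk N _ m

include hfix hN hH in
/-- the quotient order separates the points of `M ⧸ N`. -/
theorem exists_quot_ne [Fintype N] (q q' : M ⧸ N) (hqq : q ≠ q') :
    ∃ g ∈ quotAlg N H, g q ≠ g q' := by
  classical
  by_contra hall
  push Not at hall
  induction q using QuotientAddGroup.induction_on with
  | H m =>
  induction q' using QuotientAddGroup.induction_on with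
  | H m' =>
  have hsum : ∀ h : H, ∑ n : N, (h : M → K) (m + n) = ∑ n : N, (h : M → K) (m' + n) := by
    intro h
    have := hall _ (trQ N hfix hN hH h).2
    rwa [trQ_apply_mk, trQ_apply_mk] at this
  have hsep : ∀ x y : M, x ≠ y → ∃ h : H, H.val h x ≠ H.val h y := by
    intro x y hxy
    obtain ⟨h, hh, hne⟩ := hH.separates x y hxy
    exact ⟨⟨h, hh⟩, hne⟩
  let χ : N ⊕ N → (H →* K) :=
    Sum.elim (fun n => ((evalPt H.val (m + n) : H →ₐ[R] K) : H →* K))
      (fun n => ((evalPt H.val (m' + n) : H →ₐ[R] K) : H →* K))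
  have hev : ∀ x y : M, ((evalPt H.val x : H →ₐ[R] K) : H →* K) =
      ((evalPt H.val y : H →ₐ[R] K) : H →* K) → x = y := by
    intro x y hxy
    apply evalPt_injective H.val hsep
    ext h
    exact DFunLike.congr_fun hxy h
  have hχ : Function.Injective χ := by
    rintro (n | n) (n' | n') h
    · have := hev _ _ h
      exact congrArg Sum.inl (Subtype.ext (add_left_cancel this))
    · exfalso
      have := hev _ _ h
      apply hqq
      rw [QuotientAddGroup.eq]
      have h2 : -m + m' = (n : M) - n' := by
        rw [eq_sub_iff_add_eq, neg_add_eq_sub, sub_add_eq_add_sub, sub_eq_iff_eq_add]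
        rw [add_comm m' (n' : M), add_comm (n : M) m]
        exact this.symm ▸ (add_comm _ _)
      rw [h2]
      exact N.sub_mem n.2 n'.2
    · exfalso
      have := hev _ _ h
      apply hqq
      rw [QuotientAddGroup.eq]
      have h2 : -m + m' = (n' : M) - n := by
        rw [eq_sub_iff_add_eq, neg_add_eq_sub, sub_add_eq_add_sub, sub_eq_iff_eq_add]
        rw [add_comm m' (n : M)]
        rw [add_comm (n' : M) m]
        exact this ▸ (add_comm _ _)
      rw [h2]
      exact N.sub_mem n'.2 n.2
    · have := hev _ _ h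
      exact congrArg Sum.inr (Subtype.ext (add_left_cancel this))
  have hli : LinearIndependent K (fun i : N ⊕ N => ((χ i : H →* K) : H → K)) :=
    (linearIndependent_monoidHom H K).comp χ hχ
  have hrel : ∑ i : N ⊕ N, (Sum.elim (fun _ => (1 : K)) (fun _ => (-1 : K)) i) •
      ((χ i : H →* K) : H → K) = 0 := by
    funext h
    rw [Fintype.sum_sum_type]
    simp only [Sum.elim_inl, Sum.elim_inr, one_smul, neg_smul, Finset.sum_neg_distrib, χ]
    simp only [Pi.add_apply, Pi.neg_apply, Finset.sum_apply, Pi.zero_apply]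
    have := hsum h
    simp only [MonoidHom.coe_coe, evalPt_apply, Subalgebra.coe_val]
    rw [this]
    exact add_neg_cancel _
  have := (linearIndependent_iff'.mp hli) Finset.univ _ hrel (Sum.inl 0) (Finset.mem_univ _)
  simp at this

include F in
omit [IsDomain R] [IsPrincipalIdealRing R] [DistribMulAction (K ≃ₐ[F] K) M] in
/-- the image of the quotient order is saturated in `H`. -/
theorem mem_range_of_smul_mem {r : R} (hr : r ≠ 0) {h : H}
    (hh : r • h ∈ LinearMap.range (quotIncl N H).toLinearMap) :
    h ∈ LinearMap.range (quotIncl N H).toLinearMap := by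
  rw [mem_range_quotIncl_iff] at hh ⊢
  intro m n hn
  have h1 := hh m n hn
  change r • (h : M → K) (m + n) = r • (h : M → K) m at h1
  have hrK : algebraMap R K r ≠ 0 := fun h0 =>
    hr (algebraMap_injective_of_tower (F := F) (by rw [h0, map_zero]))
  rw [Algebra.smul_def, Algebra.smul_def] at h1
  exact mul_left_cancel₀ hrK h1

include F in
omit [DistribMulAction (K ≃ₐ[F] K) M] in
/-- the inclusion of the quotient order has an `R`-linear retraction (`H / H_Q` is torsion-free, hence
free over the PID `R`). -/
theorem exists_retraction [Module.Finite R H] :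
    ∃ ρ : H →ₗ[R] quotAlg N H, ∀ g, ρ (quotIncl N H g) = g := by
  set S : Submodule R H := LinearMap.range (quotIncl N H).toLinearMap with hS
  have htf : Module.IsTorsionFree R (H ⧸ S) := by
    refine ⟨fun r hr x y hxy => ?_⟩
    obtain ⟨a, rfl⟩ := S.mkQ_surjective x
    obtain ⟨b, rfl⟩ := S.mkQ_surjective y
    have h1 : S.mkQ (r • (a - b)) = 0 := by
      have : r • S.mkQ a = r • S.mkQ b := hxy
      rw [map_smul, map_sub, smul_sub, this, sub_self]
    have h2 : r • (a - b) ∈ S := by
      rwa [Submodule.mkQ_apply, Submodule.Quotient.mk_eq_zero] at h1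
    have h3 : a - b ∈ S := mem_range_of_smul_mem (F := F) N hr.ne_zero h2
    rw [Submodule.mkQ_apply, Submodule.mkQ_apply, Submodule.Quotient.eq]
    exact h3
  have hfree : Module.Free R (H ⧸ S) := Module.free_of_finite_type_torsion_free'
  obtain ⟨s, hs⟩ := Module.projective_lifting_property S.mkQ LinearMap.id S.mkQ_surjective
  let ρ₀ : H →ₗ[R] H := LinearMap.id - s.comp S.mkQ
  have hρ₀ : ∀ h, ρ₀ h ∈ S := by
    intro h
    rw [← Submodule.Quotient.mk_eq_zero, ← Submodule.mkQ_apply]
    simp only [ρ₀, LinearMap.sub_apply, LinearMap.id_apply, LinearMap.comp_apply, map_sub]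
    have := LinearMap.congr_fun hs (S.mkQ h)
    simp only [LinearMap.comp_apply, LinearMap.id_apply] at this
    rw [this, sub_self]
  let ι' := LinearEquiv.ofInjective (quotIncl N H).toLinearMap (quotIncl_injective N H)
  refine ⟨ι'.symm.toLinearMap.comp (ρ₀.codRestrict S hρ₀), fun g => ?_⟩
  simp only [LinearMap.comp_apply, LinearEquiv.coe_coe]
  rw [LinearEquiv.symm_apply_eq]
  apply Subtype.ext
  simp only [ρ₀, ι', LinearMap.codRestrict_apply, LinearMap.sub_apply, LinearMap.id_apply,
    LinearMap.comp_apply]
  have : S.mkQ (quotIncl N H g) = 0 := by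
    rw [Submodule.mkQ_apply, Submodule.Quotient.mk_eq_zero]
    exact ⟨g, rfl⟩
  rw [this, map_zero, sub_zero]
  rfl

include hfix hN hH in
/-- the quotient order is closed under the translation comultiplication. -/
theorem quot_comul [Fintype N] (hcard : (Fintype.card N : R) ≠ 0) (g : quotAlg N H) :
    ∃ (k : ℕ) (a b : Fin k → quotAlg N H), ∀ q q' : M ⧸ N,
      (g : (M ⧸ N) → K) (q + q') = ∑ i, (a i : (M ⧸ N) → K) q * (b i : (M ⧸ N) → K) q' := by
  classical
  have := hH.finite
  obtain ⟨ρ, hρ⟩ := exists_retraction (F := F) N (H := H)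
  obtain ⟨k, a, b, hab⟩ := hH.comul (quotIncl N H g) (quotIncl N H g).2
  have : Module.IsTorsionFree R (M → K) := isTorsionFree_fun (F := F)
  have : Module.IsTorsionFree R H :=
    Function.Injective.moduleIsTorsionFree (fun h : H => (h : M → K)) Subtype.val_injective
      (fun _ _ => rfl)
  have : Module.Free R H := Module.free_of_finite_type_torsion_free'
  have hinj : Function.Injective (prodEval H.val H.val) :=
    prodEval_injective (Module.Free.chooseBasis R H) H.val H.val
      (basis_linearIndependent hfix H hH.equivariant _) Subtype.val_injective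
  set ι : quotAlg N H →ₗ[R] H := (quotIncl N H).toLinearMap with hι
  set T : H →ₗ[R] quotAlg N H := trQ N hfix hN hH with hT
  set t : H ⊗[R] H := ∑ i, a i ⊗ₜ[R] b i with ht
  set u : H ⊗[R] H := ∑ i, ι (T (a i)) ⊗ₜ[R] ι (T (b i)) with hu
  set Φ : H ⊗[R] H →ₗ[R] H ⊗[R] H := TensorProduct.map (ι.comp ρ) (ι.comp ρ) with hΦ
  have hginv : ∀ x y : M, ∀ n n' : N, ((quotIncl N H g : H) : M → K) (x + n + (y + n')) =
      ((quotIncl N H g : H) : M → K) (x + y) := by
    intro x y n n'
    have h1 : x + n + (y + n') = (x + y) + ((n : M) + n') := by abel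
    rw [h1]
    exact ((mem_range_quotIncl_iff N H _).mp ⟨g, rfl⟩) (x + y) _ (N.add_mem n.2 n'.2)
  -- `u = #N² • t`
  have hut : u = ((Fintype.card N : R) ^ 2) • t := by
    apply hinj
    funext p
    rw [hu, ht, map_smul, map_sum, map_sum]
    simp only [Finset.sum_apply, Pi.smul_apply, prodEval_tmul, Subalgebra.coe_val]
    have h1 : ∀ i, ((ι (T (a i)) : H) : M → K) p.1 * ((ι (T (b i)) : H) : M → K) p.2 =
        ∑ n : N, ∑ n' : N, ((a i : H) : M → K) (p.1 + n) * ((b i : H) : M → K) (p.2 + n') := by
      intro i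
      change ((quotIncl N H (T (a i)) : H) : M → K) p.1 *
        ((quotIncl N H (T (b i)) : H) : M → K) p.2 = _
      rw [quotIncl_apply, quotIncl_apply, hT, trQ_apply_mk, trQ_apply_mk, Finset.sum_mul_sum]
    simp only [h1]
    rw [Finset.sum_comm]
    have h2 : ∀ n : N, ∑ i, ∑ n' : N, ((a i : H) : M → K) (p.1 + n) * ((b i : H) : M → K) (p.2 + n')
        = ∑ n' : N, ((quotIncl N H g : H) : M → K) (p.1 + p.2) := by
      intro n
      rw [Finset.sum_comm]
      refine Finset.sum_congr rfl (fun n' _ => ?_)
      rw [← hab, hginv]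
    simp only [h2, Finset.sum_const, Finset.card_univ, hab,
      Algebra.smul_def, map_pow, map_natCast, eq_natCast]
    ring
  -- `Φ` fixes `u` and maps `t` to the wanted tensor
  have hΦu : Φ u = u := by
    rw [hu, hΦ, map_sum]
    refine Finset.sum_congr rfl (fun i _ => ?_)
    rw [TensorProduct.map_tmul]
    simp only [LinearMap.comp_apply, hι, AlgHom.toLinearMap_apply, hρ]
  have hΦt : Φ t = ∑ i, ι (ρ (a i)) ⊗ₜ[R] ι (ρ (b i)) := by
    rw [ht, hΦ, map_sum]
    rfl
  have hkey : Φ t = t := by
    have h1 : ((Fintype.card N : R) ^ 2) • Φ t = ((Fintype.card N : R) ^ 2) • t := by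
      rw [← map_smul, ← hut, hΦu, hut]
    have hc : ((Fintype.card N : R) ^ 2) ≠ 0 := pow_ne_zero 2 hcard
    have hcK : algebraMap R K ((Fintype.card N : R) ^ 2) ≠ 0 := fun h0 =>
      hc (algebraMap_injective_of_tower (F := F) (by rw [h0, map_zero]))
    apply hinj
    funext p
    have h2 := congrFun (congrArg (prodEval H.val H.val) h1) p
    rw [map_smul, map_smul, Pi.smul_apply, Pi.smul_apply, Algebra.smul_def, Algebra.smul_def]
      at h2
    exact mul_left_cancel₀ hcK h2
  refine ⟨k, fun i => ρ (a i), fun i => ρ (b i), fun q q' => ?_⟩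
  induction q using QuotientAddGroup.induction_on with
  | H m =>
  induction q' using QuotientAddGroup.induction_on with
  | H m' =>
  have h3 := congrFun (congrArg (prodEval H.val H.val) hkey) (m, m')
  rw [hΦt, ht, map_sum, map_sum] at h3
  simp only [Finset.sum_apply, prodEval_tmul, Subalgebra.coe_val] at h3
  rw [← QuotientAddGroup.mk_add, ← quotIncl_apply, hab, ← h3]
  rfl

include hfix hH in
/-- **function orders pass to quotients by stable subgroups.** -/
theorem IsFunOrder.quotient [Fintype N] (hcard : (Fintype.card N : R) ≠ 0) :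
    @IsFunOrder R F K (M ⧸ N) _ _ _ _ _ _ (quotAction N hN).toMulAction (quotAlg N H) := by
  let _ := quotAction N hN
  have := hH.finite
  have : IsNoetherian R H := isNoetherian_of_isNoetherianRing_of_finite R H
  refine ⟨Module.Finite.of_injective (quotIncl N H).toLinearMap (quotIncl_injective N H),
    ?_, exists_quot_ne N hfix hN hH, fun g hg => quot_comul N hfix hN hH hcard ⟨g, hg⟩⟩
  intro g hg σ q
  induction q using QuotientAddGroup.induction_on with
  | H m => exact hH.equivariant _ hg σ m

end Order

end Core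

end Fermat.Agent.TW.FF.ClosureQuot68
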