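/-
TW / WP7 B1 (helper68).  **Closure properties of flat models.**

`ModelOf R F K M act`: the additive group `M` with the maps `act σ` (`σ ∈ Aut(K/F)`) is the group of
`K`-points of a finite flat cocommutative Hopf algebra over `R`, equivariantly.  For `R` a PID with
fraction field `F` of characteristic `0` and `K^{Aut(K/F)} = F` this class is closed under
* stable subgroups (`ModelOf.sub`),
* quotients by stable subgroups (`ModelOf.quotient`),
* finite products (`ModelOf.prod`).
Specialisations: `LocalFlatModel` (over `ℤ_p`, `K = PadicAlgCl p`).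
-/
import Mathlib
import Fermat.Agent.TW.FF.FlatModel68
import Fermat.Agent.TW.FF.FunOrder68
import Fermat.Agent.TW.FF.ClosureSub68
import Fermat.Agent.TW.FF.ClosureQuot68
import Fermat.Agent.TW.FF.ClosureProd68

set_option autoImplicit false

noncomputable section

open scoped TensorProduct

namespace Fermat.Agent.TW.FF.Closure68

open Fermat.Agent.S19.Shell64 Fermat.Agent.TW.FF.FunOrder68 Fermat.Agent.TW.FF.ReducedModel68
open Fermat.Agent.TW.FF.FlatModel68

/-- `M` (with the maps `act σ`) is the group of `K`-points of a finite flat cocommutative Hopf algebra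
over `R`, equivariantly for `Aut(K/F)`. -/
def ModelOf (R F K : Type) [CommRing R] [Field F] [Field K] [Algebra R K] [Algebra F K]
    (M : Type) [AddCommGroup M] (act : (K ≃ₐ[F] K) → M → M) : Prop :=
  ∃ (H : Type) (_ : CommRing H) (_ : HopfAlgebra R H),
    Module.Finite R H ∧ Module.Flat R H ∧ Coalgebra.IsCocomm R H ∧
    ∃ e : WithConv (H →ₐ[R] K) ≃ M,
      (∀ f g : WithConv (H →ₐ[R] K), e (f * g) = e f + e g) ∧
      ∀ (σ : K ≃ₐ[F] K) (f g : WithConv (H →ₐ[R] K)),
        (∀ h : H, g h = σ (f h)) → e g = act σ (e f)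

theorem localFlatModel_iff (p : ℕ) [Fact p.Prime] (M : Type) [AddCommGroup M]
    (act : GQp p → M → M) :
    LocalFlatModel p M act ↔ ModelOf ℤ_[p] ℚ_[p] (PadicAlgCl p) M act := Iff.rfl

section Generic

variable {R F K : Type} [CommRing R] [IsDomain R] [IsPrincipalIdealRing R] [Field F] [Field K]
  [Algebra R F] [IsFractionRing R F] [Algebra F K] [Algebra R K] [IsScalarTower R F K]

/-- a function order lives on a finite group. -/
theorem IsFunOrder.finite_carrier {M : Type} [AddCommGroup M] [MulAction (K ≃ₐ[F] K) M]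
    {H : Subalgebra R (M → K)} (hH : IsFunOrder R F H) : Finite M := by
  have := hH.finite
  have : Module.IsTorsionFree R (M → K) := isTorsionFree_fun (F := F)
  have : Module.IsTorsionFree R H :=
    Function.Injective.moduleIsTorsionFree (fun h : H => (h : M → K)) Subtype.val_injective
      (fun _ _ => rfl)
  have : Module.Free R H := Module.free_of_finite_type_torsion_free'
  refine finite_of_separates (K := K) H.val (Module.Free.chooseBasis R H) ?_
  intro m m' hmm
  obtain ⟨h, hh, hne⟩ := hH.separates m m' hmm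
  exact ⟨⟨h, hh⟩, hne⟩

variable (hfix : FixedFieldEqBase F K)
include hfix

/-- a function order gives a model, for any `act` agreeing with the action. -/
theorem IsFunOrder.modelOf {M : Type} [AddCommGroup M] [DistribMulAction (K ≃ₐ[F] K) M]
    {H : Subalgebra R (M → K)} (hH : IsFunOrder R F H) (act : (K ≃ₐ[F] K) → M → M)
    (hact : ∀ σ m, act σ m = σ • m) : ModelOf R F K M act := by
  obtain ⟨H', i1, i2, hfin, hflat, hco, e, hmul, he⟩ := hH.exists_model hfix
  refine ⟨H', i1, i2, hfin, hflat, hco, e, hmul, fun σ f g hfg => ?_⟩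
  rw [he σ f g hfg, hact]

/-- **flat models restrict to stable subgroups.** -/
theorem ModelOf.sub {M : Type} [AddCommGroup M] {act : (K ≃ₐ[F] K) → M → M}
    (h : ModelOf R F K M act) (N : AddSubgroup M) (hN : ∀ σ n, n ∈ N → act σ n ∈ N)
    (act' : (K ≃ₐ[F] K) → N → N) (hact' : ∀ σ (n : N), (act' σ n : M) = act σ n) :
    ModelOf R F K N act' := by
  obtain ⟨H, i1, i2, hfin, -, -, e, hmul, hact⟩ := h
  let _ := galDistribMulAction (F := F) e hmul
  have hH : IsFunOrder R F (redAlg e) := isFunOrder_redAlg (F := F) e hmul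
  have hsm : ∀ (σ : K ≃ₐ[F] K) (m : M), σ • m = act σ m := fun σ m =>
    (act_eq_galSmul e act hact σ m).symm
  have hN' : ∀ (σ : K ≃ₐ[F] K) (n : M), n ∈ N → σ • n ∈ N := fun σ n hn => by
    rw [hsm]; exact hN σ n hn
  have hres := ClosureSub68.IsFunOrder.restrict N hN' hH
  let _ := ClosureSub68.subAction N hN'
  refine IsFunOrder.modelOf hfix hres act' (fun σ n => ?_)
  apply Subtype.ext
  rw [hact']
  exact (hsm σ n).symm

/-- **flat models pass to quotients by stable subgroups.** -/
theorem ModelOf.quotient [CharZero R] {M : Type} [AddCommGroup M] {act : (K ≃ₐ[F] K) → M → M}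
    (h : ModelOf R F K M act) (N : AddSubgroup M) (hN : ∀ σ n, n ∈ N → act σ n ∈ N)
    (act' : (K ≃ₐ[F] K) → M ⧸ N → M ⧸ N)
    (hact' : ∀ σ (m : M), act' σ (QuotientAddGroup.mk m) = QuotientAddGroup.mk (act σ m)) :
    ModelOf R F K (M ⧸ N) act' := by
  obtain ⟨H, i1, i2, hfin, -, -, e, hmul, hact⟩ := h
  let _ := galDistribMulAction (F := F) e hmul
  have hH : IsFunOrder R F (redAlg e) := isFunOrder_redAlg (F := F) e hmul
  have hsm : ∀ (σ : K ≃ₐ[F] K) (m : M), σ • m = act σ m := fun σ m =>
    (act_eq_galSmul e act hact σ m).symm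
  have hN' : ∀ (σ : K ≃ₐ[F] K) (n : M), n ∈ N → σ • n ∈ N := fun σ n hn => by
    rw [hsm]; exact hN σ n hn
  have : Finite M := IsFunOrder.finite_carrier hH
  cases nonempty_fintype N
  have hcard : (Fintype.card N : R) ≠ 0 := Nat.cast_ne_zero.mpr Fintype.card_ne_zero
  have hq := ClosureQuot68.IsFunOrder.quotient N hfix hN' hH hcard
  let _ := ClosureQuot68.quotAction N hN'
  refine IsFunOrder.modelOf hfix hq act' (fun σ q => ?_)
  induction q using QuotientAddGroup.induction_on with
  | H m =>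
    rw [hact', ← hsm]
    rfl

/-- **flat models are closed under products.** -/
theorem ModelOf.prod {M₁ M₂ : Type} [AddCommGroup M₁] [AddCommGroup M₂]
    {act₁ : (K ≃ₐ[F] K) → M₁ → M₁} {act₂ : (K ≃ₐ[F] K) → M₂ → M₂}
    (h₁ : ModelOf R F K M₁ act₁) (h₂ : ModelOf R F K M₂ act₂) :
    ModelOf R F K (M₁ × M₂) (fun σ x => (act₁ σ x.1, act₂ σ x.2)) := by
  obtain ⟨H₁, i1, i2, hfin₁, -, -, e₁, hmul₁, hact₁⟩ := h₁
  obtain ⟨H₂, j1, j2, hfin₂, -, -, e₂, hmul₂, hact₂⟩ := h₂
  let _ := galDistribMulAction (F := F) e₁ hmul₁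
  let _ := galDistribMulAction (F := F) e₂ hmul₂
  have hH₁ : IsFunOrder R F (redAlg e₁) := isFunOrder_redAlg (F := F) e₁ hmul₁
  have hH₂ : IsFunOrder R F (redAlg e₂) := isFunOrder_redAlg (F := F) e₂ hmul₂
  refine IsFunOrder.modelOf hfix (ClosureProd68.IsFunOrder.prod hH₁ hH₂) _ (fun σ x => ?_)
  change _ = (σ • x.1, σ • x.2)
  rw [act_eq_galSmul e₁ act₁ hact₁, act_eq_galSmul e₂ act₂ hact₂]
  rfl

end Generic

/-! ### Local flat models (`ℤ_p`, `PadicAlgCl p`) -/

section Local

variable {p : ℕ} [Fact p.Prime]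

/-- **`LocalFlatModel` restricts to `Gal(ℚ̄_p/ℚ_p)`-stable subgroups.** -/
theorem LocalFlatModel.sub {M : Type} [AddCommGroup M] {act : GQp p → M → M}
    (h : LocalFlatModel p M act) (N : AddSubgroup M) (hN : ∀ τ n, n ∈ N → act τ n ∈ N)
    (act' : GQp p → N → N) (hact' : ∀ τ (n : N), (act' τ n : M) = act τ n) :
    LocalFlatModel p N act' :=
  ModelOf.sub (F := ℚ_[p]) fixedFieldEqBase_of_isGalois h N hN act' hact'

/-- **`LocalFlatModel` passes to quotients by stable subgroups.** -/
theorem LocalFlatModel.quotient {M : Type} [AddCommGroup M] {act : GQp p → M → M}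
    (h : LocalFlatModel p M act) (N : AddSubgroup M) (hN : ∀ τ n, n ∈ N → act τ n ∈ N)
    (act' : GQp p → M ⧸ N → M ⧸ N)
    (hact' : ∀ τ (m : M), act' τ (QuotientAddGroup.mk m) = QuotientAddGroup.mk (act τ m)) :
    LocalFlatModel p (M ⧸ N) act' :=
  ModelOf.quotient (F := ℚ_[p]) fixedFieldEqBase_of_isGalois h N hN act' hact'

/-- **`LocalFlatModel` is closed under products.** -/
theorem LocalFlatModel.prod {M₁ M₂ : Type} [AddCommGroup M₁] [AddCommGroup M₂]
    {act₁ : GQp p → M₁ → M₁} {act₂ : GQp p → M₂ → M₂}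
    (h₁ : LocalFlatModel p M₁ act₁) (h₂ : LocalFlatModel p M₂ act₂) :
    LocalFlatModel p (M₁ × M₂) (fun τ x => (act₁ τ x.1, act₂ τ x.2)) :=
  ModelOf.prod (F := ℚ_[p]) fixedFieldEqBase_of_isGalois h₁ h₂

/-- in a local flat model the maps `act τ` are additive. -/
theorem LocalFlatModel.act_add {M : Type} [AddCommGroup M] {act : GQp p → M → M}
    (h : LocalFlatModel p M act) (τ : GQp p) (m m' : M) :
    act τ (m + m') = act τ m + act τ m' := by
  obtain ⟨H, i1, i2, hfin, -, -, e, hmul, hact⟩ := h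
  rw [act_eq_galSmul e act hact, act_eq_galSmul e act hact, act_eq_galSmul e act hact]
  exact galSmul_add (F := ℚ_[p]) e hmul τ m m'

/-- in a local flat model `act` is a group action. -/
theorem LocalFlatModel.act_mul {M : Type} [AddCommGroup M] {act : GQp p → M → M}
    (h : LocalFlatModel p M act) (τ τ' : GQp p) (m : M) :
    act (τ * τ') m = act τ (act τ' m) := by
  obtain ⟨H, i1, i2, hfin, -, -, e, hmul, hact⟩ := h
  rw [act_eq_galSmul e act hact, act_eq_galSmul e act hact, act_eq_galSmul e act hact]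
  exact (galMulAction (F := ℚ_[p]) e).mul_smul τ τ' m

/-- a local flat model lives on a finite group. -/
theorem LocalFlatModel.finite {M : Type} [AddCommGroup M] {act : GQp p → M → M}
    (h : LocalFlatModel p M act) : Finite M := by
  obtain ⟨H, i1, i2, hfin, -, -, e, hmul, hact⟩ := h
  let _ := galMulAction (F := ℚ_[p]) e
  exact IsFunOrder.finite_carrier (isFunOrder_redAlg (F := ℚ_[p]) e hmul)

end Local

end Fermat.Agent.TW.FF.Closure68
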