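/-
TW / WP7 (helper72, WP7 architect): the INTERFACES between the Hopf-algebra / ramification side of WP7
and the counting side, as compiled `def … : Prop`s (same discipline as `TW/Spec/Contract52`).

* `Inertia p`          : the inertia subgroup of `G_p = Gal(ℚ̄_p/ℚ_p)` (acts trivially on the residue field).
* `KilledByP`          : `p • v = 0` for all `v`.
* `KummerFontaine p`   : THEOREM KF  (bricks B2-B7, or route B = B8).
* `Star p`             : THEOREM STAR (brick B9 (i)).
* `RigidPoints p`      : rigidity of points (brick B3 export, consumed by B9).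
* `ClosureSub/Quot/Prod` : closure properties of `LocalFlatModel` (brick B1).
* `flatKernel p`       : the elements of `G_p` acting trivially on every flat module killed by `p`.
-/
import Mathlib
import Fermat.Agent.TW.FF.FlatModel68

set_option autoImplicit false

noncomputable section

namespace Fermat.Agent.TW.FF.Spec72

open Fermat.Agent.TW.FF.FlatModel68

variable (p : ℕ) [Fact p.Prime]

/-- The elements of `G_p` acting trivially on the residue field of `PadicAlgCl p`. -/
def inertiaSet : Set (GQp p) := {τ | ∀ x : PadicAlgCl p, ‖x‖ ≤ 1 → ‖τ x - x‖ < 1}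

/-- `V` is killed by `p`. -/
def KilledByP (V : Type) [AddCommGroup V] : Prop := ∀ v : V, p • v = 0

/-- `K0` is tamely ramified over `ℚ_p`: its value group is contained in `(1/e)ℤ` with `p ∤ e`. -/
def IsTame (K0 : IntermediateField ℚ_[p] (PadicAlgCl p)) : Prop :=
  ∃ e : ℕ, ¬ p ∣ e ∧ ∀ x : K0, x ≠ 0 → ∃ m : ℤ, ‖(x : PadicAlgCl p)‖ ^ e = (p : ℝ) ^ m

/-- THEOREM KF (Kummer form of Fontaine's bound).  `V` flat and killed by `p`, `K0/ℚ_p` finite Galois,
tame, containing the `p`-th roots of unity.  If `u ∈ K0ˣ` has a `p`-th root `z` in the splitting field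
`K0(V)` (i.e. every `τ` fixing `K0` and acting trivially on `V` fixes `z`), then
`u ∈ (1 + p 𝒪_{K0}) · K0^{×p}`. -/
def KummerFontaine : Prop :=
  p ≠ 2 → ∀ (V : Type) [AddCommGroup V] [Finite V] (act : GQp p → V → V),
    LocalFlatModel p V act → KilledByP p V →
    ∀ (K0 : IntermediateField ℚ_[p] (PadicAlgCl p)) [FiniteDimensional ℚ_[p] K0] [IsGalois ℚ_[p] K0],
      IsTame p K0 → (∃ ζ : K0, IsPrimitiveRoot ζ p) →
      ∀ (u : K0) (z : PadicAlgCl p), u ≠ 0 → z ^ p = (u : PadicAlgCl p) →
        (∀ τ : GQp p, (∀ x : K0, τ (x : PadicAlgCl p) = x) → (∀ v : V, act τ v = v) → τ z = z) →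
        ∃ a y : K0, ‖(a : PadicAlgCl p)‖ ≤ 1 ∧ y ≠ 0 ∧ u = (1 + (p : K0) * a) * y ^ p

/-- THEOREM STAR.  `V` flat and killed by `p` (`p` odd).  An element of `V` which is fixed by inertia and
lies in the subgroup generated by the `τ v - v` (`τ` in inertia) is zero. -/
def Star : Prop :=
  p ≠ 2 → ∀ (V : Type) [AddCommGroup V] [Finite V] (act : GQp p → V → V),
    LocalFlatModel p V act → KilledByP p V →
    ∀ x : V, (∀ τ ∈ inertiaSet p, act τ x = x) →
      x ∈ AddSubgroup.closure {w : V | ∃ τ ∈ inertiaSet p, ∃ v : V, w = act τ v - v} → x = 0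

/-- RIGIDITY OF POINTS (exported by B3, consumed by B9).  Two points of a finite flat cocommutative Hopf
algebra over `ℤ_p` whose points are killed by `p`, which are congruent modulo `{‖·‖ < p^{-1/(p-1)}}`,
are equal. -/
def RigidPoints : Prop :=
  p ≠ 2 → ∀ (H : Type) [CommRing H] [HopfAlgebra ℤ_[p] H] [Module.Finite ℤ_[p] H] [Module.Flat ℤ_[p] H]
    [Coalgebra.IsCocomm ℤ_[p] H],
    (∀ f : WithConv (H →ₐ[ℤ_[p]] PadicAlgCl p), f ^ p = 1) →
    ∀ f g : H →ₐ[ℤ_[p]] PadicAlgCl p,
      (∀ h : H, ‖f h - g h‖ ^ (p - 1) < (p : ℝ)⁻¹) → f = g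

/-- CLOSURE under `G_p`-stable subgroups. -/
def ClosureSub : Prop :=
  ∀ (V : Type) [AddCommGroup V] [Finite V] (act : GQp p → V → V), LocalFlatModel p V act →
    ∀ (W : AddSubgroup V) (hW : ∀ τ, ∀ v ∈ W, act τ v ∈ W),
      LocalFlatModel p W (fun τ w => ⟨act τ w, hW τ w w.2⟩)

/-- CLOSURE under quotients: if `π : V → V''` is a surjective equivariant additive map, `V''` is flat. -/
def ClosureQuot : Prop :=
  ∀ (V V'' : Type) [AddCommGroup V] [Finite V] [AddCommGroup V''] (act : GQp p → V → V)
    (act'' : GQp p → V'' → V''), LocalFlatModel p V act →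
    ∀ π : V →+ V'', Function.Surjective π → (∀ τ v, π (act τ v) = act'' τ (π v)) →
      LocalFlatModel p V'' act''

/-- CLOSURE under binary products. -/
def ClosureProd : Prop :=
  ∀ (V W : Type) [AddCommGroup V] [Finite V] [AddCommGroup W] [Finite W] (actV : GQp p → V → V)
    (actW : GQp p → W → W), LocalFlatModel p V actV → LocalFlatModel p W actW →
      LocalFlatModel p (V × W) (fun τ x => (actV τ x.1, actW τ x.2))

/-- The elements of `G_p` acting trivially on EVERY flat module killed by `p`. Classes of flat lifts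
are inflated from `G_p ⧸ flatKernel`. -/
def flatKernelSet : Set (GQp p) :=
  {τ | ∀ (V : Type) [AddCommGroup V] [Finite V] (act : GQp p → V → V),
    LocalFlatModel p V act → KilledByP p V → ∀ v : V, act τ v = v}

end Fermat.Agent.TW.FF.Spec72
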