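/-
TW / WP7 brick B7 (helper83): the KUMMER FORM OF FONTAINE'S BOUND on the PT/LOC model.

`T/ℚ_p` finite Galois, `L, K ⊆ T` intermediate fields Galois over `ℚ_p` with `L K = T`, `K` tame
containing a primitive `p`-th root of unity `ζ`, `Gal(L/ℚ_p)` with ramification bounded by
`‖ζ - 1‖ · p⁻¹ = p^(-p/(p-1))`.  Then every `u ∈ Kˣ` with a `p`-th root in `T` lies in
`(1 + p 𝒪_K) · K^{×p}`  (`kf_core`).

Also: `normVal_zeta_sub_one_pow : ‖ζ - 1‖ ^ (p - 1) = p⁻¹`.
-/
import Mathlib
import Fermat.Agent.TW.FF.KFLayer83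

set_option autoImplicit false
set_option linter.unusedSectionVars false

open scoped Fermat.Agent.PT.LOC.Interface12 NNReal
open Fermat.Agent.PT.LOC.Interface12 Fermat.Agent.PT.LOC.Structure14
  Fermat.Agent.PT.LOC.StructureNorm14 Fermat.Agent.PT.LOC.StructureTower27
  Fermat.Agent.PT.LOC.StructureTowerEF27 Fermat.Agent.PT.LOC.RootsUnity14
open Fermat.Agent.TW.Ram.HerbrandAbs90 Fermat.Agent.TW.Ram.HerbrandField90
open Fermat.Agent.TW.FF.GalGen83 Fermat.Agent.TW.FF.Desc83 Fermat.Agent.TW.FF.Tame83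
  Fermat.Agent.TW.FF.KumNormal83 Fermat.Agent.TW.FF.KFLayer83
open Polynomial IntermediateField

namespace Fermat.Agent.TW.FF.KFCore83

noncomputable section

variable {p : ℕ} [Fact p.Prime]

section Zeta

variable {K : Type} [Field K] [Algebra ℚ_[p] K] [FiniteDimensional ℚ_[p] K]

theorem snorm_one_sub_pow_le {x : K} (hx : snorm p K x ≤ 1) (m : ℕ) :
    snorm p K (1 - x ^ m) ≤ snorm p K (1 - x) := by
  have h1 : 1 - x ^ m = (∑ i ∈ Finset.range m, x ^ i) * (1 - x) := by
    have := geom_sum_mul x m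
    linear_combination this
  rw [h1, snorm_mul]
  have h2 : snorm p K (∑ i ∈ Finset.range m, x ^ i) ≤ 1 := by
    apply snorm_sum_le p K _ _ 1 zero_le_one
    intro i _
    rw [snorm_pow]
    exact pow_le_one₀ (snorm_nonneg p K x) hx
  calc snorm p K (∑ i ∈ Finset.range m, x ^ i) * snorm p K (1 - x)
      ≤ 1 * snorm p K (1 - x) := mul_le_mul_of_nonneg_right h2 (snorm_nonneg p K _)
    _ = snorm p K (1 - x) := one_mul _

/-- `‖ζ - 1‖ ^ (p - 1) = p⁻¹` for a primitive `p`-th root of unity in a `p`-adic field. -/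
theorem normVal_zeta_sub_one_pow {ζ : K} (hζ : IsPrimitiveRoot ζ p) :
    normVal p K (ζ - 1) ^ (p - 1) = (p : ℝ≥0)⁻¹ := by
  have hp : p.Prime := Fact.out
  have hp1 : 1 ≤ p := hp.one_lt.le
  have hζ' : IsPrimitiveRoot ζ ((p - 1) + 1) := by rwa [Nat.sub_add_cancel hp1]
  have hprod := hζ'.prod_one_sub_pow_eq_order
  have hζ1 : snorm p K ζ = 1 := snorm_eq_one_of_pow_eq_one p K hp.ne_zero hζ.pow_eq_one
  have hterm : ∀ k ∈ Finset.range (p - 1),
      normVal p K (1 - ζ ^ (k + 1)) = normVal p K (ζ - 1) := by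
    intro k hk
    rw [Finset.mem_range] at hk
    have hcop : Nat.Coprime (k + 1) p :=
      (Nat.coprime_of_lt_prime (Nat.succ_ne_zero k) (by omega) hp).symm
    apply NNReal.eq
    show snorm p K (1 - ζ ^ (k + 1)) = snorm p K (ζ - 1)
    have hneg : snorm p K (ζ - 1) = snorm p K (1 - ζ) := by
      rw [← snorm_neg, neg_sub]
    rw [hneg]
    apply le_antisymm (snorm_one_sub_pow_le hζ1.le (k + 1))
    -- `ζ = (ζ ^ (k+1)) ^ m`
    obtain ⟨m, -, hm⟩ := Nat.exists_mul_mod_eq_one_of_coprime hcop hp.one_lt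
    have hpow : (ζ ^ (k + 1)) ^ m = ζ := by
      rw [← pow_mul]
      have h2 := Nat.div_add_mod ((k + 1) * m) p
      rw [hm] at h2
      rw [← h2, pow_add, pow_mul, hζ.pow_eq_one, one_pow, one_mul, pow_one]
    have h3 := snorm_one_sub_pow_le (p := p) (K := K) (x := ζ ^ (k + 1))
      (by rw [snorm_pow, hζ1, one_pow]) m
    rw [hpow] at h3
    exact h3
  have h4 := congrArg (normVal p K) hprod
  rw [map_prod, Finset.prod_congr rfl hterm, Finset.prod_const, Finset.card_range] at h4
  rw [h4]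
  apply NNReal.eq
  have h5 : ((p - 1 : ℕ) : K) + 1 = (p : K) := by
    rw [Nat.cast_sub hp1]
    simp
  rw [h5]
  push_cast
  exact snorm_natCast_q p K

end Zeta

section Core

variable (T : Type) [Field T] [Algebra ℚ_[p] T] [FiniteDimensional ℚ_[p] T] [IsGalois ℚ_[p] T]

theorem eq_one_of_sup_eq_top (L K : IntermediateField ℚ_[p] T) (hLK : L ⊔ K = ⊤)
    (σ : T ≃ₐ[ℚ_[p]] T) (hL : ∀ l : L, σ (algebraMap L T l) = algebraMap L T l)
    (hK : ∀ k : K, σ (algebraMap K T k) = algebraMap K T k) : σ = 1 := by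
  have h1 : L ≤ IntermediateField.fixedField (Subgroup.zpowers σ) := by
    intro l hl
    rw [IntermediateField.mem_fixedField_iff]
    intro g hg
    obtain ⟨n, rfl⟩ := Subgroup.mem_zpowers_iff.1 hg
    have h2 : σ l = l := hL ⟨l, hl⟩
    have h3 : Subgroup.zpowers σ ≤ MulAction.stabilizer (T ≃ₐ[ℚ_[p]] T) l := by
      rw [Subgroup.zpowers_le]
      exact h2
    exact h3 (Subgroup.zpow_mem_zpowers σ n)
  have h1' : K ≤ IntermediateField.fixedField (Subgroup.zpowers σ) := by
    intro l hl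
    rw [IntermediateField.mem_fixedField_iff]
    intro g hg
    obtain ⟨n, rfl⟩ := Subgroup.mem_zpowers_iff.1 hg
    have h2 : σ l = l := hK ⟨l, hl⟩
    have h3 : Subgroup.zpowers σ ≤ MulAction.stabilizer (T ≃ₐ[ℚ_[p]] T) l := by
      rw [Subgroup.zpowers_le]
      exact h2
    exact h3 (Subgroup.zpow_mem_zpowers σ n)
  have h4 : (⊤ : IntermediateField ℚ_[p] T) ≤ IntermediateField.fixedField (Subgroup.zpowers σ) := by
    rw [← hLK]
    exact sup_le h1 h1'
  ext t
  have h5 : t ∈ IntermediateField.fixedField (Subgroup.zpowers σ) := h4 (IntermediateField.mem_top)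
  rw [IntermediateField.mem_fixedField_iff] at h5
  exact h5 σ (Subgroup.mem_zpowers σ)

/-- **Kummer form of Fontaine's bound** (PT/LOC model). -/
theorem kf_core (L K : IntermediateField ℚ_[p] T) [Normal ℚ_[p] L] [IsGalois ℚ_[p] K]
    (hLK : L ⊔ K = ⊤) (htame : ¬ p ∣ ramIdx p ℚ_[p] K) (ζ : K) (hζ : IsPrimitiveRoot ζ p)
    (hL : ∀ xL : L, IsGen p L xL →
      (lowerIdx p ℚ_[p] L xL).BoundedBy (normVal p K (ζ - 1) * (p : ℝ≥0)⁻¹))
    (u : K) (hu : u ≠ 0) (z : T) (hz : z ^ p = (u : T)) :
    ∃ a y : K, snorm p K a ≤ 1 ∧ y ≠ 0 ∧ u = (1 + (p : K) * a) * y ^ p := by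
  classical
  have hp : p.Prime := Fact.out
  by_cases hzK : z ∈ K
  · refine ⟨0, ⟨z, hzK⟩, by rw [snorm_zero]; exact zero_le_one, ?_, ?_⟩
    · intro h0
      have : z = 0 := congrArg Subtype.val h0
      rw [this, zero_pow hp.ne_zero] at hz
      exact hu (Subtype.ext hz.symm)
    · apply Subtype.ext
      simp [hz]
  obtain ⟨πu, hπ⟩ := exists_isUniformizer p K
  set π : K := (πu : K) with hπdef
  obtain ⟨y, u', hy0, huy, hN⟩ := exists_normal_form hπ u hu
  have hyT : (y : T) ≠ 0 := fun h => hy0 (Subtype.ext h)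
  set z' : T := z * (y : T)⁻¹ with hz'
  have hz'p : z' ^ p = (u' : T) := by
    have hyp : (y : T) ^ p ≠ 0 := pow_ne_zero _ hyT
    rw [hz', mul_pow, hz, huy, inv_pow]
    push_cast
    rw [mul_comm, ← mul_assoc, inv_mul_cancel₀ hyp, one_mul]
  have hz'K : z' ∉ K := by
    intro h
    apply hzK
    have : z = z' * y := by
      rw [hz']
      field_simp
    rw [this]
    exact K.mul_mem h y.2
  rcases hN with hN | hN | hN
  rotate_left 2
  · -- shape (N3): done
    obtain ⟨b, hb1, hb⟩ := hN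
    refine ⟨b, y, hb1, hy0, ?_⟩
    rw [huy, hb]
    ring
  all_goals exfalso
  all_goals
    -- the Kummer layer
    have hu'pow : ∀ b : K, b ^ p ≠ u' := by
      intro b hb
      apply hz'K
      have hb0 : (b : T) ≠ 0 := by
        intro h0
        have hb0' : b = 0 := Subtype.ext h0
        rw [hb0', zero_pow hp.ne_zero] at hb
        rw [← hb, mul_zero] at huy
        exact hu huy
      have h1 : (z' * (b : T)⁻¹) ^ p = 1 := by
        rw [mul_pow, hz'p, ← hb]
        push_cast
        rw [inv_pow, mul_inv_cancel₀ (pow_ne_zero _ hb0)]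
      have hζT : IsPrimitiveRoot ((ζ : K) : T) p :=
        hζ.map_of_injective (algebraMap K T).injective
      have : NeZero p := ⟨hp.ne_zero⟩
      obtain ⟨k, _, hk⟩ := hζT.eq_pow_of_pow_eq_one h1
      have h2 : z' = ((ζ : K) : T) ^ k * b := by
        rw [hk]
        field_simp
      rw [h2]
      exact K.mul_mem (pow_mem ζ.2 k) b.2
    have hirr : Irreducible (X ^ p - C u' : K[X]) := X_pow_sub_C_irreducible_of_prime hp hu'pow
    have hint : IsIntegral K z' := IsIntegral.of_finite K z'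
    have hroot : aeval z' (X ^ p - C u' : K[X]) = 0 := by
      rw [map_sub, map_pow, aeval_X, aeval_C, hz'p]
      exact sub_self _
    have hmin : (X ^ p - C u' : K[X]) = minpoly K z' :=
      minpoly.eq_of_irreducible_of_monic hirr hroot (monic_X_pow_sub_C u' hp.ne_zero)
    set M : IntermediateField K T := K⟮z'⟯ with hM
    have hfin : Module.finrank K M = p := by
      rw [hM, IntermediateField.adjoin.finrank hint, ← hmin, natDegree_X_pow_sub_C]
    have : IsScalarTower ℚ_[p] M T := IsScalarTower.of_algebraMap_eq (fun _ => rfl)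
    have : FiniteDimensional ℚ_[p] M := Module.Finite.trans K M
    have hζT : IsPrimitiveRoot ((ζ : K) : T) p :=
      hζ.map_of_injective (algebraMap K T).injective
    have hnormal : Normal K M := by
      rw [IntermediateField.normal_iff_forall_map_le']
      intro σ
      rw [hM, IntermediateField.adjoin_map, Set.image_singleton]
      apply IntermediateField.adjoin_le_iff.2
      rw [Set.singleton_subset_iff]
      -- `σ z' = ζ^k z'`
      have h1 : ((σ : T →ₐ[K] T) z' * z'⁻¹) ^ p = 1 := by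
        have hz'0 : z' ≠ 0 := by
          intro h0
          apply hz'K
          rw [h0]
          exact K.zero_mem
        rw [mul_pow, ← map_pow, hz'p, inv_pow, hz'p]
        have : (σ : T →ₐ[K] T) (u' : T) = (u' : T) := σ.commutes u'
        rw [this]
        have hu'0 : (u' : T) ≠ 0 := by
          rw [← hz'p]
          exact pow_ne_zero _ hz'0
        exact mul_inv_cancel₀ hu'0
      have : NeZero p := ⟨hp.ne_zero⟩
      obtain ⟨k, _, hk⟩ := hζT.eq_pow_of_pow_eq_one h1
      have hz'0 : z' ≠ 0 := by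
        intro h0
        apply hz'K
        rw [h0]
        exact K.zero_mem
      have h2 : (σ : T →ₐ[K] T) z' = ((ζ : K) : T) ^ k * z' := by
        rw [hk]
        field_simp
      rw [SetLike.mem_coe, h2]
      refine (K⟮z'⟯).mul_mem (pow_mem ?_ k) (IntermediateField.mem_adjoin_simple_self K z')
      exact (K⟮z'⟯).algebraMap_mem ζ
    have : IsGalois K M := ⟨⟩
    have hcard : Fintype.card (M ≃ₐ[K] M) = p := by
      rw [← Nat.card_eq_fintype_card, IsGalois.card_aut_eq_finrank, hfin]
    set α : M := IntermediateField.AdjoinSimple.gen K z' with hαdef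
    have hα : α ^ p = algebraMap K M u' := by
      apply Subtype.ext
      show (z' ^ p : T) = _
      rw [hz'p]
      rfl
    have hαgen : ∀ w : M, w ∈ Algebra.adjoin K {α} := by
      intro w
      have h1 : (w : T) ∈ K⟮z'⟯.toSubalgebra := w.2
      rw [IntermediateField.adjoin_simple_toSubalgebra_of_isAlgebraic hint.isAlgebraic] at h1
      have h2 : Algebra.adjoin K {z'} = (Algebra.adjoin K {α}).map M.val := by
        rw [AlgHom.map_adjoin, Set.image_singleton]
        rfl
      rw [h2] at h1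
      obtain ⟨w', hw', hw'eq⟩ := h1
      have : w' = w := Subtype.ext hw'eq
      rwa [this] at hw'
    obtain ⟨xT, hxT⟩ := exists_isGen p T
    obtain ⟨xL, hxL⟩ := exists_isGen p L
    obtain ⟨xK, hxK⟩ := exists_isGen p K
    obtain ⟨xM, hxM⟩ := exists_isGen p M
    have hZ := normVal_zeta_sub_one_pow hζ
  · exact not_isN1 hxT hxL hxK hxM (eq_one_of_sup_eq_top T L K hLK) hπ htame hζ hZ (hL xL hxL)
      hα hαgen hcard hN
  · exact not_isN2 hxT hxL hxK hxM (eq_one_of_sup_eq_top T L K hLK) hπ htame hζ hZ (hL xL hxL)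
      hα hαgen hcard hN

end Core

end

end Fermat.Agent.TW.FF.KFCore83
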