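/-
TW / WP7a (helper68).  Global flat ⇒ local flat:
a finite `G_ℚ`-module which is the group of `ℚ̄`-points of a finite flat Hopf algebra `H` over `ℤ_(p)` is,
as a module over `Gal(ℚ̄_p/ℚ_p)` (through the Prelude's `localGaloisToGlobal p`), the group of
`ℚ̄_p`-points of the finite flat Hopf algebra `ℤ_p ⊗ H` over `ℤ_p`.
-/
import Mathlib
import Fermat.Agent.TW.FF.FlatModel68
import Fermat.Agent.IG.VAL.Zl13

set_option autoImplicit false

noncomputable section

open TensorProduct

namespace Fermat.Agent.TW.FF.LocalOfGlobal68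

open Fermat.Agent.TW.FF.FlatModel68

variable (p : ℕ) [hp : Fact p.Prime]

/-- The canonical ring homomorphism `ℤ_(p) → ℤ_p`. -/
def toZp : Zloc p →+* ℤ_[p] where
  toFun x := ⟨((x : ℚ) : ℚ_[p]),
    Padic.norm_rat_le_one ((Nat.Prime.coprime_iff_not_dvd hp.out).1 x.2.symm)⟩
  map_one' := Subtype.ext (by simp)
  map_mul' x y := Subtype.ext (by
    change (((x * y : Zloc p) : ℚ) : ℚ_[p]) = ((x : ℚ) : ℚ_[p]) * ((y : ℚ) : ℚ_[p])
    simp)
  map_zero' := Subtype.ext (by simp)
  map_add' x y := Subtype.ext (by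
    change (((x + y : Zloc p) : ℚ) : ℚ_[p]) = ((x : ℚ) : ℚ_[p]) + ((y : ℚ) : ℚ_[p])
    simp)

theorem coe_toZp (x : Zloc p) : ((toZp p x : ℤ_[p]) : ℚ_[p]) = ((x : ℚ) : ℚ_[p]) := rfl

/-- `ℤ_p` as an algebra over `ℤ_(p)`. -/
instance algebraZp : Algebra (Zloc p) ℤ_[p] := (toZp p).toAlgebra

instance towerZpΩ : IsScalarTower (Zloc p) ℤ_[p] (PadicAlgCl p) :=
  IsScalarTower.of_algebraMap_eq' (Subsingleton.elim _ _)

/-- `ℚ̄ → ℚ̄_p` as a `ℤ_(p)`-algebra homomorphism. -/
def emb : AlgebraicClosure ℚ →ₐ[Zloc p] PadicAlgCl p :=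
  (padicEmbedding p).restrictScalars (Zloc p)

theorem emb_apply (x : AlgebraicClosure ℚ) : emb p x = padicEmbedding p x := rfl

theorem emb_injective : Function.Injective (emb p) := (padicEmbedding p).injective

/-- An element of `ℚ̄_p` which is algebraic over `ℚ` comes from `ℚ̄`. -/
theorem mem_range_padicEmbedding_of_isAlgebraic {y : PadicAlgCl p} (hy : IsAlgebraic ℚ y) :
    y ∈ (padicEmbedding p).range := by
  have hy' : IsIntegral ℚ y := hy.isIntegral
  have h0 : minpoly ℚ y ≠ 0 := minpoly.ne_zero hy'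
  have hsplit : ((minpoly ℚ y).map (algebraMap ℚ (AlgebraicClosure ℚ))).Splits :=
    IsAlgClosed.splits _
  have hne : (minpoly ℚ y).map (algebraMap ℚ (AlgebraicClosure ℚ)) ≠ 0 :=
    Polynomial.map_ne_zero h0
  have hroot : (((minpoly ℚ y).map (algebraMap ℚ (AlgebraicClosure ℚ))).map
      ((padicEmbedding p : AlgebraicClosure ℚ →ₐ[ℚ] PadicAlgCl p) : AlgebraicClosure ℚ →+* PadicAlgCl p)).IsRoot y := by
    rw [Polynomial.map_map, AlgHom.comp_algebraMap, Polynomial.IsRoot.def, Polynomial.eval_map_algebraMap]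
    exact minpoly.aeval ℚ y
  obtain ⟨x, hx⟩ := hsplit.mem_range_of_isRoot hne hroot
  exact ⟨x, hx⟩

/-- An element of `ℚ̄_p` which is integral over `ℤ_(p)` comes from `ℚ̄`. -/
theorem mem_range_emb_of_isIntegral {y : PadicAlgCl p} (hy : IsIntegral (Zloc p) y) :
    y ∈ (emb p).range := by
  have hy' : IsAlgebraic ℚ y := (hy.tower_top (A := ℚ)).isAlgebraic
  obtain ⟨x, hx⟩ := mem_range_padicEmbedding_of_isAlgebraic p hy'
  exact ⟨x, hx⟩

section Points

variable {p}
variable {H : Type} [CommRing H] [HopfAlgebra (Zloc p) H]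

/-- The local point `ℤ_p ⊗ H → ℚ̄_p` attached to a global point `H → ℚ̄`. -/
def loc (f : H →ₐ[Zloc p] AlgebraicClosure ℚ) : ℤ_[p] ⊗[Zloc p] H →ₐ[ℤ_[p]] PadicAlgCl p :=
  Algebra.TensorProduct.lift (Algebra.ofId ℤ_[p] (PadicAlgCl p)) ((emb p).comp f)
    (fun _ _ => Commute.all _ _)

theorem loc_tmul (f : H →ₐ[Zloc p] AlgebraicClosure ℚ) (z : ℤ_[p]) (h : H) :
    loc f (z ⊗ₜ h) = algebraMap ℤ_[p] (PadicAlgCl p) z * emb p (f h) := by
  simp [loc, Algebra.ofId_apply]

theorem loc_one_tmul (f : H →ₐ[Zloc p] AlgebraicClosure ℚ) (h : H) :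
    loc f (1 ⊗ₜ h) = emb p (f h) := by
  simp [loc_tmul]

theorem loc_injective :
    Function.Injective (loc : (H →ₐ[Zloc p] AlgebraicClosure ℚ) → _) := by
  intro f g hfg
  ext h
  apply emb_injective p
  rw [← loc_one_tmul, ← loc_one_tmul, hfg]

theorem loc_surjective [Module.Finite (Zloc p) H] :
    Function.Surjective (loc : (H →ₐ[Zloc p] AlgebraicClosure ℚ) → _) := by
  intro F
  let g : H →ₐ[Zloc p] PadicAlgCl p :=
    (F.restrictScalars (Zloc p)).comp Algebra.TensorProduct.includeRight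
  have hg : ∀ h, g h ∈ (emb p).range := fun h =>
    mem_range_emb_of_isIntegral p ((Algebra.IsIntegral.isIntegral (R := Zloc p) h).map g)
  let f : H →ₐ[Zloc p] AlgebraicClosure ℚ :=
    ((AlgEquiv.ofInjective (emb p) (emb_injective p)).symm : (emb p).range →ₐ[Zloc p] _).comp
      (g.codRestrict (emb p).range hg)
  refine ⟨f, ?_⟩
  apply Algebra.TensorProduct.ext_ring
  ext h
  have h1 : emb p (f h) = g h := by
    have := (AlgEquiv.ofInjective (emb p) (emb_injective p)).apply_symm_apply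
      (g.codRestrict (emb p).range hg h)
    exact congrArg Subtype.val this
  simp only [AlgHom.coe_comp, AlgHom.coe_restrictScalars', Function.comp_apply,
    Algebra.TensorProduct.includeRight_apply, loc_one_tmul, h1]
  rfl

theorem comul_one_tmul (h : H) :
    (Coalgebra.comul (R := ℤ_[p]) ((1 : ℤ_[p]) ⊗ₜ[Zloc p] h) :
      (ℤ_[p] ⊗[Zloc p] H) ⊗[ℤ_[p]] (ℤ_[p] ⊗[Zloc p] H)) =
    TensorProduct.AlgebraTensorModule.tensorTensorTensorComm (Zloc p) ℤ_[p] (Zloc p) ℤ_[p]
      ℤ_[p] ℤ_[p] H H (((1 : ℤ_[p]) ⊗ₜ[ℤ_[p]] (1 : ℤ_[p])) ⊗ₜ[Zloc p]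
        (Coalgebra.comul (R := Zloc p) h)) := by
  rw [TensorProduct.comul_tmul]
  rfl

theorem lift_loc_ttt (f g : H →ₐ[Zloc p] AlgebraicClosure ℚ) (t : H ⊗[Zloc p] H) :
    Algebra.TensorProduct.lift (loc f) (loc g) (fun _ _ => Commute.all _ _)
      (TensorProduct.AlgebraTensorModule.tensorTensorTensorComm (Zloc p) ℤ_[p] (Zloc p) ℤ_[p]
        ℤ_[p] ℤ_[p] H H (((1 : ℤ_[p]) ⊗ₜ[ℤ_[p]] (1 : ℤ_[p])) ⊗ₜ[Zloc p] t)) =
    emb p (Algebra.TensorProduct.lift f g (fun _ _ => Commute.all _ _) t) := by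
  induction t using TensorProduct.induction_on with
  | zero => simp
  | tmul a b =>
    simp [loc_one_tmul]
  | add x y hx hy =>
    rw [TensorProduct.tmul_add, map_add, map_add, hx, hy, map_add, map_add]

theorem loc_convMul (f g : WithConv (H →ₐ[Zloc p] AlgebraicClosure ℚ)) :
    WithConv.toConv (loc (f * g).ofConv) =
      WithConv.toConv (loc f.ofConv) * WithConv.toConv (loc g.ofConv) := by
  apply WithConv.ofConv_injective
  apply Algebra.TensorProduct.ext_ring
  ext h
  have h1 := AlgHom.convMul_apply (WithConv.toConv (loc f.ofConv)) (WithConv.toConv (loc g.ofConv))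
    ((1 : ℤ_[p]) ⊗ₜ[Zloc p] h)
  have h2 := AlgHom.convMul_apply f g h
  simp only [AlgHom.coe_comp, AlgHom.coe_restrictScalars', Function.comp_apply,
    Algebra.TensorProduct.includeRight_apply, loc_one_tmul]
  rw [h1, h2, comul_one_tmul]
  exact (lift_loc_ttt f.ofConv g.ofConv _).symm

/-- Global points of `H` and local points of `ℤ_p ⊗ H` correspond bijectively. -/
def locEquiv [Module.Finite (Zloc p) H] :
    (H →ₐ[Zloc p] AlgebraicClosure ℚ) ≃ (ℤ_[p] ⊗[Zloc p] H →ₐ[ℤ_[p]] PadicAlgCl p) :=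
  Equiv.ofBijective loc ⟨loc_injective, loc_surjective⟩

@[simp] theorem locEquiv_apply [Module.Finite (Zloc p) H] (f : H →ₐ[Zloc p] AlgebraicClosure ℚ) :
    locEquiv f = loc f := rfl

theorem loc_locEquiv_symm [Module.Finite (Zloc p) H]
    (F : ℤ_[p] ⊗[Zloc p] H →ₐ[ℤ_[p]] PadicAlgCl p) : loc (locEquiv.symm F) = F :=
  locEquiv.apply_symm_apply F

end Points

/-- **Global flat ⇒ local flat.** -/
theorem localFlatModel_of_flatModel {M : Type} [AddCommGroup M] {act : GQ → M → M}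
    (h : FlatModel p M act) :
    LocalFlatModel p M (fun τ => act (localGaloisToGlobal p τ)) := by
  obtain ⟨H, i1, i2, hfin, hflat, hco, e, hmul, hact⟩ := h
  refine ⟨ℤ_[p] ⊗[Zloc p] H, inferInstance, inferInstance, inferInstance, inferInstance,
    inferInstance, (WithConv.congr locEquiv).symm.trans e, ?_, ?_⟩
  · intro F G
    have key : (WithConv.congr locEquiv).symm (F * G) =
        (WithConv.congr locEquiv).symm F * (WithConv.congr locEquiv).symm G := by
      apply (WithConv.congr (locEquiv (H := H))).injective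
      rw [Equiv.apply_symm_apply]
      simp only [WithConv.symm_congr, WithConv.congr_apply, locEquiv_apply, loc_convMul,
        loc_locEquiv_symm, WithConv.toConv_ofConv]
    simp only [Equiv.trans_apply, key, hmul]
  · intro τ F G hFG
    simp only [Equiv.trans_apply]
    apply hact
    intro x
    apply emb_injective p
    simp only [WithConv.symm_congr, WithConv.congr_apply, WithConv.ofConv_toConv]
    rw [← loc_one_tmul, loc_locEquiv_symm, emb_apply, padicEmbedding_localGaloisToGlobal,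
      ← emb_apply, ← loc_one_tmul, loc_locEquiv_symm]
    exact hFG _

/-- A representation which is flat at `p` in the sense of the frozen `GaloisRepAdic.IsFlatAt` is
locally flat at every finite level. -/
theorem localFlatModel_of_isFlatAt {A : Type} [CommRing A] [IsLocalRing A] (ρ : GaloisRepAdic A)
    (h : ρ.IsFlatAt p) (I : Ideal A) (hI : Finite (A ⧸ I)) :
    LocalFlatModel p (ρ.V ⧸ (I • (⊤ : Submodule A ρ.V)))
      (fun τ => ρ.levelAction I (localGaloisToGlobal p τ)) :=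
  localFlatModel_of_flatModel p (((isFlatAt_iff ρ p).1 h).2 I hI)

end Fermat.Agent.TW.FF.LocalOfGlobal68
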