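/-
TW / WP7a-bis (helper68).  Every local flat model can be replaced by a *reduced* one:
a finite free cocommutative Hopf algebra `H` over `ℤ_p` with `PadicAlgCl p`-points `M` such that
* the points separate the elements of `H` (`H ↪ Fun(M, ℚ̄_p)`; in particular `H ⊗ ℚ_p` is étale),
* `rank H = #M`,
* `[N] = η ∘ ε` on `H` (i.e. `(toConv (AlgHom.id ℤ_[p] H)) ^ N = 1`) as soon as `N • M = 0`.
No Cartier theorem is used: `H` is the image of the given Hopf algebra in `Fun(M, ℚ̄_p)`.
-/
import Mathlib
import Fermat.Agent.TW.FF.FlatModel68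
import Fermat.Agent.TW.FF.LocalOfGlobal68
import Fermat.Agent.TW.FF.ReducedModel68

set_option autoImplicit false

noncomputable section

namespace Fermat.Agent.TW.FF.KilledModel68

open Fermat.Agent.TW.FF.FlatModel68 Fermat.Agent.TW.FF.ReducedModel68
open Fermat.Agent.S19.Shell64

/-- a reduced local flat model of `M`: as `LocalFlatModel`, plus freeness, separation of the elements of
`H` by the points, `rank H = #M`, and `[N] = η ∘ ε` whenever `N` kills `M`. -/
def LocalReducedModel (p : ℕ) [Fact p.Prime] (M : Type) [AddCommGroup M] (act : GQp p → M → M) :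
    Prop :=
  ∃ (H : Type) (_ : CommRing H) (_ : HopfAlgebra ℤ_[p] H),
    Module.Finite ℤ_[p] H ∧ Module.Free ℤ_[p] H ∧ Coalgebra.IsCocomm ℤ_[p] H ∧
    (∀ N : ℕ, (∀ m : M, N • m = 0) → (WithConv.toConv (AlgHom.id ℤ_[p] H)) ^ N = 1) ∧
    (∀ x : H, (∀ f : H →ₐ[ℤ_[p]] PadicAlgCl p, f x = 0) → x = 0) ∧
    Module.finrank ℤ_[p] H = Nat.card M ∧
    ∃ e : WithConv (H →ₐ[ℤ_[p]] PadicAlgCl p) ≃ M,
      (∀ f g : WithConv (H →ₐ[ℤ_[p]] PadicAlgCl p), e (f * g) = e f + e g) ∧
      ∀ (τ : GQp p) (f g : WithConv (H →ₐ[ℤ_[p]] PadicAlgCl p)),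
        (∀ h : H, g h = τ (f h)) → e g = act τ (e f)

variable (p : ℕ) [Fact p.Prime]

/-- a reduced model is a flat model. -/
theorem LocalReducedModel.localFlatModel {M : Type} [AddCommGroup M] {act : GQp p → M → M}
    (h : LocalReducedModel p M act) : LocalFlatModel p M act := by
  obtain ⟨H, i1, i2, hfin, hfree, hco, -, -, -, e, hmul, hact⟩ := h
  exact ⟨H, i1, i2, hfin, inferInstance, hco, e, hmul, hact⟩

/-- **every local flat model can be replaced by a reduced one.** -/
theorem localReducedModel_of_localFlatModel {M : Type} [AddCommGroup M] {act : GQp p → M → M}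
    (h : LocalFlatModel p M act) : LocalReducedModel p M act := by
  obtain ⟨H, i1, i2, hfin, -, -, e, hmul, hact⟩ := h
  exact exists_reduced_model (F := ℚ_[p]) e fixedFieldEqBase_of_isGalois hmul act hact

/-- flat at `p` (frozen `IsFlatAt`) ⇒ reduced local model at every finite level. -/
theorem localReducedModel_of_isFlatAt {A : Type} [CommRing A] [IsLocalRing A] (ρ : GaloisRepAdic A)
    (h : ρ.IsFlatAt p) (I : Ideal A) (hI : Finite (A ⧸ I)) :
    LocalReducedModel p (ρ.V ⧸ (I • (⊤ : Submodule A ρ.V)))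
      (fun τ => ρ.levelAction I (localGaloisToGlobal p τ)) :=
  localReducedModel_of_localFlatModel p
    (LocalOfGlobal68.localFlatModel_of_isFlatAt p ρ h I hI)

end Fermat.Agent.TW.FF.KilledModel68
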