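/-
TW / WP7c-core (helper92).  Abstract "p-Newton filtrations" on a commutative ring.

A `p`-Newton filtration on a commutative ring `C` is a decreasing sequence of ideals
`𝔞 0 ⊇ 𝔞 1 ⊇ ...` such that `𝔞 0 * 𝔞 n ⊆ 𝔞 (n+1)`, `p`-th powers of elements of `𝔞 n` lie in
`p * 𝔞 (n+1)`, `p` is a non-zero-divisor and `⋂ 𝔞 n = 0`.

Model: `C = O_E` (or a convolution algebra `Hom_R(H, O_E)`), `𝔞 n = {v ≥ t + n δ}` with
`t > v(p)/(p-1)` and `δ = (p-1) t - v(p) > 0`.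

Main results (Fontaine, "Il n'y a pas de variete abelienne sur Z", section 2, in abstract form):
* `IsPFil.eq_one_of_pow_eq_one` : `z ≡ 1 mod 𝔞 0` and `z ^ p = 1` imply `z = 1`.
* `IsPFil.exists_pow_eq_one`    : if `u ^ p ≡ 1 mod p * 𝔞 0` and `C` is complete for the
  filtration, there is `g ≡ u mod 𝔞 0` with `g ^ p = 1`.
-/
import Mathlib

namespace Fermat.Agent.TW.FF.PFil92

variable {C : Type*} [CommRing C]

/-- Binomial expansion of `(1 + d) ^ p` for a prime `p`, keeping track of the linear term. -/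
theorem one_add_pow_prime {p : ℕ} (hp : p.Prime) (d : C) :
    ∃ s : C, (1 + d) ^ p = 1 + (p : C) * d * (1 + d * s) + d ^ p := by
  classical
  have h1 : 1 ∈ Finset.Ioo 0 p := Finset.mem_Ioo.2 ⟨Nat.one_pos, hp.one_lt⟩
  refine ⟨∑ k ∈ Finset.Ioo 0 p \ {1}, d ^ (k - 2) * ((p.choose k / p : ℕ) : C), ?_⟩
  rw [add_comm 1 d, add_pow_prime_eq hp d 1, Finset.sum_eq_sum_sdiff_singleton_add h1]
  have key : ∀ k ∈ Finset.Ioo 0 p \ {1},
      d ^ (k - 1) * 1 ^ (p - k - 1) * ((p.choose k / p : ℕ) : C) =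
        d * (d ^ (k - 2) * ((p.choose k / p : ℕ) : C)) := by
    intro k hk
    rw [Finset.mem_sdiff, Finset.mem_Ioo, Finset.mem_singleton] at hk
    have hk2 : 2 ≤ k := by omega
    obtain ⟨j, rfl⟩ := Nat.exists_eq_add_of_le hk2
    have e1 : 2 + j - 1 = j + 1 := by omega
    have e2 : 2 + j - 2 = j := by omega
    rw [e1, e2, one_pow, pow_succ]
    ring
  rw [Finset.sum_congr rfl key, ← Finset.mul_sum]
  simp only [Nat.sub_self, pow_zero, one_pow, Nat.choose_one_right, Nat.div_self hp.pos,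
    Nat.cast_one, mul_one]
  ring

/-- A `p`-Newton filtration on a commutative ring. -/
structure IsPFil (p : ℕ) (𝔞 : ℕ → Ideal C) : Prop where
  anti : Antitone 𝔞
  mul_mem : ∀ n x y, x ∈ 𝔞 0 → y ∈ 𝔞 n → x * y ∈ 𝔞 (n + 1)
  pow_mem : ∀ n y, y ∈ 𝔞 n → ∃ y' ∈ 𝔞 (n + 1), y ^ p = (p : C) * y'
  cancel : ∀ x : C, (p : C) * x = 0 → x = 0
  sep : ∀ x : C, (∀ n, x ∈ 𝔞 n) → x = 0

/-- Completeness of a ring for a filtration, in "series" form. -/
def IsSumComplete (𝔞 : ℕ → Ideal C) : Prop :=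
  ∀ c : ℕ → C, (∀ n, c n ∈ 𝔞 n) → ∃ L, ∀ n, L - ∑ k ∈ Finset.range n, c k ∈ 𝔞 n

namespace IsPFil

variable {p : ℕ} {𝔞 : ℕ → Ideal C}

theorem mem_zero (h : IsPFil p 𝔞) {n : ℕ} {x : C} (hx : x ∈ 𝔞 n) : x ∈ 𝔞 0 :=
  h.anti (Nat.zero_le n) hx

theorem mem_of_succ (h : IsPFil p 𝔞) {n : ℕ} {x : C} (hx : x ∈ 𝔞 (n + 1)) : x ∈ 𝔞 n :=
  h.anti (Nat.le_succ n) hx

/-- **Uniqueness**: a `p`-torsion element congruent to `1` modulo `𝔞 0` is `1`. -/
theorem eq_one_of_pow_eq_one (hp : p.Prime) (h : IsPFil p 𝔞) {z : C} (hz : z - 1 ∈ 𝔞 0)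
    (hzp : z ^ p = 1) : z = 1 := by
  have key : ∀ n, z - 1 ∈ 𝔞 n := by
    intro n
    induction n with
    | zero => exact hz
    | succ n ih =>
      obtain ⟨s, hs⟩ := one_add_pow_prime hp (z - 1)
      obtain ⟨y', hy', hy⟩ := h.pow_mem n (z - 1) ih
      have h0 : (p : C) * ((z - 1) * (1 + (z - 1) * s) + y') = 0 := by
        have e : (1 + (z - 1)) ^ p = 1 := by rw [add_sub_cancel, hzp]
        rw [e, hy] at hs
        linear_combination -hs
      have h1 := h.cancel _ h0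
      have h2 : z - 1 = -((z - 1) * (z - 1)) * s - y' := by linear_combination h1
      rw [h2]
      exact (𝔞 (n + 1)).sub_mem
        ((𝔞 (n + 1)).mul_mem_right _ ((𝔞 (n + 1)).neg_mem (h.mul_mem n _ _ hz ih))) hy'
  exact sub_eq_zero.1 (h.sep _ key)

/-- Two `p`-torsion elements congruent modulo `𝔞 0` are equal. -/
theorem eq_of_pow_eq_one (hp : p.Prime) (h : IsPFil p 𝔞) {a b : C} (hab : a - b ∈ 𝔞 0)
    (ha : a ^ p = 1) (hb : b ^ p = 1) : a = b := by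
  have hp1 : p - 1 + 1 = p := Nat.sub_add_cancel hp.pos
  have hb' : b ^ (p - 1) * b = 1 := by rw [← pow_succ, hp1, hb]
  have hz : a * b ^ (p - 1) - 1 ∈ 𝔞 0 := by
    have : a * b ^ (p - 1) - 1 = (a - b) * b ^ (p - 1) := by linear_combination hb'
    rw [this]
    exact (𝔞 0).mul_mem_right _ hab
  have hzp : (a * b ^ (p - 1)) ^ p = 1 := by
    rw [mul_pow, ha, one_mul, ← pow_mul, mul_comm, pow_mul, hb, one_pow]
  have := h.eq_one_of_pow_eq_one hp hz hzp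
  calc a = a * (b ^ (p - 1) * b) := by rw [hb', mul_one]
    _ = (a * b ^ (p - 1)) * b := by ring
    _ = b := by rw [this, one_mul]

/-- One step of the Newton iteration for `g ^ p = 1`. -/
theorem newton_step (hp : p.Prime) (h : IsPFil p 𝔞) (n : ℕ) (g c : C) (hc : c ∈ 𝔞 n)
    (hg : g ^ p = 1 + (p : C) * c) :
    ∃ c' ∈ 𝔞 (n + 1), (g * (1 - c)) ^ p = 1 + (p : C) * c' := by
  obtain ⟨s, hs⟩ := one_add_pow_prime hp (-c)
  obtain ⟨y', hy', hy⟩ := h.pow_mem n (-c) ((𝔞 n).neg_mem hc)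
  have hc0 : c ∈ 𝔞 0 := h.mem_zero hc
  have hcc : c * c ∈ 𝔞 (n + 1) := h.mul_mem n _ _ hc0 hc
  -- `A = -c + c^2 s + y'`
  have hA : -c + c * c * s + y' ∈ 𝔞 n :=
    (𝔞 n).add_mem ((𝔞 n).add_mem ((𝔞 n).neg_mem hc)
      (h.mem_of_succ ((𝔞 (n + 1)).mul_mem_right _ hcc))) (h.mem_of_succ hy')
  refine ⟨c * c * s + y' + (p : C) * (c * (-c + c * c * s + y')), ?_, ?_⟩
  · exact (𝔞 (n + 1)).add_mem ((𝔞 (n + 1)).add_mem ((𝔞 (n + 1)).mul_mem_right _ hcc) hy')
      ((𝔞 (n + 1)).mul_mem_left _ (h.mul_mem n _ _ hc0 hA))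
  · have e : (1 - c) ^ p = 1 + (p : C) * (-c) * (1 + (-c) * s) + (p : C) * y' := by
      rw [← hy, ← hs, sub_eq_add_neg]
    rw [mul_pow, hg, e]
    ring

/-- **Existence**: if `u ^ p ≡ 1` modulo `p * 𝔞 0` and the ring is complete, there is a
`p`-torsion element congruent to `u` modulo `𝔞 0`. -/
theorem exists_pow_eq_one (hp : p.Prime) (h : IsPFil p 𝔞) (hcpl : IsSumComplete 𝔞) {u c₀ : C}
    (hc₀ : c₀ ∈ 𝔞 0) (hu : u ^ p = 1 + (p : C) * c₀) :
    ∃ g : C, g - u ∈ 𝔞 0 ∧ g ^ p = 1 := by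
  classical
  -- the Newton sequence
  let F : ∀ n : ℕ, {gc : C × C // gc.2 ∈ 𝔞 n ∧ gc.1 ^ p = 1 + (p : C) * gc.2} := fun n =>
    Nat.rec (motive := fun n => {gc : C × C // gc.2 ∈ 𝔞 n ∧ gc.1 ^ p = 1 + (p : C) * gc.2})
      ⟨(u, c₀), hc₀, hu⟩
      (fun n prev =>
        ⟨(prev.1.1 * (1 - prev.1.2),
            Classical.choose (h.newton_step hp n prev.1.1 prev.1.2 prev.2.1 prev.2.2)),
          (Classical.choose_spec (h.newton_step hp n prev.1.1 prev.1.2 prev.2.1 prev.2.2)).1,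
          (Classical.choose_spec (h.newton_step hp n prev.1.1 prev.1.2 prev.2.1 prev.2.2)).2⟩) n
  have hF0 : (F 0).1.1 = u := rfl
  have hFs : ∀ n, (F (n + 1)).1.1 = (F n).1.1 * (1 - (F n).1.2) := fun n => rfl
  have hdiff : ∀ n, (F (n + 1)).1.1 - (F n).1.1 ∈ 𝔞 n := by
    intro n
    have : (F (n + 1)).1.1 - (F n).1.1 = -((F n).1.1 * (F n).1.2) := by rw [hFs]; ring
    rw [this]
    exact (𝔞 n).neg_mem ((𝔞 n).mul_mem_left _ (F n).2.1)
  obtain ⟨L, hL⟩ := hcpl (fun n => (F (n + 1)).1.1 - (F n).1.1) hdiff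
  have hsum : ∀ n, ∑ k ∈ Finset.range n, ((F (k + 1)).1.1 - (F k).1.1) = (F n).1.1 - u := by
    intro n
    rw [Finset.sum_range_sub (fun k => (F k).1.1), hF0]
  have hL' : ∀ n, (u + L) - (F n).1.1 ∈ 𝔞 n := by
    intro n
    have := hL n
    simp only [hsum] at this
    have e : u + L - (F n).1.1 = L - ((F n).1.1 - u) := by ring
    rw [e]; exact this
  refine ⟨u + L, ?_, ?_⟩
  · have := hL' 0
    rwa [hF0] at this
  · have key : ∀ n, (u + L) ^ p - 1 ∈ 𝔞 n := by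
      intro n
      have h1 : (u + L) ^ p - (F n).1.1 ^ p ∈ 𝔞 n :=
        Ideal.mem_of_dvd _ (sub_dvd_pow_sub_pow _ _ p) (hL' n)
      have h2 : (F n).1.1 ^ p - 1 ∈ 𝔞 n := by
        rw [(F n).2.2, add_sub_cancel_left]
        exact (𝔞 n).mul_mem_left _ (F n).2.1
      have e : (u + L) ^ p - 1 = ((u + L) ^ p - (F n).1.1 ^ p) + ((F n).1.1 ^ p - 1) := by ring
      rw [e]; exact (𝔞 n).add_mem h1 h2
    exact sub_eq_zero.1 (h.sep _ key)

end IsPFil

/-- The hypotheses on a coefficient ring `S` with a sequence of ideals `J n` (model: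
`J n = {v ≥ t + n δ}` in a valuation ring, `t > v(p)/(p-1)`), in ideal-theoretic form, without
completeness.  They make `J` itself, and the induced filtrations on convolution algebras
`Hom_R(H, S)`, `p`-Newton filtrations (enough for rigidity / injectivity statements). -/
structure IsPFilSep (p : ℕ) (J : ℕ → Ideal C) : Prop where
  anti : Antitone J
  mul_le : ∀ n, J 0 * J n ≤ J (n + 1)
  pow_le : ∀ n, J n ^ p ≤ Ideal.span {(p : C)} * J (n + 1)
  cancel : ∀ x : C, (p : C) * x = 0 → x = 0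
  sep : ∀ x : C, (∀ n, x ∈ J n) → x = 0

/-- `IsPFilSep` together with completeness (needed for the lifting statements). -/
structure IsPFilBase (p : ℕ) (J : ℕ → Ideal C) : Prop extends IsPFilSep p J where
  complete : IsSumComplete J

theorem IsPFilSep.isPFil {p : ℕ} {J : ℕ → Ideal C} (h : IsPFilSep p J) : IsPFil p J where
  anti := h.anti
  mul_mem n x y hx hy := h.mul_le n (Ideal.mul_mem_mul hx hy)
  pow_mem n y hy := by
    have := h.pow_le n (Ideal.pow_mem_pow hy p)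
    obtain ⟨z, hz, hz'⟩ := Ideal.mem_span_singleton_mul.1 this
    exact ⟨z, hz, hz'.symm⟩
  cancel := h.cancel
  sep := h.sep

theorem IsPFilBase.isPFil {p : ℕ} {J : ℕ → Ideal C} (h : IsPFilBase p J) : IsPFil p J :=
  h.toIsPFilSep.isPFil

end Fermat.Agent.TW.FF.PFil92
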