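/-
TW / WP7 B3 (helper92).  Ball filtrations: `p`-Newton filtration bases from a `p`-adic norm.

`IsPNorm p N` axiomatises a real-valued ultrametric "norm" `N` on a commutative ring `S` which
looks like the restriction of a `p`-adic absolute value (normalised by `|p| = 1/p`) to its closed
unit ball: `N ≤ 1`, and elements of norm `≤ s/p` are divisible by `p` with quotient of norm `≤ s`.
For `0 ≤ ρ` with `p * ρ^(p-1) < 1` (i.e. `v > 1/(p-1)`), the ideals
`ballI N (ρ * δ^n)`, `δ = max ρ (p ρ^(p-1)) < 1`, form a `p`-Newton filtration base without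
completeness (`IsPFilSep`).  Instance: the closed unit ball of an ultrametric normed field.
-/
import Mathlib
import Fermat.Agent.TW.FF.PFil92

namespace Fermat.Agent.TW.FF.BallFil92

open Fermat.Agent.TW.FF.PFil92

variable {S : Type*} [CommRing S]

/-- A `p`-adic norm on (the unit ball) `S`. -/
structure IsPNorm (p : ℕ) (N : S → ℝ) : Prop where
  zero : N 0 = 0
  eq_zero : ∀ x, N x = 0 → x = 0
  nonneg : ∀ x, 0 ≤ N x
  le_one : ∀ x, N x ≤ 1
  add_le : ∀ x y, N (x + y) ≤ max (N x) (N y)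
  mul_le : ∀ x y, N (x * y) ≤ N x * N y
  div_p : ∀ (x : S) (s : ℝ), N x ≤ s / p → s ≤ 1 → ∃ y, x = (p : S) * y ∧ N y ≤ s
  cancel : ∀ x : S, (p : S) * x = 0 → x = 0

variable {p : ℕ} {N : S → ℝ}

/-- The ideal `{x | N x ≤ s}` (for `s < 0` the radius is replaced by `0`). -/
def ballI (hN : IsPNorm p N) (s : ℝ) : Ideal S where
  carrier := {x | N x ≤ max s 0}
  add_mem' {a b} ha hb := le_trans (hN.add_le a b) (max_le ha hb)
  zero_mem' := by
    show N 0 ≤ max s 0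
    rw [hN.zero]; exact le_max_right _ _
  smul_mem' c x hx := by
    show N (c * x) ≤ max s 0
    calc N (c * x) ≤ N c * N x := hN.mul_le c x
      _ ≤ 1 * N x := mul_le_mul_of_nonneg_right (hN.le_one c) (hN.nonneg x)
      _ = N x := one_mul _
      _ ≤ max s 0 := hx

theorem mem_ballI (hN : IsPNorm p N) {s : ℝ} (hs : 0 ≤ s) (x : S) :
    x ∈ ballI hN s ↔ N x ≤ s := by
  show N x ≤ max s 0 ↔ N x ≤ s
  rw [max_eq_left hs]

theorem ballI_mono (hN : IsPNorm p N) {s t : ℝ} (h : s ≤ t) : ballI hN s ≤ ballI hN t :=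
  fun _ hx => le_trans hx (max_le_max h le_rfl)

theorem ballI_mul_le (hN : IsPNorm p N) {s t : ℝ} (hs : 0 ≤ s) (ht : 0 ≤ t) :
    ballI hN s * ballI hN t ≤ ballI hN (s * t) := by
  rw [Ideal.mul_le]
  intro x hx y hy
  rw [mem_ballI hN hs] at hx
  rw [mem_ballI hN ht] at hy
  rw [mem_ballI hN (mul_nonneg hs ht)]
  calc N (x * y) ≤ N x * N y := hN.mul_le x y
    _ ≤ s * t := mul_le_mul hx hy (hN.nonneg y) hs

theorem ballI_pow_le (hN : IsPNorm p N) {s : ℝ} (hs : 0 ≤ s) (n : ℕ) (hn : 0 < n) :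
    ballI hN s ^ n ≤ ballI hN (s ^ n) := by
  induction n with
  | zero => exact absurd hn (lt_irrefl 0)
  | succ n ih =>
    rcases Nat.eq_zero_or_pos n with h0 | hpos
    · subst h0; simp
    · rw [pow_succ, pow_succ]
      exact le_trans (Ideal.mul_mono_left (ih hpos)) (ballI_mul_le hN (pow_nonneg hs n) hs)

/-- The contraction ratio of the ball filtration. -/
noncomputable def ratio (p : ℕ) (ρ : ℝ) : ℝ := max ρ (p * ρ ^ (p - 1))

theorem ratio_nonneg {ρ : ℝ} (h0 : 0 ≤ ρ) : 0 ≤ ratio p ρ := le_trans h0 (le_max_left _ _)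

theorem lt_one_of_lt {ρ : ℝ} (hp : p.Prime) (hρ : (p : ℝ) * ρ ^ (p - 1) < 1) :
    ρ < 1 := by
  by_contra hge
  rw [not_lt] at hge
  have h1 : (1 : ℝ) ≤ ρ ^ (p - 1) := one_le_pow₀ hge
  have hp1 : (1 : ℝ) < p := by exact_mod_cast hp.one_lt
  nlinarith

theorem ratio_lt_one {ρ : ℝ} (hp : p.Prime) (hρ : (p : ℝ) * ρ ^ (p - 1) < 1) :
    ratio p ρ < 1 := max_lt (lt_one_of_lt hp hρ) hρ

/-- **Ball filtrations are `p`-Newton filtration bases** (without completeness). -/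
theorem isPFilSep_ball (hN : IsPNorm p N) (hp : p.Prime) {ρ : ℝ} (h0 : 0 ≤ ρ)
    (hρ : (p : ℝ) * ρ ^ (p - 1) < 1) :
    IsPFilSep p (fun n => ballI hN (ρ * ratio p ρ ^ n)) := by
  set δ := ratio p ρ with hδ
  have hδ0 : 0 ≤ δ := ratio_nonneg h0
  have hδ1 : δ < 1 := ratio_lt_one hp hρ
  have hρδ : ρ ≤ δ := le_max_left _ _
  have hpδ : (p : ℝ) * ρ ^ (p - 1) ≤ δ := le_max_right _ _
  have hs0 : ∀ n : ℕ, 0 ≤ ρ * δ ^ n := fun n => mul_nonneg h0 (pow_nonneg hδ0 n)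
  have hs1 : ∀ n : ℕ, ρ * δ ^ n ≤ 1 := fun n => by
    have : δ ^ n ≤ 1 := pow_le_one₀ hδ0 hδ1.le
    nlinarith
  have hppos : (0 : ℝ) < p := by exact_mod_cast hp.pos
  refine ⟨?_, ?_, ?_, hN.cancel, ?_⟩
  · -- antitone
    refine antitone_nat_of_succ_le (fun n => ballI_mono hN ?_)
    rw [pow_succ]
    have : δ ^ n * δ ≤ δ ^ n * 1 := mul_le_mul_of_nonneg_left hδ1.le (pow_nonneg hδ0 n)
    nlinarith
  · -- `J 0 * J n ≤ J (n+1)`
    intro n
    refine le_trans (ballI_mul_le hN (hs0 0) (hs0 n)) (ballI_mono hN ?_)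
    rw [pow_zero, mul_one, pow_succ]
    have h1 : ρ * (ρ * δ ^ n) ≤ δ * (ρ * δ ^ n) := mul_le_mul_of_nonneg_right hρδ (hs0 n)
    nlinarith
  · -- `(J n)^p ≤ (p) * J (n+1)`
    intro n
    refine le_trans (ballI_pow_le hN (hs0 n) p hp.pos) ?_
    intro x hx
    rw [mem_ballI hN (pow_nonneg (hs0 n) p)] at hx
    -- the key estimate `p * (ρ δ^n)^p ≤ ρ δ^(n+1)`
    have hkey : (p : ℝ) * (ρ * δ ^ n) ^ p ≤ ρ * δ ^ (n + 1) := by
      obtain ⟨q, rfl⟩ : ∃ q, p = q + 1 := ⟨p - 1, (Nat.sub_add_cancel hp.pos).symm⟩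
      rw [Nat.add_sub_cancel] at hpδ
      have e1 : ((q + 1 : ℕ) : ℝ) * (ρ * δ ^ n) ^ (q + 1) =
          ρ * (((q + 1 : ℕ) : ℝ) * ρ ^ q) * ((δ ^ n) ^ q * δ ^ n) := by
        rw [mul_pow, pow_succ, pow_succ]; ring
      have e2 : (δ ^ n) ^ q ≤ 1 := pow_le_one₀ (pow_nonneg hδ0 n) (pow_le_one₀ hδ0 hδ1.le)
      have e3 : (δ ^ n) ^ q * δ ^ n ≤ δ ^ n := by
        have := mul_le_mul_of_nonneg_right e2 (pow_nonneg hδ0 n)
        rwa [one_mul] at this
      rw [e1, pow_succ]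
      calc ρ * (((q + 1 : ℕ) : ℝ) * ρ ^ q) * ((δ ^ n) ^ q * δ ^ n)
          ≤ ρ * δ * δ ^ n := by
            apply mul_le_mul (mul_le_mul_of_nonneg_left hpδ h0) e3
              (mul_nonneg (pow_nonneg (pow_nonneg hδ0 n) q) (pow_nonneg hδ0 n))
              (mul_nonneg h0 hδ0)
        _ = ρ * (δ ^ n * δ) := by ring
    have hle1 : (p : ℝ) * (ρ * δ ^ n) ^ p ≤ 1 := le_trans hkey (hs1 (n + 1))
    have hx' : N x ≤ ((p : ℝ) * (ρ * δ ^ n) ^ p) / p := by
      rw [mul_div_cancel_left₀ _ hppos.ne']; exact hx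
    obtain ⟨y, rfl, hy⟩ := hN.div_p x _ hx' hle1
    refine Ideal.mul_mem_mul (Ideal.mem_span_singleton_self _) ?_
    rw [mem_ballI hN (hs0 (n + 1))]
    exact le_trans hy hkey
  · -- separated
    intro x hx
    apply hN.eq_zero
    have hlim : Filter.Tendsto (fun n : ℕ => ρ * δ ^ n) Filter.atTop (nhds (ρ * 0)) :=
      (tendsto_pow_atTop_nhds_zero_of_lt_one hδ0 hδ1).const_mul ρ
    rw [mul_zero] at hlim
    have hle : N x ≤ 0 := ge_of_tendsto' hlim (fun n => (mem_ballI hN (hs0 n) x).1 (hx n))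
    exact le_antisymm hle (hN.nonneg x)

section UnitBall

variable (Ω : Type*) [NormedField Ω] [IsUltrametricDist Ω]

/-- The closed unit ball of an ultrametric normed field, as a subring. -/
def unitBall : Subring Ω where
  carrier := {x | ‖x‖ ≤ 1}
  mul_mem' {a b} ha hb := by
    show ‖a * b‖ ≤ 1
    rw [norm_mul]; exact mul_le_one₀ ha (norm_nonneg b) hb
  one_mem' := by show ‖(1 : Ω)‖ ≤ 1; rw [norm_one]
  add_mem' {a b} ha hb := le_trans (IsUltrametricDist.norm_add_le_max a b) (max_le ha hb)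
  zero_mem' := by show ‖(0 : Ω)‖ ≤ 1; rw [norm_zero]; exact zero_le_one
  neg_mem' {a} ha := by show ‖-a‖ ≤ 1; rw [norm_neg]; exact ha

theorem mem_unitBall {x : Ω} : x ∈ unitBall Ω ↔ ‖x‖ ≤ 1 := Iff.rfl

variable {Ω}

/-- The norm on the unit ball of an ultrametric normed field with `‖p‖ = 1/p` is a `p`-norm. -/
theorem isPNorm_unitBall (hp : p.Prime) (hnp : ‖(p : Ω)‖ = (p : ℝ)⁻¹) :
    IsPNorm p (fun x : unitBall Ω => ‖(x : Ω)‖) where
  zero := by simp
  eq_zero x hx := by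
    have : (x : Ω) = 0 := norm_eq_zero.1 hx
    exact Subtype.ext this
  nonneg x := norm_nonneg _
  le_one x := x.2
  add_le x y := IsUltrametricDist.norm_add_le_max (x : Ω) (y : Ω)
  mul_le x y := by
    show ‖((x : Ω) * (y : Ω))‖ ≤ _
    rw [norm_mul]
  div_p x s hx hs := by
    have hppos : (0 : ℝ) < p := by exact_mod_cast hp.pos
    have hp0 : (p : Ω) ≠ 0 := by
      intro h
      rw [h, norm_zero] at hnp
      exact (inv_pos.2 hppos).ne hnp
    have hy : ‖(x : Ω) / (p : Ω)‖ ≤ s := by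
      rw [norm_div, hnp, div_inv_eq_mul]
      have := mul_le_mul_of_nonneg_right hx hppos.le
      rwa [div_mul_cancel₀ _ hppos.ne'] at this
    refine ⟨⟨(x : Ω) / (p : Ω), le_trans hy hs⟩, ?_, hy⟩
    apply Subtype.ext
    show (x : Ω) = ((p : unitBall Ω) : Ω) * ((x : Ω) / (p : Ω))
    rw [show ((p : unitBall Ω) : Ω) = (p : Ω) from by simp, mul_div_cancel₀ _ hp0]
  cancel x hx := by
    have hppos : (0 : ℝ) < p := by exact_mod_cast hp.pos
    have hp0 : (p : Ω) ≠ 0 := by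
      intro h
      rw [h, norm_zero] at hnp
      exact (inv_pos.2 hppos).ne hnp
    have h1 : ((p : unitBall Ω) : Ω) * (x : Ω) = 0 := by
      have := congrArg (fun z : unitBall Ω => (z : Ω)) hx
      simpa using this
    rw [show ((p : unitBall Ω) : Ω) = (p : Ω) from by simp] at h1
    exact Subtype.ext ((mul_eq_zero.1 h1).resolve_left hp0)

end UnitBall

end Fermat.Agent.TW.FF.BallFil92
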