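/-
TW / WP7 B3 (helper92).  Ball filtrations on the ring of integers of a `q`-adic field
(PT/LOC model): they are complete `q`-Newton filtration bases.

* `isSumComplete_of_adic` : a decreasing sequence of `𝔪`-adically open ideals which is cofinal
  with the powers of `𝔪` is "series complete" when the ring is `𝔪`-adically precomplete.
* `isPNorm_intRing`       : the spectral norm on `intRing q E` is a `q`-norm.
* `ballI_eq_ballIdeal`    : `ballI` agrees with `Pm41.ballIdeal`.
* `isPFilBase_ball_intRing` : for `0 ≤ ρ`, `q ρ^(q-1) < 1`: `n ↦ {‖x‖ ≤ ρ δ^n}` is a complete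
  `q`-Newton filtration base on `intRing q E`.
-/
import Mathlib
import Fermat.Agent.PT.LOC.Interface12
import Fermat.Agent.PT.LOC.Structure14
import Fermat.Agent.PT.LOC.StructureNorm14
import Fermat.Agent.PT.LOC.StructureTower27
import Fermat.Agent.TW.RAM.Pm41
import Fermat.Agent.TW.FF.BallFil92

set_option autoImplicit false

open scoped Fermat.Agent.PT.LOC.Interface12
open Fermat.Agent.PT.LOC.Interface12 Fermat.Agent.PT.LOC.Structure14
  Fermat.Agent.PT.LOC.StructureNorm14 Fermat.Agent.PT.LOC.StructureTower27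
open Fermat.Agent.TW.FF.PFil92 Fermat.Agent.TW.FF.BallFil92

namespace Fermat.Agent.TW.FF.BallLoc92

section Adic

variable {S : Type*} [CommRing S]

/-- Series completeness from adic precompleteness, for a decreasing sequence of open ideals
cofinal with the powers of `𝔪`. -/
theorem isSumComplete_of_adic (𝔪 : Ideal S) [IsPrecomplete 𝔪 S] (J : ℕ → Ideal S)
    (hanti : Antitone J) (hsmall : ∀ k, ∃ n, J n ≤ 𝔪 ^ k) (hopen : ∀ n, ∃ K, 𝔪 ^ K ≤ J n) :
    IsSumComplete J := by
  classical
  intro c hc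
  -- partial sums
  set s : ℕ → S := fun n => ∑ k ∈ Finset.range n, c k with hs
  have hdiff : ∀ {m n : ℕ}, m ≤ n → s n - s m ∈ J m := by
    intro m n hmn
    simp only [hs]
    rw [← Finset.sum_Ico_eq_sub _ hmn]
    refine Ideal.sum_mem _ (fun k hk => ?_)
    exact hanti (Finset.mem_Ico.1 hk).1 (hc k)
  -- a monotone cofinal subsequence
  choose ν hν using hsmall
  let μ : ℕ → ℕ := fun j => max j ((Finset.range (j + 1)).sup ν)
  have hμmono : Monotone μ := by
    intro i j hij
    apply max_le_max hij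
    apply Finset.sup_mono
    intro x hx
    rw [Finset.mem_range] at hx ⊢
    omega
  have hμν : ∀ j, ν j ≤ μ j := fun j =>
    le_trans (Finset.le_sup (f := ν) (Finset.mem_range.2 (Nat.lt_succ_self j))) (le_max_right _ _)
  have hμj : ∀ j, j ≤ μ j := fun j => le_max_left _ _
  have hcau : ∀ {i j : ℕ}, i ≤ j → s (μ i) ≡ s (μ j) [SMOD (𝔪 ^ i • ⊤ : Submodule S S)] := by
    intro i j hij
    rw [SModEq.sub_mem]
    simp only [smul_eq_mul, Ideal.mul_top]
    have h1 : s (μ j) - s (μ i) ∈ J (μ i) := hdiff (hμmono hij)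
    have h2 : s (μ j) - s (μ i) ∈ 𝔪 ^ i := hν i (hanti (hμν i) h1)
    have : s (μ i) - s (μ j) = -(s (μ j) - s (μ i)) := by ring
    rw [this]
    exact (𝔪 ^ i).neg_mem h2
  obtain ⟨L, hL⟩ := IsPrecomplete.prec (inferInstance : IsPrecomplete 𝔪 S) hcau
  refine ⟨L, fun n => ?_⟩
  obtain ⟨K, hK⟩ := hopen n
  set j := max n K with hj
  have h1 : s (μ j) - L ∈ 𝔪 ^ j := by
    have := hL j
    rw [SModEq.sub_mem] at this
    simpa only [smul_eq_mul, Ideal.mul_top] using this
  have h1' : s (μ j) - L ∈ J n := hK (Ideal.pow_le_pow_right (le_max_right n K) h1)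
  have h2 : s (μ j) - s n ∈ J n := hdiff (le_trans (le_max_left n K) (hμj j))
  have e : L - s n = (s (μ j) - s n) - (s (μ j) - L) := by ring
  show L - s n ∈ J n
  rw [e]
  exact (J n).sub_mem h2 h1'

theorem isSumComplete_bot : IsSumComplete (fun _ : ℕ => (⊥ : Ideal S)) := by
  intro c hc
  refine ⟨0, fun n => ?_⟩
  have : ∑ k ∈ Finset.range n, c k = 0 :=
    Finset.sum_eq_zero (fun k _ => (Ideal.mem_bot.1 (hc k)))
  rw [this, sub_zero]
  exact Ideal.zero_mem _

end Adic

noncomputable section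

set_option linter.unusedSectionVars false

variable (q : ℕ) [Fact q.Prime] (E : Type) [Field E] [Algebra ℚ_[q] E] [FiniteDimensional ℚ_[q] E]

theorem natCast_ne_zero : (q : E) ≠ 0 := by
  intro h
  have := snorm_natCast_q q E
  rw [h, snorm_zero] at this
  have hq : (0 : ℝ) < (q : ℝ)⁻¹ := by
    have : (0 : ℝ) < q := by exact_mod_cast (Fact.out : q.Prime).pos
    exact inv_pos.2 this
  linarith

theorem coe_natCast_intRing : (((q : ℕ) : intRing q E) : E) = (q : E) := by
  simp

/-- The spectral norm on the ring of integers of a `q`-adic field is a `q`-norm. -/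
theorem isPNorm_intRing : IsPNorm q (fun x : intRing q E => snorm q E (x : E)) where
  zero := by
    show snorm q E ((0 : intRing q E) : E) = 0
    rw [ZeroMemClass.coe_zero, snorm_zero]
  eq_zero x hx := Subtype.ext ((snorm_eq_zero_iff q E _).1 hx)
  nonneg x := snorm_nonneg q E _
  le_one x := (mem_intRing_iff q E _).1 x.2
  add_le x y := snorm_add_le_max q E (x : E) (y : E)
  mul_le x y := by
    show snorm q E ((x : E) * (y : E)) ≤ _
    rw [snorm_mul]
  div_p x s hx hs := by
    have hqpos : (0 : ℝ) < q := by exact_mod_cast (Fact.out : q.Prime).pos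
    have hq0 : (q : E) ≠ 0 := natCast_ne_zero q E
    have hy : snorm q E ((x : E) * (q : E)⁻¹) ≤ s := by
      rw [snorm_mul, snorm_inv, snorm_natCast_q, inv_inv]
      have := mul_le_mul_of_nonneg_right hx hqpos.le
      rwa [div_mul_cancel₀ _ hqpos.ne'] at this
    refine ⟨⟨(x : E) * (q : E)⁻¹, (mem_intRing_iff q E _).2 (le_trans hy hs)⟩, ?_, hy⟩
    apply Subtype.ext
    show (x : E) = (((q : ℕ) : intRing q E) : E) * ((x : E) * (q : E)⁻¹)
    rw [coe_natCast_intRing, mul_comm (x : E), ← mul_assoc, mul_inv_cancel₀ hq0, one_mul]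
  cancel x hx := by
    have hq0 : (q : E) ≠ 0 := natCast_ne_zero q E
    have h1 : (((q : ℕ) : intRing q E) : E) * (x : E) = 0 := by
      have := congrArg (fun z : intRing q E => (z : E)) hx
      simpa using this
    rw [coe_natCast_intRing] at h1
    exact Subtype.ext ((mul_eq_zero.1 h1).resolve_left hq0)

/-- `ballI` for the spectral norm is `Pm41.ballIdeal`. -/
theorem ballI_eq_ballIdeal (s : ℝ) :
    ballI (isPNorm_intRing q E) s = Fermat.Agent.TW.RAM.Pm41.ballIdeal q E s := by
  ext x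
  rfl

/-- `𝔪 ^ k` is contained in the ball of radius `‖π‖ ^ k`. -/
theorem pow_le_ball (π : Eˣ) (hπ : IsUniformizer q E (π : E)) (k : ℕ) :
    IsLocalRing.maximalIdeal (intRing q E) ^ k ≤
      ballI (isPNorm_intRing q E) (snorm q E (π : E) ^ k) := by
  intro x hx
  have hl0 : 0 < snorm q E (π : E) := snorm_pos q E π.ne_zero
  have hl1 : snorm q E (π : E) < 1 := snorm_uniformizer_lt_one q E _ hπ
  rw [mem_ballI _ (pow_nonneg hl0.le k)]
  show snorm q E (x : E) ≤ snorm q E (π : E) ^ k
  by_cases hx0 : (x : E) = 0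
  · rw [hx0, snorm_zero]; exact pow_nonneg hl0.le k
  · have h1 := (mem_maximalIdeal_pow_iff q E (Units.mk0 (x : E) hx0) x.2 k).1 hx
    have h2 := snorm_eq_zpow q E π hπ (Units.mk0 (x : E) hx0)
    rw [Units.val_mk0] at h2
    rw [h2, ← zpow_natCast]
    exact zpow_le_zpow_right_of_le_one₀ hl0 hl1.le h1

/-- The ball of radius `s ≤ ‖π‖ ^ k` is contained in `𝔪 ^ k`. -/
theorem ball_le_pow (π : Eˣ) (hπ : IsUniformizer q E (π : E)) (k : ℕ) {s : ℝ} (hs0 : 0 ≤ s)
    (hs : s ≤ snorm q E (π : E) ^ k) :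
    ballI (isPNorm_intRing q E) s ≤ IsLocalRing.maximalIdeal (intRing q E) ^ k := by
  intro x hx
  have hl0 : 0 < snorm q E (π : E) := snorm_pos q E π.ne_zero
  have hl1 : snorm q E (π : E) < 1 := snorm_uniformizer_lt_one q E _ hπ
  rw [mem_ballI _ hs0] at hx
  have hx' : snorm q E (x : E) ≤ snorm q E (π : E) ^ k := le_trans hx hs
  by_cases hx0 : (x : E) = 0
  · have : x = 0 := Subtype.ext hx0
    rw [this]; exact Ideal.zero_mem _
  · have h2 := snorm_eq_zpow q E π hπ (Units.mk0 (x : E) hx0)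
    rw [Units.val_mk0] at h2
    rw [h2, ← zpow_natCast] at hx'
    have h3 : (k : ℤ) ≤ ord q E (Units.mk0 (x : E) hx0) :=
      (zpow_le_zpow_iff_right_of_lt_one₀ hl0 hl1).1 hx'
    exact (mem_maximalIdeal_pow_iff q E (Units.mk0 (x : E) hx0) x.2 k).2 h3

/-- **Ball filtrations on `intRing q E` are complete `q`-Newton filtration bases.** -/
theorem isPFilBase_ball_intRing {ρ : ℝ} (h0 : 0 ≤ ρ) (hρ : (q : ℝ) * ρ ^ (q - 1) < 1) :
    IsPFilBase q (fun n => ballI (isPNorm_intRing q E) (ρ * ratio q ρ ^ n)) := by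
  have hq : q.Prime := Fact.out
  have hsep := isPFilSep_ball (isPNorm_intRing q E) hq h0 hρ
  refine ⟨hsep, ?_⟩
  rcases h0.eq_or_lt with hρ0 | hρpos
  · -- `ρ = 0`: all ideals are `⊥`
    have hbot : (fun n => ballI (isPNorm_intRing q E) (ρ * ratio q ρ ^ n)) =
        fun _ => (⊥ : Ideal (intRing q E)) := by
      funext n
      rw [← hρ0, zero_mul]
      ext x
      rw [mem_ballI _ le_rfl, Ideal.mem_bot]
      constructor
      · intro hx
        exact (isPNorm_intRing q E).eq_zero x (le_antisymm hx (snorm_nonneg q E _))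
      · rintro rfl
        exact le_of_eq (isPNorm_intRing q E).zero
    rw [hbot]
    exact isSumComplete_bot
  · obtain ⟨π, hπ⟩ := exists_isUniformizer q E
    have hl0 : 0 < snorm q E (π : E) := snorm_pos q E π.ne_zero
    have hl1 : snorm q E (π : E) < 1 := snorm_uniformizer_lt_one q E _ hπ
    have hδ0 : 0 < ratio q ρ := lt_of_lt_of_le hρpos (le_max_left _ _)
    have hδ1 : ratio q ρ < 1 := ratio_lt_one hq hρ
    have hs0 : ∀ n : ℕ, 0 < ρ * ratio q ρ ^ n := fun n => mul_pos hρpos (pow_pos hδ0 n)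
    apply isSumComplete_of_adic (IsLocalRing.maximalIdeal (intRing q E)) _ hsep.anti
    · -- cofinal with the powers of `𝔪`
      intro k
      have hlim : Filter.Tendsto (fun n : ℕ => ρ * ratio q ρ ^ n) Filter.atTop (nhds (ρ * 0)) :=
        (tendsto_pow_atTop_nhds_zero_of_lt_one hδ0.le hδ1).const_mul ρ
      rw [mul_zero] at hlim
      have hev := (hlim.eventually (gt_mem_nhds (pow_pos hl0 k))).exists
      obtain ⟨n, hn⟩ := hev
      exact ⟨n, ball_le_pow q E π hπ k (hs0 n).le hn.le⟩
    · -- open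
      intro n
      have hlim : Filter.Tendsto (fun K : ℕ => snorm q E (π : E) ^ K) Filter.atTop (nhds 0) :=
        tendsto_pow_atTop_nhds_zero_of_lt_one hl0.le hl1
      obtain ⟨K, hK⟩ := (hlim.eventually (gt_mem_nhds (hs0 n))).exists
      exact ⟨K, le_trans (pow_le_ball q E π hπ K) (ballI_mono _ hK.le)⟩

end

end Fermat.Agent.TW.FF.BallLoc92
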