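/-
TW / WP7c-core (helper92).  Filtrations on the convolution algebra `Hom_R(H, S)`.

For a coalgebra `H` over `R`, an `R`-algebra `S` and an ideal `I` of `S`, the linear maps
`H → S` with values in `I` form an ideal `fil I` of the convolution ring
`WithConv (H →ₗ[R] S)`, and `fil I * fil I' ≤ fil (I * I')`.  If `H` is free over `R`, a
`p`-Newton filtration base `J` on `S` induces a complete `p`-Newton filtration
`fun n => fil (J n)` on the convolution ring.

Also: the ring homomorphisms between convolution rings induced by algebra maps of the target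
and coalgebra maps of the source, and the multiplicative map `f ↦ μ ∘ (f ⊗ f)`.
-/
import Mathlib
import Fermat.Agent.TW.FF.PFil92

namespace Fermat.Agent.TW.FF.ConvFil92

open TensorProduct WithConv Coalgebra
open Fermat.Agent.TW.FF.PFil92

section Fil

variable {R : Type*} [CommRing R] {H : Type*} [AddCommGroup H] [Module R H] [Coalgebra R H]
variable {S : Type*} [CommRing S] [Algebra R S]

omit [Coalgebra R H] in
theorem mul'_map_mem {I I' : Ideal S} {a b : H →ₗ[R] S} (ha : ∀ h, a h ∈ I)
    (hb : ∀ h, b h ∈ I') (x : H ⊗[R] H) :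
    LinearMap.mul' R S (TensorProduct.map a b x) ∈ I * I' := by
  induction x using TensorProduct.induction_on with
  | zero => simp
  | tmul h h' => simpa using Ideal.mul_mem_mul (ha h) (hb h')
  | add x y hx hy => rw [map_add, map_add]; exact Ideal.add_mem _ hx hy

/-- Linear maps with values in the ideal `I`, as a (left) ideal of the convolution ring. -/
def fil (I : Ideal S) : Ideal (WithConv (H →ₗ[R] S)) where
  carrier := {f | ∀ h, f.ofConv h ∈ I}
  add_mem' {f g} hf hg h := by
    simpa using I.add_mem (hf h) (hg h)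
  zero_mem' h := by simp
  smul_mem' c f hf h := by
    have := mul'_map_mem (I := ⊤) (I' := I) (a := c.ofConv) (b := f.ofConv)
      (fun _ => Submodule.mem_top) hf (comul h)
    rw [Ideal.top_mul] at this
    exact this

theorem mem_fil {I : Ideal S} {f : WithConv (H →ₗ[R] S)} :
    f ∈ fil I ↔ ∀ h, f.ofConv h ∈ I := Iff.rfl

theorem fil_mono {I I' : Ideal S} (h : I ≤ I') :
    (fil I : Ideal (WithConv (H →ₗ[R] S))) ≤ fil I' :=
  fun _ hf x => h (hf x)

theorem mul_mem_fil {I I' : Ideal S} {f g : WithConv (H →ₗ[R] S)} (hf : f ∈ fil I)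
    (hg : g ∈ fil I') : f * g ∈ fil (I * I') :=
  fun h => mul'_map_mem hf hg (comul h)

theorem one_mem_fil_top : (1 : WithConv (H →ₗ[R] S)) ∈ fil (⊤ : Ideal S) :=
  fun _ => Submodule.mem_top

theorem pow_mem_fil {I : Ideal S} {f : WithConv (H →ₗ[R] S)} (hf : f ∈ fil I) (n : ℕ) :
    f ^ n ∈ fil (I ^ n) := by
  induction n with
  | zero => rw [pow_zero, pow_zero, Ideal.one_eq_top]; exact one_mem_fil_top
  | succ n ih => rw [pow_succ, pow_succ]; exact mul_mem_fil ih hf

theorem natCast_mul_apply (p : ℕ) (f : WithConv (H →ₗ[R] S)) (h : H) :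
    (((p : WithConv (H →ₗ[R] S)) * f)).ofConv h = (p : S) * f.ofConv h := by
  rw [← nsmul_eq_mul, ofConv_smul, LinearMap.smul_apply, nsmul_eq_mul]

/-- To check that a linear map has values in `I`, it suffices to check it on a basis. -/
theorem mem_fil_of_basis {ι : Type*} (b : Module.Basis ι R H) {I : Ideal S}
    {f : WithConv (H →ₗ[R] S)} (hf : ∀ i, f.ofConv (b i) ∈ I) : f ∈ fil I := by
  intro h
  have hle : Submodule.span R (Set.range b) ≤ (I.restrictScalars R).comap f.ofConv := by
    rw [Submodule.span_le]
    rintro _ ⟨i, rfl⟩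
    exact hf i
  have : h ∈ Submodule.span R (Set.range b) := by rw [b.span_eq]; exact Submodule.mem_top
  exact hle this

/-- Division by `p` in the convolution ring. -/
theorem exists_eq_natCast_mul [Module.Free R H] (p : ℕ) {I : Ideal S}
    {f : WithConv (H →ₗ[R] S)} (hf : f ∈ fil (Ideal.span {(p : S)} * I)) :
    ∃ f' ∈ (fil I : Ideal (WithConv (H →ₗ[R] S))), f = (p : WithConv (H →ₗ[R] S)) * f' := by
  classical
  let b := Module.Free.chooseBasis R H
  have hex : ∀ i, ∃ y ∈ I, (p : S) * y = f.ofConv (b i) := fun i =>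
    Ideal.mem_span_singleton_mul.1 (hf (b i))
  choose y hyI hy using hex
  refine ⟨toConv (b.constr ℕ y), mem_fil_of_basis b (fun i => ?_), ?_⟩
  · simpa using hyI i
  · apply WithConv.ext
    apply b.ext
    intro i
    rw [natCast_mul_apply]
    simp [hy i]

theorem isSumComplete_fil [IsCocomm R H] [Module.Free R H] {J : ℕ → Ideal S} (hJ : IsSumComplete J) :
    IsSumComplete (fun n => (fil (J n) : Ideal (WithConv (H →ₗ[R] S)))) := by
  classical
  intro c hc
  let b := Module.Free.chooseBasis R H
  have hex : ∀ i, ∃ L : S, ∀ n, L - ∑ k ∈ Finset.range n, (c k).ofConv (b i) ∈ J n := fun i =>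
    hJ (fun k => (c k).ofConv (b i)) (fun n => hc n (b i))
  choose L hL using hex
  refine ⟨toConv (b.constr ℕ L), fun n => mem_fil_of_basis b (fun i => ?_)⟩
  have := hL i n
  simpa [LinearMap.sum_apply] using this

theorem isPFil_fil [IsCocomm R H] [Module.Free R H] {p : ℕ} {J : ℕ → Ideal S}
    (hJ : IsPFilSep p J) :
    IsPFil p (fun n => (fil (J n) : Ideal (WithConv (H →ₗ[R] S)))) where
  anti := fun _ _ hmn => fil_mono (hJ.anti hmn)
  mul_mem n x y hx hy := fil_mono (hJ.mul_le n) (mul_mem_fil hx hy)
  pow_mem n y hy := by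
    obtain ⟨y', hy', e⟩ := exists_eq_natCast_mul p (fil_mono (hJ.pow_le n) (pow_mem_fil hy p))
    exact ⟨y', hy', e⟩
  cancel x hx := by
    apply WithConv.ext
    ext h
    have := congrArg (fun g : WithConv (H →ₗ[R] S) => g.ofConv h) hx
    simp only [natCast_mul_apply] at this
    exact hJ.cancel _ this
  sep x hx := by
    apply WithConv.ext
    ext h
    exact hJ.sep _ (fun n => hx n h)

end Fil

section Functoriality

variable {R : Type*} [CommRing R]
variable {H : Type*} [AddCommGroup H] [Module R H] [Coalgebra R H]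
variable {H' : Type*} [AddCommGroup H'] [Module R H'] [Coalgebra R H']
variable {S : Type*} [CommRing S] [Algebra R S] {T : Type*} [CommRing T] [Algebra R T]

/-- Post-composition with an algebra map is a ring homomorphism of convolution rings. -/
noncomputable def postComp (φ : S →ₐ[R] T) : WithConv (H →ₗ[R] S) →+* WithConv (H →ₗ[R] T) where
  toFun f := toConv (φ.toLinearMap ∘ₗ f.ofConv)
  map_one' := by
    apply WithConv.ext
    ext h
    simp [LinearMap.convOne_def]
  map_mul' f g := by
    apply WithConv.ext
    exact LinearMap.algHom_comp_convMul_distrib φ f g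
  map_zero' := by
    apply WithConv.ext
    simp
  map_add' f g := by
    apply WithConv.ext
    simp [LinearMap.comp_add]

@[simp] theorem postComp_apply (φ : S →ₐ[R] T) (f : WithConv (H →ₗ[R] S)) (h : H) :
    (postComp φ f).ofConv h = φ (f.ofConv h) := rfl

/-- Pre-composition with a coalgebra map is a ring homomorphism of convolution rings. -/
noncomputable def preComp (ψ : H' →ₗc[R] H) : WithConv (H →ₗ[R] S) →+* WithConv (H' →ₗ[R] S) where
  toFun f := toConv (f.ofConv ∘ₗ ψ.toLinearMap)
  map_one' := by
    apply WithConv.ext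
    ext h
    simp [LinearMap.convOne_def]
  map_mul' f g := by
    apply WithConv.ext
    exact LinearMap.convMul_comp_coalgHom_distrib f g ψ
  map_zero' := by
    apply WithConv.ext
    simp
  map_add' f g := by
    apply WithConv.ext
    simp [LinearMap.add_comp]

@[simp] theorem preComp_apply (ψ : H' →ₗc[R] H) (f : WithConv (H →ₗ[R] S)) (h : H') :
    (preComp ψ f).ofConv h = f.ofConv (ψ h) := rfl

/-- The multiplicative map `f ↦ μ ∘ (f ⊗ f)` from `Hom(H, S)` to `Hom(H ⊗ H, S)`. -/
noncomputable def tensorSq : WithConv (H →ₗ[R] S) →* WithConv (H ⊗[R] H →ₗ[R] S) where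
  toFun f := postComp (Algebra.TensorProduct.lmul' R (S := S))
    (toConv (TensorProduct.map f.ofConv f.ofConv))
  map_one' := by
    apply WithConv.ext
    ext h h'
    simp [LinearMap.convOne_def, mul_comm]
  map_mul' f g := by
    rw [← map_mul]
    congr 1
    exact (TensorProduct.map_convMul_map (f := f) (h := g) (g := f) (k := g)).symm

@[simp] theorem tensorSq_tmul (f : WithConv (H →ₗ[R] S)) (h h' : H) :
    (tensorSq f).ofConv (h ⊗ₜ[R] h') = f.ofConv h * f.ofConv h' := by
  simp [tensorSq]

end Functoriality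

end Fermat.Agent.TW.FF.ConvFil92
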