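/-
TW / WP7c-core (helper92).  Fontaine's lifting lemma for points of finite flat group schemes
killed by `p`, in convolution-algebra form.

Setting: `H` a commutative, cocommutative bialgebra (e.g. Hopf algebra), free as a module over
`R`, killed by `p` (the `p`-th convolution power of `id_H` is the unit `η ∘ ε`); `S` a
commutative `R`-algebra with a `p`-Newton filtration base `J` (`IsPFilBase p J`; model:
`S = O_E` complete, `J n = {v ≥ t + n δ}`, `t > v(p)/(p-1)`).  Write `G(T) = Hom_{R-alg}(H, T)`.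

* `algHom_ext_of_sub_mem` : `G(S) → G(S / J 0)` is injective.
* `exists_lift_of_approx`  : every `R`-linear `u : H → S` which is an algebra map modulo
  `p * J 0` is congruent modulo `J 0` to a (unique) algebra map `g : H → S`.
* `exists_lift_of_quotient`: `im (G(S / p J 0) → G(S / J 0)) ⊆ im (G(S) → G(S / J 0))`.

This is the core of the proof of Fontaine's ramification bound (Fontaine 1985, section 2): the
lift is `g = u * (u ^ p) ^ (-1/p)`, computed in the convolution algebra `Hom_R(H, S)`.
-/
import Mathlib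
import Fermat.Agent.TW.FF.ConvFil92

namespace Fermat.Agent.TW.FF.LiftGroupLike92

open TensorProduct WithConv Coalgebra
open Fermat.Agent.TW.FF.PFil92 Fermat.Agent.TW.FF.ConvFil92

variable {R : Type*} [CommRing R] {H : Type*} [CommRing H] [Bialgebra R H]
variable {S : Type*} [CommRing S] [Algebra R S]

/-- `H` is killed by `n`: the `n`-th convolution power of the universal point `id_H` is trivial. -/
def IsKilledBy (R : Type*) [CommRing R] (H : Type*) [CommRing H] [Bialgebra R H] (n : ℕ) : Prop :=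
  (toConv (AlgHom.id R H)) ^ n = 1

section Basic

theorem convMul_apply_one (f g : WithConv (H →ₗ[R] S)) :
    (f * g).ofConv 1 = f.ofConv 1 * g.ofConv 1 := by
  rw [LinearMap.convMul_apply, Bialgebra.comul_one]
  simp [Algebra.TensorProduct.one_def]

theorem convOne_apply_one : (1 : WithConv (H →ₗ[R] S)).ofConv 1 = 1 := by
  simp [LinearMap.convOne_def]

theorem convPow_apply_one (f : WithConv (H →ₗ[R] S)) (n : ℕ) :
    (f ^ n).ofConv 1 = (f.ofConv 1) ^ n := by
  induction n with
  | zero => rw [pow_zero, pow_zero, convOne_apply_one]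
  | succ n ih => rw [pow_succ, pow_succ, convMul_apply_one, ih]

/-- If `H` is killed by `n`, every point of `H` is killed by `n` (in the linear convolution
ring). -/
theorem IsKilledBy.algHom_pow {n : ℕ} (hk : IsKilledBy R H n) (g : H →ₐ[R] S) :
    (toConv g.toLinearMap) ^ n = 1 := by
  have h1 : (toConv (LinearMap.id : H →ₗ[R] H)) ^ n = 1 := by
    have := AlgHom.toLinearMap_convPow (toConv (AlgHom.id R H)) n
    rw [show (toConv (AlgHom.id R H)) ^ n = 1 from hk] at this
    rw [AlgHom.toLinearMap_convOne] at this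
    exact this.symm
  have h2 : toConv g.toLinearMap = postComp g (toConv (LinearMap.id : H →ₗ[R] H)) := by
    apply WithConv.ext
    ext h
    simp
  rw [h2, ← map_pow, h1, map_one]

/-- If `H` is killed by `n`, every point of `H` is killed by `n` (in the group of points). -/
theorem IsKilledBy.algHom_pow' {n : ℕ} (hk : IsKilledBy R H n) (g : H →ₐ[R] S) :
    (toConv g) ^ n = 1 := by
  apply WithConv.ofConv_injective
  apply AlgHom.toLinearMap_injective
  apply WithConv.toConv_injective
  rw [AlgHom.toLinearMap_convPow, AlgHom.toLinearMap_convOne]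
  exact hk.algHom_pow g

theorem mem_fil_of_tmul {I : Ideal S} {f : WithConv (H ⊗[R] H →ₗ[R] S)}
    (hf : ∀ h h', f.ofConv (h ⊗ₜ[R] h') ∈ I) : f ∈ fil I := by
  intro x
  induction x using TensorProduct.induction_on with
  | zero => simp
  | tmul h h' => exact hf h h'
  | add x y hx hy => rw [map_add]; exact I.add_mem hx hy

end Basic

variable [IsCocomm R H] [Module.Free R H]
variable {p : ℕ} {J : ℕ → Ideal S}

/-- **Injectivity of reduction**, pointwise form: two points which are killed by `p` and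
congruent modulo `J 0` are equal. -/
theorem algHom_ext_of_sub_mem_of_pow (hp : p.Prime) (hJ : IsPFilSep p J) (g g' : H →ₐ[R] S)
    (hg : (toConv g.toLinearMap) ^ p = 1) (hg' : (toConv g'.toLinearMap) ^ p = 1)
    (h : ∀ x, g x - g' x ∈ J 0) : g = g' := by
  have hfil := isPFil_fil (R := R) (H := H) hJ
  have : toConv g.toLinearMap = toConv g'.toLinearMap :=
    hfil.eq_of_pow_eq_one hp (fun x => by simpa using h x) hg hg'
  exact AlgHom.toLinearMap_injective (WithConv.toConv_injective this)

/-- **Injectivity of reduction** `G(S) → G(S / J 0)` for `H` killed by `p`. -/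
theorem algHom_ext_of_sub_mem (hp : p.Prime) (hJ : IsPFilSep p J) (hk : IsKilledBy R H p)
    (g g' : H →ₐ[R] S) (h : ∀ x, g x - g' x ∈ J 0) : g = g' :=
  algHom_ext_of_sub_mem_of_pow hp hJ g g' (hk.algHom_pow g) (hk.algHom_pow g') h

/-- **Fontaine's lifting lemma**, approximate-homomorphism form: an `R`-linear map `u : H → S`
which is unital and multiplicative modulo `p * J 0` is congruent modulo `J 0` to an `R`-algebra
homomorphism. -/
theorem exists_lift_of_approx (hp : p.Prime) (hJ : IsPFilBase p J) (hk : IsKilledBy R H p)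
    (u : H →ₗ[R] S) (hu1 : u 1 - 1 ∈ Ideal.span {(p : S)} * J 0)
    (humul : ∀ a b, u (a * b) - u a * u b ∈ Ideal.span {(p : S)} * J 0) :
    ∃ g : H →ₐ[R] S, ∀ h, g h - u h ∈ J 0 := by
  classical
  set I : Ideal S := Ideal.span {(p : S)} * J 0 with hI
  have hIJ : I ≤ J 0 := Ideal.mul_le_right
  have hfil := isPFil_fil (R := R) (H := H) hJ.toIsPFilSep
  have hcpl := isSumComplete_fil (R := R) (H := H) hJ.complete
  -- the reduction of `u` modulo `I` is an algebra map
  let π : S →ₐ[R] S ⧸ I := Ideal.Quotient.mkₐ R I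
  have hπ : ∀ x, π x = 0 ↔ x ∈ I := fun x => Ideal.Quotient.eq_zero_iff_mem
  have hπ1 : π (u 1) = 1 := by
    have : π (u 1 - 1) = 0 := (hπ _).2 hu1
    rw [map_sub, sub_eq_zero] at this
    rw [this]
    exact map_one π
  have hπmul : ∀ a b, π (u (a * b)) = π (u a) * π (u b) := fun a b => by
    have : π (u (a * b) - u a * u b) = 0 := (hπ _).2 (humul a b)
    rw [map_sub, sub_eq_zero] at this
    rw [this]
    exact map_mul π _ _
  let gbar : H →ₐ[R] S ⧸ I := AlgHom.ofLinearMap (π.toLinearMap ∘ₗ u) hπ1 hπmul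
  let U : WithConv (H →ₗ[R] S) := toConv u
  have hUbar : postComp π U = toConv gbar.toLinearMap := by
    apply WithConv.ext
    ext h
    rfl
  -- `U ^ p ≡ 1` modulo `I`
  have hUp : U ^ p - 1 ∈ (fil I : Ideal (WithConv (H →ₗ[R] S))) := by
    intro h
    rw [← hπ]
    have : postComp π (U ^ p - 1) = 0 := by
      rw [map_sub, map_pow, map_one, hUbar, hk.algHom_pow gbar, sub_self]
    have h2 : (postComp π (U ^ p - 1)).ofConv h = 0 := by rw [this]; rfl
    exact h2
  obtain ⟨c, hc, hce⟩ := exists_eq_natCast_mul p hUp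
  have hUp' : U ^ p = 1 + (p : WithConv (H →ₗ[R] S)) * c := by rw [← hce]; ring
  obtain ⟨G, hGU, hGp⟩ := hfil.exists_pow_eq_one hp hcpl hc hUp'
  have hGU' : ∀ h, G.ofConv h - u h ∈ J 0 := fun h => by simpa using hGU h
  -- `G 1 = 1`
  have hG1 : G.ofConv 1 = 1 := by
    apply hJ.isPFil.eq_one_of_pow_eq_one hp
    · have e : G.ofConv 1 - 1 = (G.ofConv 1 - u 1) + (u 1 - 1) := by ring
      rw [e]
      exact (J 0).add_mem (hGU' 1) (hIJ hu1)
    · rw [← convPow_apply_one, hGp, convOne_apply_one]
  -- `G` is multiplicative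
  have hfil₂ := isPFil_fil (R := R) (H := H ⊗[R] H) hJ.toIsPFilSep
  have hAB : preComp (Bialgebra.mulCoalgHom R H) G = tensorSq G := by
    apply hfil₂.eq_of_pow_eq_one hp
    · apply mem_fil_of_tmul
      intro h h'
      have e : (preComp (Bialgebra.mulCoalgHom R H) G - tensorSq G).ofConv (h ⊗ₜ[R] h') =
          (G.ofConv (h * h') - u (h * h')) + (u (h * h') - u h * u h') -
            ((G.ofConv h - u h) * u h' + G.ofConv h * (G.ofConv h' - u h')) := by
        rw [ofConv_sub, LinearMap.sub_apply, preComp_apply, tensorSq_tmul]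
        simp only [Bialgebra.coe_mulCoalgHom, LinearMap.mul'_apply]
        ring
      rw [e]
      exact (J 0).sub_mem ((J 0).add_mem (hGU' _) (hIJ (humul h h')))
        ((J 0).add_mem ((J 0).mul_mem_right _ (hGU' h)) ((J 0).mul_mem_left _ (hGU' h')))
    · rw [← map_pow, hGp, map_one]
    · rw [← map_pow, hGp, map_one]
  have hGmul : ∀ a b, G.ofConv (a * b) = G.ofConv a * G.ofConv b := by
    intro a b
    have := congrArg (fun f : WithConv (H ⊗[R] H →ₗ[R] S) => f.ofConv (a ⊗ₜ[R] b)) hAB
    simpa using this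
  exact ⟨AlgHom.ofLinearMap G.ofConv hG1 hGmul, fun h => hGU' h⟩

/-- **Fontaine's lifting lemma**, unique existence. -/
theorem existsUnique_lift_of_approx (hp : p.Prime) (hJ : IsPFilBase p J)
    (hk : IsKilledBy R H p) (u : H →ₗ[R] S) (hu1 : u 1 - 1 ∈ Ideal.span {(p : S)} * J 0)
    (humul : ∀ a b, u (a * b) - u a * u b ∈ Ideal.span {(p : S)} * J 0) :
    ∃! g : H →ₐ[R] S, ∀ h, g h - u h ∈ J 0 := by
  obtain ⟨g, hg⟩ := exists_lift_of_approx hp hJ hk u hu1 humul
  refine ⟨g, hg, fun g' hg' => ?_⟩
  apply algHom_ext_of_sub_mem hp hJ.toIsPFilSep hk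
  intro x
  have e : g' x - g x = (g' x - u x) - (g x - u x) := by ring
  rw [e]
  exact (J 0).sub_mem (hg' x) (hg x)

/-- **Fontaine's lifting lemma**, quotient form: every point of `H` with values in
`S / p J 0` has the same image in `S / J 0` as a (unique) point with values in `S`. -/
theorem exists_lift_of_quotient (hp : p.Prime) (hJ : IsPFilBase p J) (hk : IsKilledBy R H p)
    (gbar : H →ₐ[R] S ⧸ (Ideal.span {(p : S)} * J 0)) :
    ∃ g : H →ₐ[R] S, ∀ h, Ideal.Quotient.mk (J 0) (g h) =
      Ideal.Quotient.factor (Ideal.mul_le_right : Ideal.span {(p : S)} * J 0 ≤ J 0) (gbar h) := by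
  classical
  obtain ⟨u, hu⟩ := Module.projective_lifting_property
    (Ideal.Quotient.mkₐ R (Ideal.span {(p : S)} * J 0)).toLinearMap gbar.toLinearMap
    Ideal.Quotient.mk_surjective
  have hu' : ∀ h, Ideal.Quotient.mk (Ideal.span {(p : S)} * J 0) (u h) = gbar h :=
    fun h => LinearMap.congr_fun hu h
  have hu1 : u 1 - 1 ∈ Ideal.span {(p : S)} * J 0 := by
    rw [← Ideal.Quotient.eq, hu' 1, map_one gbar, RingHom.map_one]
  have humul : ∀ a b, u (a * b) - u a * u b ∈ Ideal.span {(p : S)} * J 0 := fun a b => by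
    rw [← Ideal.Quotient.eq, hu' (a * b), map_mul gbar, RingHom.map_mul, hu' a, hu' b]
  obtain ⟨g, hg⟩ := exists_lift_of_approx hp hJ hk u hu1 humul
  refine ⟨g, fun h => ?_⟩
  rw [← hu' h, Ideal.Quotient.factor_mk, Ideal.Quotient.eq]
  exact hg h

/-- **Transport of points** (algebraic core of Fontaine's property `(P_m)`).  Let `S₁`, `S` be
two `R`-algebras with `p`-Newton filtration bases `J₁`, `J`, and let
`η : S₁ → S / p J 0` be an `R`-algebra map such that the kernel of `S₁ → S / J 0` is contained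
in `J₁ 0` ("`η` preserves small valuations").  Then there is an injective map
`G(S₁) → G(S)` compatible with `η` modulo `J 0`. -/
theorem exists_injective_of_algHom {S₁ : Type*} [CommRing S₁] [Algebra R S₁] {J₁ : ℕ → Ideal S₁}
    (hp : p.Prime) (hJ₁ : IsPFilSep p J₁) (hJ : IsPFilBase p J) (hk : IsKilledBy R H p)
    (η : S₁ →ₐ[R] S ⧸ (Ideal.span {(p : S)} * J 0))
    (hη : ∀ x : S₁, Ideal.Quotient.factor
      (Ideal.mul_le_right : Ideal.span {(p : S)} * J 0 ≤ J 0) (η x) = 0 → x ∈ J₁ 0) :
    ∃ f : (H →ₐ[R] S₁) → (H →ₐ[R] S), Function.Injective f ∧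
      ∀ g h, Ideal.Quotient.mk (J 0) (f g h) = Ideal.Quotient.factor
        (Ideal.mul_le_right : Ideal.span {(p : S)} * J 0 ≤ J 0) (η (g h)) := by
  classical
  have hex : ∀ g : H →ₐ[R] S₁, ∃ g' : H →ₐ[R] S, ∀ h, Ideal.Quotient.mk (J 0) (g' h) =
      Ideal.Quotient.factor (Ideal.mul_le_right : Ideal.span {(p : S)} * J 0 ≤ J 0)
        (η (g h)) := fun g => exists_lift_of_quotient hp hJ hk (η.comp g)
  choose f hf using hex
  refine ⟨f, fun g g' hgg' => ?_, hf⟩
  apply algHom_ext_of_sub_mem hp hJ₁ hk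
  intro x
  apply hη
  rw [map_sub, map_sub, sub_eq_zero, ← hf g x, ← hf g' x, hgg']

end Fermat.Agent.TW.FF.LiftGroupLike92
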