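/-
TW / WP7 B3 (helper92).  Ring homomorphisms `η : 𝒪_L → 𝒪_F / {‖x‖ ≤ r}` (`r < 1/q`) preserve
norms bigger than `r` (PT/LOC model of `q`-adic fields).

* `snorm_eq_of_sub_lt`  : ultrametric principle `‖a - b‖ < ‖b‖ → ‖a‖ = ‖b‖`.
* `snorm_lift_eq`       : if `η x = mk y` and `r < ‖x‖` then `‖y‖ = ‖x‖`.
* `snorm_le_of_lift_le` : if `η x = mk y`, `r ≤ ρ` and `‖y‖ ≤ ρ` then `‖x‖ ≤ ρ`.
-/
import Mathlib
import Fermat.Agent.PT.LOC.Interface12
import Fermat.Agent.PT.LOC.Structure14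
import Fermat.Agent.PT.LOC.StructureNorm14
import Fermat.Agent.PT.LOC.StructureTower27
import Fermat.Agent.PT.LOC.RootsUnity14
import Fermat.Agent.TW.RAM.Pm41

set_option autoImplicit false
set_option linter.unusedSectionVars false

open scoped Fermat.Agent.PT.LOC.Interface12
open Fermat.Agent.PT.LOC.Interface12 Fermat.Agent.PT.LOC.Structure14
  Fermat.Agent.PT.LOC.StructureNorm14 Fermat.Agent.PT.LOC.StructureTower27
  Fermat.Agent.PT.LOC.RootsUnity14 Fermat.Agent.TW.RAM.Pm41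

namespace Fermat.Agent.TW.FF.ValPres92

noncomputable section

variable (q : ℕ) [Fact q.Prime]

section Ultra

variable (E : Type) [Field E] [Algebra ℚ_[q] E] [FiniteDimensional ℚ_[q] E]

/-- Ultrametric principle. -/
theorem snorm_eq_of_sub_lt {a b : E} (h : snorm q E (a - b) < snorm q E b) :
    snorm q E a = snorm q E b := by
  apply le_antisymm
  · have h1 := snorm_add_le_max q E (a - b) b
    rw [sub_add_cancel] at h1
    exact le_trans h1 (max_le h.le le_rfl)
  · by_contra hlt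
    rw [not_le] at hlt
    have h1 := snorm_sub_le_max q E a (a - b)
    rw [sub_sub_cancel] at h1
    have h2 : max (snorm q E a) (snorm q E (a - b)) < snorm q E b := max_lt hlt h
    exact absurd h1 (not_le.2 h2)

/-- Units of the ring of integers have norm `1`. -/
theorem snorm_unit (w : (intRing q E)ˣ) : snorm q E ((w : intRing q E) : E) = 1 := by
  have h1 : snorm q E ((w : intRing q E) : E) ≤ 1 := (mem_intRing_iff q E _).1 (w : intRing q E).2
  have h2 : snorm q E (((w⁻¹ : (intRing q E)ˣ) : intRing q E) : E) ≤ 1 :=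
    (mem_intRing_iff q E _).1 ((w⁻¹ : (intRing q E)ˣ) : intRing q E).2
  have h3 : ((w : intRing q E) : E) * (((w⁻¹ : (intRing q E)ˣ) : intRing q E) : E) = 1 := by
    rw [← MulMemClass.coe_mul, Units.mul_inv, OneMemClass.coe_one]
  have h4 := snorm_mul q E ((w : intRing q E) : E) (((w⁻¹ : (intRing q E)ˣ) : intRing q E) : E)
  rw [h3, snorm_one] at h4
  have hn1 := snorm_nonneg q E ((w : intRing q E) : E)
  have hn2 := snorm_nonneg q E (((w⁻¹ : (intRing q E)ˣ) : intRing q E) : E)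
  nlinarith

end Ultra

variable (L F : Type) [Field L] [Field F] [Algebra ℚ_[q] L] [Algebra ℚ_[q] F]
  [FiniteDimensional ℚ_[q] L] [FiniteDimensional ℚ_[q] F]

variable {q L F}

/-- Lifts of images of units are units. -/
theorem snorm_lift_unit {r : ℝ} (hr0 : 0 ≤ r) (hr1 : r < 1)
    (η : intRing q L →+* (intRing q F ⧸ ballIdeal q F r)) (w : (intRing q L)ˣ)
    (y : intRing q F) (hy : η w = Ideal.Quotient.mk _ y) : snorm q F (y : F) = 1 := by
  obtain ⟨y', hy'⟩ := Ideal.Quotient.mk_surjective (η ((w⁻¹ : (intRing q L)ˣ) : intRing q L))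
  have h1 : Ideal.Quotient.mk (ballIdeal q F r) (y * y') = Ideal.Quotient.mk _ 1 := by
    rw [map_mul, ← hy, hy', ← map_mul, Units.mul_inv, map_one, map_one]
  rw [Ideal.Quotient.eq, mem_ballIdeal q F hr0] at h1
  have h2 : snorm q F (((y * y' - 1 : intRing q F) : F)) < snorm q F (1 : F) := by
    rw [snorm_one]; exact lt_of_le_of_lt h1 hr1
  have h3 : snorm q F ((y : F) * (y' : F)) = 1 := by
    have := snorm_eq_of_sub_lt q F (a := (y : F) * (y' : F)) (b := 1) (by simpa using h2)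
    rw [this, snorm_one]
  rw [snorm_mul] at h3
  have hy1 : snorm q F (y : F) ≤ 1 := (mem_intRing_iff q F _).1 y.2
  have hy'1 : snorm q F (y' : F) ≤ 1 := (mem_intRing_iff q F _).1 y'.2
  have hn1 := snorm_nonneg q F (y : F)
  have hn2 := snorm_nonneg q F (y' : F)
  nlinarith

/-- **Norm preservation**: if `η x = mk y` and `r < ‖x‖` then `‖y‖ = ‖x‖`. -/
theorem snorm_lift_eq {r : ℝ} (hr0 : 0 ≤ r) (hr1 : r < (q : ℝ)⁻¹)
    (η : intRing q L →+* (intRing q F ⧸ ballIdeal q F r)) (x : intRing q L)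
    (y : intRing q F) (hy : η x = Ideal.Quotient.mk _ y) (hx : r < snorm q L (x : L)) :
    snorm q F (y : F) = snorm q L (x : L) := by
  have hq : q.Prime := Fact.out
  have hqpos : (0 : ℝ) < q := by exact_mod_cast hq.pos
  have hq1 : (1 : ℝ) < q := by exact_mod_cast hq.one_lt
  have hr1' : r < 1 := lt_trans hr1 (inv_lt_one_of_one_lt₀ hq1)
  -- a uniformizer of `𝒪_L`
  obtain ⟨ϖ, hϖ⟩ := IsDiscreteValuationRing.exists_irreducible (intRing q L)
  have hϖ0 : (ϖ : L) ≠ 0 := fun h => hϖ.ne_zero (Subtype.ext h)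
  set lam := snorm q L (ϖ : L) with hlam
  have hlam0 : 0 < lam := snorm_pos q L hϖ0
  obtain ⟨yϖ, hyϖ⟩ := Ideal.Quotient.mk_surjective (η ϖ)
  -- general principle: for `z = w * ϖ^n` and any lift `t` of `η z`, if `r < ‖yϖ‖^n` then
  -- `‖t‖ = ‖yϖ‖^n`
  have hgen : ∀ (w : (intRing q L)ˣ) (n : ℕ) (t : intRing q F),
      η ((w : intRing q L) * ϖ ^ n) = Ideal.Quotient.mk _ t →
      r < snorm q F (yϖ : F) ^ n → snorm q F (t : F) = snorm q F (yϖ : F) ^ n := by
    intro w n t ht hrn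
    obtain ⟨yw, hyw⟩ := Ideal.Quotient.mk_surjective (η (w : intRing q L))
    have hyw1 : snorm q F (yw : F) = 1 := snorm_lift_unit hr0 hr1' η w yw hyw.symm
    have h1 : Ideal.Quotient.mk (ballIdeal q F r) t = Ideal.Quotient.mk _ (yw * yϖ ^ n) := by
      rw [← ht, map_mul, map_pow, map_mul, map_pow, hyw, hyϖ]
    rw [Ideal.Quotient.eq, mem_ballIdeal q F hr0] at h1
    have h2 : snorm q F ((yw : F) * (yϖ : F) ^ n) = snorm q F (yϖ : F) ^ n := by
      rw [snorm_mul, hyw1, one_mul, snorm_pow]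
    have h3 : snorm q F ((t : F) - (yw : F) * (yϖ : F) ^ n) <
        snorm q F ((yw : F) * (yϖ : F) ^ n) := by
      rw [h2]
      refine lt_of_le_of_lt ?_ hrn
      simpa using h1
    rw [snorm_eq_of_sub_lt q F h3, h2]
  -- `q = u * ϖ^e`
  have hq0 : ((q : ℕ) : intRing q L) ≠ 0 := by
    intro h
    have h1 : (((q : ℕ) : intRing q L) : L) = 0 := by rw [h]; rfl
    have h2 : (q : L) = 0 := by simpa using h1
    have := snorm_natCast_q q L
    rw [h2, snorm_zero] at this
    have : (0 : ℝ) < (q : ℝ)⁻¹ := inv_pos.2 hqpos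
    linarith
  obtain ⟨e, u, hu⟩ := IsDiscreteValuationRing.eq_unit_mul_pow_irreducible hq0 hϖ
  have hqL : snorm q L (((q : ℕ) : intRing q L) : L) = (q : ℝ)⁻¹ := by
    have : (((q : ℕ) : intRing q L) : L) = (q : L) := by simp
    rw [this, snorm_natCast_q]
  have hqF : snorm q F (((q : ℕ) : intRing q F) : F) = (q : ℝ)⁻¹ := by
    have : (((q : ℕ) : intRing q F) : F) = (q : F) := by simp
    rw [this, snorm_natCast_q]
  -- `‖ϖ‖^e = 1/q`
  have hlame : lam ^ e = (q : ℝ)⁻¹ := by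
    have h1 : snorm q L (((q : ℕ) : intRing q L) : L) =
        snorm q L (((u : intRing q L) * ϖ ^ e : intRing q L) : L) := by rw [← hu]
    rw [hqL] at h1
    have h2 : snorm q L (((u : intRing q L) * ϖ ^ e : intRing q L) : L) = lam ^ e := by
      have : (((u : intRing q L) * ϖ ^ e : intRing q L) : L) =
          ((u : intRing q L) : L) * (ϖ : L) ^ e := by simp
      rw [this, snorm_mul, snorm_unit q L u, one_mul, snorm_pow]
    rw [h2] at h1
    exact h1.symm
  have he0 : e ≠ 0 := by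
    intro h
    rw [h, pow_zero] at hlame
    have : (q : ℝ)⁻¹ < 1 := inv_lt_one_of_one_lt₀ hq1
    linarith
  -- `‖yϖ‖ = ‖ϖ‖`
  have hyϖn : snorm q F (yϖ : F) = lam := by
    -- first `‖yϖ‖^e = 1/q`, by contradiction on `r < ‖yϖ‖^e`
    have hηq : η ((u : intRing q L) * ϖ ^ e) = Ideal.Quotient.mk _ ((q : ℕ) : intRing q F) := by
      rw [← hu, map_natCast, map_natCast]
    -- the lift `q` has norm `1/q > r`; compare with `yu * yϖ^e`
    obtain ⟨yu, hyu⟩ := Ideal.Quotient.mk_surjective (η (u : intRing q L))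
    have hyu1 : snorm q F (yu : F) = 1 := snorm_lift_unit hr0 hr1' η u yu hyu.symm
    have h1 : Ideal.Quotient.mk (ballIdeal q F r) (yu * yϖ ^ e) =
        Ideal.Quotient.mk _ ((q : ℕ) : intRing q F) := by
      rw [← hηq, map_mul, map_pow, map_mul, map_pow, hyu, hyϖ]
    rw [Ideal.Quotient.eq, mem_ballIdeal q F hr0] at h1
    have h3 : snorm q F ((yu : F) * (yϖ : F) ^ e - (((q : ℕ) : intRing q F) : F)) <
        snorm q F (((q : ℕ) : intRing q F) : F) := by
      rw [hqF]
      refine lt_of_le_of_lt ?_ hr1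
      simpa using h1
    have h4 := snorm_eq_of_sub_lt q F h3
    rw [hqF, snorm_mul, hyu1, one_mul, snorm_pow, ← hlame] at h4
    exact (pow_left_inj₀ (snorm_nonneg q F _) hlam0.le he0).1 h4
  -- now the element `x`
  have hx0 : x ≠ 0 := by
    intro h
    rw [h] at hx
    have : snorm q L (((0 : intRing q L)) : L) = 0 := by
      rw [ZeroMemClass.coe_zero, snorm_zero]
    rw [this] at hx
    linarith
  obtain ⟨n, w, hw⟩ := IsDiscreteValuationRing.eq_unit_mul_pow_irreducible hx0 hϖ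
  have hxn : snorm q L (x : L) = lam ^ n := by
    have : (x : L) = ((w : intRing q L) : L) * (ϖ : L) ^ n := by
      have := congrArg (fun z : intRing q L => (z : L)) hw
      simpa using this
    rw [this, snorm_mul, snorm_unit q L w, one_mul, snorm_pow]
  rw [hxn]
  rw [← hyϖn]
  apply hgen w n y
  · rw [← hw]; exact hy
  · rw [hyϖn, ← hxn]; exact hx

/-- If a lift `y` of `η x` has `‖y‖ ≤ ρ` with `r ≤ ρ`, then `‖x‖ ≤ ρ`. -/
theorem snorm_le_of_lift_le {r ρ : ℝ} (hr0 : 0 ≤ r) (hr1 : r < (q : ℝ)⁻¹) (hrρ : r ≤ ρ)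
    (η : intRing q L →+* (intRing q F ⧸ ballIdeal q F r)) (x : intRing q L)
    (y : intRing q F) (hy : η x = Ideal.Quotient.mk _ y) (hyρ : snorm q F (y : F) ≤ ρ) :
    snorm q L (x : L) ≤ ρ := by
  by_contra hlt
  rw [not_le] at hlt
  have := snorm_lift_eq hr0 hr1 η x y hy (lt_of_le_of_lt hrρ hlt)
  rw [this] at hyρ
  exact absurd hyρ (not_le.2 hlt)

end

end Fermat.Agent.TW.FF.ValPres92
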