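/-
TW / WP7 B3.1 (helper92).  Fontaine's property `(P_m)` for the splitting field of a finite flat
group scheme over `ℤ_p` killed by `p`, in the PT/LOC model and the interface shape `Pm41.PmHom`.

`H` : commutative cocommutative bialgebra over `ℤ_[p]`, finite free, killed by `p`;
`L` : a `p`-adic field with an embedding `ι : L → PadicAlgCl p` such that all `PadicAlgCl p`-points
of `H` have values in `ι(L)` and `ι(L)` is generated over `ℚ_p` by these values.
Then `PmHom p ℚ_[p] L r` for all `0 ≤ r` with `r^(p-1) < p^(-p)` (i.e. `m > p/(p-1)`).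
-/
import Mathlib
import Fermat.Agent.PT.LOC.Interface12
import Fermat.Agent.PT.LOC.Structure14
import Fermat.Agent.PT.LOC.StructureNorm14
import Fermat.Agent.PT.LOC.StructureTower27
import Fermat.Agent.TW.RAM.Pm41
import Fermat.Agent.TW.FF.LiftGroupLike92
import Fermat.Agent.TW.FF.BallLoc92
import Fermat.Agent.TW.FF.ValPres92

set_option autoImplicit false
set_option linter.unusedSectionVars false

open scoped Fermat.Agent.PT.LOC.Interface12
open Fermat.Agent.PT.LOC.Interface12 Fermat.Agent.PT.LOC.Structure14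
  Fermat.Agent.PT.LOC.StructureNorm14 Fermat.Agent.PT.LOC.StructureTower27
open Fermat.Agent.TW.RAM.Pm41
open Fermat.Agent.TW.FF.PFil92 Fermat.Agent.TW.FF.BallFil92 Fermat.Agent.TW.FF.BallLoc92
  Fermat.Agent.TW.FF.ValPres92 Fermat.Agent.TW.FF.LiftGroupLike92

-- For `PadicAlgCl p` we use Mathlib's `ℤ_[p]`-algebra structure (as `FlatModel68`/`Spec72` do),
-- not the scoped PT/LOC one.
attribute [local instance 2000] AlgebraicClosure.instAlgebra

namespace Fermat.Agent.TW.FF.PmFlat92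

noncomputable section

/-! ### Numerics -/

theorem numerics {p : ℕ} (hp : p.Prime) {r : ℝ}
    (hr : r ^ (p - 1) < (p : ℝ) ^ (-(p : ℤ))) :
    (p : ℝ) * ((p : ℝ) * r) ^ (p - 1) < 1 ∧ r < (p : ℝ)⁻¹ := by
  have hppos : (0 : ℝ) < p := by exact_mod_cast hp.pos
  have hp1 : (1 : ℝ) ≤ p := by exact_mod_cast hp.one_lt.le
  have hpp : (p : ℝ) ^ (-(p : ℤ)) = ((p : ℝ) ^ p)⁻¹ := by
    rw [zpow_neg, zpow_natCast]
  rw [hpp] at hr
  have hpow : (0 : ℝ) < (p : ℝ) ^ p := pow_pos hppos p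
  have h1 : (p : ℝ) ^ p * r ^ (p - 1) < 1 := by
    have := mul_lt_mul_of_pos_left hr hpow
    rwa [mul_inv_cancel₀ hpow.ne'] at this
  have e : (p : ℝ) * ((p : ℝ) * r) ^ (p - 1) = (p : ℝ) ^ p * r ^ (p - 1) := by
    obtain ⟨n, hn⟩ : ∃ n, p = n + 1 := ⟨p - 1, (Nat.sub_add_cancel hp.pos).symm⟩
    rw [hn, Nat.add_sub_cancel, mul_pow, pow_succ]
    ring
  refine ⟨by rw [e]; exact h1, ?_⟩
  by_contra hge
  rw [not_lt] at hge
  have h2 : ((p : ℝ)⁻¹) ^ (p - 1) ≤ r ^ (p - 1) :=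
    pow_le_pow_left₀ (inv_nonneg.2 hppos.le) hge _
  have h3 : (p : ℝ) ^ p * ((p : ℝ)⁻¹) ^ (p - 1) = p := by
    obtain ⟨n, hn⟩ : ∃ n, p = n + 1 := ⟨p - 1, (Nat.sub_add_cancel hp.pos).symm⟩
    rw [hn, Nat.add_sub_cancel, pow_succ, inv_pow]
    field_simp
  have h4 : (p : ℝ) ≤ (p : ℝ) ^ p * r ^ (p - 1) :=
    calc (p : ℝ) = (p : ℝ) ^ p * ((p : ℝ)⁻¹) ^ (p - 1) := h3.symm
      _ ≤ (p : ℝ) ^ p * r ^ (p - 1) := mul_le_mul_of_nonneg_left h2 hpow.le
  linarith

/-! ### Changing the algebra instance of the target of an algebra map -/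

/-- If two `R`-algebra structures on `B` have the same structure map, an algebra map for the
first is one for the second. -/
theorem nonempty_algHom_of_algebraMap_eq {R A B : Type*} [CommSemiring R] [Semiring A] [Semiring B]
    [Algebra R A] (i₁ i₂ : Algebra R B)
    (h : ∀ a : R, @algebraMap R B _ _ i₁ a = @algebraMap R B _ _ i₂ a)
    (φ : @AlgHom R A B _ _ _ _ i₁) : Nonempty (@AlgHom R A B _ _ _ _ i₂) :=
  ⟨@AlgHom.mk R A B _ _ _ _ i₂ (@AlgHom.toRingHom R A B _ _ _ _ i₁ φ)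
    (fun a => (@AlgHom.commutes R A B _ _ _ _ i₁ φ a).trans (h a))⟩

/-! ### Points: transport between `PadicAlgCl p` and `p`-adic fields -/

section Points

variable {p : ℕ} [Fact p.Prime] {H : Type*} [CommRing H] [Algebra ℤ_[p] H] [Module.Finite ℤ_[p] H]

theorem algebraMap_padicAlgCl (a : ℤ_[p]) :
    algebraMap ℤ_[p] (PadicAlgCl p) a = algebraMap ℚ_[p] (PadicAlgCl p) (a : ℚ_[p]) :=
  IsScalarTower.algebraMap_apply ℤ_[p] ℚ_[p] (PadicAlgCl p) a

variable (E : Type) [Field E] [Algebra ℚ_[p] E] [FiniteDimensional ℚ_[p] E]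

/-- A point with values in `ι(E)` comes from a point with values in `𝒪_E`. -/
theorem exists_algHom_intRing (ι : E →ₐ[ℚ_[p]] PadicAlgCl p) (g : H →ₐ[ℤ_[p]] PadicAlgCl p)
    (hg : ∀ h, g h ∈ ι.range) :
    ∃ gE : H →ₐ[ℤ_[p]] intRing p E, ∀ h, ι ((gE h : intRing p E) : E) = g h := by
  classical
  have hinj : Function.Injective ι := ι.toRingHom.injective
  have hg' : ∀ h, ∃ x, ι x = g h := fun h => (AlgHom.mem_range ι).1 (hg h)
  choose l hl using hg'
  -- `l` is a ring homomorphism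
  let gL : H →ₐ[ℤ_[p]] E :=
    { toFun := l
      map_one' := hinj (by rw [hl, map_one, map_one])
      map_mul' := fun x y => hinj (by rw [hl, map_mul, map_mul, hl, hl])
      map_zero' := hinj (by rw [hl, map_zero, map_zero])
      map_add' := fun x y => hinj (by rw [hl, map_add, map_add, hl, hl])
      commutes' := fun a => hinj (by
        rw [hl, g.commutes, algebraMap_padicAlgCl]
        show _ = ι (algebraMap ℚ_[p] E (algebraMap ℤ_[p] ℚ_[p] a))
        rw [ι.commutes]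
        rfl) }
  have hint : ∀ h, gL h ∈ intRing p E := fun h =>
    (Algebra.IsIntegral.isIntegral (R := ℤ_[p]) h).map gL
  exact ⟨gL.codRestrict (intRing p E) hint, fun h => hl h⟩

/-- A point with values in `𝒪_E` gives a point with values in `PadicAlgCl p`. -/
def toPadicAlgCl (ψ : E →ₐ[ℚ_[p]] PadicAlgCl p) (gE : H →ₐ[ℤ_[p]] intRing p E) :
    H →ₐ[ℤ_[p]] PadicAlgCl p :=
  { toFun := fun h => ψ ((gE h : intRing p E) : E)
    map_one' := by simp
    map_mul' := fun x y => by simp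
    map_zero' := by simp
    map_add' := fun x y => by simp
    commutes' := fun a => by
      rw [gE.commutes, algebraMap_padicAlgCl]
      show ψ (algebraMap ℚ_[p] E (algebraMap ℤ_[p] ℚ_[p] a)) = _
      rw [ψ.commutes]
      rfl }

@[simp] theorem toPadicAlgCl_apply (ψ : E →ₐ[ℚ_[p]] PadicAlgCl p)
    (gE : H →ₐ[ℤ_[p]] intRing p E) (h : H) :
    toPadicAlgCl E ψ gE h = ψ ((gE h : intRing p E) : E) := rfl

end Points

/-! ### The injection of points induced by `η` -/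

section Main

variable {p : ℕ} [Fact p.Prime] {H : Type*} [CommRing H] [Bialgebra ℤ_[p] H]
  [Coalgebra.IsCocomm ℤ_[p] H] [Module.Free ℤ_[p] H] [Module.Finite ℤ_[p] H]

/-- The injection of points `G(𝒪_L) → G(𝒪_F)` induced by a `ℤ_p`-algebra map
`η : 𝒪_L → 𝒪_F / {‖x‖ ≤ r}`, `r^(p-1) < p^(-p)`. -/
theorem exists_injective_points (hk : IsKilledBy ℤ_[p] H p)
    (L F : Type) [Field L] [Field F] [Algebra ℚ_[p] L] [Algebra ℚ_[p] F]
    [FiniteDimensional ℚ_[p] L] [FiniteDimensional ℚ_[p] F]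
    {r : ℝ} (hr0 : 0 ≤ r) (hr : r ^ (p - 1) < (p : ℝ) ^ (-(p : ℤ)))
    (η : intRing p L →ₐ[ℤ_[p]] (intRing p F ⧸ ballIdeal p F r)) :
    ∃ f : (H →ₐ[ℤ_[p]] intRing p L) → (H →ₐ[ℤ_[p]] intRing p F), Function.Injective f := by
  have hp : p.Prime := Fact.out
  have hppos : (0 : ℝ) < p := by exact_mod_cast hp.pos
  have hp1 : (1 : ℝ) ≤ p := by exact_mod_cast hp.one_lt.le
  obtain ⟨hρ, hr1⟩ := numerics hp hr
  set ρ : ℝ := (p : ℝ) * r with hρdef
  have h0ρ : 0 ≤ ρ := mul_nonneg hppos.le hr0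
  have hrρ : r ≤ ρ := by rw [hρdef]; nlinarith
  have hρ1 : ρ ≤ 1 := (lt_one_of_lt hp hρ).le
  have hNF := isPNorm_intRing p F
  have hNL := isPNorm_intRing p L
  have hJF : IsPFilBase p (fun n => ballI hNF (ρ * ratio p ρ ^ n)) :=
    isPFilBase_ball_intRing p F h0ρ hρ
  have hJL : IsPFilSep p (fun n => ballI hNL (ρ * ratio p ρ ^ n)) :=
    (isPFilBase_ball_intRing p L h0ρ hρ).toIsPFilSep
  have hJ0F : ∀ y : intRing p F, y ∈ ballI hNF (ρ * ratio p ρ ^ 0) ↔ snorm p F (y : F) ≤ ρ := by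
    intro y
    rw [pow_zero, mul_one, mem_ballI hNF h0ρ]
  have hJ0L : ∀ y : intRing p L, y ∈ ballI hNL (ρ * ratio p ρ ^ 0) ↔ snorm p L (y : L) ≤ ρ := by
    intro y
    rw [pow_zero, mul_one, mem_ballI hNL h0ρ]
  have hle : ballIdeal p F r ≤
      Ideal.span {((p : ℕ) : intRing p F)} * ballI hNF (ρ * ratio p ρ ^ 0) := by
    intro x hx
    rw [mem_ballIdeal p F hr0] at hx
    have hx' : snorm p F (x : F) ≤ ρ / p := by
      rw [hρdef, mul_div_cancel_left₀ _ hppos.ne']; exact hx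
    obtain ⟨y, rfl, hy⟩ := hNF.div_p x ρ hx' hρ1
    exact Ideal.mul_mem_mul (Ideal.mem_span_singleton_self _) ((hJ0F y).2 hy)
  let η' : intRing p L →ₐ[ℤ_[p]]
      (intRing p F ⧸ (Ideal.span {((p : ℕ) : intRing p F)} * ballI hNF (ρ * ratio p ρ ^ 0))) :=
    (Ideal.Quotient.factorₐ ℤ_[p] hle).comp η
  have hη' : ∀ x : intRing p L, Ideal.Quotient.factor
      (Ideal.mul_le_right : Ideal.span {((p : ℕ) : intRing p F)} *
        ballI hNF (ρ * ratio p ρ ^ 0) ≤ ballI hNF (ρ * ratio p ρ ^ 0)) (η' x) = 0 →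
      x ∈ ballI hNL (ρ * ratio p ρ ^ 0) := by
    intro x hx
    obtain ⟨y, hy⟩ := Ideal.Quotient.mk_surjective (η x)
    have h1 : η' x = Ideal.Quotient.mk _ y := by
      show Ideal.Quotient.factorₐ ℤ_[p] hle (η x) = _
      rw [← hy]
      rfl
    rw [h1, Ideal.Quotient.factor_mk, Ideal.Quotient.eq_zero_iff_mem, hJ0F] at hx
    rw [hJ0L]
    exact snorm_le_of_lift_le hr0 hr1 hrρ η.toRingHom x y hy.symm hx
  obtain ⟨f, hf, -⟩ := exists_injective_of_algHom hp hJL hJF hk η' hη'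
  exact ⟨f, hf⟩

/-- Core of `(P_m)`: with a single `ℚ_p`-algebra structure on `F`. -/
theorem exists_algHom_of_hom (hk : IsKilledBy ℤ_[p] H p) [Finite (H →ₐ[ℤ_[p]] PadicAlgCl p)]
    (L : Type) [Field L] [Algebra ℚ_[p] L] [FiniteDimensional ℚ_[p] L]
    (ι : L →ₐ[ℚ_[p]] PadicAlgCl p)
    (hL : ∀ (g : H →ₐ[ℤ_[p]] PadicAlgCl p) (h : H), g h ∈ ι.range)
    (hgen : ι.fieldRange ≤ IntermediateField.adjoin ℚ_[p]
      {x | ∃ (g : H →ₐ[ℤ_[p]] PadicAlgCl p) (h : H), g h = x})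
    (r : ℝ) (hr0 : 0 ≤ r) (hr : r ^ (p - 1) < (p : ℝ) ^ (-(p : ℤ)))
    (F : Type) [Field F] [Algebra ℚ_[p] F] [FiniteDimensional ℚ_[p] F]
    (η : intRing p L →+* (intRing p F ⧸ ballIdeal p F r))
    (hηZ : ∀ a : ℤ_[p], η (algebraMap ℤ_[p] (intRing p L) a) =
      Ideal.Quotient.mk _ (algebraMap ℤ_[p] (intRing p F) a)) :
    Nonempty (L →ₐ[ℚ_[p]] F) := by
  classical
  -- `η` as a `ℤ_p`-algebra map
  let ηa : intRing p L →ₐ[ℤ_[p]] (intRing p F ⧸ ballIdeal p F r) :=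
    { η with commutes' := fun a => hηZ a }
  obtain ⟨f, hf⟩ := exists_injective_points hk L F hr0 hr ηa
  -- an embedding of `F` into `PadicAlgCl p`
  have : Algebra.IsAlgebraic ℚ_[p] F := Algebra.IsAlgebraic.of_finite ℚ_[p] F
  let ψ : F →ₐ[ℚ_[p]] PadicAlgCl p := IsAlgClosed.lift
  have hψinj : Function.Injective ψ := ψ.toRingHom.injective
  have hιinj : Function.Injective ι := ι.toRingHom.injective
  -- the self-map of the finite set of points
  choose δ hδ using fun g : H →ₐ[ℤ_[p]] PadicAlgCl p => exists_algHom_intRing L ι g (hL g)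
  let Θ : (H →ₐ[ℤ_[p]] PadicAlgCl p) → (H →ₐ[ℤ_[p]] PadicAlgCl p) :=
    fun g => toPadicAlgCl F ψ (f (δ g))
  have hΘinj : Function.Injective Θ := by
    intro g g' hgg'
    have h1 : f (δ g) = f (δ g') := by
      apply AlgHom.ext
      intro h
      have := congrArg (fun k : H →ₐ[ℤ_[p]] PadicAlgCl p => k h) hgg'
      simp only [Θ, toPadicAlgCl_apply] at this
      exact Subtype.ext (hψinj this)
    have h2 : δ g = δ g' := hf h1
    apply AlgHom.ext
    intro h
    rw [← hδ g h, ← hδ g' h, h2]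
  have hΘsurj : Function.Surjective Θ := Finite.surjective_of_injective hΘinj
  have hval : ∀ (g : H →ₐ[ℤ_[p]] PadicAlgCl p) (h : H), g h ∈ ψ.fieldRange := by
    intro g h
    obtain ⟨g0, rfl⟩ := hΘsurj g
    exact ⟨_, rfl⟩
  have hle : ι.fieldRange ≤ ψ.fieldRange := by
    refine hgen.trans (IntermediateField.adjoin_le_iff.2 ?_)
    rintro x ⟨g, h, rfl⟩
    exact hval g h
  -- the embedding `L → F`
  have hex : ∀ x : L, ∃ y : F, ψ y = ι x := fun x => by
    have : ι x ∈ ψ.fieldRange := hle ⟨x, rfl⟩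
    exact this
  choose φ hφ using hex
  refine ⟨{ toFun := φ
            map_one' := hψinj (by rw [hφ, map_one, map_one])
            map_mul' := fun x y => hψinj (by rw [hφ, map_mul, map_mul, hφ, hφ])
            map_zero' := hψinj (by rw [hφ, map_zero, map_zero])
            map_add' := fun x y => hψinj (by rw [hφ, map_add, map_add, hφ, hφ])
            commutes' := fun a => hψinj (by rw [hφ, ι.commutes, ψ.commutes]) }⟩

/-- **Fontaine's property `(P_m)` for the splitting field of a finite flat group scheme over `ℤ_p`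
killed by `p`**, for every `m > p/(p-1)`, in the interface shape `Pm41.PmHom`
(`r = p^(-m)`, so the condition reads `r^(p-1) < p^(-p)`). -/
theorem pmHom_of_points (hk : IsKilledBy ℤ_[p] H p) [Finite (H →ₐ[ℤ_[p]] PadicAlgCl p)]
    (L : Type) [Field L] [Algebra ℚ_[p] L] [FiniteDimensional ℚ_[p] L]
    (ι : L →ₐ[ℚ_[p]] PadicAlgCl p)
    (hL : ∀ (g : H →ₐ[ℤ_[p]] PadicAlgCl p) (h : H), g h ∈ ι.range)
    (hgen : ι.fieldRange ≤ IntermediateField.adjoin ℚ_[p]
      {x | ∃ (g : H →ₐ[ℤ_[p]] PadicAlgCl p) (h : H), g h = x})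
    (r : ℝ) (hr0 : 0 ≤ r) (hr : r ^ (p - 1) < (p : ℝ) ^ (-(p : ℤ))) :
    PmHom p ℚ_[p] L r := by
  intro F instField instAlg instFD instKF instTower η hη
  obtain ⟨φ⟩ := @exists_algHom_of_hom p _ H _ _ _ _ _ hk _ L _ _ _ ι hL hgen r hr0 hr
    F instField instAlg instFD η (fun a => by
      have h1 := hη (algebraMap ℤ_[p] (intRing p ℚ_[p]) a)
      have e1 : intRingMap p ℚ_[p] L (algebraMap ℤ_[p] (intRing p ℚ_[p]) a) =
          algebraMap ℤ_[p] (intRing p L) a := AlgHom.commutes _ a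
      have e2 := AlgHom.commutes
        (@intRingMap p _ ℚ_[p] _ _ F instField instAlg instKF instTower) a
      rw [e1, e2] at h1
      exact h1)
  refine nonempty_algHom_of_algebraMap_eq instAlg instKF (fun a => ?_) φ
  have h2 := @IsScalarTower.algebraMap_apply ℚ_[p] ℚ_[p] F _ _ _ (Algebra.id _) instKF instAlg
    instTower a
  rw [h2]
  rfl

/-- `(P_m)` for an intermediate field `L` of `PadicAlgCl p / ℚ_p` which contains, and is generated
by, the values of all points of `H`. -/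
theorem pmHom_intermediateField (hk : IsKilledBy ℤ_[p] H p)
    [Finite (H →ₐ[ℤ_[p]] PadicAlgCl p)]
    (L : IntermediateField ℚ_[p] (PadicAlgCl p)) [FiniteDimensional ℚ_[p] L]
    (hL : ∀ (g : H →ₐ[ℤ_[p]] PadicAlgCl p) (h : H), g h ∈ L)
    (hgen : L ≤ IntermediateField.adjoin ℚ_[p]
      {x | ∃ (g : H →ₐ[ℤ_[p]] PadicAlgCl p) (h : H), g h = x})
    (r : ℝ) (hr0 : 0 ≤ r) (hr : r ^ (p - 1) < (p : ℝ) ^ (-(p : ℤ))) :
    PmHom p ℚ_[p] L r := by
  refine pmHom_of_points hk L L.val (fun g h => ?_) ?_ r hr0 hr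
  · rw [IntermediateField.range_val]
    exact hL g h
  · rw [IntermediateField.fieldRange_val]
    exact hgen

end Main

end

end Fermat.Agent.TW.FF.PmFlat92
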