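/-
TW / WP7 B3.3 (helper92).  THE SPLITTING FIELD `ℚ_p(V)` of a flat module `V` killed by `p`, inside
`PadicAlgCl p`, with everything the ramification side (B4, B7) consumes:

* `splitField p H`            : `ℚ_p(values of all points of H)`, an intermediate field of `PadicAlgCl p/ℚ_p`;
* `finiteDimensional_splitField`, `isGalois_splitField`;
* `fixes_splitField_iff`      : `τ` fixes `splitField` pointwise iff `τ ∘ g = g` for all points `g`;
* `exists_splitField`         : for `LocalFlatModel p V act`, `KilledByP p V`: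
    a finite Galois `L/ℚ_p` inside `PadicAlgCl p` with
      `(∀ x : L, τ x = x) ↔ (∀ v, act τ v = v)`  and
      `PmHom p ℚ_[p] L r` for all `0 ≤ r`, `r^(p-1) < p^(-p)`   (Fontaine's `(P_m)`, `m > p/(p-1)`);
* `mem_sup_of_fixed`          : the hypothesis on `z` in `Spec72.KummerFontaine` says `z ∈ K0 ⊔ L`.
-/
import Mathlib
import Fermat.Agent.TW.FF.Spec72
import Fermat.Agent.TW.FF.KilledModel68
import Fermat.Agent.TW.FF.PmFlat92

set_option autoImplicit false
set_option linter.unusedSectionVars false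

open Fermat.Agent.TW.FF.FlatModel68 Fermat.Agent.TW.FF.KilledModel68 Fermat.Agent.TW.FF.Spec72
open Fermat.Agent.TW.RAM.Pm41 Fermat.Agent.TW.FF.LiftGroupLike92 Fermat.Agent.TW.FF.PmFlat92
open IntermediateField

namespace Fermat.Agent.TW.FF.SplitField92

noncomputable section

variable (p : ℕ) [Fact p.Prime]

section Hopf

variable (H : Type) [CommRing H] [Algebra ℤ_[p] H]

/-- The values of all `PadicAlgCl p`-points of `H`. -/
def values : Set (PadicAlgCl p) := {x | ∃ (g : H →ₐ[ℤ_[p]] PadicAlgCl p) (h : H), g h = x}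

/-- The splitting field of `H`: the subfield of `PadicAlgCl p` generated by the values of all points. -/
def splitField : IntermediateField ℚ_[p] (PadicAlgCl p) := adjoin ℚ_[p] (values p H)

variable {p H}

theorem apply_mem_splitField (g : H →ₐ[ℤ_[p]] PadicAlgCl p) (h : H) : g h ∈ splitField p H :=
  subset_adjoin _ _ ⟨g, h, rfl⟩

/-- Twisting a point by an automorphism of `PadicAlgCl p`. -/
def twist (τ : GQp p) (g : H →ₐ[ℤ_[p]] PadicAlgCl p) : H →ₐ[ℤ_[p]] PadicAlgCl p :=
  ((τ : PadicAlgCl p →ₐ[ℚ_[p]] PadicAlgCl p).restrictScalars ℤ_[p]).comp g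

@[simp] theorem twist_apply (τ : GQp p) (g : H →ₐ[ℤ_[p]] PadicAlgCl p) (h : H) :
    twist τ g h = τ (g h) := rfl

theorem image_values_subset (τ : GQp p) :
    (τ : PadicAlgCl p →ₐ[ℚ_[p]] PadicAlgCl p) '' values p H ⊆ values p H := by
  rintro _ ⟨_, ⟨g, h, rfl⟩, rfl⟩
  exact ⟨twist τ g, h, rfl⟩

/-- The splitting field is normal over `ℚ_p`. -/
instance normal_splitField : Normal ℚ_[p] (splitField p H) := by
  refine normal_iff_forall_map_le'.2 fun σ => ?_
  unfold splitField
  rw [adjoin_map]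
  exact adjoin.mono _ _ _ (image_values_subset σ)

instance isGalois_splitField : IsGalois ℚ_[p] (splitField p H) := ⟨⟩

/-- `τ` fixes the splitting field pointwise iff it fixes every point. -/
theorem fixes_splitField_iff (τ : GQp p) :
    (∀ x : splitField p H, τ (x : PadicAlgCl p) = x) ↔
      ∀ g : H →ₐ[ℤ_[p]] PadicAlgCl p, twist τ g = g := by
  constructor
  · intro hτ g
    ext h
    exact hτ ⟨g h, apply_mem_splitField g h⟩
  · intro hτ x
    obtain ⟨x, hx⟩ := x
    show τ x = x
    induction hx using adjoin_induction with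
    | mem x hx =>
      obtain ⟨g, h, rfl⟩ := hx
      exact DFunLike.congr_fun (hτ g) h
    | algebraMap a => exact τ.commutes a
    | add x y _ _ hx hy => rw [map_add, hx, hy]
    | inv x _ hx => rw [map_inv₀, hx]
    | mul x y _ _ hx hy => rw [map_mul, hx, hy]

/-- The splitting field is generated by the values of the points on a spanning set. -/
theorem splitField_eq_adjoin_of_span (s : Set H) (hs : Submodule.span ℤ_[p] s = ⊤) :
    splitField p H = adjoin ℚ_[p] (⋃ g : H →ₐ[ℤ_[p]] PadicAlgCl p, g '' s) := by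
  refine le_antisymm (adjoin_le_iff.2 ?_) (adjoin.mono _ _ _ ?_)
  · rintro _ ⟨g, h, rfl⟩
    have hh : h ∈ Submodule.span ℤ_[p] s := hs ▸ Submodule.mem_top
    show g h ∈ adjoin ℚ_[p] (⋃ g : H →ₐ[ℤ_[p]] PadicAlgCl p, g '' s)
    induction hh using Submodule.span_induction with
    | mem x hx => exact subset_adjoin _ _ (Set.mem_iUnion.2 ⟨g, x, hx, rfl⟩)
    | zero => rw [map_zero]; exact zero_mem _
    | add x y _ _ hx hy => rw [map_add]; exact add_mem hx hy
    | smul a x _ hx =>
      rw [map_smul, Algebra.smul_def, algebraMap_padicAlgCl]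
      exact mul_mem (IntermediateField.algebraMap_mem _ _) hx
  · intro x hx
    obtain ⟨g, hg⟩ := Set.mem_iUnion.1 hx
    obtain ⟨h, -, rfl⟩ := hg
    exact ⟨g, h, rfl⟩

variable (p H)

/-- The splitting field is finite over `ℚ_p`. -/
theorem finiteDimensional_splitField [Module.Finite ℤ_[p] H]
    [Finite (H →ₐ[ℤ_[p]] PadicAlgCl p)] : FiniteDimensional ℚ_[p] (splitField p H) := by
  obtain ⟨s, hs⟩ := (Module.finite_def.1 (inferInstance : Module.Finite ℤ_[p] H))
  rw [splitField_eq_adjoin_of_span (s : Set H) hs]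
  have hfin : (⋃ g : H →ₐ[ℤ_[p]] PadicAlgCl p, g '' (s : Set H)).Finite :=
    Set.finite_iUnion fun g => (s.finite_toSet).image _
  have : Finite ↑(⋃ g : H →ₐ[ℤ_[p]] PadicAlgCl p, g '' (s : Set H)) := hfin.to_subtype
  exact finiteDimensional_adjoin fun x _ => Algebra.IsIntegral.isIntegral x

end Hopf

/-! ### The splitting field of a flat module killed by `p` -/

section Model

variable {p}

/-- **The splitting field of a flat module killed by `p`**: finite Galois over `ℚ_p`, cut out by the
kernel of the action, and with Fontaine's property `(P_m)` for every `m > p/(p-1)`. -/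
theorem exists_splitField (V : Type) [AddCommGroup V] [Finite V] (act : GQp p → V → V)
    (hV : LocalFlatModel p V act) (hk : KilledByP p V) :
    ∃ (L : IntermediateField ℚ_[p] (PadicAlgCl p)) (_ : FiniteDimensional ℚ_[p] L)
      (_ : IsGalois ℚ_[p] L),
      (∀ τ : GQp p, (∀ x : L, τ (x : PadicAlgCl p) = x) ↔ ∀ v : V, act τ v = v) ∧
      ∀ r : ℝ, 0 ≤ r → r ^ (p - 1) < (p : ℝ) ^ (-(p : ℤ)) → PmHom p ℚ_[p] L r := by
  obtain ⟨H, i1, i2, hfin, hfree, hco, hkill, -, -, e, -, hact⟩ :=
    localReducedModel_of_localFlatModel p hV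
  have : Finite (H →ₐ[ℤ_[p]] PadicAlgCl p) :=
    Finite.of_equiv V ((WithConv.equiv _).symm.trans e).symm
  have := finiteDimensional_splitField p H
  refine ⟨splitField p H, inferInstance, inferInstance, fun τ => ?_, fun r hr0 hr => ?_⟩
  · rw [fixes_splitField_iff]
    constructor
    · intro hτ v
      obtain ⟨f, rfl⟩ := e.surjective v
      have := hact τ f (WithConv.toConv (twist τ f.ofConv)) (fun h => rfl)
      rw [← this, hτ]
    · intro hτ g
      have := hact τ (WithConv.toConv g) (WithConv.toConv (twist τ g)) (fun h => rfl)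
      rw [hτ] at this
      exact WithConv.toConv_injective (e.injective this)
  · exact pmHom_intermediateField (hkill p hk) (splitField p H)
      (fun g h => apply_mem_splitField g h) le_rfl r hr0 hr

/-- Variant of `exists_splitField`: `(P_m)` for every `p`-adic field `E` with an embedding into
`PadicAlgCl p` of image `L`. -/
theorem exists_splitField_emb (V : Type) [AddCommGroup V] [Finite V] (act : GQp p → V → V)
    (hV : LocalFlatModel p V act) (hk : KilledByP p V) :
    ∃ (L : IntermediateField ℚ_[p] (PadicAlgCl p)) (_ : FiniteDimensional ℚ_[p] L)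
      (_ : IsGalois ℚ_[p] L),
      (∀ τ : GQp p, (∀ x : L, τ (x : PadicAlgCl p) = x) ↔ ∀ v : V, act τ v = v) ∧
      ∀ (E : Type) [Field E] [Algebra ℚ_[p] E] [FiniteDimensional ℚ_[p] E]
        (ι : E →ₐ[ℚ_[p]] PadicAlgCl p), ι.fieldRange = L →
        ∀ r : ℝ, 0 ≤ r → r ^ (p - 1) < (p : ℝ) ^ (-(p : ℤ)) → PmHom p ℚ_[p] E r := by
  obtain ⟨H, i1, i2, hfin, hfree, hco, hkill, -, -, e, -, hact⟩ :=
    localReducedModel_of_localFlatModel p hV
  have : Finite (H →ₐ[ℤ_[p]] PadicAlgCl p) :=
    Finite.of_equiv V ((WithConv.equiv _).symm.trans e).symm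
  have := finiteDimensional_splitField p H
  refine ⟨splitField p H, inferInstance, inferInstance, fun τ => ?_,
    fun E _ _ _ ι hι r hr0 hr => ?_⟩
  · rw [fixes_splitField_iff]
    constructor
    · intro hτ v
      obtain ⟨f, rfl⟩ := e.surjective v
      have := hact τ f (WithConv.toConv (twist τ f.ofConv)) (fun h => rfl)
      rw [← this, hτ]
    · intro hτ g
      have := hact τ (WithConv.toConv g) (WithConv.toConv (twist τ g)) (fun h => rfl)
      rw [hτ] at this
      exact WithConv.toConv_injective (e.injective this)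
  · refine pmHom_of_points (hkill p hk) E ι (fun g h => ?_) ?_ r hr0 hr
    · have h1 : g h ∈ ι.fieldRange := hι ▸ apply_mem_splitField g h
      obtain ⟨x, hx⟩ := h1
      exact ⟨x, hx⟩
    · rw [hι]
      exact le_rfl

end Model

/-! ### The hypothesis on `z` in `Spec72.KummerFontaine`, and the comparison of norms -/

section Bridge

variable {p}

/-- An element of `PadicAlgCl p` fixed by every automorphism fixing `K0` and `L` pointwise lies in the
compositum `K0 ⊔ L` (Galois correspondence for `PadicAlgCl p / ℚ_p`). -/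
theorem mem_sup_of_fixed (K0 L : IntermediateField ℚ_[p] (PadicAlgCl p)) (z : PadicAlgCl p)
    (hz : ∀ τ : GQp p, (∀ x : K0, τ (x : PadicAlgCl p) = x) →
      (∀ x : L, τ (x : PadicAlgCl p) = x) → τ z = z) : z ∈ K0 ⊔ L := by
  rw [← InfiniteGalois.fixedField_fixingSubgroup (K0 ⊔ L), IntermediateField.mem_fixedField_iff]
  intro τ hτ
  rw [IntermediateField.mem_fixingSubgroup_iff] at hτ
  exact hz τ (fun x => hτ x ((le_sup_left : K0 ≤ K0 ⊔ L) x.2))
    (fun x => hτ x ((le_sup_right : L ≤ K0 ⊔ L) x.2))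

/-- The field of fixed points of one automorphism. -/
def fixedBy (τ : GQp p) : IntermediateField ℚ_[p] (PadicAlgCl p) :=
  Subalgebra.toIntermediateField
    (AlgHom.equalizer (τ : PadicAlgCl p →ₐ[ℚ_[p]] PadicAlgCl p) (AlgHom.id ℚ_[p] (PadicAlgCl p)))
    (fun x hx => by
      rw [AlgHom.mem_equalizer] at hx ⊢
      simp only [AlgHom.coe_id, id_eq] at hx ⊢
      rw [map_inv₀, hx])

theorem mem_fixedBy (τ : GQp p) (x : PadicAlgCl p) : x ∈ fixedBy τ ↔ τ x = x := Iff.rfl

theorem fixed_of_mem_sup (K0 L : IntermediateField ℚ_[p] (PadicAlgCl p)) (z : PadicAlgCl p)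
    (hz : z ∈ K0 ⊔ L) (τ : GQp p) (h0 : ∀ x : K0, τ (x : PadicAlgCl p) = x)
    (h1 : ∀ x : L, τ (x : PadicAlgCl p) = x) : τ z = z := by
  have hle : K0 ⊔ L ≤ fixedBy τ :=
    sup_le (fun x hx => h0 ⟨x, hx⟩) (fun x hx => h1 ⟨x, hx⟩)
  exact hle hz

/-- The hypothesis on `z` in `Spec72.KummerFontaine`, in terms of the splitting field `L`. -/
theorem mem_sup_iff (K0 L : IntermediateField ℚ_[p] (PadicAlgCl p)) {V : Type}
    (act : GQp p → V → V)
    (hL : ∀ τ : GQp p, (∀ x : L, τ (x : PadicAlgCl p) = x) ↔ ∀ v : V, act τ v = v)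
    (z : PadicAlgCl p) :
    z ∈ K0 ⊔ L ↔ ∀ τ : GQp p, (∀ x : K0, τ (x : PadicAlgCl p) = x) →
      (∀ v : V, act τ v = v) → τ z = z :=
  ⟨fun hz τ h0 h1 => fixed_of_mem_sup K0 L z hz τ h0 ((hL τ).2 h1),
    fun hz => mem_sup_of_fixed K0 L z fun τ h0 h1 => hz τ h0 ((hL τ).1 h1)⟩

/-- The spectral norm of a `p`-adic field is the restriction of the norm of `PadicAlgCl p` along
any embedding. -/
theorem spectralNorm_eq_norm (E : Type) [Field E] [Algebra ℚ_[p] E] [Algebra.IsAlgebraic ℚ_[p] E]
    (ι : E →ₐ[ℚ_[p]] PadicAlgCl p) (x : E) : spectralNorm ℚ_[p] E x = ‖ι x‖ := by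
  rw [← PadicAlgCl.spectralNorm_eq, spectralNorm, spectralNorm, minpoly.algHom_eq ι ι.injective]

theorem spectralNorm_eq_norm_coe (L : IntermediateField ℚ_[p] (PadicAlgCl p)) (x : L) :
    spectralNorm ℚ_[p] L x = ‖(x : PadicAlgCl p)‖ :=
  spectralNorm_eq_norm L L.val x

end Bridge

end

end Fermat.Agent.TW.FF.SplitField92
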