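/-
TW / WP7 brick B7 (helper83): the ramification filtration of a TAME finite Galois extension
`K/ℚ_q` (PT/LOC model), in the multiplicative language of `HerbrandAbs90`.

* `inertia q K`            : kernel of the reduction map `Gal(K/ℚ_q) → Gal(k_K/𝔽_q)`.
* `mem_inertia_iff`        : `σ ∈ I ↔ ∀ z ∈ 𝒪, ‖σ z - z‖ < 1`.
* `card_inertia`           : `#I = e(K/ℚ_q)`.
* `snorm_pow_ramIdx`       : `‖π‖ ^ e = q⁻¹`.
* `dvd_orderOf_of_lt`      : a wild element (`0 < ‖σ x - x‖ < ‖π‖`, `x` a generator) has order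
                             divisible by `q`.
* `d_eq_of_tame`           : `q ∤ e`, `σ ∈ I`, `σ ≠ 1` ⇒ `d σ = ‖π‖`;  `d_eq_one_of_not_mem`.
* `phi_of_tame`            : `r ≤ ‖π‖ ⇒ φ_{K/ℚ_q}(r) = r ‖π‖^(e-1)`.
* `boundedBy_of_tame`      : `Gal(K/ℚ_q)` has ramification bounded by `q⁻¹` (upper numbering ≤ 1 in
                             Fontaine's normalisation).
-/
import Mathlib
import Fermat.Agent.PT.LOC.Unram11
import Fermat.Agent.PT.LOC.StructureTowerEF27
import Fermat.Agent.TW.FF.GalGen83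

set_option autoImplicit false
set_option linter.unusedSectionVars false

open scoped Fermat.Agent.PT.LOC.Interface12 NNReal
open Fermat.Agent.PT.LOC.Interface12 Fermat.Agent.PT.LOC.Structure14
  Fermat.Agent.PT.LOC.StructureNorm14 Fermat.Agent.PT.LOC.StructureTower27
  Fermat.Agent.PT.LOC.StructureTowerEF27 Fermat.Agent.PT.LOC.Unram11
open Fermat.Agent.TW.Ram.HerbrandAbs90 Fermat.Agent.TW.Ram.HerbrandField90
open Fermat.Agent.TW.FF.GalGen83
open Polynomial

namespace Fermat.Agent.TW.FF.Tame83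

noncomputable section

variable (q : ℕ) [Fact q.Prime]

/-! ### `q` is a uniformizer of `ℚ_q` -/

theorem snorm_padic (a : ℚ_[q]) : snorm q ℚ_[q] a = ‖a‖ := snorm_algebraMap q ℚ_[q] a

theorem isUniformizer_padic : IsUniformizer q ℚ_[q] (q : ℚ_[q]) := by
  have hq1 : (1 : ℝ) < q := by exact_mod_cast (Fact.out : q.Prime).one_lt
  have hq0 : (0 : ℝ) < q := by linarith
  refine ⟨natCast_q_mem q ℚ_[q], ?_, ?_, ?_⟩
  · exact_mod_cast (Fact.out : q.Prime).ne_zero
  · intro h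
    rw [mem_intRing_iff] at h
    have h1 : snorm q ℚ_[q] ((q : ℚ_[q])⁻¹) = (q : ℝ) := by
      rw [snorm_inv, snorm_natCast_q, inv_inv]
    change snorm q ℚ_[q] ((q : ℚ_[q])⁻¹) ≤ 1 at h
    rw [h1] at h
    linarith
  · intro x hx hx'
    rw [mem_intRing_iff] at hx hx' ⊢
    change snorm q ℚ_[q] x ≤ 1 at hx
    change ¬ snorm q ℚ_[q] x⁻¹ ≤ 1 at hx'
    change snorm q ℚ_[q] (x * (q : ℚ_[q])⁻¹) ≤ 1
    rw [snorm_padic] at hx
    rw [snorm_padic] at hx'
    rw [snorm_padic, norm_mul, norm_inv, Padic.norm_p]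
    have hx0 : x ≠ 0 := by
      rintro rfl
      apply hx'
      simp
    have hlt : ‖x‖ < 1 := by
      rw [norm_inv] at hx'
      have hpos : 0 < ‖x‖ := norm_pos_iff.2 hx0
      by_contra hcon
      apply hx'
      have : 1 ≤ ‖x‖ := not_lt.1 hcon
      exact inv_le_one_of_one_le₀ this
    have h2 : ‖x‖ ≤ (q : ℝ) ^ (-1 : ℤ) := by
      rw [Padic.norm_le_pow_iff_norm_lt_pow_add_one]
      simpa using hlt
    rw [zpow_neg_one] at h2
    rw [inv_inv]
    calc ‖x‖ * (q : ℝ) ≤ (q : ℝ)⁻¹ * q := mul_le_mul_of_nonneg_right h2 hq0.le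
      _ = 1 := inv_mul_cancel₀ hq0.ne'

variable (K : Type) [Field K] [Algebra ℚ_[q] K] [FiniteDimensional ℚ_[q] K]

/-- `‖π‖ ^ e = q⁻¹` for a uniformizer `π` of `K`, `e = e(K/ℚ_q)`. -/
theorem snorm_pow_ramIdx {π : K} (hπ : IsUniformizer q K π) :
    snorm q K π ^ ramIdx q ℚ_[q] K = (q : ℝ)⁻¹ := by
  have hπ0 : π ≠ 0 := hπ.2.1
  have hq0 : (q : ℚ_[q]) ≠ 0 := by exact_mod_cast (Fact.out : q.Prime).ne_zero
  have h1 := ord_algebraMap q ℚ_[q] K (Units.mk0 (q : ℚ_[q]) hq0)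
  have h2 : ord q ℚ_[q] (Units.mk0 (q : ℚ_[q]) hq0) = 1 :=
    (isUniformizer_iff_ord q ℚ_[q] (Units.mk0 (q : ℚ_[q]) hq0)).1 (isUniformizer_padic q)
  have h3 := snorm_eq_zpow q K (Units.mk0 π hπ0) hπ
    (Units.map (algebraMap ℚ_[q] K : ℚ_[q] →* K) (Units.mk0 (q : ℚ_[q]) hq0))
  rw [h1, h2, mul_one, zpow_natCast] at h3
  rw [Units.val_mk0] at h3
  rw [← h3]
  have h4 : ((Units.map (algebraMap ℚ_[q] K : ℚ_[q] →* K) (Units.mk0 (q : ℚ_[q]) hq0) : Kˣ) : K)
      = (q : K) := by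
    simp
  rw [h4, snorm_natCast_q]

theorem snorm_le_of_lt_one {π : K} (hπ : IsUniformizer q K π) {y : K} (hy : snorm q K y < 1) :
    snorm q K y ≤ snorm q K π := by
  by_cases hy0 : y = 0
  · rw [hy0, snorm_zero]
    exact snorm_nonneg q K π
  have hyint : y ∈ intRing q K := (mem_intRing_iff q K y).2 hy.le
  have hyinv : y⁻¹ ∉ intRing q K := by
    intro h
    rw [mem_intRing_iff] at h
    change snorm q K y⁻¹ ≤ 1 at h
    rw [snorm_inv] at h
    have hpos := snorm_pos q K hy0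
    have : 1 ≤ snorm q K y := by
      by_contra hcon
      have h5 : 1 < (snorm q K y)⁻¹ := (one_lt_inv₀ hpos).2 (not_le.1 hcon)
      linarith
    linarith
  have h := hπ.2.2.2 y hyint hyinv
  rw [mem_intRing_iff] at h
  change snorm q K (y * π⁻¹) ≤ 1 at h
  rw [snorm_mul, snorm_inv] at h
  have hπpos := snorm_pos q K hπ.2.1
  calc snorm q K y = snorm q K y * (snorm q K π)⁻¹ * snorm q K π := by
        field_simp
    _ ≤ 1 * snorm q K π := mul_le_mul_of_nonneg_right h hπpos.le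
    _ = snorm q K π := one_mul _

variable [IsGalois ℚ_[q] K]

/-- The inertia subgroup of `Gal(K/ℚ_q)`. -/
def inertia : Subgroup (K ≃ₐ[ℚ_[q]] K) := (redHom q ℚ_[q] K).ker

theorem mem_inertia_iff (σ : K ≃ₐ[ℚ_[q]] K) :
    σ ∈ inertia q K ↔ ∀ z ∈ intRing q K, snorm q K (σ z - z) < 1 := by
  have key : redHom q ℚ_[q] K σ = 1 ↔ ∀ x : intRing q K, σ • x - x ∈ mI q K := by
    constructor
    · intro h x
      have h1 := DFunLike.congr_fun h (Ideal.Quotient.mk (mI q K) x)
      rw [redHom_mk, AlgEquiv.one_apply] at h1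
      exact (Ideal.Quotient.eq).1 h1
    · intro h
      ext y
      obtain ⟨x, rfl⟩ := Ideal.Quotient.mk_surjective y
      rw [redHom_mk, AlgEquiv.one_apply]
      exact (Ideal.Quotient.eq).2 (h x)
  unfold inertia
  rw [MonoidHom.mem_ker, key]
  constructor
  · intro h z hz
    have h1 := (mem_mI_iff_snorm q K _).1 (h ⟨z, hz⟩)
    have h2 : ((σ • (⟨z, hz⟩ : intRing q K) - ⟨z, hz⟩ : intRing q K) : K) = σ z - z := by
      rw [Subalgebra.coe_sub, coe_smul_intRing]
    rwa [h2] at h1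
  · intro h x
    rw [mem_mI_iff_snorm]
    have h2 : ((σ • x - x : intRing q K) : K) = σ (x : K) - x := by
      rw [Subalgebra.coe_sub, coe_smul_intRing]
    rw [h2]
    exact h x x.2

/-- `#I = e`. -/
theorem card_inertia : Nat.card (inertia q K) = ramIdx q ℚ_[q] K := by
  unfold inertia
  have h1 := Subgroup.card_eq_card_quotient_mul_card_subgroup (redHom q ℚ_[q] K).ker
  have h2 : Nat.card ((K ≃ₐ[ℚ_[q]] K) ⧸ (redHom q ℚ_[q] K).ker) = resDeg q ℚ_[q] K := by
    rw [Nat.card_congr (QuotientGroup.quotientKerEquivOfSurjective (redHom q ℚ_[q] K)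
      (redHom_surjective q ℚ_[q] K)).toEquiv, resDeg_eq_finrank_resF]
    have := Nat.card_congr (Equiv.ofBijective _
      (FiniteField.bijective_frobeniusAlgEquivOfAlgebraic_pow (resF q ℚ_[q]) (resF q K)))
    rw [← this, Nat.card_fin]
  have h3 : Nat.card (K ≃ₐ[ℚ_[q]] K) = ramIdx q ℚ_[q] K * resDeg q ℚ_[q] K := by
    rw [IsGalois.card_aut_eq_finrank, ramIdx_mul_resDeg]
  rw [h2, h3, mul_comm] at h1
  exact (Nat.eq_of_mul_eq_mul_left (resDeg_pos q ℚ_[q] K) h1).symm

variable {q K}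

theorem d_lt_one_iff {x : K} (hx : IsGen q K x) (σ : K ≃ₐ[ℚ_[q]] K) :
    (lowerIdx q ℚ_[q] K x).d σ < 1 ↔ σ ∈ inertia q K := by
  rw [mem_inertia_iff]
  constructor
  · intro h z hz
    have h1 := lowerIdx_d_le ℚ_[q] hx σ hz
    have h2 : normVal q K (σ z - z) < 1 := lt_of_le_of_lt h1 h
    exact h2
  · intro h
    exact h x hx.1

theorem d_eq_one_of_not_mem {x : K} (hx : IsGen q K x) {σ : K ≃ₐ[ℚ_[q]] K}
    (hσ : σ ∉ inertia q K) : (lowerIdx q ℚ_[q] K x).d σ = 1 := by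
  apply le_antisymm (lowerIdx_d_le_one ℚ_[q] hx.1 σ)
  by_contra h
  exact hσ ((d_lt_one_iff hx σ).1 (not_le.1 h))

theorem d_le_of_mem {x : K} (hx : IsGen q K x) {π : K} (hπ : IsUniformizer q K π)
    {σ : K ≃ₐ[ℚ_[q]] K} (hσ : σ ∈ inertia q K) :
    (lowerIdx q ℚ_[q] K x).d σ ≤ normVal q K π :=
  snorm_le_of_lt_one q K hπ ((mem_inertia_iff q K σ).1 hσ x hx.1)

/-- A wild element has order divisible by `q`. -/
theorem dvd_orderOf_of_lt {x : K} (hx : IsGen q K x) {π : K} (hπ : IsUniformizer q K π)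
    {σ : K ≃ₐ[ℚ_[q]] K} (h0 : σ ≠ 1) (hlt : snorm q K (σ x - x) < snorm q K π) :
    q ∣ orderOf σ := by
  set w : K := σ x - x with hw
  set δ : ℝ := snorm q K w with hδ
  have hw0 : w ≠ 0 := by
    intro h
    apply h0
    apply eq_one_of_apply_gen ℚ_[q] hx σ
    exact sub_eq_zero.1 h
  have hδpos : 0 < δ := snorm_pos q K hw0
  have hπ0 : π ≠ 0 := hπ.2.1
  have hπpos : 0 < snorm q K π := snorm_pos q K hπ0
  have hπlt : snorm q K π < 1 := snorm_uniformizer_lt_one q K π hπ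
  have hσn : ∀ y : K, snorm q K (σ y) = snorm q K y := fun y => snorm_algEquiv q ℚ_[q] K σ y
  have hdle : ∀ z ∈ intRing q K, snorm q K (σ z - z) ≤ δ := fun z hz =>
    lowerIdx_d_le ℚ_[q] hx σ hz
  -- `‖σ w - w‖ < δ`
  have hww : snorm q K (σ w - w) < δ := by
    set b : K := w * π⁻¹ with hb
    have hbn : snorm q K b < 1 := by
      rw [hb, snorm_mul, snorm_inv]
      rw [← hδ]
      rw [mul_inv_lt_iff₀ hπpos, one_mul]
      exact hlt
    have hbint : b ∈ intRing q K := (mem_intRing_iff q K b).2 hbn.le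
    have hwb : w = π * b := by
      rw [hb]
      field_simp
    have hdec : σ w - w = σ π * (σ b - b) + (σ π - π) * b := by
      rw [hwb, map_mul]
      ring
    rw [hdec]
    refine lt_of_le_of_lt (snorm_add_le_max q K _ _) (max_lt ?_ ?_)
    · rw [snorm_mul, hσn]
      calc snorm q K π * snorm q K (σ b - b) ≤ snorm q K π * δ :=
            mul_le_mul_of_nonneg_left (hdle b hbint) hπpos.le
        _ < 1 * δ := mul_lt_mul_of_pos_right hπlt hδpos
        _ = δ := one_mul δ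
    · rw [snorm_mul]
      calc snorm q K (σ π - π) * snorm q K b ≤ δ * snorm q K b :=
            mul_le_mul_of_nonneg_right (hdle π hπ.1) (snorm_nonneg q K b)
        _ < δ * 1 := mul_lt_mul_of_pos_left hbn hδpos
        _ = δ := mul_one δ
  have hnat : ∀ m : ℕ, snorm q K (m : K) ≤ 1 := by
    intro m
    have : (m : K) = algebraMap ℚ_[q] K (m : ℚ_[q]) := by simp
    rw [this, snorm_algebraMap]
    have h := Padic.norm_int_le_one (p := q) (m : ℤ)
    simpa using h
  -- the key induction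
  have key : ∀ m : ℕ, snorm q K ((σ ^ m) x - x - (m : K) * w) < δ := by
    intro m
    induction m with
    | zero => simpa [snorm_zero] using hδpos
    | succ m ih =>
      have hstep : (σ ^ (m + 1)) x - x - ((m + 1 : ℕ) : K) * w
          = σ ((σ ^ m) x - x - (m : K) * w) + (m : K) * (σ w - w) := by
        have h1 : (σ ^ (m + 1)) x = σ ((σ ^ m) x) := by
          rw [pow_succ']
          rfl
        rw [h1, map_sub, map_sub, map_mul, map_natCast, hw]
        push_cast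
        ring
      rw [hstep]
      refine lt_of_le_of_lt (snorm_add_le_max q K _ _) (max_lt ?_ ?_)
      · rw [hσn]
        exact ih
      · rw [snorm_mul]
        calc snorm q K (m : K) * snorm q K (σ w - w) ≤ 1 * snorm q K (σ w - w) :=
              mul_le_mul_of_nonneg_right (hnat m) (snorm_nonneg q K _)
          _ = snorm q K (σ w - w) := one_mul _
          _ < δ := hww
  have h1 := key (orderOf σ)
  rw [pow_orderOf_eq_one] at h1
  have h2 : (1 : K ≃ₐ[ℚ_[q]] K) x - x - ((orderOf σ : ℕ) : K) * w = -(((orderOf σ : ℕ) : K) * w) := by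
    rw [AlgEquiv.one_apply]
    ring
  rw [h2] at h1
  have h3 : snorm q K (-(((orderOf σ : ℕ) : K) * w)) = snorm q K ((orderOf σ : ℕ) : K) * δ := by
    have : -(((orderOf σ : ℕ) : K) * w) = (-1 : K) * (((orderOf σ : ℕ) : K) * w) := by ring
    rw [this, snorm_mul, snorm_mul]
    have h4 : snorm q K (-1 : K) = 1 := by
      have h5 : snorm q K ((-1 : K) * (-1 : K)) = 1 := by
        rw [neg_one_mul, neg_neg, snorm_one]
      rw [snorm_mul] at h5
      have h6 := snorm_nonneg q K (-1 : K)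
      nlinarith
    rw [h4, one_mul]
  rw [h3] at h1
  have h4 : snorm q K ((orderOf σ : ℕ) : K) < 1 := by
    by_contra hcon
    have : δ ≤ snorm q K ((orderOf σ : ℕ) : K) * δ := by
      calc δ = 1 * δ := (one_mul δ).symm
        _ ≤ snorm q K ((orderOf σ : ℕ) : K) * δ :=
          mul_le_mul_of_nonneg_right (not_lt.1 hcon) hδpos.le
    linarith
  have h5 : ((orderOf σ : ℕ) : K) = algebraMap ℚ_[q] K ((orderOf σ : ℕ) : ℚ_[q]) := by simp
  rw [h5, snorm_algebraMap] at h4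
  exact Padic.norm_natCast_lt_one_iff.1 h4

/-- In a tame extension, every nontrivial element of inertia has `d σ = ‖π‖`. -/
theorem d_eq_of_tame {x : K} (hx : IsGen q K x) {π : K} (hπ : IsUniformizer q K π)
    (htame : ¬ q ∣ ramIdx q ℚ_[q] K) {σ : K ≃ₐ[ℚ_[q]] K} (hσ : σ ∈ inertia q K) (h1 : σ ≠ 1) :
    (lowerIdx q ℚ_[q] K x).d σ = normVal q K π := by
  apply le_antisymm (d_le_of_mem hx hπ hσ)
  by_contra hcon
  have hlt : snorm q K (σ x - x) < snorm q K π := not_le.1 hcon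
  have hdvd := dvd_orderOf_of_lt hx hπ h1 hlt
  have h2 : orderOf σ ∣ Nat.card (inertia q K) := Subgroup.orderOf_dvd_natCard _ hσ
  rw [card_inertia] at h2
  exact htame (hdvd.trans h2)

/-! ### Products over a finite group split along a subgroup -/

theorem prod_split {G : Type*} [Group G] [Fintype G] (I : Subgroup G) (f : G → ℝ≥0) (a b : ℝ≥0)
    (h1 : f 1 = a) (hI : ∀ σ ∈ I, σ ≠ 1 → f σ = b) (hnI : ∀ σ, σ ∉ I → f σ = 1) :
    ∏ σ, f σ = a * b ^ (Nat.card I - 1) := by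
  classical
  have hsub : ∏ σ ∈ Finset.univ.filter (· ∈ I), f σ = ∏ σ, f σ := by
    apply Finset.prod_subset (Finset.filter_subset _ _)
    intro σ _ hσ
    rw [Finset.mem_filter] at hσ
    exact hnI σ (fun h => hσ ⟨Finset.mem_univ _, h⟩)
  rw [← hsub]
  have hmem : (1 : G) ∈ Finset.univ.filter (· ∈ I) := by
    rw [Finset.mem_filter]
    exact ⟨Finset.mem_univ _, I.one_mem⟩
  rw [← Finset.mul_prod_erase _ _ hmem, h1]
  congr 1
  have hconst : ∀ σ ∈ (Finset.univ.filter (· ∈ I)).erase (1 : G), f σ = b := by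
    intro σ hσ
    rw [Finset.mem_erase, Finset.mem_filter] at hσ
    exact hI σ hσ.2.2 hσ.1
  rw [Finset.prod_congr rfl hconst, Finset.prod_const, Finset.card_erase_of_mem hmem]
  congr 2
  rw [Nat.card_eq_fintype_card, Fintype.card_subtype]

/-- The Herbrand function of a tame Galois extension of `ℚ_q` below `‖π‖`. -/
theorem phi_of_tame {x : K} (hx : IsGen q K x) {π : K} (hπ : IsUniformizer q K π)
    (htame : ¬ q ∣ ramIdx q ℚ_[q] K) {r : ℝ≥0} (hr : r ≤ normVal q K π) :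
    (lowerIdx q ℚ_[q] K x).phi r = r * normVal q K π ^ (ramIdx q ℚ_[q] K - 1) := by
  have hπ1 : normVal q K π ≤ 1 := (normVal_le_one_iff q K π).2 hπ.1
  unfold LowerIndex.phi LowerIndex.phiOn
  rw [← card_inertia q K]
  apply prod_split (inertia q K)
  · rw [(lowerIdx q ℚ_[q] K x).d_one]
    exact max_eq_right zero_le
  · intro σ hσ h1
    rw [d_eq_of_tame hx hπ htame hσ h1]
    exact max_eq_left hr
  · intro σ hσ
    rw [d_eq_one_of_not_mem hx hσ]
    exact max_eq_left (hr.trans hπ1)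

theorem normVal_pow_ramIdx {π : K} (hπ : IsUniformizer q K π) :
    normVal q K π ^ ramIdx q ℚ_[q] K = (q : ℝ≥0)⁻¹ := by
  apply NNReal.eq
  push_cast
  exact snorm_pow_ramIdx q K hπ

/-- A tame Galois extension of `ℚ_q` has ramification bounded by `q⁻¹`. -/
theorem boundedBy_of_tame {x : K} (hx : IsGen q K x) (htame : ¬ q ∣ ramIdx q ℚ_[q] K) :
    (lowerIdx q ℚ_[q] K x).BoundedBy ((q : ℝ≥0)⁻¹) := by
  obtain ⟨πu, hπ⟩ := exists_isUniformizer q K
  set π : K := (πu : K) with hπdef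
  have hπ1 : normVal q K π ≤ 1 := (normVal_le_one_iff q K π).2 hπ.1
  have he : 0 < ramIdx q ℚ_[q] K := ramIdx_pos q ℚ_[q] K
  intro σ hσ
  unfold LowerIndex.upper
  by_cases hI : σ ∈ inertia q K
  · rw [d_eq_of_tame hx hπ htame hI hσ, phi_of_tame hx hπ htame le_rfl, ← pow_succ',
      Nat.sub_add_cancel he, normVal_pow_ramIdx hπ]
  · rw [d_eq_one_of_not_mem hx hI]
    have h1 : (lowerIdx q ℚ_[q] K x).phi 1 = 1 := by
      unfold LowerIndex.phi LowerIndex.phiOn
      apply Finset.prod_eq_one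
      intro ρ _
      exact max_eq_right (lowerIdx_d_le_one ℚ_[q] hx.1 ρ)
    rw [h1]
    have hq1 : (1 : ℝ≥0) ≤ q := by exact_mod_cast (Fact.out : q.Prime).one_lt.le
    exact inv_le_one_of_one_le₀ hq1

end

end Fermat.Agent.TW.FF.Tame83
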