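/-
Program TW (S56), chapter FF (flat local bound), brick B7-a — helper83.

MONOGENICITY over `ℤ_p` (Serre, Local Fields III §6 Prop. 12, for the base `ℚ_p`), in the PT/LOC
model of `q`-adic fields: the ring of integers `𝒪_E = intRing q E` of a finite extension `E/ℚ_q` is
generated by ONE element as a `ℤ_q`-algebra (`x = ζ + π`, `ζ` a Teichmüller generator, `π` a
uniformizer).  Consequences used by the descent chapter (`HerbrandField90.isQuot_of_gen`):
every integral element is a polynomial in `x` with `ℤ_q`-coefficients, hence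
`‖σ z - z‖ ≤ ‖σ x - x‖` for every `ℚ_q`-automorphism `σ` and every integral `z`.
-/
import Mathlib
import Fermat.Agent.PT.LOC.Interface12
import Fermat.Agent.PT.LOC.Structure14
import Fermat.Agent.PT.LOC.StructureNorm14
import Fermat.Agent.PT.LOC.StructureTower27
import Fermat.Agent.PT.LOC.Teichmuller14

set_option autoImplicit false
set_option linter.unusedSectionVars false

open scoped Fermat.Agent.PT.LOC.Interface12
open Fermat.Agent.PT.LOC.Interface12 Fermat.Agent.PT.LOC.Structure14
  Fermat.Agent.PT.LOC.StructureNorm14 Fermat.Agent.PT.LOC.StructureTower27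
  Fermat.Agent.PT.LOC.Teichmuller14 Polynomial

namespace Fermat.Agent.TW.FF.Monogenic83

noncomputable section

variable (q : ℕ) [Fact q.Prime] (E : Type) [Field E] [Algebra ℚ_[q] E] [FiniteDimensional ℚ_[q] E]

/-- `(ζ + π) ^ n - 1 = π * (n ζ ^ (n - 1) + π c)` when `ζ ^ n = 1`. -/
theorem exists_pow_sub_one_eq {S : Type*} [CommRing S] (ζ π : S) (n : ℕ) (hζ : ζ ^ n = 1) :
    ∃ c : S, (ζ + π) ^ n - 1 = π * ((n : S) * ζ ^ (n - 1) + π * c) := by
  obtain ⟨k, hk⟩ := Polynomial.binomExpansion (X ^ n - 1 : S[X]) ζ π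
  refine ⟨k, ?_⟩
  simp only [eval_sub, eval_pow, eval_X, eval_one, derivative_sub, derivative_X_pow,
    derivative_one, sub_zero, eval_mul] at hk
  have : (C (n : S) : S[X]).eval ζ = (n : S) := eval_C
  rw [this] at hk
  rw [hk, hζ]
  ring

/-- **Monogenicity over `ℤ_q`**: `𝒪_E = ℤ_q[x]`. -/
theorem exists_adjoin_eq_top : ∃ x : intRing q E, Algebra.adjoin ℤ_[q] {x} = ⊤ := by
  classical
  obtain ⟨ζ, hζ, hζres⟩ := exists_isPrimitiveRoot_and_residue q E
  obtain ⟨π, hπ⟩ := IsDiscreteValuationRing.exists_irreducible (intRing q E)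
  have hQ : 1 < resCard q E := one_lt_resCard q E
  set Q := resCard q E with hQdef
  set x : intRing q E := ζ + π with hx
  refine ⟨x, ?_⟩
  set A : Subalgebra ℤ_[q] (intRing q E) := Algebra.adjoin ℤ_[q] {x} with hA
  have hxA : x ∈ A := Algebra.subset_adjoin (Set.mem_singleton x)
  have hmax : IsLocalRing.maximalIdeal (intRing q E) = Ideal.span {π} := hπ.maximalIdeal_eq
  have hπmem : π ∈ IsLocalRing.maximalIdeal (intRing q E) := by
    rw [hmax]; exact Ideal.mem_span_singleton_self π
  -- the uniformizer `π' = x ^ (Q - 1) - 1 ∈ A`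
  obtain ⟨c, hc⟩ := exists_pow_sub_one_eq ζ π (Q - 1) hζ.pow_eq_one
  set u : intRing q E := ((Q - 1 : ℕ) : intRing q E) * ζ ^ (Q - 1 - 1) + π * c with hu
  have huunit : IsUnit u := by
    rw [← IsLocalRing.residue_ne_zero_iff_isUnit]
    rw [hu, map_add, map_mul, map_mul, (IsLocalRing.residue_eq_zero_iff π).2 hπmem, zero_mul,
      add_zero, map_natCast, map_pow]
    refine mul_ne_zero ?_ (pow_ne_zero _ (hζres.ne_zero (by omega)))
    rw [Nat.cast_sub hQ.le, Nat.cast_one, natCast_resCard_eq_zero q E, zero_sub]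
    exact neg_ne_zero.2 one_ne_zero
  set π' : intRing q E := x ^ (Q - 1) - 1 with hπ'
  have hπ'A : π' ∈ A := Subalgebra.sub_mem _ (Subalgebra.pow_mem _ hxA _) (Subalgebra.one_mem _)
  have hπ'eq : π' = π * u := hc
  have hmax' : IsLocalRing.maximalIdeal (intRing q E) = Ideal.span {π'} := by
    rw [hmax, hπ'eq]
    exact (Ideal.span_singleton_mul_right_unit huunit π).symm
  -- residues: every element is congruent to an element of `A` modulo `𝔪`
  have key2 : ∀ z : intRing q E, ∃ a ∈ A, z - a ∈ IsLocalRing.maximalIdeal (intRing q E) := by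
    intro z
    by_cases hz : IsLocalRing.residue (intRing q E) z = 0
    · exact ⟨0, Subalgebra.zero_mem _, by
        rw [sub_zero]; exact (IsLocalRing.residue_eq_zero_iff z).1 hz⟩
    · -- `z̄` is a power of `ζ̄ = x̄`
      have hcyc : ∃ j : ℕ, IsLocalRing.residue (intRing q E) ζ ^ j =
          IsLocalRing.residue (intRing q E) z := by
        have hcard : Nat.card (resField q E)ˣ = Q - 1 := by
          rw [Nat.card_units, card_resField]
        have hz1 : (IsLocalRing.residue (intRing q E) z) ^ (Q - 1) = 1 := by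
          have := Fintype.ofFinite (resField q E)
          have h := FiniteField.pow_card_sub_one_eq_one (IsLocalRing.residue (intRing q E) z) hz
          rwa [← Nat.card_eq_fintype_card, card_resField] at h
        have : NeZero (Q - 1) := ⟨by omega⟩
        obtain ⟨j, -, hj⟩ := hζres.eq_pow_of_pow_eq_one hz1
        exact ⟨j, hj⟩
      obtain ⟨j, hj⟩ := hcyc
      refine ⟨x ^ j, Subalgebra.pow_mem _ hxA _, ?_⟩
      rw [← IsLocalRing.residue_eq_zero_iff, map_sub, map_pow, hx, map_add,
        (IsLocalRing.residue_eq_zero_iff π).2 hπmem, add_zero, hj, sub_self]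
  -- approximation modulo `𝔪 ^ n`
  have key3 : ∀ (n : ℕ) (z : intRing q E), ∃ a ∈ A,
      z - a ∈ IsLocalRing.maximalIdeal (intRing q E) ^ n := by
    intro n
    induction n with
    | zero => intro z; exact ⟨0, Subalgebra.zero_mem _, by simp⟩
    | succ n ih =>
      intro z
      obtain ⟨a, haA, ha⟩ := ih z
      rw [hmax', Ideal.span_singleton_pow, Ideal.mem_span_singleton] at ha
      obtain ⟨t, ht⟩ := ha
      obtain ⟨b, hbA, hb⟩ := key2 t
      refine ⟨a + π' ^ n * b, Subalgebra.add_mem _ haA
        (Subalgebra.mul_mem _ (Subalgebra.pow_mem _ hπ'A _) hbA), ?_⟩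
      have : z - (a + π' ^ n * b) = π' ^ n * (t - b) := by
        rw [mul_sub, ← ht]; ring
      rw [this, pow_succ]
      exact Ideal.mul_mem_mul (Ideal.pow_mem_pow (by
        rw [hmax']; exact Ideal.mem_span_singleton_self π') n) hb
  -- `𝔪 ^ e = (q)`
  have hq0 : ((q : ℕ) : intRing q E) ≠ 0 := by
    intro h
    have h2 : ((q : ℕ) : E) = 0 := by
      have := congrArg (fun z : intRing q E => (z : E)) h
      simpa using this
    have hch : CharZero E := charZero_of_injective_algebraMap (algebraMap ℚ_[q] E).injective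
    exact (Fact.out : q.Prime).ne_zero (by exact_mod_cast h2)
  obtain ⟨e, w, hw⟩ := IsDiscreteValuationRing.eq_unit_mul_pow_irreducible hq0 hπ
  -- Nakayama
  rw [eq_top_iff]
  intro z _
  have hN : (⊤ : Submodule ℤ_[q] (intRing q E)) ≤ Subalgebra.toSubmodule A := by
    apply Submodule.le_of_le_smul_of_le_jacobson_bot (I := Ideal.span {(q : ℤ_[q])})
      (Module.Finite.fg_top)
    · rw [IsLocalRing.jacobson_eq_maximalIdeal ⊥ bot_ne_top, PadicInt.maximalIdeal_eq_span_p]
    · intro z _
      obtain ⟨a, haA, ha⟩ := key3 e z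
      rw [hmax, Ideal.span_singleton_pow, Ideal.mem_span_singleton] at ha
      obtain ⟨t, ht⟩ := ha
      have hz : z = a + (q : ℤ_[q]) • ((↑w⁻¹ : intRing q E) * t) := by
        have h1 : (q : ℤ_[q]) • ((↑w⁻¹ : intRing q E) * t) =
            ((q : ℕ) : intRing q E) * ((↑w⁻¹ : intRing q E) * t) := by
          rw [Algebra.smul_def, map_natCast]
        rw [h1, hw]
        have h2 : (w : intRing q E) * π ^ e * ((↑w⁻¹ : intRing q E) * t) = π ^ e * t := by
          have : (w : intRing q E) * (↑w⁻¹ : intRing q E) = 1 := Units.mul_inv w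
          linear_combination (π ^ e * t) * this
        rw [h2, ← ht]; ring
      rw [hz]
      exact Submodule.add_mem_sup haA
        (Submodule.smul_mem_smul (Ideal.mem_span_singleton_self _) Submodule.mem_top)
  exact hN (Submodule.mem_top : z ∈ ⊤)

/-- A generator of the ring of integers as an element of `E`, with the polynomial description of
integral elements. -/
theorem exists_generator : ∃ x : E, x ∈ intRing q E ∧
    ∀ z ∈ intRing q E, ∃ g : ℤ_[q][X], aeval x g = z := by
  obtain ⟨x, hx⟩ := exists_adjoin_eq_top q E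
  refine ⟨(x : E), x.2, fun z hz => ?_⟩
  have hmem : (⟨z, hz⟩ : intRing q E) ∈ Algebra.adjoin ℤ_[q] {x} := by rw [hx]; trivial
  rw [Algebra.adjoin_singleton_eq_range_aeval] at hmem
  obtain ⟨g, hg⟩ := hmem
  refine ⟨g, ?_⟩
  have h1 : (aeval x) g = (⟨z, hz⟩ : intRing q E) := hg
  have h2 := congrArg (fun w : intRing q E => (w : E)) h1
  simp only at h2
  rw [← h2]
  exact Subalgebra.aeval_coe (intRing q E) x g

/-- If `x` generates the integers, then `‖φ z - z‖ ≤ ‖φ x - x‖` for every `ℚ_q`-algebra
endomorphism `φ` and every integral `z`. -/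
theorem snorm_apply_sub_le {x : E} (hx : x ∈ intRing q E)
    (hgen : ∀ z ∈ intRing q E, ∃ g : ℤ_[q][X], aeval x g = z) (φ : E →ₐ[ℚ_[q]] E)
    {z : E} (hz : z ∈ intRing q E) :
    snorm q E (φ z - z) ≤ snorm q E (φ x - x) := by
  obtain ⟨g, rfl⟩ := hgen z hz
  have hφx : φ x ∈ intRing q E := (mem_intRing_algHom_iff q E E φ x).2 hx
  -- work in the commutative ring `intRing q E`
  set a : intRing q E := ⟨φ x, hφx⟩ with ha
  set b : intRing q E := ⟨x, hx⟩ with hb
  set P : (intRing q E)[X] := g.map (algebraMap ℤ_[q] (intRing q E)) with hP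
  obtain ⟨c, hc⟩ := Polynomial.sub_dvd_eval_sub a b P
  have hPa : ((P.eval a : intRing q E) : E) = φ (aeval x g) := by
    rw [hP, Polynomial.eval_map_algebraMap, ← Subalgebra.aeval_coe]
    have : φ (aeval x g) = aeval (φ x) g := by
      have h1 := Polynomial.aeval_algHom_apply (φ.restrictScalars ℤ_[q]) x g
      exact h1.symm
    rw [this]
  have hPb : ((P.eval b : intRing q E) : E) = aeval x g := by
    rw [hP, Polynomial.eval_map_algebraMap, ← Subalgebra.aeval_coe]
  have hE : φ (aeval x g) - aeval x g = (φ x - x) * (c : E) := by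
    have := congrArg (fun w : intRing q E => (w : E)) hc
    simp only [Subalgebra.coe_sub, Subalgebra.coe_mul] at this
    rw [hPa, hPb] at this
    exact this
  rw [hE, snorm_mul]
  have hc1 : snorm q E (c : E) ≤ 1 := (mem_intRing_iff q E _).1 c.2
  calc snorm q E (φ x - x) * snorm q E (c : E) ≤ snorm q E (φ x - x) * 1 :=
        mul_le_mul_of_nonneg_left hc1 (snorm_nonneg q E _)
    _ = snorm q E (φ x - x) := mul_one _

end

end Fermat.Agent.TW.FF.Monogenic83
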