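/-
TW / WP7 brick B7 (helper83): lower index functions of Galois groups of finite extensions of `ℚ_q`
(PT/LOC model) computed with a `ℤ_q`-algebra generator of the ring of integers, and the quotient
formula (`HerbrandAbs90.IsQuot`) for Galois sub-extensions.

* `normVal q E : Valuation E ℝ≥0`        : the spectral norm as a valuation.
* `IsGen q E x`                          : `x` is integral and generates the integers over `ℤ_q`.
* `lowerIdx q B T x : LowerIndex (T ≃ₐ[B] T) ℝ≥0`, `d σ = ‖σ x - x‖`.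
* `lowerIdx_d_le`                        : `‖σ z - z‖ ≤ d σ` for all integral `z` (generator).
* `lowerIdx_d_eq_of_isGen`               : `d` does not depend on the generator.
* `isQuot_restrict`                      : `B ⊆ N ⊆ T`, `N/B` normal, `T/B` Galois:
    `IsQuot (lowerIdx q B T xT) (lowerIdx q B N xN) (restrictNormalHom N)`.
-/
import Mathlib
import Fermat.Agent.PT.LOC.Interface12
import Fermat.Agent.PT.LOC.Structure14
import Fermat.Agent.PT.LOC.StructureNorm14
import Fermat.Agent.PT.LOC.StructureTower27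
import Fermat.Agent.TW.FF.Monogenic83
import Fermat.Agent.TW.Ram.HerbrandAbs90
import Fermat.Agent.TW.Ram.HerbrandField90

set_option autoImplicit false

open scoped Fermat.Agent.PT.LOC.Interface12 NNReal
open Fermat.Agent.PT.LOC.Interface12 Fermat.Agent.PT.LOC.Structure14
  Fermat.Agent.PT.LOC.StructureNorm14 Fermat.Agent.PT.LOC.StructureTower27
open Fermat.Agent.TW.Ram.HerbrandAbs90 Fermat.Agent.TW.Ram.HerbrandField90
open Polynomial

namespace Fermat.Agent.TW.FF.GalGen83

noncomputable section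

variable (q : ℕ) [Fact q.Prime]

section Val

variable (E : Type) [Field E] [Algebra ℚ_[q] E] [FiniteDimensional ℚ_[q] E]

/-- The spectral norm of a finite extension of `ℚ_q` as a valuation with values in `ℝ≥0`. -/
def normVal : Valuation E ℝ≥0 where
  toFun x := ⟨snorm q E x, snorm_nonneg q E x⟩
  map_zero' := NNReal.eq (snorm_zero q E)
  map_one' := NNReal.eq (snorm_one q E)
  map_mul' x y := NNReal.eq (snorm_mul q E x y)
  map_add_le_max' x y := by
    have h := snorm_add_le_max q E x y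
    rcases le_max_iff.1 h with h1 | h1
    · exact le_max_of_le_left h1
    · exact le_max_of_le_right h1

@[simp] theorem coe_normVal (x : E) : ((normVal q E x : ℝ≥0) : ℝ) = snorm q E x := rfl

theorem normVal_le_iff (x y : E) : normVal q E x ≤ normVal q E y ↔ snorm q E x ≤ snorm q E y :=
  Iff.rfl

theorem normVal_le_one_iff (x : E) : normVal q E x ≤ 1 ↔ x ∈ intRing q E := by
  rw [mem_intRing_iff]
  exact Iff.rfl

/-- `x` is integral and generates the ring of integers as a `ℤ_q`-algebra. -/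
def IsGen (x : E) : Prop :=
  x ∈ intRing q E ∧ ∀ z ∈ intRing q E, ∃ g : ℤ_[q][X], aeval x g = z

theorem exists_isGen : ∃ x : E, IsGen q E x := Monogenic83.exists_generator q E

end Val

section Gal

variable (B : Type) [Field B] [Algebra ℚ_[q] B]
variable (T : Type) [Field T] [Algebra ℚ_[q] T] [FiniteDimensional ℚ_[q] T]
  [Algebra B T] [IsScalarTower ℚ_[q] B T]

theorem snorm_algEquiv (σ : T ≃ₐ[B] T) (x : T) : snorm q T (σ x) = snorm q T x :=
  snorm_algHom q T T ((σ.restrictScalars ℚ_[q] : T ≃ₐ[ℚ_[q]] T) : T →ₐ[ℚ_[q]] T) x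

theorem invariant_normVal : Invariant (normVal q T) (T ≃ₐ[B] T) := by
  intro σ z
  apply NNReal.eq
  exact snorm_algEquiv q B T σ z

/-- The lower index function of `Gal(T/B)` attached to the point `x`. -/
def lowerIdx (x : T) : LowerIndex (T ≃ₐ[B] T) ℝ≥0 :=
  lowerIndexOf (invariant_normVal q B T) x

theorem lowerIdx_d (x : T) (σ : T ≃ₐ[B] T) :
    (lowerIdx q B T x).d σ = normVal q T (σ x - x) := rfl

theorem coe_lowerIdx_d (x : T) (σ : T ≃ₐ[B] T) :
    (((lowerIdx q B T x).d σ : ℝ≥0) : ℝ) = snorm q T (σ x - x) := rfl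

variable {q T}

/-- For a generator `x`, `‖σ z - z‖ ≤ ‖σ x - x‖` for every integral `z`. -/
theorem lowerIdx_d_le {x : T} (hx : IsGen q T x) (σ : T ≃ₐ[B] T) {z : T} (hz : z ∈ intRing q T) :
    normVal q T (σ z - z) ≤ (lowerIdx q B T x).d σ :=
  Monogenic83.snorm_apply_sub_le q T hx.1 hx.2
    ((σ.restrictScalars ℚ_[q] : T ≃ₐ[ℚ_[q]] T) : T →ₐ[ℚ_[q]] T) hz

/-- The lower index function does not depend on the generator. -/
theorem lowerIdx_d_eq_of_isGen {x x' : T} (hx : IsGen q T x) (hx' : IsGen q T x')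
    (σ : T ≃ₐ[B] T) : (lowerIdx q B T x).d σ = (lowerIdx q B T x').d σ :=
  le_antisymm (lowerIdx_d_le B hx' σ hx.1) (lowerIdx_d_le B hx σ hx'.1)

theorem lowerIdx_d_le_one {x : T} (hx : x ∈ intRing q T) (σ : T ≃ₐ[B] T) :
    (lowerIdx q B T x).d σ ≤ 1 := by
  rw [lowerIdx_d, normVal_le_one_iff]
  refine Subalgebra.sub_mem _ ?_ hx
  exact (mem_intRing_algHom_iff q T T
    ((σ.restrictScalars ℚ_[q] : T ≃ₐ[ℚ_[q]] T) : T →ₐ[ℚ_[q]] T) x).2 hx

/-- An automorphism fixing a generator is trivial. -/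
theorem eq_one_of_apply_gen {x : T} (hx : IsGen q T x) (σ : T ≃ₐ[B] T) (h : σ x = x) : σ = 1 := by
  have hO : ∀ z ∈ intRing q T, σ z = z := by
    intro z hz
    obtain ⟨g, rfl⟩ := hx.2 z hz
    have h1 := Polynomial.aeval_algHom_apply
      (((σ.restrictScalars ℚ_[q] : T ≃ₐ[ℚ_[q]] T) : T →ₐ[ℚ_[q]] T).restrictScalars ℤ_[q]) x g
    have h2 : σ (aeval x g) = aeval (σ x) g := h1.symm
    rw [h2, h]
  ext t
  rcases mem_or_inv_mem q T t with ht | ht
  · exact hO t ht
  · have h1 := hO _ ht
    rw [map_inv₀] at h1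
    exact inv_injective h1

theorem lowerIdx_d_eq_zero_iff {x : T} (hx : IsGen q T x) (σ : T ≃ₐ[B] T) :
    (lowerIdx q B T x).d σ = 0 ↔ σ = 1 := by
  constructor
  · intro h
    rw [lowerIdx_d, Valuation.zero_iff, sub_eq_zero] at h
    exact eq_one_of_apply_gen B hx σ h
  · rintro rfl
    exact (lowerIdx q B T x).d_one

end Gal

section Quot

variable (B : Type) [Field B] [Algebra ℚ_[q] B]
variable (N : Type) [Field N] [Algebra ℚ_[q] N] [FiniteDimensional ℚ_[q] N]
  [Algebra B N] [IsScalarTower ℚ_[q] B N]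
variable (T : Type) [Field T] [Algebra ℚ_[q] T] [FiniteDimensional ℚ_[q] T]
  [Algebra B T] [IsScalarTower ℚ_[q] B T]
variable [Algebra N T] [IsScalarTower B N T] [IsScalarTower ℚ_[q] N T]
variable [FiniteDimensional B T] [Normal B N] [IsGalois B T]

variable {q}

/-- **Quotient formula for Galois sub-extensions**, with `ℤ_q`-generators of the rings of
integers upstairs and downstairs. -/
theorem isQuot_restrict [DecidableEq (N ≃ₐ[B] N)] {xT : T} (hxT : IsGen q T xT) {xN : N}
    (hxN : IsGen q N xN) :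
    IsQuot (lowerIdx q B T xT) (lowerIdx q B N xN)
      (AlgEquiv.restrictNormalHom (F := B) (K₁ := T) N) := by
  set r := AlgEquiv.restrictNormalHom (F := B) (K₁ := T) N with hr
  have hsurj : Function.Surjective r := AlgEquiv.restrictNormalHom_surjective T
  set y : T := algebraMap N T xN with hy
  have hyint : y ∈ intRing q T := (mem_intRing_algebraMap_iff q N T xN).2 hxN.1
  have hcomm : ∀ (σ : T ≃ₐ[B] T) (n : N), σ (algebraMap N T n) = algebraMap N T (r σ n) := by
    intro σ n
    exact (AlgEquiv.restrictNormal_commutes σ N n).symm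
  have hyfix : ∀ τ : T ≃ₐ[B] T, r τ = 1 → τ • y = y := by
    intro τ hτ
    rw [AlgEquiv.smul_def, hy, hcomm, hτ]
    rfl
  obtain ⟨g₀, hg₀⟩ := hxT.2 y hyint
  set g : T[X] := g₀.map (algebraMap ℤ_[q] T) with hg
  have hg1 : ∀ n, normVal q T (g.coeff n) ≤ 1 := by
    intro n
    rw [normVal_le_one_iff, hg, Polynomial.coeff_map]
    exact Subalgebra.algebraMap_mem _ _
  have hgG : ∀ (σ : T ≃ₐ[B] T) (n : ℕ), σ • g.coeff n = g.coeff n := by
    intro σ n
    rw [AlgEquiv.smul_def, hg, Polynomial.coeff_map]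
    have h1 : algebraMap ℤ_[q] T (g₀.coeff n)
        = algebraMap ℚ_[q] T (algebraMap ℤ_[q] ℚ_[q] (g₀.coeff n)) :=
      IsScalarTower.algebraMap_apply ℤ_[q] ℚ_[q] T _
    rw [h1]
    exact ((σ.restrictScalars ℚ_[q] : T ≃ₐ[ℚ_[q]] T)).commutes _
  have hgy : g.eval xT = y := by
    rw [hg, Polynomial.eval_map_algebraMap]
    exact hg₀
  have hinj : ∀ τ : T ≃ₐ[B] T, r τ = 1 → τ • xT = xT → τ = 1 := by
    intro τ _ h
    exact eq_one_of_apply_gen B hxT τ h
  have hygen : ∀ (σ : T ≃ₐ[B] T) (z : T), (∀ τ : T ≃ₐ[B] T, r τ = 1 → τ • z = z) →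
      normVal q T z ≤ 1 → normVal q T (σ • z - z) ≤ normVal q T (σ • y - y) := by
    intro σ z hz hz1
    have : IsGalois N T := IsGalois.tower_top_of_isGalois B N T
    have : FiniteDimensional N T := Module.Finite.right B N T
    have hzmem : z ∈ Set.range (algebraMap N T) := by
      rw [IsGalois.mem_range_algebraMap_iff_fixed]
      intro f
      have h1 : r (f.restrictScalars B) = 1 := by
        ext n
        apply (algebraMap N T).injective
        rw [← hcomm]
        simp
      have := hz _ h1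
      rwa [AlgEquiv.smul_def] at this
    obtain ⟨z₀, rfl⟩ := hzmem
    have hz₀ : z₀ ∈ intRing q N :=
      (mem_intRing_algebraMap_iff q N T z₀).1 ((normVal_le_one_iff q T _).1 hz1)
    have h2 := lowerIdx_d_le B hxN (r σ) hz₀
    rw [lowerIdx_d, normVal_le_iff] at h2
    rw [AlgEquiv.smul_def, AlgEquiv.smul_def, hy, hcomm, hcomm, ← map_sub, ← map_sub,
      normVal_le_iff, snorm_algebraMap_tower, snorm_algebraMap_tower]
    exact h2
  have hxT1 : normVal q T xT ≤ 1 := (normVal_le_one_iff q T _).2 hxT.1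
  have hQ := isQuot_of_gen (invariant_normVal q B T) r hsurj hxT1 hyfix g hg1 hgG hgy hinj hygen
  refine ⟨hQ.surj, fun σ' => ?_⟩
  refine Eq.trans ?_ (hQ.d_eq σ')
  obtain ⟨σ, rfl⟩ := hsurj σ'
  rw [lowerIndexQuot_d, lowerIdx_d, AlgEquiv.smul_def, hy, hcomm, ← map_sub]
  apply NNReal.eq
  exact (snorm_algebraMap_tower q N T _).symm

end Quot

end

end Fermat.Agent.TW.FF.GalGen83
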