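/-
TW / WP7 (helper92).  THEOREM KF: `Spec72.KummerFontaine p` for every prime `p`
(the Kummer form of Fontaine's bound for flat modules killed by `p`).

Assembly of
* `SplitField92.exists_splitField_emb`     (B3: the splitting field `L = ℚ_p(V)` has `(P_m)`, `m > p/(p-1)`),
* `FontaineBound41.boundedBy_of_fontaine`  (B4: `(P_m)` ⇒ ramification of `L/ℚ_p` bounded by `p^(-p/(p-1))`),
* `KFCore83.kf_core`                       (B5-B7: descent + Kummer break + normal forms, PT/LOC model),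
with `T := K0 ⊔ L ⊆ PadicAlgCl p` as the ambient finite Galois extension.
-/
import Mathlib
import Fermat.Agent.PT.LOC.Interface12
import Fermat.Agent.PT.LOC.Structure14
import Fermat.Agent.PT.LOC.StructureTowerEF27
import Fermat.Agent.TW.RAM.Pm41
import Fermat.Agent.TW.RAM.FontaineBound41
import Fermat.Agent.TW.FF.Tame83
import Fermat.Agent.TW.FF.KFCore83
import Fermat.Agent.TW.FF.SplitField92

set_option autoImplicit false
set_option linter.unusedSectionVars false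

open scoped NNReal
open Fermat.Agent.PT.LOC.Interface12 Fermat.Agent.PT.LOC.Structure14
  Fermat.Agent.PT.LOC.StructureTowerEF27
open Fermat.Agent.TW.FF.FlatModel68 Fermat.Agent.TW.FF.Spec72 Fermat.Agent.TW.FF.SplitField92
open Fermat.Agent.TW.RAM.Pm41 Fermat.Agent.TW.FF.GalGen83

namespace Fermat.Agent.TW.FF.KF92

noncomputable section

variable {p : ℕ} [Fact p.Prime]

/-- Tameness in terms of the value group ⇒ tameness in the PT/LOC sense. -/
theorem not_dvd_ramIdx_of_values (E : Type) [Field E] [Algebra ℚ_[p] E]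
    [FiniteDimensional ℚ_[p] E]
    (h : ∃ e : ℕ, ¬ p ∣ e ∧ ∀ x : E, x ≠ 0 → ∃ m : ℤ, snorm p E x ^ e = (p : ℝ) ^ m) :
    ¬ p ∣ ramIdx p ℚ_[p] E := by
  obtain ⟨e, he, hval⟩ := h
  obtain ⟨π, hπ⟩ := exists_isUniformizer p E
  have hπ0 : (π : E) ≠ 0 := π.ne_zero
  obtain ⟨m, hm⟩ := hval (π : E) hπ0
  have h1 := Tame83.snorm_pow_ramIdx p E hπ
  set s := snorm p E (π : E) with hs
  set N := ramIdx p ℚ_[p] E with hN
  have hp1 : (1 : ℝ) < p := by exact_mod_cast (Fact.out : p.Prime).one_lt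
  have hp0 : (0 : ℝ) < p := by linarith
  have h2 : ((p : ℝ) ^ m) ^ N = ((p : ℝ)⁻¹) ^ e := by
    rw [← hm, ← h1, ← pow_mul, ← pow_mul, mul_comm]
  have h3 : (p : ℝ) ^ (m * (N : ℤ)) = (p : ℝ) ^ (-(e : ℤ)) := by
    rw [zpow_mul, zpow_natCast, h2, zpow_neg, zpow_natCast, inv_pow]
  have h4 : m * (N : ℤ) = -(e : ℤ) := zpow_right_injective₀ hp0 hp1.ne' h3
  intro hdvd
  apply he
  have h5 : (N : ℤ) ∣ (e : ℤ) := ⟨-m, by linarith⟩
  exact Nat.dvd_trans hdvd (Int.natCast_dvd_natCast.1 h5)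

/-- **THEOREM KF** (Kummer form of Fontaine's bound). -/
theorem kummerFontaine : KummerFontaine p := by
  intro hp2 V _ _ act hV hk K0 _ _ htame hζ u z hu hzu hz
  obtain ⟨L, hLfd, hLgal, hL, hPm⟩ := exists_splitField_emb V act hV hk
  have hzT : z ∈ K0 ⊔ L := (mem_sup_iff K0 L act hL z).2 hz
  have hp : p.Prime := Fact.out
  -- the ambient field `T = K0 ⊔ L` and the two subfields
  have hTgal : IsGalois ℚ_[p] ↥(K0 ⊔ L) := ⟨⟩
  set ι : ↥(K0 ⊔ L) →ₐ[ℚ_[p]] PadicAlgCl p := (K0 ⊔ L).val with hι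
  have hιrange : ι.fieldRange = K0 ⊔ L := IntermediateField.fieldRange_val _
  set L' : IntermediateField ℚ_[p] ↥(K0 ⊔ L) := L.comap ι with hL'
  set K' : IntermediateField ℚ_[p] ↥(K0 ⊔ L) := K0.comap ι with hK'
  have hL'map : L'.map ι = L :=
    IntermediateField.map_comap_eq_self (by rw [hιrange]; exact le_sup_right)
  have hK'map : K'.map ι = K0 :=
    IntermediateField.map_comap_eq_self (by rw [hιrange]; exact le_sup_left)
  have hsup : L' ⊔ K' = ⊤ := by
    apply IntermediateField.map_injective ι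
    rw [IntermediateField.map_sup, hL'map, hK'map, ← AlgHom.fieldRange_eq_map, hιrange, sup_comm]
  -- the isomorphisms `K0 ≃ K'`, `L ≃ L'`
  let eK : K0 ≃ₐ[ℚ_[p]] K' :=
    { toFun := fun x => ⟨⟨x, (le_sup_left : K0 ≤ K0 ⊔ L) x.2⟩, x.2⟩
      invFun := fun y => ⟨ι y, y.2⟩
      left_inv := fun x => rfl
      right_inv := fun y => rfl
      map_mul' := fun x y => rfl
      map_add' := fun x y => rfl
      commutes' := fun a => rfl }
  let eL : L ≃ₐ[ℚ_[p]] L' :=
    { toFun := fun x => ⟨⟨x, (le_sup_right : L ≤ K0 ⊔ L) x.2⟩, x.2⟩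
      invFun := fun y => ⟨ι y, y.2⟩
      left_inv := fun x => rfl
      right_inv := fun y => rfl
      map_mul' := fun x y => rfl
      map_add' := fun x y => rfl
      commutes' := fun a => rfl }
  have hK'gal : IsGalois ℚ_[p] K' := IsGalois.of_algEquiv eK
  have hL'gal : IsGalois ℚ_[p] L' := IsGalois.of_algEquiv eL
  have hL'fd : FiniteDimensional ℚ_[p] L' := eL.toLinearEquiv.finiteDimensional
  have hK'fd : FiniteDimensional ℚ_[p] K' := eK.toLinearEquiv.finiteDimensional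
  -- norms on `K'`
  have hnormK' : ∀ x : K', snorm p K' x = ‖ι (x : ↥(K0 ⊔ L))‖ := fun x =>
    spectralNorm_eq_norm K' (ι.comp K'.val) x
  -- tameness of `K'`
  have htame' : ¬ p ∣ ramIdx p ℚ_[p] K' := by
    apply not_dvd_ramIdx_of_values
    obtain ⟨e, he, hval⟩ := htame
    refine ⟨e, he, fun x hx => ?_⟩
    have hx0 : eK.symm x ≠ 0 := fun h => hx (by simpa using h)
    obtain ⟨m, hm⟩ := hval (eK.symm x) hx0
    exact ⟨m, by rw [hnormK']; exact hm⟩
  -- the root of unity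
  obtain ⟨ζ, hζ⟩ := hζ
  have hζ' : IsPrimitiveRoot (eK ζ) p := hζ.map_of_injective eK.injective
  -- Fontaine's bound for `L'`
  have hPm' : ∀ r : ℝ, 0 ≤ r → r ^ (p - 1) < (p : ℝ) ^ (-(p : ℤ)) → PmHom p ℚ_[p] L' r :=
    hPm L' (ι.comp L'.val) (by
      refine Eq.trans ?_ hL'map
      ext x
      rw [AlgHom.mem_fieldRange, IntermediateField.mem_map]
      constructor
      · rintro ⟨y, rfl⟩
        exact ⟨y, y.2, rfl⟩
      · rintro ⟨y, hy, rfl⟩
        exact ⟨⟨y, hy⟩, rfl⟩)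
  have hbound : ∀ xL : L', IsGen p L' xL →
      (lowerIdx p ℚ_[p] L' xL).BoundedBy (normVal p K' (eK ζ - 1) * (p : ℝ≥0)⁻¹) := by
    intro xL hxL
    refine Fermat.Agent.TW.RAM.FontaineBound41.boundedBy_of_fontaine hxL ?_ hPm'
    have h1 := KFCore83.normVal_zeta_sub_one_pow hζ'
    have h2 : ((normVal p K' (eK ζ - 1) * (p : ℝ≥0)⁻¹ : ℝ≥0) : ℝ) ^ (p - 1) =
        (p : ℝ) ^ (-(p : ℤ)) := by
      rw [← NNReal.coe_pow, mul_pow, h1]
      push_cast
      rw [zpow_neg, zpow_natCast, ← inv_pow, ← pow_succ', Nat.sub_add_cancel hp.one_lt.le]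
    exact h2.le
  -- apply the core theorem
  have hzu' : (⟨z, hzT⟩ : ↥(K0 ⊔ L)) ^ p = ((eK u : K') : ↥(K0 ⊔ L)) := Subtype.ext hzu
  have hu' : eK u ≠ 0 := fun h => hu (by simpa using h)
  obtain ⟨a, y, ha, hy, huy⟩ := KFCore83.kf_core ↥(K0 ⊔ L) L' K' hsup htame' (eK ζ) hζ' hbound
    (eK u) hu' ⟨z, hzT⟩ hzu'
  refine ⟨eK.symm a, eK.symm y, ?_, fun h => hy (by simpa using h), ?_⟩
  · rw [hnormK'] at ha
    exact ha
  · have := congrArg eK.symm huy
    rw [AlgEquiv.symm_apply_apply] at this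
    rw [this]
    simp only [map_mul, map_add, map_one, map_pow, map_natCast]

end

end Fermat.Agent.TW.FF.KF92
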