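/-
TW / WP7 B3.2 (helper92).  Rigidity on points, in `Ω`-language.

`Ω` an ultrametric normed field with `‖p‖ = 1/p` (e.g. `PadicAlgCl p`), `H` a commutative
cocommutative bialgebra, free over `R`, killed by `p`.  Two `R`-algebra maps `g g' : H → Ω` with
integral values such that `‖g x - g' x‖ ≤ ρ` for all `x`, where `p * ρ^(p-1) < 1`
(i.e. `ρ < p^(-1/(p-1))`), are equal.  No completeness is needed.

* `norm_le_one_of_isIntegral` : integral elements have norm `≤ 1`.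
* `eq_of_norm_sub_le`         : rigidity, general form.
* `eq_of_norm_sub_le_padic`   : rigidity for `R = ℤ_[p]`, `Ω = PadicAlgCl p`, `H` finite free.
-/
import Mathlib
import Fermat.Agent.TW.FF.BallFil92
import Fermat.Agent.TW.FF.LiftGroupLike92

namespace Fermat.Agent.TW.FF.RigidOmega92

open Fermat.Agent.TW.FF.PFil92 Fermat.Agent.TW.FF.BallFil92 Fermat.Agent.TW.FF.LiftGroupLike92

section Integral

variable {R : Type*} [CommRing R] {Ω : Type*} [NormedField Ω] [IsUltrametricDist Ω] [Algebra R Ω]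

/-- In an ultrametric normed field, elements integral over a ring of elements of norm `≤ 1`
have norm `≤ 1`. -/
theorem norm_le_one_of_isIntegral (hR : ∀ a : R, ‖algebraMap R Ω a‖ ≤ 1) {x : Ω}
    (hx : IsIntegral R x) : ‖x‖ ≤ 1 := by
  obtain ⟨f, hm, hf⟩ := hx
  by_contra hlt
  rw [not_le] at hlt
  set n := f.natDegree with hn
  rcases Nat.eq_zero_or_pos n with h0 | hpos
  · have hf1 : f = 1 := by
      have := Polynomial.eq_C_of_natDegree_eq_zero h0
      rw [this]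
      have hc : f.coeff 0 = 1 := by
        have := hm.coeff_natDegree
        rwa [← hn, h0] at this
      rw [hc, Polynomial.C_1]
    rw [hf1] at hf
    simp at hf
  · rw [Polynomial.eval₂_eq_sum_range, Finset.sum_range_succ, hm.coeff_natDegree, map_one,
      one_mul] at hf
    have hxn : x ^ n = -∑ i ∈ Finset.range n, algebraMap R Ω (f.coeff i) * x ^ i := by
      rw [← hn] at hf
      exact eq_neg_of_add_eq_zero_right hf
    have hbound : ‖∑ i ∈ Finset.range n, algebraMap R Ω (f.coeff i) * x ^ i‖ ≤ ‖x‖ ^ (n - 1) := by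
      apply IsUltrametricDist.norm_sum_le_of_forall_le_of_nonneg (pow_nonneg (norm_nonneg x) _)
      intro i hi
      rw [Finset.mem_range] at hi
      rw [norm_mul, norm_pow]
      calc ‖algebraMap R Ω (f.coeff i)‖ * ‖x‖ ^ i ≤ 1 * ‖x‖ ^ i :=
            mul_le_mul_of_nonneg_right (hR _) (pow_nonneg (norm_nonneg x) i)
        _ = ‖x‖ ^ i := one_mul _
        _ ≤ ‖x‖ ^ (n - 1) := pow_le_pow_right₀ hlt.le (by omega)
    have h1 : ‖x‖ ^ n ≤ ‖x‖ ^ (n - 1) := by
      rw [← norm_pow, hxn, norm_neg]; exact hbound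
    have h2 : ‖x‖ ^ (n - 1) < ‖x‖ ^ n := pow_lt_pow_right₀ hlt (by omega)
    exact absurd h1 (not_le.2 h2)

end Integral

section Rigid

variable {R : Type*} [CommRing R] {H : Type*} [CommRing H] [Bialgebra R H]
  [Coalgebra.IsCocomm R H] [Module.Free R H]
  {Ω : Type*} [NormedField Ω] [IsUltrametricDist Ω] [Algebra R Ω]

/-- **Rigidity on points** (general form, pointwise `p`-torsion hypotheses). -/
theorem eq_of_norm_sub_le_of_pow {p : ℕ} (hp : p.Prime) (hnp : ‖(p : Ω)‖ = (p : ℝ)⁻¹)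
    (hR : ∀ a : R, ‖algebraMap R Ω a‖ ≤ 1) (g g' : H →ₐ[R] Ω)
    (hgp : (WithConv.toConv g.toLinearMap) ^ p = 1)
    (hgp' : (WithConv.toConv g'.toLinearMap) ^ p = 1)
    (hg : ∀ x, ‖g x‖ ≤ 1) (hg' : ∀ x, ‖g' x‖ ≤ 1) {ρ : ℝ}
    (hρ : (p : ℝ) * ρ ^ (p - 1) < 1) (h : ∀ x, ‖g x - g' x‖ ≤ ρ) : g = g' := by
  have h0 : 0 ≤ ρ := le_trans (norm_nonneg _) (h 0)
  let _ : Algebra R (unitBall Ω) :=
    (RingHom.codRestrict (algebraMap R Ω) (unitBall Ω) hR).toAlgebra
  let gS : H →ₐ[R] unitBall Ω :=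
    { RingHom.codRestrict g.toRingHom (unitBall Ω) hg with
      commutes' := fun a => Subtype.ext (g.commutes a) }
  let gS' : H →ₐ[R] unitBall Ω :=
    { RingHom.codRestrict g'.toRingHom (unitBall Ω) hg' with
      commutes' := fun a => Subtype.ext (g'.commutes a) }
  let incl : unitBall Ω →ₐ[R] Ω :=
    { (unitBall Ω).subtype with commutes' := fun _ => rfl }
  have hinj : Function.Injective
      (ConvFil92.postComp (H := H) incl) := by
    intro f₁ f₂ hf
    apply WithConv.ext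
    ext x
    have := congrArg (fun f : WithConv (H →ₗ[R] Ω) => f.ofConv x) hf
    exact this
  have e1 : ConvFil92.postComp incl (WithConv.toConv gS.toLinearMap) =
      WithConv.toConv g.toLinearMap := by
    apply WithConv.ext
    ext x
    rfl
  have e1' : ConvFil92.postComp incl (WithConv.toConv gS'.toLinearMap) =
      WithConv.toConv g'.toLinearMap := by
    apply WithConv.ext
    ext x
    rfl
  have hgS : (WithConv.toConv gS.toLinearMap) ^ p = 1 := by
    apply hinj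
    rw [map_pow, e1, hgp, map_one]
  have hgS' : (WithConv.toConv gS'.toLinearMap) ^ p = 1 := by
    apply hinj
    rw [map_pow, e1', hgp', map_one]
  have hN := isPNorm_unitBall (Ω := Ω) hp hnp
  have hfil := isPFilSep_ball hN hp h0 hρ
  have key : gS = gS' := by
    apply algHom_ext_of_sub_mem_of_pow hp hfil gS gS' hgS hgS'
    intro x
    show gS x - gS' x ∈ ballI hN (ρ * ratio p ρ ^ 0)
    rw [pow_zero, mul_one, mem_ballI hN h0]
    exact h x
  apply AlgHom.ext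
  intro x
  have := congrArg (fun f : H →ₐ[R] unitBall Ω => ((f x : unitBall Ω) : Ω)) key
  exact this

/-- **Rigidity on points** (general form). -/
theorem eq_of_norm_sub_le {p : ℕ} (hp : p.Prime) (hnp : ‖(p : Ω)‖ = (p : ℝ)⁻¹)
    (hR : ∀ a : R, ‖algebraMap R Ω a‖ ≤ 1) (hk : IsKilledBy R H p) (g g' : H →ₐ[R] Ω)
    (hg : ∀ x, ‖g x‖ ≤ 1) (hg' : ∀ x, ‖g' x‖ ≤ 1) {ρ : ℝ}
    (hρ : (p : ℝ) * ρ ^ (p - 1) < 1) (h : ∀ x, ‖g x - g' x‖ ≤ ρ) : g = g' :=
  eq_of_norm_sub_le_of_pow hp hnp hR g g' (hk.algHom_pow g) (hk.algHom_pow g') hg hg' hρ h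

end Rigid

section Padic

variable (p : ℕ) [Fact p.Prime]

theorem norm_natCast_padicAlgCl : ‖(p : PadicAlgCl p)‖ = (p : ℝ)⁻¹ := by
  rw [← map_natCast (algebraMap ℚ_[p] (PadicAlgCl p))]
  exact (PadicAlgCl.norm_extends p (p : ℚ_[p])).trans Padic.norm_p

theorem norm_algebraMap_padicInt_le (a : ℤ_[p]) :
    ‖algebraMap ℤ_[p] (PadicAlgCl p) a‖ ≤ 1 := by
  rw [IsScalarTower.algebraMap_apply ℤ_[p] ℚ_[p] (PadicAlgCl p)]
  refine le_trans (le_of_eq (PadicAlgCl.norm_extends p _)) ?_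
  exact PadicInt.norm_le_one a

variable {H : Type*} [CommRing H] [Bialgebra ℤ_[p] H] [Coalgebra.IsCocomm ℤ_[p] H]
  [Module.Free ℤ_[p] H] [Module.Finite ℤ_[p] H]

omit [Coalgebra.IsCocomm ℤ_[p] H] [Module.Free ℤ_[p] H] in
/-- Points of a finite `ℤ_p`-algebra in `PadicAlgCl p` have values of norm `≤ 1`. -/
theorem norm_algHom_le_one (g : H →ₐ[ℤ_[p]] PadicAlgCl p) (x : H) : ‖g x‖ ≤ 1 :=
  norm_le_one_of_isIntegral (norm_algebraMap_padicInt_le p)
    ((Algebra.IsIntegral.isIntegral (R := ℤ_[p]) x).map g)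

/-- **Rigidity on points** for finite flat group schemes over `ℤ_p` killed by `p`: two points
with values in `PadicAlgCl p` which are congruent modulo `{‖·‖ ≤ ρ}`, `p ρ^(p-1) < 1`, are
equal. -/
theorem eq_of_norm_sub_le_padic (hk : IsKilledBy ℤ_[p] H p) (g g' : H →ₐ[ℤ_[p]] PadicAlgCl p)
    {ρ : ℝ} (hρ : (p : ℝ) * ρ ^ (p - 1) < 1) (h : ∀ x, ‖g x - g' x‖ ≤ ρ) : g = g' :=
  eq_of_norm_sub_le (Fact.out : p.Prime) (norm_natCast_padicAlgCl p)
    (norm_algebraMap_padicInt_le p) hk g g' (norm_algHom_le_one p g) (norm_algHom_le_one p g')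
    hρ h

/-- **Rigidity on points**, strict form: `‖g x - g' x‖ < p^(-1/(p-1))` for all `x` forces
`g = g'`.  (`H` is finite, so the supremum of the differences over a finite generating set is
attained; we use a finite basis.) -/
theorem eq_of_norm_sub_lt_padic (hk : IsKilledBy ℤ_[p] H p) (g g' : H →ₐ[ℤ_[p]] PadicAlgCl p)
    (h : ∀ x, ‖g x - g' x‖ < (p : ℝ) ^ (-(1 : ℝ) / ((p : ℝ) - 1))) : g = g' := by
  classical
  have hp : p.Prime := Fact.out
  have hp1 : (1 : ℝ) < p := by exact_mod_cast hp.one_lt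
  have hppos : (0 : ℝ) < p := lt_trans zero_lt_one hp1
  let b := Module.Free.chooseBasis ℤ_[p] H
  have : Fintype (Module.Free.ChooseBasisIndex ℤ_[p] H) :=
    Module.Free.ChooseBasisIndex.fintype _ _
  set c : ℝ := (p : ℝ) ^ (-(1 : ℝ) / ((p : ℝ) - 1)) with hc
  have hc0 : 0 < c := Real.rpow_pos_of_pos hppos _
  -- the maximum of the differences on the basis
  set ρ : NNReal := Finset.univ.sup (fun i => ‖g (b i) - g' (b i)‖₊) with hρdef
  have hρc : (ρ : ℝ) < c := by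
    have hc' : (⊥ : NNReal) < ⟨c, hc0.le⟩ := by
      rw [bot_eq_zero]; exact_mod_cast hc0
    have : ρ < ⟨c, hc0.le⟩ := by
      rw [hρdef, Finset.sup_lt_iff hc']
      intro i _
      have := h (b i)
      exact_mod_cast this
    exact_mod_cast this
  have hb : ∀ i, ‖g (b i) - g' (b i)‖ ≤ ρ := fun i => by
    have : ‖g (b i) - g' (b i)‖₊ ≤ ρ := Finset.le_sup (f := fun i => ‖g (b i) - g' (b i)‖₊)
      (Finset.mem_univ i)
    exact_mod_cast this
  have hall : ∀ x, ‖g x - g' x‖ ≤ ρ := by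
    intro x
    have hx : x = ∑ i, b.repr x i • b i := (b.sum_repr x).symm
    have e : g x - g' x = ∑ i, algebraMap ℤ_[p] (PadicAlgCl p) (b.repr x i) *
        (g (b i) - g' (b i)) := by
      conv_lhs => rw [hx]
      rw [map_sum, map_sum, ← Finset.sum_sub_distrib]
      refine Finset.sum_congr rfl (fun i _ => ?_)
      rw [map_smul, map_smul, Algebra.smul_def, Algebra.smul_def, mul_sub]
    rw [e]
    apply IsUltrametricDist.norm_sum_le_of_forall_le_of_nonneg ρ.2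
    intro i _
    rw [norm_mul]
    calc ‖algebraMap ℤ_[p] (PadicAlgCl p) (b.repr x i)‖ * ‖g (b i) - g' (b i)‖
        ≤ 1 * ρ := mul_le_mul (norm_algebraMap_padicInt_le p _) (hb i) (norm_nonneg _)
          zero_le_one
      _ = ρ := one_mul _
  refine eq_of_norm_sub_le_padic p hk g g' (ρ := ρ) ?_ hall
  -- `p * ρ^(p-1) < 1`
  have hp2 : 0 < p - 1 := Nat.sub_pos_of_lt hp.one_lt
  have h1 : (ρ : ℝ) ^ (p - 1) < c ^ (p - 1) :=
    pow_lt_pow_left₀ hρc ρ.2 hp2.ne'
  have h2 : c ^ (p - 1) = (p : ℝ)⁻¹ := by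
    rw [hc, ← Real.rpow_natCast, ← Real.rpow_mul hppos.le]
    have hcast : ((p - 1 : ℕ) : ℝ) = (p : ℝ) - 1 := by
      rw [Nat.cast_sub hp.one_lt.le, Nat.cast_one]
    have hne : (p : ℝ) - 1 ≠ 0 := by linarith
    rw [hcast, div_mul_cancel₀ _ hne, Real.rpow_neg_one]
  rw [h2] at h1
  calc (p : ℝ) * (ρ : ℝ) ^ (p - 1) < (p : ℝ) * (p : ℝ)⁻¹ :=
        mul_lt_mul_of_pos_left h1 hppos
    _ = 1 := mul_inv_cancel₀ hppos.ne'

omit [Coalgebra.IsCocomm ℤ_[p] H] in
/-- Pointwise strict bounds `‖g x - g' x‖^(p-1) < 1/p` give a uniform radius `ρ` with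
`p ρ^(p-1) < 1` (take the maximum over a finite basis). -/
theorem exists_uniform_radius (g g' : H →ₐ[ℤ_[p]] PadicAlgCl p)
    (h : ∀ x, ‖g x - g' x‖ ^ (p - 1) < (p : ℝ)⁻¹) :
    ∃ ρ : ℝ, (p : ℝ) * ρ ^ (p - 1) < 1 ∧ ∀ x, ‖g x - g' x‖ ≤ ρ := by
  classical
  have hp : p.Prime := Fact.out
  have hppos : (0 : ℝ) < p := by exact_mod_cast hp.pos
  have hp2 : p - 1 ≠ 0 := (Nat.sub_pos_of_lt hp.one_lt).ne'
  let b := Module.Free.chooseBasis ℤ_[p] H
  have : Fintype (Module.Free.ChooseBasisIndex ℤ_[p] H) :=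
    Module.Free.ChooseBasisIndex.fintype _ _
  set ρ : NNReal := Finset.univ.sup (fun i => ‖g (b i) - g' (b i)‖₊) with hρdef
  have hb : ∀ i, ‖g (b i) - g' (b i)‖ ≤ ρ := fun i => by
    have : ‖g (b i) - g' (b i)‖₊ ≤ ρ := Finset.le_sup (f := fun i => ‖g (b i) - g' (b i)‖₊)
      (Finset.mem_univ i)
    exact_mod_cast this
  have hall : ∀ x, ‖g x - g' x‖ ≤ ρ := by
    intro x
    have hx : x = ∑ i, b.repr x i • b i := (b.sum_repr x).symm
    have e : g x - g' x = ∑ i, algebraMap ℤ_[p] (PadicAlgCl p) (b.repr x i) *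
        (g (b i) - g' (b i)) := by
      conv_lhs => rw [hx]
      rw [map_sum, map_sum, ← Finset.sum_sub_distrib]
      refine Finset.sum_congr rfl (fun i _ => ?_)
      rw [map_smul, map_smul, Algebra.smul_def, Algebra.smul_def, mul_sub]
    rw [e]
    apply IsUltrametricDist.norm_sum_le_of_forall_le_of_nonneg ρ.2
    intro i _
    rw [norm_mul]
    calc ‖algebraMap ℤ_[p] (PadicAlgCl p) (b.repr x i)‖ * ‖g (b i) - g' (b i)‖
        ≤ 1 * ρ := mul_le_mul (norm_algebraMap_padicInt_le p _) (hb i) (norm_nonneg _)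
          zero_le_one
      _ = ρ := one_mul _
  refine ⟨ρ, ?_, hall⟩
  -- `ρ^(p-1) < 1/p`
  have hpinv : (0 : NNReal) < (p : NNReal)⁻¹ := by
    have : (0 : NNReal) < (p : NNReal) := by exact_mod_cast hp.pos
    exact inv_pos.2 this
  have hmono : Monotone (fun x : NNReal => x ^ (p - 1)) := fun x y hxy =>
    pow_le_pow_left₀ zero_le hxy _
  have hbot : (fun x : NNReal => x ^ (p - 1)) ⊥ = ⊥ := by
    show (⊥ : NNReal) ^ (p - 1) = ⊥
    rw [bot_eq_zero, zero_pow hp2]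
  have hsup : ρ ^ (p - 1) = Finset.univ.sup (fun i => ‖g (b i) - g' (b i)‖₊ ^ (p - 1)) := by
    rw [hρdef]
    exact Finset.apply_sup_eq_sup_comp_of_linearOrder (fun x : NNReal => x ^ (p - 1)) hmono hbot
  have hlt : ρ ^ (p - 1) < (p : NNReal)⁻¹ := by
    rw [hsup, Finset.sup_lt_iff (by rw [bot_eq_zero]; exact hpinv)]
    intro i _
    have := h (b i)
    have h' : ((‖g (b i) - g' (b i)‖₊ ^ (p - 1) : NNReal) : ℝ) < (((p : NNReal)⁻¹ : NNReal) : ℝ) := by
      push_cast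
      exact this
    exact_mod_cast h'
  have hlt' : (ρ : ℝ) ^ (p - 1) < (p : ℝ)⁻¹ := by exact_mod_cast hlt
  calc (p : ℝ) * (ρ : ℝ) ^ (p - 1) < (p : ℝ) * (p : ℝ)⁻¹ :=
        mul_lt_mul_of_pos_left hlt' hppos
    _ = 1 := mul_inv_cancel₀ hppos.ne'

/-- **Rigidity on points**, pointwise `p`-torsion hypotheses, for `PadicAlgCl p`. -/
theorem eq_of_norm_pow_lt_padic_of_pow (g g' : H →ₐ[ℤ_[p]] PadicAlgCl p)
    (hgp : (WithConv.toConv g.toLinearMap) ^ p = 1)
    (hgp' : (WithConv.toConv g'.toLinearMap) ^ p = 1)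
    (h : ∀ x, ‖g x - g' x‖ ^ (p - 1) < (p : ℝ)⁻¹) : g = g' := by
  obtain ⟨ρ, hρ, hall⟩ := exists_uniform_radius p g g' h
  exact eq_of_norm_sub_le_of_pow (Fact.out : p.Prime) (norm_natCast_padicAlgCl p)
    (norm_algebraMap_padicInt_le p) g g' hgp hgp' (norm_algHom_le_one p g)
    (norm_algHom_le_one p g') hρ hall

end Padic

end Fermat.Agent.TW.FF.RigidOmega92
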