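/-
TW / WP7 B9-RED (helper68).  **The reduction of points of a function order, and the connected part.**

`Ω = PadicAlgCl p`, `H ⊆ Fun(M, Ω)` a function order over `ℤ_p` (`FunOrder68.IsFunOrder`).
* `Cong H m m'` : the points `m, m'` are congruent modulo the maximal ideal of the integers of `Ω`
  (`‖h m - h m'‖ < 1` for all `h ∈ H`), i.e. they have the same reduction.  It is an additive
  congruence (`Cong.add`, `Cong.neg`), Galois-stable (`Cong.smul`).
* `conn hH : AddSubgroup M` : the kernel of reduction (`M⁰`, the points of the connected component).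
* `smul_sub_mem_conn` : `τ • v - v ∈ M⁰` for `τ` in the inertia group, so `I_aug M ≤ M⁰`.
* functoriality: `cong_resAlg_iff` (stable subgroups), `Cong.mk` (quotients).
-/
import Mathlib
import Fermat.Agent.TW.FF.Spec72
import Fermat.Agent.TW.FF.FunOrder68
import Fermat.Agent.TW.FF.ClosureSub68
import Fermat.Agent.TW.FF.ClosureQuot68
import Fermat.Agent.TW.FF.RigidOmega92

set_option autoImplicit false

noncomputable section

namespace Fermat.Agent.TW.FF.Red68

open Fermat.Agent.S19.Shell64 Fermat.Agent.TW.FF.FunOrder68 Fermat.Agent.TW.FF.FlatModel68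
open Fermat.Agent.TW.FF.Spec72

variable {p : ℕ} [Fact p.Prime]

/-! ### Norm facts on `PadicAlgCl p` -/

/-- the elements of the local Galois group are isometries. -/
theorem norm_algEquiv (τ : GQp p) (y : PadicAlgCl p) : ‖τ y‖ = ‖y‖ :=
  (spectralNorm_eq_of_equiv τ y).symm

theorem norm_sub_lt_one {a b c : PadicAlgCl p} (h1 : ‖a - b‖ < 1) (h2 : ‖b - c‖ < 1) :
    ‖a - c‖ < 1 := by
  have h : a - c = (a - b) + (b - c) := by ring
  rw [h]
  exact lt_of_le_of_lt (IsUltrametricDist.norm_add_le_max _ _) (max_lt h1 h2)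

theorem norm_sum_lt_one {ι : Type*} (s : Finset ι) (f : ι → PadicAlgCl p)
    (h : ∀ i ∈ s, ‖f i‖ < 1) : ‖∑ i ∈ s, f i‖ < 1 := by
  rcases s.eq_empty_or_nonempty with rfl | hs
  · simp
  · obtain ⟨i, hi, hle⟩ := IsUltrametricDist.exists_norm_finsetSum_le_of_nonempty hs f
    exact lt_of_le_of_lt hle (h i hi)

/-- inertia is stable under conjugation. -/
theorem conj_mem_inertiaSet {τ : GQp p} (hτ : τ ∈ inertiaSet p) (σ : GQp p) :
    σ * τ * σ⁻¹ ∈ inertiaSet p := by
  intro x hx
  have h1 : ‖σ⁻¹ x‖ ≤ 1 := by rw [norm_algEquiv]; exact hx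
  have h2 := hτ (σ⁻¹ x) h1
  have h3 : (σ * τ * σ⁻¹) x - x = σ (τ (σ⁻¹ x) - σ⁻¹ x) := by
    rw [map_sub]
    change σ (τ (σ⁻¹ x)) - x = σ (τ (σ⁻¹ x)) - σ (σ⁻¹ x)
    congr 1
    exact (AlgEquiv.apply_symm_apply σ x).symm
  rw [h3, norm_algEquiv]
  exact h2

/-! ### Congruence of points -/

section Cong

variable {M : Type}

/-- two points have the same reduction. -/
def Cong (H : Subalgebra ℤ_[p] (M → PadicAlgCl p)) (m m' : M) : Prop :=
  ∀ h ∈ H, ‖h m - h m'‖ < 1

variable {H : Subalgebra ℤ_[p] (M → PadicAlgCl p)}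

theorem Cong.refl (m : M) : Cong H m m := fun h _ => by simp

theorem Cong.symm {m m' : M} (h : Cong H m m') : Cong H m' m := fun f hf => by
  rw [norm_sub_rev]; exact h f hf

theorem Cong.trans {m m' m'' : M} (h : Cong H m m') (h' : Cong H m' m'') : Cong H m m'' :=
  fun f hf => norm_sub_lt_one (h f hf) (h' f hf)

/-- the values of the functions of a function order are integral. -/
theorem norm_apply_le_one (hfin : Module.Finite ℤ_[p] H) {h : M → PadicAlgCl p} (hh : h ∈ H)
    (m : M) : ‖h m‖ ≤ 1 := by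
  have hint : IsIntegral ℤ_[p] (⟨h, hh⟩ : H) := Algebra.IsIntegral.isIntegral _
  have hint0 : IsIntegral ℤ_[p] (h m) := hint.map (evalPt H.val m)
  exact RigidOmega92.norm_le_one_of_isIntegral (RigidOmega92.norm_algebraMap_padicInt_le p) hint0

variable [AddCommGroup M] [MulAction (GQp p) M]

/-- congruence is compatible with addition. -/
theorem Cong.add (hH : IsFunOrder ℤ_[p] ℚ_[p] H) {m m' n n' : M} (h1 : Cong H m m')
    (h2 : Cong H n n') : Cong H (m + n) (m' + n') := by
  intro f hf
  obtain ⟨k, a, b, hab⟩ := hH.comul f hf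
  rw [hab m n, hab m' n', ← Finset.sum_sub_distrib]
  refine norm_sum_lt_one _ _ (fun i _ => ?_)
  have e1 : (a i : M → PadicAlgCl p) m * (b i : M → PadicAlgCl p) n -
      (a i : M → PadicAlgCl p) m' * (b i : M → PadicAlgCl p) n' =
      ((a i : M → PadicAlgCl p) m - (a i : M → PadicAlgCl p) m') * (b i : M → PadicAlgCl p) n +
      (a i : M → PadicAlgCl p) m' * ((b i : M → PadicAlgCl p) n - (b i : M → PadicAlgCl p) n') := by
    ring
  rw [e1]
  refine lt_of_le_of_lt (IsUltrametricDist.norm_add_le_max _ _) (max_lt ?_ ?_)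
  · rw [norm_mul]
    have := norm_apply_le_one hH.finite (b i).2 n
    have h3 := h1 _ (a i).2
    nlinarith [norm_nonneg ((a i : M → PadicAlgCl p) m - (a i : M → PadicAlgCl p) m'),
      norm_nonneg ((b i : M → PadicAlgCl p) n)]
  · rw [norm_mul]
    have := norm_apply_le_one hH.finite (a i).2 m'
    have h3 := h2 _ (b i).2
    nlinarith [norm_nonneg ((b i : M → PadicAlgCl p) n - (b i : M → PadicAlgCl p) n'),
      norm_nonneg ((a i : M → PadicAlgCl p) m')]

/-- congruence is compatible with negation. -/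
theorem Cong.neg (hH : IsFunOrder ℤ_[p] ℚ_[p] H) {m m' : M} (h : Cong H m m') :
    Cong H (-m) (-m') := by
  have h1 := (Cong.add hH h (Cong.refl (-m - m'))).symm
  have e1 : m + (-m - m') = -m' := by abel
  have e2 : m' + (-m - m') = -m := by abel
  rwa [e1, e2] at h1

/-- congruence is compatible with subtraction. -/
theorem Cong.sub (hH : IsFunOrder ℤ_[p] ℚ_[p] H) {m m' n n' : M} (h1 : Cong H m m')
    (h2 : Cong H n n') : Cong H (m - n) (m' - n') := by
  rw [sub_eq_add_neg, sub_eq_add_neg]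
  exact Cong.add hH h1 (Cong.neg hH h2)

/-- congruence is Galois-stable. -/
theorem Cong.smul (hH : IsFunOrder ℤ_[p] ℚ_[p] H) (σ : GQp p) {m m' : M} (h : Cong H m m') :
    Cong H (σ • m) (σ • m') := by
  intro f hf
  rw [hH.equivariant f hf σ m, hH.equivariant f hf σ m', ← map_sub, norm_algEquiv]
  exact h f hf

/-- inertia does not change the reduction of a point. -/
theorem cong_smul_of_mem_inertiaSet (hH : IsFunOrder ℤ_[p] ℚ_[p] H) {τ : GQp p}
    (hτ : τ ∈ inertiaSet p) (v : M) : Cong H (τ • v) v := by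
  intro f hf
  rw [hH.equivariant f hf τ v]
  exact hτ (f v) (norm_apply_le_one hH.finite hf v)

/-- **the kernel of reduction** (`M⁰`). -/
def conn (hH : IsFunOrder ℤ_[p] ℚ_[p] H) : AddSubgroup M where
  carrier := {m | Cong H m 0}
  zero_mem' := Cong.refl 0
  add_mem' := by
    intro a b ha hb
    have := Cong.add hH ha hb
    rwa [add_zero] at this
  neg_mem' := by
    intro a ha
    have := Cong.neg hH ha
    rwa [neg_zero] at this

theorem mem_conn_iff (hH : IsFunOrder ℤ_[p] ℚ_[p] H) (m : M) : m ∈ conn hH ↔ Cong H m 0 :=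
  Iff.rfl

/-- `τ • v - v` lies in the kernel of reduction for `τ` in the inertia group. -/
theorem smul_sub_mem_conn (hH : IsFunOrder ℤ_[p] ℚ_[p] H) {τ : GQp p} (hτ : τ ∈ inertiaSet p)
    (v : M) : τ • v - v ∈ conn hH := by
  have := Cong.sub hH (cong_smul_of_mem_inertiaSet hH hτ v) (Cong.refl v)
  rwa [sub_self] at this

/-- the augmentation subgroup of inertia lies in the kernel of reduction. -/
theorem closure_le_conn (hH : IsFunOrder ℤ_[p] ℚ_[p] H) :
    AddSubgroup.closure {w : M | ∃ τ ∈ inertiaSet p, ∃ v : M, w = τ • v - v} ≤ conn hH := by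
  rw [AddSubgroup.closure_le]
  rintro w ⟨τ, hτ, v, rfl⟩
  exact smul_sub_mem_conn hH hτ v

end Cong

/-! ### Functoriality -/

section Functoriality

variable {M : Type} [AddCommGroup M]
  (H : Subalgebra ℤ_[p] (M → PadicAlgCl p)) (N : AddSubgroup M)

/-- the reduction on a subgroup is the restriction of the reduction. -/
theorem cong_resAlg_iff (n n' : N) :
    Cong (ClosureSub68.resAlg N H) n n' ↔ Cong H (n : M) (n' : M) := by
  constructor
  · intro h f hf
    exact h (fun x : N => f (x : M)) ⟨f, hf, rfl⟩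
  · rintro h _ ⟨f, hf, rfl⟩
    exact h f hf

/-- the quotient map is compatible with reduction. -/
theorem Cong.mk {m m' : M} (h : Cong H m m') :
    Cong (ClosureQuot68.quotAlg N H) (QuotientAddGroup.mk m : M ⧸ N) (QuotientAddGroup.mk m') := by
  intro g hg
  exact h (ClosureQuot68.pullQ (R := ℤ_[p]) N g) hg

end Functoriality

end Fermat.Agent.TW.FF.Red68
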