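/-
TW / WP7 B9-RED (helper68).  The shell theorem *with its evaluation map*: a function order `H` on `M`
is (as a type) a finite free cocommutative Hopf algebra whose `K`-points are the evaluations at the
points of `M`; in the language of `ReducedModel68`: there is a model `(Hh, e)` of `M` with
`redAlg e = H`.  Moreover `N • M = 0` implies `[N] = η ∘ ε` on `Hh`.
(helper64's `exists_hopfAlgebra_of_functionOrder'` hides the link between the model and `H`; the
reduction map / rigidity arguments of brick B9 need it.)
-/
import Mathlib
import Fermat.Agent.TW.FF.FunOrder68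

set_option autoImplicit false

noncomputable section

open scoped TensorProduct

namespace Fermat.Agent.TW.FF.ShellEval68

open Fermat.Agent.S19.Shell64 Fermat.Agent.TW.FF.FunOrder68 Fermat.Agent.TW.FF.ReducedModel68

variable {R F K M : Type} [CommRing R] [IsDomain R] [IsPrincipalIdealRing R] [Field F] [Field K]
  [Algebra R F] [IsFractionRing R F] [Algebra F K] [Algebra R K] [IsScalarTower R F K]
  [AddCommGroup M] [DistribMulAction (K ≃ₐ[F] K) M]

/-- **The shell theorem with evaluation.**  A function order `H` is the reduced function algebra of a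
finite free cocommutative Hopf model of `M`. -/
theorem exists_model_eval (hfix : FixedFieldEqBase F K) {H : Subalgebra R (M → K)}
    (hH : IsFunOrder R F H) :
    ∃ (Hh : Type) (_ : CommRing Hh) (_ : HopfAlgebra R Hh),
      Module.Finite R Hh ∧ Module.Free R Hh ∧ Coalgebra.IsCocomm R Hh ∧
      (∀ N : ℕ, (∀ m : M, N • m = 0) → (WithConv.toConv (AlgHom.id R Hh)) ^ N = 1) ∧
      ∃ e : WithConv (Hh →ₐ[R] K) ≃ M,
        (∀ f g, e (f * g) = e f + e g) ∧
        (∀ (σ : K ≃ₐ[F] K) (f g : WithConv (Hh →ₐ[R] K)),
          (∀ h : Hh, g h = σ (f h)) → e g = σ • e f) ∧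
        redAlg e = H := by
  classical
  have hfinH := hH.finite
  have hequiv := hH.equivariant
  have hsep := hH.separates
  have hmul := hH.comul
  have hone : ∀ h ∈ H, ∃ r : R, algebraMap R K r = h 0 :=
    fun h hh => eval_zero_mem_range hfix H hequiv hh
  have : Module.IsTorsionFree R (M → K) := isTorsionFree_fun (F := F)
  have : Module.IsTorsionFree R H :=
    Function.Injective.moduleIsTorsionFree (fun h : H => (h : M → K)) Subtype.val_injective
      (fun _ _ => rfl)
  have hfree : Module.Free R H := Module.free_of_finite_type_torsion_free'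
  let b := Module.Free.chooseBasis R H
  have hfinM : Finite M := by
    refine finite_of_separates (K := K) H.val b ?_
    intro m m' hmm
    obtain ⟨h, hh, hne⟩ := hsep m m' hmm
    exact ⟨⟨h, hh⟩, hne⟩
  have hinv : ∀ h ∈ H, (fun m => h (-m)) ∈ H := fun h hh => comp_neg_mem H hone hmul hh
  have hb : LinearIndependent K (fun i => ((b i : H) : M → K)) :=
    basis_linearIndependent hfix H hequiv b
  let D : HopfFunData R K M H (Module.Free.ChooseBasisIndex R H) :=
    { φ := H.val
      φ_inj := Subtype.val_injective
      b := b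
      b_indep := hb
      algebraMap_inj := algebraMap_injective_of_tower (F := F)
      mul_mem := by
        intro h
        obtain ⟨n, a, c, hac⟩ := hmul h h.2
        refine ⟨∑ i, a i ⊗ₜ[R] c i, fun m m' => ?_⟩
        rw [map_sum, Finset.sum_apply]
        simp only [prodEval_tmul]
        exact (hac m m').symm
      one_mem := fun h => hone h h.2
      inv_mem := fun h => ⟨⟨_, hinv h h.2⟩, fun _ => rfl⟩ }
  have hsep' : ∀ m m' : M, m ≠ m' → ∃ h : H, D.φ h m ≠ D.φ h m' := by
    intro m m' hmm
    obtain ⟨h, hh, hne⟩ := hsep m m' hmm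
    exact ⟨⟨h, hh⟩, hne⟩
  have hbij : Function.Bijective (evalPt D.φ) := evalPt_bijective D.φ b hb hsep'
  let _ := D.hopfAlgebra
  refine ⟨H, inferInstance, D.hopfAlgebra, inferInstance, hfree, D.isCocomm,
    fun N hN => convPow_id_eq_one D N hN, ?_⟩
  let e : WithConv (H →ₐ[R] K) ≃ M :=
    (WithConv.equiv _).trans (Equiv.ofBijective (evalPt D.φ) hbij).symm
  have he : ∀ (f : WithConv (H →ₐ[R] K)) (m : M), e f = m ↔ f.ofConv = evalPt D.φ m := by
    intro f m
    simp only [e, Equiv.trans_apply, WithConv.equiv_apply, Equiv.symm_apply_eq,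
      Equiv.ofBijective_apply]
  refine ⟨e, ?_, ?_, ?_⟩
  · intro f g
    rw [he]
    have hf := (he f (e f)).mp rfl
    have hg := (he g (e g)).mp rfl
    apply AlgHom.ext
    intro c
    have h1 : (f * g).ofConv c =
        Algebra.TensorProduct.lift f.ofConv g.ofConv (fun _ _ => Commute.all _ _)
          (D.comulAlg c) := AlgHom.convMul_apply f g c
    rw [h1, hf, hg]
    have h2 : ∀ t : H ⊗[R] H, Algebra.TensorProduct.lift (evalPt D.φ (e f)) (evalPt D.φ (e g))
        (fun _ _ => Commute.all _ _) t = D.μ₂ t (e f, e g) := by
      intro t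
      have h3 : Algebra.TensorProduct.lift (evalPt D.φ (e f)) (evalPt D.φ (e g))
          (fun _ _ => Commute.all _ _) =
          (Pi.evalAlgHom R (fun _ : M × M => K) (e f, e g)).comp D.μ₂ := by
        apply Algebra.TensorProduct.ext'
        intro a c
        simp
      exact AlgHom.congr_fun h3 t
    rw [h2]
    simp
  · intro σ f g hfg
    rw [he]
    have hf := (he f (e f)).mp rfl
    apply AlgHom.ext
    intro c
    have h1 : g.ofConv c = σ (f.ofConv c) := hfg c
    rw [h1, hf]
    simp only [evalPt_apply]
    exact (hequiv _ c.2 σ (e f)).symm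
  · have hsymm : ∀ m : M, (e.symm m).ofConv = evalPt D.φ m := by
      intro m
      exact (he (e.symm m) m).mp (e.apply_symm_apply m)
    have hfun : funMap e = H.val := by
      apply AlgHom.ext
      intro h
      funext m
      rw [funMap_apply, hsymm]
      rfl
    unfold redAlg
    rw [hfun]
    exact Subalgebra.range_val H

end Fermat.Agent.TW.FF.ShellEval68
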