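/-
TW / WP7 B9 (helper68).  **STAR and exactness of inertia-coinvariants, from the unramifiedness of the
inertia-fixed field.**

`Unr p` : an element of `PadicAlgCl p` fixed by the inertia group and of norm `< 1` has norm `≤ 1/p`
(the fixed field of inertia is unramified over `ℚ_p`).  From it (and helper92's rigidity of points):
* `eq_zero_of_cong_of_fixed` : a point of a function order killed by `p` (`p` odd) which reduces to the
  unit point and is fixed by inertia is trivial (`(M⁰)^I = 0`);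
* `star_of_unr : Unr p → Spec72.Star p`;
* `conn_eq_closure` : `M⁰ = I_aug M` for every function-order model;
* `mem_closure_sub_of_mem_closure` : exactness of inertia coinvariants: for a stable subgroup `W` of a
  flat `V` killed by `p`:  `W ∩ I_aug V = I_aug W`.
-/
import Mathlib
import Fermat.Agent.TW.FF.Red68
import Fermat.Agent.TW.FF.ShellEval68
import Fermat.Agent.TW.FF.Closure68

set_option autoImplicit false

noncomputable section

namespace Fermat.Agent.TW.FF.Star68

open Fermat.Agent.S19.Shell64 Fermat.Agent.TW.FF.FunOrder68 Fermat.Agent.TW.FF.FlatModel68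
open Fermat.Agent.TW.FF.Spec72 Fermat.Agent.TW.FF.Red68 Fermat.Agent.TW.FF.ReducedModel68

variable (p : ℕ) [Fact p.Prime]

/-- the fixed field of inertia is unramified: an inertia-fixed element of norm `< 1` has norm
`≤ 1/p`. -/
def Unr : Prop :=
  ∀ y : PadicAlgCl p, (∀ τ ∈ inertiaSet p, τ y = y) → ‖y‖ < 1 → ‖y‖ ≤ (p : ℝ)⁻¹

variable {p}

section Core

variable {M : Type} [AddCommGroup M] [DistribMulAction (GQp p) M]
  {H : Subalgebra ℤ_[p] (M → PadicAlgCl p)}

/-- **`(M⁰)^I = 0`.** -/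
theorem eq_of_cong_of_fixed (hp2 : p ≠ 2) (hunr : Unr p) (hH : IsFunOrder ℤ_[p] ℚ_[p] H)
    (hkill : ∀ m : M, p • m = 0) {x x' : M} (hx : Cong H x x')
    (hfix : ∀ τ ∈ inertiaSet p, τ • x = x) (hfix' : ∀ τ ∈ inertiaSet p, τ • x' = x') : x = x' := by
  obtain ⟨Hh, i1, i2, hfin, hfree, hco, hk, e, -, -, hred⟩ :=
    ShellEval68.exists_model_eval (F := ℚ_[p]) fixedFieldEqBase_of_isGalois hH
  have hp : p.Prime := Fact.out
  have hmem : ∀ h : Hh, funMap e h ∈ H := fun h => by
    rw [← hred]; exact ⟨h, rfl⟩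
  have key : (e.symm x).ofConv = (e.symm x').ofConv := by
    refine RigidOmega92.eq_of_norm_sub_le_padic p (hk p hkill) _ _ (ρ := (p : ℝ)⁻¹) ?_ ?_
    · -- `p * (1/p)^(p-1) < 1` for `p ≥ 3`
      have hp3 : 3 ≤ p := by
        have := hp.two_le
        omega
      have hpR : (2 : ℝ) < p := by exact_mod_cast hp3
      have hpos : (0 : ℝ) < p := by linarith
      have h1 : ((p : ℝ)⁻¹) ^ (p - 1) ≤ ((p : ℝ)⁻¹) ^ 2 := by
        apply pow_le_pow_of_le_one (by positivity)
        · exact inv_le_one_of_one_le₀ (by linarith)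
        · omega
      have h2 : (p : ℝ) * ((p : ℝ)⁻¹) ^ 2 = (p : ℝ)⁻¹ := by
        field_simp
      calc (p : ℝ) * ((p : ℝ)⁻¹) ^ (p - 1) ≤ (p : ℝ) * ((p : ℝ)⁻¹) ^ 2 := by
            exact mul_le_mul_of_nonneg_left h1 hpos.le
        _ = (p : ℝ)⁻¹ := h2
        _ < 1 := by
            apply inv_lt_one_of_one_lt₀
            linarith
    · intro h
      have hval : (e.symm x).ofConv h - (e.symm x').ofConv h =
          funMap e h x - funMap e h x' := rfl
      rw [hval]
      refine hunr _ (fun τ hτ => ?_) (hx _ (hmem h))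
      rw [map_sub, ← hH.equivariant _ (hmem h) τ x, ← hH.equivariant _ (hmem h) τ x',
        hfix τ hτ, hfix' τ hτ]
  exact e.symm.injective (WithConv.ofConv_injective key)

theorem eq_zero_of_cong_of_fixed (hp2 : p ≠ 2) (hunr : Unr p) (hH : IsFunOrder ℤ_[p] ℚ_[p] H)
    (hkill : ∀ m : M, p • m = 0) {x : M} (hx : x ∈ conn hH)
    (hfix : ∀ τ ∈ inertiaSet p, τ • x = x) : x = 0 :=
  eq_of_cong_of_fixed hp2 hunr hH hkill hx hfix (fun τ _ => smul_zero τ)

end Core

/-! ### STAR -/

/-- **STAR from `Unr`.** -/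
theorem star_of_unr (hunr : Unr p) : Spec72.Star p := by
  intro hp2 V _ _ act hV hk x hx hcl
  obtain ⟨H, i1, i2, hfin, -, -, e, hmul, hact⟩ := hV
  let _ := galDistribMulAction (F := ℚ_[p]) e hmul
  have hH : IsFunOrder ℤ_[p] ℚ_[p] (redAlg e) := isFunOrder_redAlg (F := ℚ_[p]) e hmul
  have hsm : ∀ (σ : GQp p) (m : V), σ • m = act σ m := fun σ m =>
    (act_eq_galSmul e act hact σ m).symm
  have hset : {w : V | ∃ τ ∈ inertiaSet p, ∃ v : V, w = act τ v - v} =
      {w : V | ∃ τ ∈ inertiaSet p, ∃ v : V, w = τ • v - v} := by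
    ext w
    constructor
    · rintro ⟨τ, hτ, v, rfl⟩
      exact ⟨τ, hτ, v, by rw [hsm]⟩
    · rintro ⟨τ, hτ, v, rfl⟩
      exact ⟨τ, hτ, v, by rw [hsm]⟩
  rw [hset] at hcl
  exact eq_zero_of_cong_of_fixed hp2 hunr hH hk (closure_le_conn hH hcl)
    (fun τ hτ => by rw [hsm]; exact hx τ hτ)

/-! ### The augmentation subgroup of inertia; exactness of inertia coinvariants -/

section Aug

variable (p)

/-- the augmentation subgroup `I_aug M` of inertia: generated by the `τ • v - v`, `τ` in inertia. -/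
def iAug (M : Type) [AddCommGroup M] [DistribMulAction (GQp p) M] : AddSubgroup M :=
  AddSubgroup.closure {w : M | ∃ τ ∈ inertiaSet p, ∃ v : M, w = τ • v - v}

variable {p}
variable {M : Type} [AddCommGroup M] [DistribMulAction (GQp p) M]

theorem smul_sub_mem_iAug {τ : GQp p} (hτ : τ ∈ inertiaSet p) (v : M) : τ • v - v ∈ iAug p M :=
  AddSubgroup.subset_closure ⟨τ, hτ, v, rfl⟩

/-- `I_aug M` is Galois-stable. -/
theorem smul_mem_iAug (σ : GQp p) {n : M} (hn : n ∈ iAug p M) : σ • n ∈ iAug p M := by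
  unfold iAug at hn
  induction hn using AddSubgroup.closure_induction with
  | mem w hw =>
    obtain ⟨τ, hτ, v, rfl⟩ := hw
    have h1 : σ • (τ • v - v) = (σ * τ * σ⁻¹) • (σ • v) - σ • v := by
      rw [smul_sub, mul_smul, mul_smul, inv_smul_smul]
    rw [h1]
    exact smul_sub_mem_iAug (conj_mem_inertiaSet hτ σ) _
  | zero => rw [smul_zero]; exact zero_mem _
  | add a b _ _ ha hb => rw [smul_add]; exact add_mem ha hb
  | neg a _ ha => rw [smul_neg]; exact neg_mem ha

variable {H : Subalgebra ℤ_[p] (M → PadicAlgCl p)}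

theorem iAug_le_conn (hH : IsFunOrder ℤ_[p] ℚ_[p] H) : iAug p M ≤ conn hH :=
  closure_le_conn hH

/-- **`M⁰ ≤ I_aug M`** (`p` odd, `M` killed by `p`). -/
theorem conn_le_iAug (hp2 : p ≠ 2) (hunr : Unr p) (hH : IsFunOrder ℤ_[p] ℚ_[p] H)
    (hkill : ∀ m : M, p • m = 0) : conn hH ≤ iAug p M := by
  intro m hm
  have hfix : FixedFieldEqBase ℚ_[p] (PadicAlgCl p) := fixedFieldEqBase_of_isGalois
  have hN : ∀ (σ : GQp p) (n : M), n ∈ iAug p M → σ • n ∈ iAug p M := fun σ n hn =>
    smul_mem_iAug σ hn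
  have : Finite M := Closure68.IsFunOrder.finite_carrier hH
  cases nonempty_fintype (iAug p M)
  have hcard : (Fintype.card (iAug p M) : ℤ_[p]) ≠ 0 := Nat.cast_ne_zero.mpr Fintype.card_ne_zero
  have hq := ClosureQuot68.IsFunOrder.quotient (iAug p M) hfix hN hH hcard
  let _ := ClosureQuot68.quotAction (iAug p M) hN
  have hkillQ : ∀ q : M ⧸ iAug p M, p • q = 0 := by
    intro q
    induction q using QuotientAddGroup.induction_on with
    | H v =>
      rw [← QuotientAddGroup.mk_nsmul, hkill]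
      rfl
  have hfixQ : ∀ τ ∈ inertiaSet p, τ • (QuotientAddGroup.mk m : M ⧸ iAug p M) =
      QuotientAddGroup.mk m := by
    intro τ hτ
    change (QuotientAddGroup.mk (τ • m) : M ⧸ iAug p M) = QuotientAddGroup.mk m
    rw [QuotientAddGroup.eq]
    have := smul_sub_mem_iAug hτ m
    have h2 : -(τ • m) + m = -(τ • m - m) := by abel
    rw [h2]
    exact neg_mem this
  have hcong : (QuotientAddGroup.mk m : M ⧸ iAug p M) ∈ conn hq := by
    have := Cong.mk H (iAug p M) hm
    rwa [QuotientAddGroup.mk_zero] at this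
  have := eq_zero_of_cong_of_fixed hp2 hunr hq hkillQ hcong hfixQ
  exact (QuotientAddGroup.eq_zero_iff m).mp this

/-- **`M⁰ = I_aug M`**: the kernel of reduction is the augmentation subgroup of inertia, for every
function-order model. -/
theorem conn_eq_iAug (hp2 : p ≠ 2) (hunr : Unr p) (hH : IsFunOrder ℤ_[p] ℚ_[p] H)
    (hkill : ∀ m : M, p • m = 0) : conn hH = iAug p M :=
  le_antisymm (conn_le_iAug hp2 hunr hH hkill) (iAug_le_conn hH)

/-- **exactness of inertia coinvariants** (function-order form): for a stable subgroup `W`,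
`W ∩ I_aug M = I_aug W`. -/
theorem mem_iAug_sub (hp2 : p ≠ 2) (hunr : Unr p) (hH : IsFunOrder ℤ_[p] ℚ_[p] H)
    (hkill : ∀ m : M, p • m = 0) (W : AddSubgroup M)
    (hW : ∀ (σ : GQp p) (n : M), n ∈ W → σ • n ∈ W) (w : W) (hw : (w : M) ∈ iAug p M) :
    w ∈ @iAug p _ W _ (ClosureSub68.subAction W hW) := by
  let _ := ClosureSub68.subAction W hW
  have hres := ClosureSub68.IsFunOrder.restrict W hW hH
  have hkillW : ∀ n : W, p • n = 0 := fun n => Subtype.ext (by
    rw [AddSubgroup.coe_nsmul, hkill]; rfl)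
  have h1 : w ∈ conn hres := by
    rw [mem_conn_iff]
    have := (cong_resAlg_iff H W w 0).mpr (iAug_le_conn hH hw)
    exact this
  exact conn_le_iAug hp2 hunr hres hkillW h1

end Aug

end Fermat.Agent.TW.FF.Star68
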