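/-
TW / WP7 B9-UNR (helper68), PT/LOC side.  Two facts about finite extensions `E/ℚ_q` (abstract PT/LOC
model), stated with the spectral norm only (no `ℤ_q`-algebra instance in the statements, so they can be
applied to intermediate fields of `PadicAlgCl q` without instance diamonds):
* `exists_pow_sub_lt_one` : the residue field is finite: `‖x‖ ≤ 1 ⇒ ‖x^(q^n) - x‖ < 1` for some `n > 0`;
* `spectralNorm_le_inv_of_adjoin_roots` : if `E` is Galois and generated by roots of unity of order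
  prime to `q`, then `E/ℚ_q` is unramified: `‖y‖ < 1 ⇒ ‖y‖ ≤ 1/q`.
-/
import Mathlib
import Fermat.Agent.PT.LOC.Unram11
import Fermat.Agent.TW.FF.Tame83

set_option autoImplicit false

open scoped Fermat.Agent.PT.LOC.Interface12
open Fermat.Agent.PT.LOC.Interface12 Fermat.Agent.PT.LOC.Structure14
  Fermat.Agent.PT.LOC.StructureTower27 Fermat.Agent.PT.LOC.StructureTowerEF27
  Fermat.Agent.PT.LOC.Unram11

namespace Fermat.Agent.TW.FF.UnrLoc68

variable (q : ℕ) [Fact q.Prime] (E : Type) [Field E] [Algebra ℚ_[q] E] [FiniteDimensional ℚ_[q] E]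

/-- the residue field of `E` is finite of characteristic `q`. -/
theorem exists_pow_sub_lt_one {x : E} (hx : spectralNorm ℚ_[q] E x ≤ 1) :
    ∃ n : ℕ, 0 < n ∧ spectralNorm ℚ_[q] E (x ^ (q ^ n) - x) < 1 := by
  have hxi : x ∈ intRing q E := (mem_intRing_iff q E x).2 hx
  obtain ⟨k, hk0, hk⟩ := exists_resCard_eq_pow q E
  refine ⟨k, hk0, ?_⟩
  set xi : intRing q E := ⟨x, hxi⟩ with hxi'
  have h1 : (Ideal.Quotient.mk (mI q E) xi : resF q E) ^ Fintype.card (resF q E) =
      Ideal.Quotient.mk (mI q E) xi := FiniteField.pow_card _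
  rw [fintypeCard_resF, hk] at h1
  have h2 : xi ^ (q ^ k) - xi ∈ mI q E := by
    rw [← Ideal.Quotient.eq, map_pow]
    exact h1
  have h3 := (mem_mI_iff_snorm q E _).1 h2
  exact h3

/-- a Galois extension of `ℚ_q` generated by roots of unity of order prime to `q` is unramified. -/
theorem spectralNorm_le_inv_of_adjoin_roots [IsGalois ℚ_[q] E] {m : ℕ} (hm : ¬ q ∣ m) (S : Set E)
    (hS : ∀ ζ ∈ S, ζ ^ m = 1) (hgen : Algebra.adjoin ℚ_[q] S = ⊤) {y : E}
    (hy : spectralNorm ℚ_[q] E y < 1) : spectralNorm ℚ_[q] E y ≤ (q : ℝ)⁻¹ := by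
  have hinj := redHom_injective_of_adjoin q ℚ_[q] E hm S hS hgen
  have hunr := isUnramified_of_redHom_injective q ℚ_[q] E hinj
  have hπ : IsUniformizer q E (algebraMap ℚ_[q] E (q : ℚ_[q])) :=
    hunr _ (Fermat.Agent.TW.FF.Tame83.isUniformizer_padic q)
  rw [map_natCast] at hπ
  have := Fermat.Agent.TW.FF.Tame83.snorm_le_of_lt_one q E hπ hy
  rwa [snorm_natCast_q] at this

end Fermat.Agent.TW.FF.UnrLoc68
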