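/-
TW / WP7 B9-UNR (helper68).  **The fixed field of inertia in `PadicAlgCl p` is unramified.**

`Ω = PadicAlgCl p`, `I = Spec72.inertiaSet p`.
* `exists_pow_sub_lt_one`  : the residue field of `Ω` is algebraic over `𝔽_p`;
* `exists_near_root`       : every integral `x` is congruent to `0` or to a root of unity of order prime
                             to `p` (Teichmüller representative);
* `mem_inertiaSet_of_fix_roots` : an automorphism fixing the roots of unity of order prime to `p` lies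
                             in `I`; hence `I = Gal(Ω/ℚ_p^nr)` (`mem_inertiaSet_iff`);
* `mem_unrField_of_fixed`  : `Ω^I = ℚ_p^nr := ℚ_p(μ_{p'})` (infinite Galois correspondence);
* `norm_le_inv_of_mem_unrField` : `ℚ_p^nr` has value group `p^ℤ`;
* **`unr : Star68.Unr p`** and **`star : Spec72.Star p`**.
-/
import Mathlib
import Fermat.Agent.TW.FF.UnrLoc68
import Fermat.Agent.TW.FF.Star68

set_option autoImplicit false

noncomputable section

namespace Fermat.Agent.TW.FF.Unr68

open Fermat.Agent.TW.FF.FlatModel68 Fermat.Agent.TW.FF.Spec72 Fermat.Agent.TW.FF.Red68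
open Polynomial

variable (p : ℕ) [Fact p.Prime]

/-- the norm of `PadicAlgCl p` restricted to an intermediate field is its spectral norm. -/
theorem spectralNorm_coe (K : IntermediateField ℚ_[p] (PadicAlgCl p)) (y : K) :
    spectralNorm ℚ_[p] K y = ‖(y : PadicAlgCl p)‖ := by
  rw [spectralNorm.eq_of_tower (L := PadicAlgCl p) y]
  rfl

/-- the residue field of `PadicAlgCl p` is algebraic over `𝔽_p`. -/
theorem exists_pow_sub_lt_one {x : PadicAlgCl p} (hx : ‖x‖ ≤ 1) :
    ∃ n : ℕ, 0 < n ∧ ‖x ^ (p ^ n) - x‖ < 1 := by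
  have hint : IsIntegral ℚ_[p] x := (Algebra.IsAlgebraic.isAlgebraic x).isIntegral
  let K : IntermediateField ℚ_[p] (PadicAlgCl p) := IntermediateField.adjoin ℚ_[p] {x}
  have hfd : FiniteDimensional ℚ_[p] K := IntermediateField.adjoin.finiteDimensional hint
  let x' : K := ⟨x, IntermediateField.mem_adjoin_simple_self ℚ_[p] x⟩
  have h1 : spectralNorm ℚ_[p] K x' ≤ 1 := by rw [spectralNorm_coe]; exact hx
  obtain ⟨n, hn, h⟩ := UnrLoc68.exists_pow_sub_lt_one p K h1
  refine ⟨n, hn, ?_⟩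
  rw [spectralNorm_coe] at h
  exact h

theorem one_le_norm_prod_of_forall (x : PadicAlgCl p) (s : Multiset (PadicAlgCl p))
    (h : ∀ a ∈ s, 1 ≤ ‖x - a‖) : 1 ≤ ‖(s.map (x - ·)).prod‖ := by
  induction s using Multiset.induction_on with
  | empty => simp
  | cons a s ih =>
    rw [Multiset.map_cons, Multiset.prod_cons, norm_mul]
    have h1 := h a (Multiset.mem_cons_self a s)
    have h2 := ih (fun b hb => h b (Multiset.mem_cons_of_mem hb))
    nlinarith

/-- every integral element is congruent to `0` or to a root of unity of order prime to `p`. -/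
theorem exists_near_root {x : PadicAlgCl p} (hx : ‖x‖ ≤ 1) :
    ∃ u : PadicAlgCl p, (u = 0 ∨ ∃ m : ℕ, ¬ p ∣ m ∧ u ^ m = 1) ∧ ‖x - u‖ < 1 := by
  have hp : p.Prime := Fact.out
  obtain ⟨n, hn, h⟩ := exists_pow_sub_lt_one p hx
  have hdeg : 1 < p ^ n := Nat.one_lt_pow hn.ne' hp.one_lt
  set P : (PadicAlgCl p)[X] := X ^ (p ^ n) - X with hP
  have hmonic : P.Monic := by
    apply monic_X_pow_sub
    rw [degree_X]
    exact_mod_cast hdeg
  have hsplit : P.Splits := IsAlgClosed.splits P
  have heval := hsplit.eval_eq_prod_roots_of_monic hmonic x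
  have hev : P.eval x = x ^ (p ^ n) - x := by simp [hP]
  rw [hev] at heval
  by_contra hcon
  push Not at hcon
  have hall : ∀ a ∈ P.roots, 1 ≤ ‖x - a‖ := by
    intro a ha
    apply hcon a
    have hroot : P.IsRoot a := isRoot_of_mem_roots ha
    have ha' : a ^ (p ^ n) = a := by
      have : P.eval a = 0 := hroot
      simp only [hP, eval_sub, eval_pow, eval_X] at this
      exact sub_eq_zero.mp this
    by_cases ha0 : a = 0
    · exact Or.inl ha0
    · refine Or.inr ⟨p ^ n - 1, ?_, ?_⟩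
      · intro hdvd
        have h1 : p ∣ p ^ n := dvd_pow_self p hn.ne'
        have h2 : p ∣ p ^ n - (p ^ n - 1) := Nat.dvd_sub h1 hdvd
        have h3 : p ^ n - (p ^ n - 1) = 1 := by omega
        rw [h3] at h2
        exact hp.one_lt.ne' (Nat.dvd_one.mp h2)
      · have h4 : a ^ (p ^ n - 1) * a = a := by
          rw [← pow_succ, Nat.sub_add_cancel (by omega), ha']
        exact mul_right_cancel₀ ha0 (by rw [h4, one_mul])
  have := one_le_norm_prod_of_forall p x P.roots hall
  rw [← heval] at this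
  linarith

/-- an automorphism fixing the roots of unity of order prime to `p` lies in the inertia group. -/
theorem mem_inertiaSet_of_fix_roots {τ : GQp p}
    (hτ : ∀ (m : ℕ) (u : PadicAlgCl p), ¬ p ∣ m → u ^ m = 1 → τ u = u) : τ ∈ inertiaSet p := by
  intro x hx
  obtain ⟨u, hu, hxu⟩ := exists_near_root p hx
  have hτu : τ u = u := by
    rcases hu with rfl | ⟨m, hm, hum⟩
    · exact map_zero τ
    · exact hτ m u hm hum
  have h1 : τ x - x = τ (x - u) - (x - u) := by
    rw [map_sub, hτu]; ring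
  rw [h1]
  have h2 : ‖τ (x - u) - (x - u)‖ ≤ max ‖τ (x - u)‖ ‖x - u‖ := by
    rw [sub_eq_add_neg]
    refine (IsUltrametricDist.norm_add_le_max _ _).trans ?_
    rw [norm_neg]
  refine lt_of_le_of_lt h2 (max_lt ?_ hxu)
  rw [norm_algEquiv]
  exact hxu

/-- the roots of unity of order prime to `p`. -/
def rootsPrime : Set (PadicAlgCl p) := {u | ∃ m : ℕ, ¬ p ∣ m ∧ u ^ m = 1}

/-- the maximal unramified extension `ℚ_p^nr = ℚ_p(μ_{p'})` inside `PadicAlgCl p`. -/
def unrField : IntermediateField ℚ_[p] (PadicAlgCl p) :=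
  IntermediateField.adjoin ℚ_[p] (rootsPrime p)

/-- `Ω^I ⊆ ℚ_p^nr`. -/
theorem mem_unrField_of_fixed {y : PadicAlgCl p} (hy : ∀ τ ∈ inertiaSet p, τ y = y) :
    y ∈ unrField p := by
  rw [← InfiniteGalois.fixedField_fixingSubgroup (unrField p), IntermediateField.mem_fixedField_iff]
  intro τ hτ
  apply hy
  apply mem_inertiaSet_of_fix_roots
  intro m u hm hu
  exact hτ ⟨u, IntermediateField.subset_adjoin _ _ ⟨m, hm, hu⟩⟩

/-- an element of `ℚ_p^nr` lies in `ℚ_p(μ_m)` for a single `m` prime to `p`. -/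
theorem exists_mem_adjoin_of_mem_unrField {y : PadicAlgCl p} (hy : y ∈ unrField p) :
    ∃ m : ℕ, ¬ p ∣ m ∧ y ∈ IntermediateField.adjoin ℚ_[p] {u : PadicAlgCl p | u ^ m = 1} := by
  classical
  have hp : p.Prime := Fact.out
  obtain ⟨T, hTS, hyT⟩ := IntermediateField.exists_finset_of_mem_adjoin hy
  have hex : ∀ t : PadicAlgCl p, ∃ m : ℕ, t ∈ T → (¬ p ∣ m ∧ t ^ m = 1) := by
    intro t
    by_cases ht : t ∈ T
    · obtain ⟨m, hm, htm⟩ := hTS ht
      exact ⟨m, fun _ => ⟨hm, htm⟩⟩
    · exact ⟨0, fun h => absurd h ht⟩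
  choose f hf using hex
  refine ⟨∏ t ∈ T, f t, ?_, ?_⟩
  · intro hdvd
    obtain ⟨t, ht, hpt⟩ := (Prime.dvd_finsetProd_iff hp.prime _).mp hdvd
    exact (hf t ht).1 hpt
  · refine IntermediateField.adjoin.mono ℚ_[p] _ _ ?_ hyT
    intro t ht
    have ht' : t ∈ T := ht
    obtain ⟨c, hc⟩ := Finset.dvd_prod_of_mem f ht'
    change t ^ (∏ t ∈ T, f t) = 1
    rw [hc, pow_mul, (hf t ht').2, one_pow]

/-- `ℚ_p(μ_m)`, `p ∤ m`, has value group `p^ℤ`. -/
theorem norm_le_inv_of_mem_adjoin_roots {m : ℕ} (hm : ¬ p ∣ m) {y : PadicAlgCl p}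
    (hy : y ∈ IntermediateField.adjoin ℚ_[p] {u : PadicAlgCl p | u ^ m = 1}) (hy1 : ‖y‖ < 1) :
    ‖y‖ ≤ (p : ℝ)⁻¹ := by
  have hm0 : m ≠ 0 := fun h => hm (h ▸ dvd_zero p)
  set S₀ : Set (PadicAlgCl p) := {u | u ^ m = 1} with hS₀
  let P : ℚ_[p][X] := X ^ m - C 1
  have hP0 : P ≠ 0 := X_pow_sub_C_ne_zero (Nat.pos_of_ne_zero hm0) 1
  have hroot : P.rootSet (PadicAlgCl p) = S₀ := by
    ext u
    rw [mem_rootSet]
    have hev : aeval u P = u ^ m - 1 := by
      simp only [P, map_sub, map_pow, aeval_X, map_one]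
    rw [hev]
    constructor
    · rintro ⟨-, h⟩
      exact sub_eq_zero.mp h
    · intro h
      exact ⟨hP0, sub_eq_zero.mpr h⟩
  set E' : IntermediateField ℚ_[p] (PadicAlgCl p) := IntermediateField.adjoin ℚ_[p] S₀ with hE'
  have hsf : P.IsSplittingField ℚ_[p] E' := by
    rw [hE', ← hroot]
    exact IntermediateField.adjoin_rootSet_isSplittingField (IsAlgClosed.splits _)
  have hsep : P.Separable :=
    separable_X_pow_sub_C (1 : ℚ_[p]) (by exact_mod_cast hm0) one_ne_zero
  have hgal : IsGalois ℚ_[p] E' := IsGalois.of_separable_splitting_field hsep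
  have hfd : FiniteDimensional ℚ_[p] E' := IsSplittingField.finiteDimensional E' P
  let S : Set E' := {ζ | ζ ^ m = 1}
  have hS : ∀ ζ ∈ S, ζ ^ m = 1 := fun ζ h => h
  have hgen : Algebra.adjoin ℚ_[p] S = ⊤ := by
    apply Subalgebra.map_injective (f := E'.val) Subtype.val_injective
    rw [AlgHom.map_adjoin, Algebra.map_top]
    have himg : E'.val '' S = S₀ := by
      ext u
      constructor
      · rintro ⟨ζ, hζ, rfl⟩
        have h1 : ((ζ ^ m : E') : PadicAlgCl p) = ((1 : E') : PadicAlgCl p) :=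
          congrArg Subtype.val hζ
        change ((ζ : E') : PadicAlgCl p) ^ m = 1
        simpa using h1
      · intro hu
        refine ⟨⟨u, IntermediateField.subset_adjoin _ _ hu⟩, ?_, rfl⟩
        apply Subtype.ext
        have hu' : u ^ m = 1 := hu
        simpa using hu'
    rw [himg, IntermediateField.range_val, hE']
    exact (IntermediateField.adjoin_toSubalgebra S₀).symm
  have h := UnrLoc68.spectralNorm_le_inv_of_adjoin_roots p E' hm S hS hgen (y := ⟨y, hy⟩)
    (by rw [spectralNorm_coe]; exact hy1)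
  rwa [spectralNorm_coe] at h

/-- `ℚ_p^nr` has value group `p^ℤ`. -/
theorem norm_le_inv_of_mem_unrField {y : PadicAlgCl p} (hy : y ∈ unrField p) (hy1 : ‖y‖ < 1) :
    ‖y‖ ≤ (p : ℝ)⁻¹ := by
  obtain ⟨m, hm, hym⟩ := exists_mem_adjoin_of_mem_unrField p hy
  exact norm_le_inv_of_mem_adjoin_roots p hm hym hy1

/-- **UNR**: the fixed field of inertia is unramified over `ℚ_p`. -/
theorem unr : Star68.Unr p := fun _ hy hy1 =>
  norm_le_inv_of_mem_unrField p (mem_unrField_of_fixed p hy) hy1

/-- **STAR** (`Spec72.Star p`): for `V` flat and killed by `p` (`p` odd), `V^I ∩ I_aug V = 0`. -/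
theorem star : Spec72.Star p := Star68.star_of_unr (unr p)

end Fermat.Agent.TW.FF.Unr68
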