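/-
TW / WP7 B1 (helper68).  The closure interfaces of `Spec72` (helper72), proved:
`Spec72.ClosureSub p`, `Spec72.ClosureQuot p`, `Spec72.ClosureProd p`.
-/
import Mathlib
import Fermat.Agent.TW.FF.Spec72
import Fermat.Agent.TW.FF.Closure68

set_option autoImplicit false

noncomputable section

namespace Fermat.Agent.TW.FF.ClosureSpec68

open Fermat.Agent.TW.FF.FlatModel68 Fermat.Agent.TW.FF.Closure68

variable (p : ℕ) [Fact p.Prime]

/-- closure under stable subgroups, in the `Spec72` shape. -/
theorem closureSub : Spec72.ClosureSub p := by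
  intro V _ _ act h W hW
  exact LocalFlatModel.sub h W hW _ (fun _ _ => rfl)

/-- closure under products, in the `Spec72` shape. -/
theorem closureProd : Spec72.ClosureProd p := by
  intro V W _ _ _ _ actV actW hV hW
  exact LocalFlatModel.prod hV hW

/-- closure under equivariant quotients, in the `Spec72` shape. -/
theorem closureQuot : Spec72.ClosureQuot p := by
  intro V V'' _ _ _ act act'' h π hπ hequiv
  have hact0 : ∀ τ, act τ 0 = 0 := by
    intro τ
    have := LocalFlatModel.act_add h τ 0 0
    rw [add_zero] at this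
    simpa using this
  have hN : ∀ τ n, n ∈ π.ker → act τ n ∈ π.ker := by
    intro τ n hn
    rw [AddMonoidHom.mem_ker] at hn ⊢
    rw [hequiv, hn, ← map_zero π, ← hequiv, hact0]
  let φ : V ⧸ π.ker ≃+ V'' := QuotientAddGroup.quotientKerEquivOfSurjective π hπ
  have hφ : ∀ v : V, φ (QuotientAddGroup.mk v) = π v := fun v => rfl
  have hq := LocalFlatModel.quotient h π.ker hN (fun τ q => φ.symm (act'' τ (φ q)))
    (fun τ m => by
      rw [AddEquiv.symm_apply_eq, hφ, hφ, hequiv])
  exact LocalFlatModel.of_addEquiv φ (fun τ q => by simp) hq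

end Fermat.Agent.TW.FF.ClosureSpec68
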