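/-
TW / WP7c-core (helper92).  Adic instantiation of Fontaine's lifting lemma.

`S` a commutative ring, `𝔪` an ideal with `S` `𝔪`-adically complete, `p` a prime number which is
a non-zero-divisor of `S` with `𝔪 ^ e ≤ (p)`; `a` with `e < a * (p - 1)`.  Then
`J n = 𝔪 ^ (a + n)` is a `p`-Newton filtration base.  (Model: `S = O_E`, `E` a complete
discretely valued field of mixed characteristic, `𝔪` its maximal ideal, `e = v_E(p)`.)

Consequences for a commutative cocommutative bialgebra `H`, free over `R`, killed by `p`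
(`G(T) = Hom_{R-alg}(H, T)`):
* `algHom_ext_adic`   : `G(S) → G(S / 𝔪 ^ a)` is injective;
* `exists_lift_adic`  : the images of `G(S / p 𝔪 ^ a)` and of `G(S)` in `G(S / 𝔪 ^ a)` agree;
* `exists_injective_adic` : transport of points along `η : S₁ → S / p 𝔪 ^ a` (property `(P_m)`
  of Fontaine, algebraic core).
-/
import Mathlib
import Fermat.Agent.TW.FF.LiftGroupLike92

namespace Fermat.Agent.TW.FF.AdicFil92

open Fermat.Agent.TW.FF.PFil92 Fermat.Agent.TW.FF.ConvFil92 Fermat.Agent.TW.FF.LiftGroupLike92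

variable {S : Type*} [CommRing S]

theorem sum_range_sub_mem (𝔪 : Ideal S) {a : ℕ} {c : ℕ → S} (hc : ∀ n, c n ∈ 𝔪 ^ (a + n))
    {m n : ℕ} (hmn : m ≤ n) :
    ∑ k ∈ Finset.range n, c k - ∑ k ∈ Finset.range m, c k ∈ 𝔪 ^ (a + m) := by
  rw [← Finset.sum_Ico_eq_sub _ hmn]
  refine Ideal.sum_mem _ (fun k hk => ?_)
  rw [Finset.mem_Ico] at hk
  exact Ideal.pow_le_pow_right (by omega) (hc k)

/-- The `𝔪`-adic `p`-Newton filtration base `n ↦ 𝔪 ^ (a + n)`. -/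
theorem isPFilBase_pow (𝔪 : Ideal S) [IsAdicComplete 𝔪 S] {p e a : ℕ} (hp : p.Prime)
    (hpe : 𝔪 ^ e ≤ Ideal.span {(p : S)}) (hreg : ∀ x : S, (p : S) * x = 0 → x = 0)
    (ha : e < a * (p - 1)) : IsPFilBase p (fun n => 𝔪 ^ (a + n)) where
  anti := fun m n hmn => Ideal.pow_le_pow_right (by omega)
  mul_le n := by
    have ha1 : 1 ≤ a := by
      rcases Nat.eq_zero_or_pos a with h | h
      · subst h; simp at ha
      · exact h
    rw [← pow_add]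
    exact Ideal.pow_le_pow_right (by omega)
  pow_le n := by
    obtain ⟨q, rfl⟩ : ∃ q, p = q + 1 := ⟨p - 1, (Nat.sub_add_cancel hp.pos).symm⟩
    rw [Nat.add_sub_cancel] at ha
    have hle : e + (a + (n + 1)) ≤ (a + n) * (q + 1) := by nlinarith
    rw [← pow_mul]
    calc 𝔪 ^ ((a + n) * (q + 1)) ≤ 𝔪 ^ (e + (a + (n + 1))) := Ideal.pow_le_pow_right hle
      _ = 𝔪 ^ e * 𝔪 ^ (a + (n + 1)) := pow_add _ _ _
      _ ≤ Ideal.span {((q + 1 : ℕ) : S)} * 𝔪 ^ (a + (n + 1)) := Ideal.mul_mono_left hpe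
  cancel := hreg
  sep x hx := by
    apply IsHausdorff.haus (inferInstance : IsHausdorff 𝔪 S) x
    intro n
    rw [SModEq.zero]
    simp only [smul_eq_mul, Ideal.mul_top]
    exact Ideal.pow_le_pow_right (by omega) (hx n)
  complete := by
    intro c hc
    have hcau : ∀ {m n : ℕ}, m ≤ n → (∑ k ∈ Finset.range m, c k) ≡ (∑ k ∈ Finset.range n, c k)
        [SMOD (𝔪 ^ m • ⊤ : Submodule S S)] := by
      intro m n hmn
      rw [SModEq.sub_mem]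
      simp only [smul_eq_mul, Ideal.mul_top]
      have := sum_range_sub_mem 𝔪 hc hmn
      have h2 : ∑ k ∈ Finset.range m, c k - ∑ k ∈ Finset.range n, c k ∈ 𝔪 ^ (a + m) := by
        rw [← neg_sub]; exact (𝔪 ^ (a + m)).neg_mem this
      exact Ideal.pow_le_pow_right (by omega) h2
    obtain ⟨L, hL⟩ := IsPrecomplete.prec (inferInstance : IsPrecomplete 𝔪 S) hcau
    refine ⟨L, fun n => ?_⟩
    have h1 : ∑ k ∈ Finset.range (a + n), c k - L ∈ 𝔪 ^ (a + n) := by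
      have := hL (a + n)
      rw [SModEq.sub_mem] at this
      simpa only [smul_eq_mul, Ideal.mul_top] using this
    have h2 := sum_range_sub_mem 𝔪 hc (Nat.le_add_left n a)
    have e : L - ∑ k ∈ Finset.range n, c k =
        (∑ k ∈ Finset.range (a + n), c k - ∑ k ∈ Finset.range n, c k) -
          (∑ k ∈ Finset.range (a + n), c k - L) := by ring
    rw [e]
    exact (𝔪 ^ (a + n)).sub_mem h2 h1

section Lift

variable {R : Type*} [CommRing R] {H : Type*} [CommRing H] [Bialgebra R H]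
  [Coalgebra.IsCocomm R H] [Module.Free R H] [Algebra R S]

/-- Injectivity of `G(S) → G(S / 𝔪 ^ a)`. -/
theorem algHom_ext_adic (𝔪 : Ideal S) [IsAdicComplete 𝔪 S] {p e a : ℕ} (hp : p.Prime)
    (hpe : 𝔪 ^ e ≤ Ideal.span {(p : S)}) (hreg : ∀ x : S, (p : S) * x = 0 → x = 0)
    (ha : e < a * (p - 1)) (hk : IsKilledBy R H p) (g g' : H →ₐ[R] S)
    (h : ∀ x, g x - g' x ∈ 𝔪 ^ a) : g = g' :=
  algHom_ext_of_sub_mem hp (isPFilBase_pow 𝔪 hp hpe hreg ha).toIsPFilSep hk g g' h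

/-- Fontaine's lifting lemma, `𝔪`-adic form with approximate homomorphisms. -/
theorem existsUnique_lift_adic (𝔪 : Ideal S) [IsAdicComplete 𝔪 S] {p e a : ℕ} (hp : p.Prime)
    (hpe : 𝔪 ^ e ≤ Ideal.span {(p : S)}) (hreg : ∀ x : S, (p : S) * x = 0 → x = 0)
    (ha : e < a * (p - 1)) (hk : IsKilledBy R H p) (u : H →ₗ[R] S)
    (hu1 : u 1 - 1 ∈ Ideal.span {(p : S)} * 𝔪 ^ a)
    (humul : ∀ x y, u (x * y) - u x * u y ∈ Ideal.span {(p : S)} * 𝔪 ^ a) :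
    ∃! g : H →ₐ[R] S, ∀ h, g h - u h ∈ 𝔪 ^ a :=
  existsUnique_lift_of_approx hp (isPFilBase_pow 𝔪 hp hpe hreg ha) hk u hu1 humul

/-- Fontaine's lifting lemma, `𝔪`-adic quotient form. -/
theorem exists_lift_adic (𝔪 : Ideal S) [IsAdicComplete 𝔪 S] {p e a : ℕ} (hp : p.Prime)
    (hpe : 𝔪 ^ e ≤ Ideal.span {(p : S)}) (hreg : ∀ x : S, (p : S) * x = 0 → x = 0)
    (ha : e < a * (p - 1)) (hk : IsKilledBy R H p)
    (gbar : H →ₐ[R] S ⧸ (Ideal.span {(p : S)} * 𝔪 ^ a)) :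
    ∃ g : H →ₐ[R] S, ∀ h, Ideal.Quotient.mk (𝔪 ^ a) (g h) =
      Ideal.Quotient.factor (Ideal.mul_le_right : Ideal.span {(p : S)} * 𝔪 ^ a ≤ 𝔪 ^ a)
        (gbar h) :=
  exists_lift_of_quotient hp (isPFilBase_pow 𝔪 hp hpe hreg ha) hk gbar

/-- Transport of points along `η : S₁ → S / p 𝔪 ^ a` (algebraic core of Fontaine's `(P_m)`):
if the kernel of `S₁ → S / 𝔪 ^ a` is contained in `𝔪₁ ^ a₁`, there is an injection
`G(S₁) → G(S)` compatible with `η` modulo `𝔪 ^ a`. -/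
theorem exists_injective_adic {S₁ : Type*} [CommRing S₁] [Algebra R S₁]
    (𝔪₁ : Ideal S₁) [IsAdicComplete 𝔪₁ S₁] (𝔪 : Ideal S) [IsAdicComplete 𝔪 S]
    {p e₁ a₁ e a : ℕ} (hp : p.Prime)
    (hpe₁ : 𝔪₁ ^ e₁ ≤ Ideal.span {(p : S₁)}) (hreg₁ : ∀ x : S₁, (p : S₁) * x = 0 → x = 0)
    (ha₁ : e₁ < a₁ * (p - 1))
    (hpe : 𝔪 ^ e ≤ Ideal.span {(p : S)}) (hreg : ∀ x : S, (p : S) * x = 0 → x = 0)
    (ha : e < a * (p - 1)) (hk : IsKilledBy R H p)
    (η : S₁ →ₐ[R] S ⧸ (Ideal.span {(p : S)} * 𝔪 ^ a))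
    (hη : ∀ x : S₁, Ideal.Quotient.factor
      (Ideal.mul_le_right : Ideal.span {(p : S)} * 𝔪 ^ a ≤ 𝔪 ^ a) (η x) = 0 → x ∈ 𝔪₁ ^ a₁) :
    ∃ f : (H →ₐ[R] S₁) → (H →ₐ[R] S), Function.Injective f ∧
      ∀ g h, Ideal.Quotient.mk (𝔪 ^ a) (f g h) = Ideal.Quotient.factor
        (Ideal.mul_le_right : Ideal.span {(p : S)} * 𝔪 ^ a ≤ 𝔪 ^ a) (η (g h)) :=
  exists_injective_of_algHom hp (isPFilBase_pow 𝔪₁ hp hpe₁ hreg₁ ha₁).toIsPFilSep
    (isPFilBase_pow 𝔪 hp hpe hreg ha) hk η hη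

end Lift

end Fermat.Agent.TW.FF.AdicFil92

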