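/-
TW / WP7 (flat local bound), brick 7c-lift, part 1 (helper40).

Elementary `p`-adic analysis in a commutative ring `C` which is separated and complete for the
`ϖ`-adic topology (`ϖ` a non-zero-divisor, `p = u * ϖ ^ e` with `u` a unit): for `c` with
`e < c * (p - 1)` the congruence subgroup `1 + ϖ ^ c * C` has no `p`-power torsion, and the
`p ^ n`-th power map sends it ONTO `1 + p ^ n * ϖ ^ c * C`.

Everything is stated with divisibility by powers of `ϖ` (no ideals), so that the hypotheses are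
easy to check for convolution rings `WithConv (H →ₗ[R] S)`.
-/
import Mathlib

set_option autoImplicit false

namespace Fermat.Agent.TW.FF.PadicRoots40

open Polynomial

variable {C : Type*} [CommRing C]

/-- `C` is `ϖ`-torsion-free, `ϖ`-adically separated and `ϖ`-adically complete
(divisibility form). -/
structure IsDvdComplete (ϖ : C) : Prop where
  regular : ∀ x : C, ϖ * x = 0 → x = 0
  hausdorff : ∀ x : C, (∀ n : ℕ, ϖ ^ n ∣ x) → x = 0
  precomplete : ∀ f : ℕ → C, (∀ n, ϖ ^ n ∣ f (n + 1) - f n) → ∃ L : C, ∀ n, ϖ ^ n ∣ L - f n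

namespace IsDvdComplete

variable {ϖ : C}

lemma pow_regular (h : IsDvdComplete ϖ) (n : ℕ) (x : C) (hx : ϖ ^ n * x = 0) : x = 0 := by
  induction n with
  | zero => simpa using hx
  | succ n ih =>
    apply ih
    apply h.regular
    rw [← mul_assoc, ← pow_succ']
    exact hx

/-- Banach fixed point theorem for `a ↦ b - ϖ * P(a)`. -/
theorem exists_eq_sub_mul_eval (h : IsDvdComplete ϖ) (P : C[X]) (b : C) :
    ∃ a : C, a = b - ϖ * P.eval a := by
  let f : ℕ → C := fun n => Nat.rec b (fun _ x => b - ϖ * P.eval x) n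
  have hf0 : f 0 = b := rfl
  have hfs : ∀ n, f (n + 1) = b - ϖ * P.eval (f n) := fun n => rfl
  have hcauchy : ∀ n, ϖ ^ n ∣ f (n + 1) - f n := by
    intro n
    induction n with
    | zero => simp
    | succ n ih =>
      have h1 : f (n + 1 + 1) - f (n + 1) = -(ϖ * (P.eval (f (n + 1)) - P.eval (f n))) := by
        rw [hfs (n + 1), hfs n]; ring
      rw [h1, pow_succ']
      apply Dvd.dvd.neg_right
      apply mul_dvd_mul_left
      exact ih.trans (Polynomial.sub_dvd_eval_sub _ _ P)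
  obtain ⟨L, hL⟩ := h.precomplete f hcauchy
  refine ⟨L, ?_⟩
  have : L - (b - ϖ * P.eval L) = 0 := by
    apply h.hausdorff
    intro n
    have h1 : L - (b - ϖ * P.eval L) = (L - f (n + 1)) + ϖ * (P.eval L - P.eval (f n)) := by
      rw [hfs n]; ring
    rw [h1]
    apply dvd_add
    · exact (pow_dvd_pow ϖ (Nat.le_succ n)).trans (hL (n + 1))
    · exact Dvd.dvd.mul_left ((hL n).trans (Polynomial.sub_dvd_eval_sub _ _ P)) _
  exact sub_eq_zero.mp this

/-- `1 + ϖ * a` is a unit. -/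
theorem isUnit_one_add_mul (h : IsDvdComplete ϖ) (a : C) : IsUnit (1 + ϖ * a) := by
  obtain ⟨y, hy⟩ := h.exists_eq_sub_mul_eval (Polynomial.C a * Polynomial.X) 1
  rw [Polynomial.eval_mul, Polynomial.eval_C, Polynomial.eval_X] at hy
  refine isUnit_iff_exists_inv.mpr ⟨y, ?_⟩
  calc (1 + ϖ * a) * y = y + ϖ * (a * y) := by ring
    _ = 1 := by nth_rewrite 1 [hy]; ring

end IsDvdComplete

/-- The binomial expansion of `(1 + x) ^ p`, with the two extreme terms and the linear term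
isolated. -/
theorem exists_one_add_pow_prime {A : Type*} [CommRing A] {p : ℕ} (hp : p.Prime) (x : A) :
    ∃ q : A, (1 + x) ^ p = 1 + x ^ p + p * x * (1 + x * q) := by
  have h1 := add_pow_prime_eq hp x 1
  simp only [one_pow, mul_one] at h1
  have hmem : 1 ∈ Finset.Ioo 0 p := Finset.mem_Ioo.mpr ⟨Nat.one_pos, hp.one_lt⟩
  rw [← Finset.add_sum_erase _ _ hmem] at h1
  simp only [Nat.sub_self, pow_zero, Nat.choose_one_right, one_mul] at h1
  rw [Nat.div_self hp.pos, Nat.cast_one] at h1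
  refine ⟨∑ k ∈ (Finset.Ioo 0 p).erase 1, x ^ (k - 2) * ((p.choose k / p : ℕ) : A), ?_⟩
  rw [add_comm 1 x, h1, Finset.mul_sum]
  have : ∀ k ∈ (Finset.Ioo 0 p).erase 1,
      x ^ (k - 1) * ((p.choose k / p : ℕ) : A) = x * (x ^ (k - 2) * ((p.choose k / p : ℕ) : A)) := by
    intro k hk
    have hk' := Finset.mem_erase.mp hk
    have hk0 : 0 < k := (Finset.mem_Ioo.mp hk'.2).1
    have : k - 1 = (k - 2) + 1 := by omega
    rw [this, pow_succ]; ring
  rw [Finset.sum_congr rfl this]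
  ring

/-- Polynomial form: one `Q` works for all `x`. -/
theorem exists_poly_one_add_pow_prime {p : ℕ} (hp : p.Prime) :
    ∃ Q : C[X], ∀ x : C, (1 + x) ^ p = 1 + x ^ p + p * x * (1 + x * Q.eval x) := by
  obtain ⟨Q, hQ⟩ := exists_one_add_pow_prime (A := C[X]) hp Polynomial.X
  refine ⟨Q, fun x => ?_⟩
  have := congrArg (Polynomial.eval x) hQ
  simpa using this

section Main

variable {ϖ u u' : C} {p e c : ℕ}

/-- The expansion `(1 + ϖ^c a)^p = 1 + p ϖ^c a (1 + ϖ T(a))` with a polynomial `T`. -/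
theorem exists_poly_expansion (hp : p.Prime) (hpu : (p : C) = u * ϖ ^ e) (hu : u' * u = 1)
    (hc : e < c * (p - 1)) :
    ∃ T : C[X], ∀ a : C,
      (1 + ϖ ^ c * a) ^ p = 1 + p * ϖ ^ c * (a * (1 + ϖ * T.eval a)) := by
  obtain ⟨Q, hQ⟩ := exists_poly_one_add_pow_prime (C := C) hp
  have hp1 : 1 ≤ p := hp.pos
  have hc1 : 1 ≤ c := by
    rcases Nat.eq_zero_or_pos c with h | h
    · subst h; simp at hc
    · exact h
  obtain ⟨d, hd⟩ : ∃ d, c * (p - 1) = e + (d + 1) := ⟨c * (p - 1) - e - 1, by omega⟩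
  obtain ⟨c', hc'⟩ : ∃ c', c = c' + 1 := ⟨c - 1, by omega⟩
  refine ⟨Polynomial.C (u' * ϖ ^ d) * Polynomial.X ^ (p - 1) +
    Polynomial.C (ϖ ^ c') * (Polynomial.X *
      Q.comp (Polynomial.C (ϖ ^ c) * Polynomial.X)), fun a => ?_⟩
  rw [hQ]
  simp only [Polynomial.eval_add, Polynomial.eval_mul, Polynomial.eval_C, Polynomial.eval_pow,
    Polynomial.eval_X, Polynomial.eval_comp]
  have hpow : (ϖ ^ c * a) ^ p = p * ϖ ^ c * (a * (ϖ * (u' * ϖ ^ d * a ^ (p - 1)))) := by
    have e1 : c * p = c + (e + (d + 1)) := by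
      have : c * p = c * (p - 1) + c := by
        conv_lhs => rw [show p = (p - 1) + 1 by omega]
        ring
      omega
    have e2 : a ^ p = a * a ^ (p - 1) := by
      conv_lhs => rw [show p = (p - 1) + 1 by omega]
      ring
    rw [mul_pow, ← pow_mul, e1, e2, hpu]
    have : ϖ ^ (c + (e + (d + 1))) = ϖ ^ c * ϖ ^ e * ϖ * ϖ ^ d := by ring
    rw [this]
    calc ϖ ^ c * ϖ ^ e * ϖ * ϖ ^ d * (a * a ^ (p - 1))
        = (u' * u) * (ϖ ^ c * ϖ ^ e * ϖ * ϖ ^ d * (a * a ^ (p - 1))) := by rw [hu, one_mul]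
      _ = u * ϖ ^ e * ϖ ^ c * (a * (ϖ * (u' * ϖ ^ d * a ^ (p - 1)))) := by ring
  rw [hpow]
  have : ϖ ^ c = ϖ * ϖ ^ c' := by rw [hc', pow_succ']
  linear_combination ((p : C) * ϖ ^ c * a ^ 2 * Polynomial.eval (ϖ ^ c * a) Q) * this

variable (hC : IsDvdComplete ϖ)
include hC

/-- (A1), one step: no `p`-torsion in `1 + ϖ ^ c * C`. -/
theorem eq_zero_of_pow_prime_eq_one (hp : p.Prime) (hpu : (p : C) = u * ϖ ^ e) (hu : u' * u = 1)
    (hc : e < c * (p - 1)) (a : C) (h : (1 + ϖ ^ c * a) ^ p = 1) : a = 0 := by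
  obtain ⟨T, hT⟩ := exists_poly_expansion hp hpu hu hc
  rw [hT a, add_eq_left, hpu] at h
  have h1 : ϖ ^ (e + c) * (u * (a * (1 + ϖ * T.eval a))) = 0 := by
    rw [← h]; ring
  have h2 := hC.pow_regular _ _ h1
  have h3 : a * (1 + ϖ * T.eval a) = 0 := by
    have := congrArg (fun t => u' * t) h2
    simpa [← mul_assoc, hu] using this
  obtain ⟨v, hv⟩ := (hC.isUnit_one_add_mul (T.eval a))
  rw [← hv] at h3
  exact (Units.mul_left_eq_zero v).mp h3

omit hC in
/-- `1 + ϖ^c C` is stable under multiplication. -/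
theorem exists_mul_eq (a b : C) : ∃ d : C, (1 + ϖ ^ c * a) * (1 + ϖ ^ c * b) = 1 + ϖ ^ c * d :=
  ⟨a + b + ϖ ^ c * a * b, by ring⟩

omit hC in
theorem exists_pow_eq (a : C) (k : ℕ) : ∃ d : C, (1 + ϖ ^ c * a) ^ k = 1 + ϖ ^ c * d := by
  induction k with
  | zero => exact ⟨0, by simp⟩
  | succ k ih =>
    obtain ⟨d, hd⟩ := ih
    refine ⟨d + a + ϖ ^ c * d * a, ?_⟩
    rw [pow_succ, hd]; ring

/-- (A1): no `p`-power torsion in `1 + ϖ ^ c * C`. -/
theorem eq_zero_of_pow_prime_pow_eq_one (hp : p.Prime) (hpu : (p : C) = u * ϖ ^ e)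
    (hu : u' * u = 1) (hc : e < c * (p - 1)) (n : ℕ) (a : C)
    (h : (1 + ϖ ^ c * a) ^ (p ^ n) = 1) : a = 0 := by
  induction n generalizing a with
  | zero => 
    have : ϖ ^ c * a = 0 := by simpa using h
    exact hC.pow_regular _ _ this
  | succ n ih =>
    obtain ⟨d, hd⟩ := exists_pow_eq (ϖ := ϖ) (c := c) a p
    rw [pow_succ', pow_mul, hd] at h
    have hd0 := ih d h
    rw [hd0, mul_zero, add_zero] at hd
    exact eq_zero_of_pow_prime_eq_one hC hp hpu hu hc a hd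

/-- (A2), one step: every element of `1 + p ϖ^c C` is a `p`-th power of an element of
`1 + ϖ^c C`. -/
theorem exists_pow_prime_eq (hp : p.Prime) (hpu : (p : C) = u * ϖ ^ e) (hu : u' * u = 1)
    (hc : e < c * (p - 1)) (b : C) :
    ∃ a : C, (1 + ϖ ^ c * a) ^ p = 1 + p * ϖ ^ c * b := by
  obtain ⟨T, hT⟩ := exists_poly_expansion hp hpu hu hc
  obtain ⟨a, ha⟩ := hC.exists_eq_sub_mul_eval (Polynomial.X * T) b
  refine ⟨a, ?_⟩
  rw [hT a]
  rw [Polynomial.eval_mul, Polynomial.eval_X] at ha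
  have : a * (1 + ϖ * T.eval a) = b := by linear_combination ha
  rw [this]

/-- (A2): every element of `1 + p^n ϖ^c C` is a `p^n`-th power of an element of `1 + ϖ^c C`. -/
theorem exists_pow_prime_pow_eq (hp : p.Prime) (hpu : (p : C) = u * ϖ ^ e) (hu : u' * u = 1)
    (hc : e < c * (p - 1)) (n : ℕ) (b : C) :
    ∃ a : C, (1 + ϖ ^ c * a) ^ (p ^ n) = 1 + (p : C) ^ n * ϖ ^ c * b := by
  induction n generalizing c b with
  | zero => exact ⟨b, by simp⟩
  | succ n ih =>
    have hc' : e < (c + e) * (p - 1) := by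
      calc e < c * (p - 1) := hc
        _ ≤ (c + e) * (p - 1) := Nat.mul_le_mul_right _ (Nat.le_add_right c e)
    obtain ⟨a', ha'⟩ := ih hc' (u * b)
    obtain ⟨a, ha⟩ := exists_pow_prime_eq hC hp hpu hu hc (u' * a')
    refine ⟨a, ?_⟩
    rw [pow_succ', pow_mul, ha]
    have e1 : 1 + (p : C) * ϖ ^ c * (u' * a') = 1 + ϖ ^ (c + e) * a' := by
      rw [hpu, pow_add]
      calc 1 + u * ϖ ^ e * ϖ ^ c * (u' * a') = 1 + (u' * u) * (ϖ ^ c * ϖ ^ e * a') := by ring
        _ = 1 + ϖ ^ c * ϖ ^ e * a' := by rw [hu, one_mul]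
    rw [e1, ha', pow_succ, pow_add]
    linear_combination (-(p : C) ^ n * ϖ ^ c * b) * hpu

end Main

end Fermat.Agent.TW.FF.PadicRoots40
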