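/-
TW / WP7 (flat local bound), brick 7c-lift, part 2 (helper40).

Fontaine's lifting lemma for finite flat commutative group schemes killed by `N = p ^ n`,
WITHOUT lci presentations, differentials or divided powers.  We work in the commutative
convolution rings `Conv R D S = WithConv (D →ₗ[R] S)` (`D = H` or `D = H ⊗[R] H`), which play
the role of `H^* ⊗ S`; points of `H` in `S` are the multiplicative elements.

* `isDvdComplete_algebraMap` : `ϖ`-adic completeness passes from `S` to `Conv R D S`.
* `exists_algHom_lift` : every point of `H` in `S ⧸ (ϖ ^ (n * e + c))` comes, modulo `ϖ ^ c`,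
  from a genuine point `H →ₐ[R] S`  (`p = u ϖ^e`, `e < c (p - 1)`).
* `algHom_ext_of_dvd` : two points `H →ₐ[R] S` congruent modulo `ϖ ^ c` are equal.

The argument (found independently by helper83, helper14 and helper40, reports #267/#277/#293):
lift the point linearly to `Φ`; `Φ ^ N = 1 + p ^ n ϖ ^ c b`; extract an `N`-th root `r` in
`1 + ϖ ^ c Conv` and put `ψ = Φ / r`; then `ψ ∘ mul` and `ψ ⊠ ψ` are both `N`-torsion and congruent
modulo `ϖ ^ c` in `Conv R (H ⊗ H) S`, hence equal by rigidity.
-/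
import Mathlib
import Fermat.Agent.TW.FF.PadicRoots40

set_option autoImplicit false

open TensorProduct WithConv Coalgebra
open Fermat.Agent.TW.FF.PadicRoots40

namespace Fermat.Agent.TW.FF.ConvLift40

universe u v w w'

/-- Abbreviation: the convolution ring of `S`-valued `R`-linear forms on the coalgebra `D`. -/
abbrev Conv (R : Type u) [CommRing R] (D : Type w) [AddCommGroup D] [Module R D] [Coalgebra R D]
    (S : Type v) [CommRing S] [Algebra R S] := WithConv (D →ₗ[R] S)

section Transfer

variable {R : Type u} [CommRing R] {D : Type w} [AddCommGroup D] [Module R D] [Coalgebra R D]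
variable {S : Type v} [CommRing S] [Algebra R S]

lemma algebraMap_pow_mul_apply (ϖ : S) (n : ℕ) (g : Conv R D S) (d : D) :
    ((algebraMap S (Conv R D S) ϖ) ^ n * g) d = ϖ ^ n * g d := by
  rw [← map_pow, ← Algebra.smul_def]
  rfl

lemma algebraMap_mul_apply (ϖ : S) (g : Conv R D S) (d : D) :
    ((algebraMap S (Conv R D S) ϖ) * g) d = ϖ * g d := by
  rw [← Algebra.smul_def]
  rfl

/-- Divisibility by `ϖ ^ n` in the convolution ring is pointwise divisibility (for regular `ϖ`). -/
theorem algebraMap_pow_dvd_iff {ϖ : S} (hreg : ∀ x : S, ϖ * x = 0 → x = 0) (n : ℕ)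
    (f : Conv R D S) :
    (algebraMap S (Conv R D S) ϖ) ^ n ∣ f ↔ ∀ d : D, ϖ ^ n ∣ f d := by
  constructor
  · rintro ⟨g, rfl⟩ d
    exact ⟨g d, algebraMap_pow_mul_apply ϖ n g d⟩
  · intro h
    have hreg' : ∀ x : S, ϖ ^ n * x = 0 → x = 0 := by
      intro x hx
      induction n with
      | zero => simpa using hx
      | succ n ih =>
        apply ih
        · intro d; exact (pow_dvd_pow ϖ (Nat.le_succ n)).trans (h d)
        · apply hreg
          rw [← mul_assoc, ← pow_succ']
          exact hx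
    choose g hg using h
    have hcancel : ∀ x y : S, ϖ ^ n * x = ϖ ^ n * y → x = y := by
      intro x y hxy
      have : ϖ ^ n * (x - y) = 0 := by rw [mul_sub, hxy, sub_self]
      exact sub_eq_zero.mp (hreg' _ this)
    let G : D →ₗ[R] S :=
      { toFun := g
        map_add' := fun a b => by
          apply hcancel
          rw [mul_add, ← hg, ← hg, ← hg]
          exact map_add f.ofConv a b
        map_smul' := fun r a => by
          apply hcancel
          rw [RingHom.id_apply, mul_smul_comm, ← hg, ← hg]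
          exact map_smul f.ofConv r a }
    refine ⟨toConv G, ?_⟩
    apply WithConv.ext
    apply LinearMap.ext
    intro d
    have := algebraMap_pow_mul_apply (R := R) ϖ n (toConv G) d
    rw [this]
    exact hg d

/-- Transfer of `IsDvdComplete` to convolution rings. -/
theorem isDvdComplete_algebraMap [IsCocomm R D] {ϖ : S} (h : IsDvdComplete ϖ) :
    IsDvdComplete (algebraMap S (Conv R D S) ϖ) where
  regular := by
    intro f hf
    apply WithConv.ext
    apply LinearMap.ext
    intro d
    apply h.regular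
    rw [← algebraMap_mul_apply (R := R) ϖ f d, hf]
    rfl
  hausdorff := by
    intro f hf
    apply WithConv.ext
    apply LinearMap.ext
    intro d
    apply h.hausdorff
    intro n
    exact (algebraMap_pow_dvd_iff h.regular n f).mp (hf n) d
  precomplete := by
    intro f hf
    have hpt : ∀ d : D, ∃ L : S, ∀ n, ϖ ^ n ∣ L - f n d := by
      intro d
      apply h.precomplete (fun n => f n d)
      intro n
      exact (algebraMap_pow_dvd_iff h.regular n _).mp (hf n) d
    choose L hL using hpt
    let G : D →ₗ[R] S :=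
      { toFun := L
        map_add' := fun a b => by
          have : L (a + b) - (L a + L b) = 0 := by
            apply h.hausdorff
            intro n
            have e : L (a + b) - (L a + L b) =
                (L (a + b) - f n (a + b)) - (L a - f n a) - (L b - f n b) := by
              have : f n (a + b) = f n a + f n b := map_add (f n).ofConv a b
              rw [this]; ring
            rw [e]
            exact dvd_sub (dvd_sub (hL _ n) (hL _ n)) (hL _ n)
          exact sub_eq_zero.mp this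
        map_smul' := fun r a => by
          have : L (r • a) - r • L a = 0 := by
            apply h.hausdorff
            intro n
            have e : L (r • a) - r • L a = (L (r • a) - f n (r • a)) - r • (L a - f n a) := by
              have : f n (r • a) = r • f n a := map_smul (f n).ofConv r a
              rw [this, smul_sub]; ring
            rw [e]
            refine dvd_sub (hL _ n) ?_
            rw [Algebra.smul_def]
            exact Dvd.dvd.mul_left (hL _ n) _
          simpa using sub_eq_zero.mp this }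
    refine ⟨toConv G, fun n => ?_⟩
    rw [algebraMap_pow_dvd_iff h.regular]
    intro d
    exact hL d n

end Transfer

section Pull

variable {R : Type u} [CommRing R] {D : Type w} [AddCommGroup D] [Module R D] [Coalgebra R D]
variable {D' : Type w'} [AddCommGroup D'] [Module R D'] [Coalgebra R D']
variable {S : Type v} [CommRing S] [Algebra R S]

/-- Pull-back of linear forms along a coalgebra homomorphism is a homomorphism of convolution
algebras. -/
noncomputable def pull (g : D' →ₗc[R] D) : Conv R D S →ₐ[S] Conv R D' S where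
  toFun f := toConv (f.ofConv ∘ₗ g.toLinearMap)
  map_one' := by
    apply WithConv.ext
    apply LinearMap.ext
    intro d
    simp [LinearMap.convOne_def]
  map_mul' f f' := by
    apply WithConv.ext
    exact LinearMap.convMul_comp_coalgHom_distrib f f' g
  map_zero' := by
    apply WithConv.ext
    simp
  map_add' f f' := by
    apply WithConv.ext
    simp [LinearMap.add_comp]
  commutes' s := by
    apply WithConv.ext
    apply LinearMap.ext
    intro d
    simp

@[simp] lemma pull_apply (g : D' →ₗc[R] D) (f : Conv R D S) (d : D') :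
    pull g f d = f (g d) := rfl

end Pull

section Sq

variable {R : Type u} [CommRing R] {H : Type w} [CommRing H] [Bialgebra R H]
variable {S : Type v} [CommRing S] [Algebra R S]

/-- The external square `f ↦ (a ⊗ b ↦ f a * f b)`. -/
noncomputable def sq (f : Conv R H S) : Conv R (H ⊗[R] H) S :=
  toConv (LinearMap.mul' R S ∘ₗ TensorProduct.map f.ofConv f.ofConv)

@[simp] lemma sq_tmul (f : Conv R H S) (a b : H) : sq f (a ⊗ₜ[R] b) = f a * f b := rfl

lemma sq_one : sq (1 : Conv R H S) = 1 := by
  apply WithConv.ext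
  apply TensorProduct.ext'
  intro a b
  change sq (1 : Conv R H S) (a ⊗ₜ[R] b) = (1 : Conv R (H ⊗[R] H) S) (a ⊗ₜ[R] b)
  simp [sq_tmul, LinearMap.convOne_apply, mul_comm]

lemma sq_mul (f g : Conv R H S) : sq (f * g) = sq f * sq g := by
  have h1 := TensorProduct.map_convMul_map (R := R) (f := f) (h := g) (g := f) (k := g)
  have h2 := LinearMap.algHom_comp_convMul_distrib (R := R) (C := H ⊗[R] H)
    (Algebra.TensorProduct.lmul' (S := S) R)
    (toConv (TensorProduct.map f.ofConv f.ofConv)) (toConv (TensorProduct.map g.ofConv g.ofConv))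
  apply WithConv.ext
  rw [h1] at h2
  exact h2

end Sq

section Push

variable {R : Type u} [CommRing R] {D : Type w} [AddCommGroup D] [Module R D] [Coalgebra R D]
variable {S : Type v} [CommRing S] [Algebra R S] {T : Type w'} [CommRing T] [Algebra R T]

/-- Push-forward of linear forms along an algebra homomorphism is a ring homomorphism of
convolution rings. -/
noncomputable def push (q : S →ₐ[R] T) : Conv R D S →+* Conv R D T where
  toFun f := toConv (q.toLinearMap ∘ₗ f.ofConv)
  map_one' := by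
    apply WithConv.ext
    apply LinearMap.ext
    intro d
    simp [LinearMap.convOne_def]
  map_mul' f f' := by
    apply WithConv.ext
    exact LinearMap.algHom_comp_convMul_distrib q f f'
  map_zero' := by
    apply WithConv.ext
    simp
  map_add' f f' := by
    apply WithConv.ext
    simp [LinearMap.comp_add]

@[simp] lemma push_apply (q : S →ₐ[R] T) (f : Conv R D S) (d : D) :
    push q f d = q (f d) := rfl

end Push

section Ev

variable {R : Type u} [CommRing R] {H : Type w} [CommRing H] [Bialgebra R H]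
variable {S : Type v} [CommRing S] [Algebra R S]

/-- Evaluation at `1` is multiplicative on the convolution ring. -/
noncomputable def evOne : Conv R H S →* S where
  toFun f := f 1
  map_one' := by simp [LinearMap.convOne_apply]
  map_mul' f g := by
    simp [LinearMap.convMul_apply, Bialgebra.comul_one, Algebra.TensorProduct.one_def]

@[simp] lemma evOne_apply (f : Conv R H S) : evOne f = f 1 := rfl

end Ev

section Main

variable {R : Type u} [CommRing R] {H : Type w} [CommRing H] [Bialgebra R H] [IsCocomm R H]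
variable {S : Type v} [CommRing S] [Algebra R S]

/-- The external square as a monoid homomorphism. -/
noncomputable def sqHom : Conv R H S →* Conv R (H ⊗[R] H) S where
  toFun := sq
  map_one' := sq_one
  map_mul' := sq_mul

omit [IsCocomm R H] in
/-- A point killed by the universal `N`-torsion hypothesis. -/
theorem pow_eq_one_of_id_pow_eq_one {N : ℕ}
    (hN : (toConv (AlgHom.id R H)) ^ N = 1) {T : Type w'} [CommRing T] [Algebra R T]
    (f : WithConv (H →ₐ[R] T)) : f ^ N = 1 := by
  have key : ∀ k : ℕ, toConv (f.ofConv.comp ((toConv (AlgHom.id R H)) ^ k).ofConv) = f ^ k := by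
    intro k
    induction k with
    | zero =>
      apply WithConv.ext
      apply AlgHom.ext
      intro h
      simp [AlgHom.convOne_def]
    | succ k ih =>
      rw [pow_succ, pow_succ, AlgHom.comp_convMul_distrib, ← ih]
      simp
  rw [← key N, hN]
  apply WithConv.ext
  apply AlgHom.ext
  intro h
  simp [AlgHom.convOne_def]

variable {ϖ u u' : S} {p e c n : ℕ}

/-- Auxiliary: an idempotent `N`-torsion element (`N ≥ 1`) is `1`. -/
lemma eq_one_of_mul_self_of_pow {t : S} {N : ℕ} (hN : 1 ≤ N) (h1 : t * t = t) (h2 : t ^ N = 1) :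
    t = 1 := by
  have : ∀ k : ℕ, 1 ≤ k → t ^ k = t := by
    intro k hk
    induction k, hk using Nat.le_induction with
    | base => simp
    | succ k _ ih => rw [pow_succ, ih, h1]
  rw [← this N hN, h2]

/-- **Fontaine's lifting lemma, convolution form.**  Let `Φ : H → S` be `R`-linear and
multiplicative modulo `ϖ ^ (n * e + c)`, with `Φ ^ (p ^ n) ≡ 1` (convolution power) modulo
`ϖ ^ (n * e + c)`.  Then there is a genuine point congruent to `Φ` modulo `ϖ ^ c`. -/
theorem exists_algHom_of_approx (hC : IsDvdComplete ϖ) (hp : p.Prime)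
    (hpu : (p : S) = u * ϖ ^ e) (hu : u' * u = 1) (hc : e < c * (p - 1))
    (Φ : Conv R H S)
    (hmul : ∀ a b : H, ϖ ^ (n * e + c) ∣ Φ (a * b) - Φ a * Φ b)
    (hpow : ∀ h : H, ϖ ^ (n * e + c) ∣ (Φ ^ (p ^ n) - 1 : Conv R H S) h) :
    ∃ F : H →ₐ[R] S, ∀ h : H, ϖ ^ c ∣ F h - Φ h := by
  classical
  have hc1 : 1 ≤ c := by
    rcases Nat.eq_zero_or_pos c with h | h
    · subst h; simp at hc
    · exact h
  have hN1 : 1 ≤ p ^ n := Nat.one_le_pow _ _ hp.pos
  -- the ring `C = Conv R H S` and its element `ϖ`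
  set ϖC : Conv R H S := algebraMap S (Conv R H S) ϖ with hϖC
  have hCC : IsDvdComplete ϖC := isDvdComplete_algebraMap hC
  have hpuC : ((p : ℕ) : Conv R H S) = algebraMap S _ u * ϖC ^ e := by
    rw [hϖC, ← map_pow, ← map_mul, ← hpu, map_natCast]
  have huC : algebraMap S (Conv R H S) u' * algebraMap S _ u = 1 := by
    rw [← map_mul, hu, map_one]
  -- Step 1: `Φ ^ N = 1 + p ^ n * ϖ ^ c * b`
  obtain ⟨g, hg⟩ := (algebraMap_pow_dvd_iff hC.regular (n * e + c) _).mpr hpow
  have hpowe : ϖC ^ (n * e) = (algebraMap S (Conv R H S) u') ^ n * ((p : ℕ) : Conv R H S) ^ n := by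
    rw [hpuC, ← mul_pow, ← mul_assoc, huC, one_mul, ← pow_mul, mul_comm e n]
  have hΦN : Φ ^ (p ^ n) =
      1 + ((p : ℕ) : Conv R H S) ^ n * ϖC ^ c * ((algebraMap S (Conv R H S) u') ^ n * g) := by
    have : Φ ^ (p ^ n) = 1 + ϖC ^ (n * e + c) * g := by rw [← hg]; ring
    rw [this, pow_add, hpowe]; ring
  -- Step 2: root extraction
  obtain ⟨a, ha⟩ := exists_pow_prime_pow_eq hCC hp hpuC huC hc n
    ((algebraMap S (Conv R H S) u') ^ n * g)
  set r : Conv R H S := 1 + ϖC ^ c * a with hr
  have hrunit : IsUnit r := by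
    have : r = 1 + ϖC * (ϖC ^ (c - 1) * a) := by
      rw [hr, ← mul_assoc, ← pow_succ', Nat.sub_add_cancel hc1]
    rw [this]
    exact hCC.isUnit_one_add_mul _
  obtain ⟨ri, hri⟩ := isUnit_iff_exists_inv.mp hrunit
  set ψ : Conv R H S := Φ * ri with hψ
  have hψN : ψ ^ (p ^ n) = 1 := by
    rw [hψ, mul_pow, hΦN, ← ha, ← mul_pow, hri, one_pow]
  have hψΦ : ϖC ^ c ∣ ψ - Φ := by
    refine ⟨-(Φ * ri * a), ?_⟩
    have : ψ - Φ = Φ * ri * (1 - r) := by
      rw [hψ, mul_sub, mul_one, mul_assoc, mul_comm ri r, hri, mul_one]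
    rw [this, hr]; ring
  have hψΦ' : ∀ h : H, ϖ ^ c ∣ ψ h - Φ h :=
    (algebraMap_pow_dvd_iff hC.regular c _).mp hψΦ
  -- Step 3: multiplicativity by rigidity in `Conv R (H ⊗ H) S`
  set ϖC2 : Conv R (H ⊗[R] H) S := algebraMap S _ ϖ with hϖC2
  have hCC2 : IsDvdComplete ϖC2 := isDvdComplete_algebraMap hC
  have hpuC2 : ((p : ℕ) : Conv R (H ⊗[R] H) S) = algebraMap S _ u * ϖC2 ^ e := by
    rw [hϖC2, ← map_pow, ← map_mul, ← hpu, map_natCast]
  have huC2 : algebraMap S (Conv R (H ⊗[R] H) S) u' * algebraMap S _ u = 1 := by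
    rw [← map_mul, hu, map_one]
  set m1 : Conv R (H ⊗[R] H) S := pull (Bialgebra.mulCoalgHom R H) ψ with hm1
  set m2 : Conv R (H ⊗[R] H) S := sqHom ψ with hm2
  have hm1N : m1 ^ (p ^ n) = 1 := by rw [hm1, ← map_pow, hψN, map_one]
  have hm2N : m2 ^ (p ^ n) = 1 := by rw [hm2, ← map_pow, hψN, map_one]
  have hle : ϖ ^ c ∣ ϖ ^ (n * e + c) := pow_dvd_pow ϖ (Nat.le_add_left c (n * e))
  have hdiff : ∀ x : H ⊗[R] H, ϖ ^ c ∣ (m1 - m2 : Conv R (H ⊗[R] H) S) x := by
    intro x
    induction x using TensorProduct.induction_on with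
    | zero => simp
    | tmul a b =>
      have e1 : (m1 - m2 : Conv R (H ⊗[R] H) S) (a ⊗ₜ[R] b) = ψ (a * b) - ψ a * ψ b := rfl
      rw [e1]
      have e2 : ψ (a * b) - ψ a * ψ b = (ψ (a * b) - Φ (a * b)) + (Φ (a * b) - Φ a * Φ b)
          - (Φ a * (ψ b - Φ b) + (ψ a - Φ a) * ψ b) := by ring
      rw [e2]
      refine dvd_sub (dvd_add (hψΦ' _) (hle.trans (hmul a b))) (dvd_add ?_ ?_)
      · exact Dvd.dvd.mul_left (hψΦ' b) _
      · exact Dvd.dvd.mul_right (hψΦ' a) _
    | add x y hx hy =>
      have : (m1 - m2 : Conv R (H ⊗[R] H) S) (x + y) =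
          (m1 - m2 : Conv R (H ⊗[R] H) S) x + (m1 - m2 : Conv R (H ⊗[R] H) S) y :=
        map_add (m1 - m2 : Conv R (H ⊗[R] H) S).ofConv x y
      rw [this]
      exact dvd_add hx hy
  obtain ⟨a', ha'⟩ := (algebraMap_pow_dvd_iff hC.regular c _).mpr hdiff
  obtain ⟨k, hk⟩ : ∃ k, p ^ n = k + 1 := ⟨p ^ n - 1, by omega⟩
  have hm2inv : m2 * m2 ^ k = 1 := by rw [← pow_succ', ← hk, hm2N]
  set w : Conv R (H ⊗[R] H) S := m1 * m2 ^ k with hw
  have hwN : w ^ (p ^ n) = 1 := by
    rw [hw, mul_pow, hm1N, one_mul, ← pow_mul, mul_comm k, pow_mul, hm2N, one_pow]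
  have hw1 : w = 1 + ϖC2 ^ c * (a' * m2 ^ k) := by
    have : w - 1 = (m1 - m2) * m2 ^ k := by rw [hw, sub_mul, hm2inv]
    rw [← sub_eq_iff_eq_add', this, ha']; ring
  have hzero : a' * m2 ^ k = 0 := by
    apply eq_zero_of_pow_prime_pow_eq_one hCC2 hp hpuC2 huC2 hc n
    rw [← hw1, hwN]
  have hm12 : m1 = m2 := by
    have h1 : w = 1 := by rw [hw1, hzero, mul_zero, add_zero]
    calc m1 = m1 * (m2 * m2 ^ k) := by rw [hm2inv, mul_one]
      _ = w * m2 := by rw [hw]; ring
      _ = m2 := by rw [h1, one_mul]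
  have hψmul : ∀ a b : H, ψ (a * b) = ψ a * ψ b := by
    intro a b
    have := congrArg (fun f : Conv R (H ⊗[R] H) S => f (a ⊗ₜ[R] b)) hm12
    exact this
  -- Step 4: `ψ 1 = 1`
  have hψ1 : ψ 1 = 1 := by
    apply eq_one_of_mul_self_of_pow hN1
    · rw [← hψmul, mul_one]
    · have := congrArg (evOne (R := R) (H := H) (S := S)) hψN
      rwa [map_pow, map_one] at this
  exact ⟨AlgHom.ofLinearMap ψ.ofConv hψ1 hψmul, hψΦ'⟩

end Main

section Lift

variable {R : Type u} [CommRing R] {H : Type w} [CommRing H] [Bialgebra R H] [IsCocomm R H]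
variable {S : Type v} [CommRing S] [Algebra R S]
variable {ϖ u u' : S} {p e c n : ℕ}

/-- **Fontaine's lifting lemma** (with the ideal as a variable). -/
theorem exists_algHom_lift_aux [Module.Projective R H] (hC : IsDvdComplete ϖ) (hp : p.Prime)
    (hpu : (p : S) = u * ϖ ^ e) (hu : u' * u = 1) (hc : e < c * (p - 1))
    (J : Ideal S) (hJ : J = Ideal.span {ϖ ^ (n * e + c)})
    (hN : ∀ f : WithConv (H →ₐ[R] S ⧸ J), f ^ (p ^ n) = 1)
    (f₀ : H →ₐ[R] S ⧸ J) :
    ∃ F : H →ₐ[R] S, ∀ (h : H) (s : S),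
      f₀ h = Ideal.Quotient.mk J s → ϖ ^ c ∣ F h - s := by
  let q : S →ₐ[R] S ⧸ J := Ideal.Quotient.mkₐ R J
  obtain ⟨φ, hφ⟩ := Module.projective_lifting_property q.toLinearMap f₀.toLinearMap
    (Ideal.Quotient.mkₐ_surjective R J)
  have hφ' : ∀ h : H, Ideal.Quotient.mk J (φ h) = f₀ h := fun h =>
    congrArg (fun l : H →ₗ[R] S ⧸ J => l h) hφ
  have hmem : ∀ s : S, Ideal.Quotient.mk J s = 0 → ϖ ^ (n * e + c) ∣ s := by
    intro s hs
    rw [Ideal.Quotient.eq_zero_iff_mem, hJ, Ideal.mem_span_singleton] at hs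
    exact hs
  have hmul : ∀ a b : H, ϖ ^ (n * e + c) ∣ (toConv φ : Conv R H S) (a * b) -
      (toConv φ : Conv R H S) a * (toConv φ : Conv R H S) b := by
    intro a b
    apply hmem
    change Ideal.Quotient.mk J (φ (a * b) - φ a * φ b) = 0
    rw [(Ideal.Quotient.mk J).map_sub, (Ideal.Quotient.mk J).map_mul, hφ', hφ', hφ', map_mul,
      sub_self]
  have hpow : ∀ h : H, ϖ ^ (n * e + c) ∣ ((toConv φ : Conv R H S) ^ (p ^ n) - 1 : Conv R H S) h := by
    intro h
    apply hmem
    have h1 : push q (toConv φ : Conv R H S) = toConv f₀.toLinearMap := by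
      apply WithConv.ext
      exact hφ
    have h2 : push q ((toConv φ : Conv R H S) ^ (p ^ n) - 1) = 0 := by
      rw [map_sub, map_pow, map_one, h1]
      have := AlgHom.toLinearMap_convPow (toConv f₀) (p ^ n)
      rw [ofConv_toConv] at this
      rw [← this, hN (toConv f₀), sub_eq_zero]
      rfl
    exact congrArg (fun f : Conv R H (S ⧸ J) => f h) h2
  obtain ⟨F, hF⟩ := exists_algHom_of_approx hC hp hpu hu hc (toConv φ) hmul hpow
  refine ⟨F, fun h s hs => ?_⟩
  have h1 : ϖ ^ (n * e + c) ∣ φ h - s := by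
    apply hmem
    rw [(Ideal.Quotient.mk J).map_sub, hφ', hs, sub_self]
  have hle : ϖ ^ c ∣ ϖ ^ (n * e + c) := pow_dvd_pow ϖ (Nat.le_add_left c (n * e))
  have : F h - s = (F h - φ h) + (φ h - s) := by ring
  rw [this]
  exact dvd_add (hF h) (hle.trans h1)

/-- **Fontaine's lifting lemma.**  Every point of `H` with values in `S ⧸ (ϖ ^ (n * e + c))`
is congruent modulo `ϖ ^ c` to a genuine point `H →ₐ[R] S`. -/
theorem exists_algHom_lift [Module.Projective R H] (hC : IsDvdComplete ϖ) (hp : p.Prime)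
    (hpu : (p : S) = u * ϖ ^ e) (hu : u' * u = 1) (hc : e < c * (p - 1))
    (hN : ∀ f : WithConv (H →ₐ[R] S ⧸ Ideal.span {ϖ ^ (n * e + c)}), f ^ (p ^ n) = 1)
    (f₀ : H →ₐ[R] S ⧸ Ideal.span {ϖ ^ (n * e + c)}) :
    ∃ F : H →ₐ[R] S, ∀ (h : H) (s : S),
      f₀ h = Ideal.Quotient.mk (Ideal.span {ϖ ^ (n * e + c)}) s → ϖ ^ c ∣ F h - s :=
  exists_algHom_lift_aux hC hp hpu hu hc _ rfl hN f₀

/-- **Rigidity of points.**  Two points `H →ₐ[R] S` of `p ^ n`-torsion which are congruent modulo
`ϖ ^ c` are equal. -/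
theorem algHom_ext_of_dvd (hC : IsDvdComplete ϖ) (hp : p.Prime)
    (hpu : (p : S) = u * ϖ ^ e) (hu : u' * u = 1) (hc : e < c * (p - 1))
    (F G : H →ₐ[R] S) (hF : (toConv F) ^ (p ^ n) = 1) (hG : (toConv G) ^ (p ^ n) = 1)
    (hFG : ∀ h : H, ϖ ^ c ∣ F h - G h) : F = G := by
  set x : Conv R H S := toConv F.toLinearMap with hx
  set y : Conv R H S := toConv G.toLinearMap with hy
  have hxN : x ^ (p ^ n) = 1 := by
    have := AlgHom.toLinearMap_convPow (toConv F) (p ^ n)
    rw [ofConv_toConv] at this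
    rw [hx, ← this, hF]; rfl
  have hyN : y ^ (p ^ n) = 1 := by
    have := AlgHom.toLinearMap_convPow (toConv G) (p ^ n)
    rw [ofConv_toConv] at this
    rw [hy, ← this, hG]; rfl
  set ϖC : Conv R H S := algebraMap S (Conv R H S) ϖ with hϖC
  have hCC : IsDvdComplete ϖC := isDvdComplete_algebraMap hC
  have hpuC : ((p : ℕ) : Conv R H S) = algebraMap S _ u * ϖC ^ e := by
    rw [hϖC, ← map_pow, ← map_mul, ← hpu, map_natCast]
  have huC : algebraMap S (Conv R H S) u' * algebraMap S _ u = 1 := by
    rw [← map_mul, hu, map_one]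
  have hdiff : ∀ h : H, ϖ ^ c ∣ (x - y : Conv R H S) h := hFG
  obtain ⟨a', ha'⟩ := (algebraMap_pow_dvd_iff hC.regular c _).mpr hdiff
  obtain ⟨k, hk⟩ : ∃ k, p ^ n = k + 1 := ⟨p ^ n - 1, by
    have := Nat.one_le_pow n p hp.pos
    omega⟩
  have hyinv : y * y ^ k = 1 := by rw [← pow_succ', ← hk, hyN]
  set w : Conv R H S := x * y ^ k with hw
  have hwN : w ^ (p ^ n) = 1 := by
    rw [hw, mul_pow, hxN, one_mul, ← pow_mul, mul_comm k, pow_mul, hyN, one_pow]
  have hw1 : w = 1 + ϖC ^ c * (a' * y ^ k) := by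
    have : w - 1 = (x - y) * y ^ k := by rw [hw, sub_mul, hyinv]
    rw [← sub_eq_iff_eq_add', this, ha']; ring
  have hzero : a' * y ^ k = 0 := by
    apply eq_zero_of_pow_prime_pow_eq_one hCC hp hpuC huC hc n
    rw [← hw1, hwN]
  have hxy : x = y := by
    have h1 : w = 1 := by rw [hw1, hzero, mul_zero, add_zero]
    calc x = x * (y * y ^ k) := by rw [hyinv, mul_one]
      _ = w * y := by rw [hw]; ring
      _ = y := by rw [h1, one_mul]
  apply AlgHom.toLinearMap_injective
  exact congrArg WithConv.ofConv hxy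

end Lift

section Bridge

variable {S : Type v} [CommRing S]

/-- Bridge from Mathlib's `IsAdicComplete`. -/
theorem isDvdComplete_of_isAdicComplete (ϖ : S) [IsAdicComplete (Ideal.span {ϖ}) S]
    (hreg : ∀ x : S, ϖ * x = 0 → x = 0) : IsDvdComplete ϖ where
  regular := hreg
  hausdorff := by
    intro x hx
    apply IsHausdorff.haus (inferInstance : IsHausdorff (Ideal.span {ϖ}) S) x
    intro n
    rw [SModEq.zero, smul_eq_mul, Ideal.mul_top, Ideal.span_singleton_pow,
      Ideal.mem_span_singleton]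
    exact hx n
  precomplete := by
    intro f hf
    have hmn : ∀ {m n : ℕ}, m ≤ n → ϖ ^ m ∣ f n - f m := by
      intro m n hmn
      induction n, hmn using Nat.le_induction with
      | base => simp
      | succ n hmn ih =>
        have : f (n + 1) - f m = (f (n + 1) - f n) + (f n - f m) := by ring
        rw [this]
        exact dvd_add ((pow_dvd_pow ϖ hmn).trans (hf n)) ih
    obtain ⟨L, hL⟩ := IsPrecomplete.prec (inferInstance : IsPrecomplete (Ideal.span {ϖ}) S)
      (f := f) (by
        intro m n hle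
        rw [SModEq.sub_mem, smul_eq_mul, Ideal.mul_top, Ideal.span_singleton_pow,
          Ideal.mem_span_singleton]
        have h1 := hmn hle
        have e : f m - f n = -(f n - f m) := by ring
        rw [e]
        exact Dvd.dvd.neg_right h1)
    refine ⟨L, fun n => ?_⟩
    have := hL n
    rw [SModEq.sub_mem, smul_eq_mul, Ideal.mul_top, Ideal.span_singleton_pow,
      Ideal.mem_span_singleton] at this
    have e : L - f n = -(f n - L) := by ring
    rw [e]
    exact Dvd.dvd.neg_right this

end Bridge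

section Corollaries

variable {R : Type u} [CommRing R] {H : Type w} [CommRing H] [Bialgebra R H] [IsCocomm R H]
variable {S : Type v} [CommRing S] [Algebra R S]
variable {ϖ u u' : S} {p e c n : ℕ}

/-- Lifting lemma, for an arbitrary ideal `J ≤ (ϖ ^ (n * e + c))`, with the universal torsion
hypothesis `[p ^ n] = 0` on `H`. -/
theorem exists_algHom_lift_of_le [Module.Projective R H] (hC : IsDvdComplete ϖ) (hp : p.Prime)
    (hpu : (p : S) = u * ϖ ^ e) (hu : u' * u = 1) (hc : e < c * (p - 1))
    (hN : (toConv (AlgHom.id R H)) ^ (p ^ n) = 1)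
    (J : Ideal S) (hJ : J ≤ Ideal.span {ϖ ^ (n * e + c)}) (f₀ : H →ₐ[R] S ⧸ J) :
    ∃ F : H →ₐ[R] S, ∀ (h : H) (s : S), f₀ h = Ideal.Quotient.mk J s → ϖ ^ c ∣ F h - s := by
  obtain ⟨F, hF⟩ := exists_algHom_lift (R := R) (H := H) hC hp hpu hu hc
    (fun f => pow_eq_one_of_id_pow_eq_one hN f) ((Ideal.Quotient.factorₐ R hJ).comp f₀)
  refine ⟨F, fun h s hs => hF h s ?_⟩
  rw [AlgHom.comp_apply, hs]
  rfl

/-- Rigidity of points, with the universal torsion hypothesis `[p ^ n] = 0` on `H`. -/
theorem algHom_ext_of_dvd_of_id (hC : IsDvdComplete ϖ) (hp : p.Prime)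
    (hpu : (p : S) = u * ϖ ^ e) (hu : u' * u = 1) (hc : e < c * (p - 1))
    (hN : (toConv (AlgHom.id R H)) ^ (p ^ n) = 1)
    (F G : H →ₐ[R] S) (hFG : ∀ h : H, ϖ ^ c ∣ F h - G h) : F = G :=
  algHom_ext_of_dvd hC hp hpu hu hc F G (pow_eq_one_of_id_pow_eq_one hN _)
    (pow_eq_one_of_id_pow_eq_one hN _) hFG

end Corollaries

end Fermat.Agent.TW.FF.ConvLift40
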