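/-
Program TW (S56), chapter FF (flat local bound), brick F1-a — helper83.

ABSTRACT ALGEBRA behind Fontaine's ramification bound for `p`-torsion finite flat group schemes,
in the form used by `ConvLift83`: `R` a commutative ring, `π : R` a non-zero-divisor, `R`
`π`-adically separated (and complete, for the root extraction), `p = u * π ^ e` with `u` a unit,
and `n` with `e < (p - 1) * n` ("`n / e > 1 / (p - 1)`").

* `exists_add_pow_prime` : `(y + δ) ^ p = y ^ p + p * y ^ (p - 1) * δ + p * δ ^ 2 * c + δ ^ p`;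
* `rigid` : if `π ^ n ∣ z` and `(1 + z) ^ p = 1` then `z = 0`
  (no nontrivial `p`-th root of unity is congruent to `1` modulo `π ^ n`);
* `exists_pth_root` : if `π ^ (e + n) ∣ w - 1` then `w = y ^ p` with `π ^ n ∣ y - 1`
  (Newton iteration; `e + n` is much weaker than the `2 e + 1` of the usual Hensel lemma).
-/
import Mathlib

set_option autoImplicit false

namespace Fermat.Agent.TW.FF.PthRoot83

open Finset

variable {R : Type*} [CommRing R]

/-- Binomial expansion of a `p`-th power, `p` prime, keeping the two leading terms and `δ ^ p`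
explicit. -/
theorem exists_add_pow_prime {p : ℕ} (hp : p.Prime) (y δ : R) :
    ∃ c : R, (y + δ) ^ p = y ^ p + p * y ^ (p - 1) * δ + p * δ ^ 2 * c + δ ^ p := by
  have h := add_pow_prime_eq hp δ y
  have h2 : 2 ≤ p := hp.two_le
  have hIoo : Ioo 0 p = Ico 1 p := by
    ext k; simp only [mem_Ioo, mem_Ico]; omega
  rw [hIoo, Finset.sum_eq_sum_Ico_succ_bot (by omega : 1 < p)] at h
  refine ⟨y * ∑ k ∈ Ico 2 p, δ ^ (k - 2) * y ^ (p - k - 1) * ((p.choose k / p : ℕ) : R), ?_⟩
  have hsum : ∑ k ∈ Ico (1 + 1) p, δ ^ (k - 1) * y ^ (p - k - 1) * ((p.choose k / p : ℕ) : R) =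
      δ * ∑ k ∈ Ico 2 p, δ ^ (k - 2) * y ^ (p - k - 1) * ((p.choose k / p : ℕ) : R) := by
    rw [Finset.mul_sum]
    refine Finset.sum_congr rfl fun k hk => ?_
    have hk2 : 2 ≤ k := (mem_Ico.1 hk).1
    have : k - 1 = (k - 2) + 1 := by omega
    rw [this, pow_succ]
    ring
  have hc1 : ((p.choose 1 / p : ℕ) : R) = 1 := by
    rw [Nat.choose_one_right, Nat.div_self hp.pos, Nat.cast_one]
  have hy : y * y ^ (p - 1 - 1) = y ^ (p - 1) := by
    rw [← pow_succ']
    congr 1
    omega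
  rw [hsum, hc1, Nat.sub_self, pow_zero] at h
  rw [add_comm y δ, h]
  linear_combination (p : R) * δ * hy

/-- Standing hypotheses: `π` is a non-zero-divisor, `R` is `π`-adically separated, and
`p = u * π ^ e` for a unit `u`. -/
structure Setup (R : Type*) [CommRing R] (π : R) (p e : ℕ) : Prop where
  nzd : ∀ x : R, π * x = 0 → x = 0
  sep : ∀ x : R, (∀ k : ℕ, π ^ k ∣ x) → x = 0
  assoc : ∃ u : Rˣ, (p : R) = u * π ^ e

/-- `π`-adic completeness, in the elementary sequential form. -/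
def Complete (R : Type*) [CommRing R] (π : R) : Prop :=
  ∀ f : ℕ → R, (∀ k, π ^ k ∣ f (k + 1) - f k) → ∃ L : R, ∀ k, π ^ k ∣ L - f k

namespace Setup

variable {π : R} {p e : ℕ}

theorem pow_nzd (h : Setup R π p e) (k : ℕ) (x : R) (hx : π ^ k * x = 0) : x = 0 := by
  induction k with
  | zero => simpa using hx
  | succ k ih =>
    apply ih
    apply h.nzd
    rw [← mul_assoc, ← pow_succ']
    exact hx

theorem pow_mul_cancel (h : Setup R π p e) (k : ℕ) {x y : R} (hxy : π ^ k * x = π ^ k * y) :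
    x = y := by
  have : π ^ k * (x - y) = 0 := by rw [mul_sub, hxy, sub_self]
  exact sub_eq_zero.1 (h.pow_nzd k _ this)

/-- Cancelling `p = u π ^ e`. -/
theorem dvd_of_p_mul_dvd (h : Setup R π p e) {k : ℕ} {x : R} (hx : π ^ (e + k) ∣ (p : R) * x) :
    π ^ k ∣ x := by
  obtain ⟨u, hu⟩ := h.assoc
  obtain ⟨c, hc⟩ := hx
  refine ⟨(↑u⁻¹ : R) * c, ?_⟩
  apply h.pow_mul_cancel e
  have : π ^ e * x = (↑u⁻¹ : R) * ((p : R) * x) := by
    rw [hu, ← mul_assoc, ← mul_assoc, Units.inv_mul, one_mul]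
  rw [this, hc, pow_add]
  ring

/-- `π ^ e ∣ p`. -/
theorem pow_dvd_p (h : Setup R π p e) : π ^ e ∣ (p : R) := by
  obtain ⟨u, hu⟩ := h.assoc
  exact ⟨u, by rw [hu, mul_comm]⟩

/-- **Rigidity**: a `p`-th root of unity congruent to `1` modulo `π ^ n`, `n / e > 1 / (p - 1)`,
is `1`. -/
theorem rigid (h : Setup R π p e) (hp : p.Prime) {n : ℕ} (hn : e < (p - 1) * n) {z : R}
    (hz : π ^ n ∣ z) (h1 : (1 + z) ^ p = 1) : z = 0 := by
  have hn0 : 0 < n := by
    rcases Nat.eq_zero_or_pos n with h0 | h0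
    · rw [h0] at hn; omega
    · exact h0
  have h2 : 2 ≤ p := hp.two_le
  obtain ⟨c, hc⟩ := exists_add_pow_prime hp (1 : R) z
  rw [h1, one_pow, one_pow, mul_one] at hc
  -- `p z = - (p z² c + z ^ p)`
  have hpz : (p : R) * z = -((p : R) * z ^ 2 * c + z ^ p) := by linear_combination -hc
  have key : ∀ k : ℕ, π ^ (n + k) ∣ z := by
    intro k
    induction k with
    | zero => simpa using hz
    | succ k ih =>
      have hle : e < (p - 1) * (n + k) :=
        lt_of_lt_of_le hn (Nat.mul_le_mul_left _ (Nat.le_add_right n k))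
      have hpk : e + (n + k + 1) ≤ p * (n + k) := by
        have : p * (n + k) = (p - 1) * (n + k) + (n + k) := by
          conv_lhs => rw [show p = (p - 1) + 1 by omega]
          ring
        omega
      have h1' : π ^ (e + (n + k + 1)) ∣ (p : R) * z ^ 2 * c := by
        have ha : π ^ (e + ((n + k) + (n + k))) ∣ (p : R) * z ^ 2 * c := by
          rw [pow_add, pow_add, sq]
          exact Dvd.dvd.mul_right (mul_dvd_mul h.pow_dvd_p (mul_dvd_mul ih ih)) c
        exact dvd_trans (pow_dvd_pow π (by omega)) ha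
      have h2' : π ^ (e + (n + k + 1)) ∣ z ^ p := by
        have ha : π ^ (p * (n + k)) ∣ z ^ p := by
          rw [mul_comm, pow_mul]
          exact pow_dvd_pow_of_dvd ih p
        exact dvd_trans (pow_dvd_pow π hpk) ha
      have h3 : π ^ (e + (n + k + 1)) ∣ (p : R) * z := by
        rw [hpz]
        exact (dvd_neg).2 (dvd_add h1' h2')
      exact h.dvd_of_p_mul_dvd h3
  apply h.sep
  intro k
  exact dvd_trans (pow_dvd_pow π (Nat.le_add_left k n)) (key k)

/-- One Newton step for `Y ^ p = w`. -/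
theorem newton_step (h : Setup R π p e) (hp : p.Prime) {n : ℕ} (hn : e < (p - 1) * n) (w : R)
    (k : ℕ) (y : R) (hy1 : π ^ n ∣ y - 1) (hyw : π ^ (e + n + k) ∣ y ^ p - w) :
    ∃ y' : R, π ^ n ∣ y' - 1 ∧ π ^ (e + n + (k + 1)) ∣ y' ^ p - w ∧ π ^ (n + k) ∣ y' - y := by
  have hn0 : 0 < n := by
    rcases Nat.eq_zero_or_pos n with h0 | h0
    · rw [h0] at hn; omega
    · exact h0
  have h2 : 2 ≤ p := hp.two_le
  obtain ⟨u, hu⟩ := h.assoc
  obtain ⟨c, hc⟩ := hyw
  set δ : R := -((↑u⁻¹ : R) * π ^ (n + k) * c) with hδ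
  have hδdvd : π ^ (n + k) ∣ δ := by
    rw [hδ]
    exact (dvd_neg).2 ⟨(↑u⁻¹ : R) * c, by ring⟩
  obtain ⟨c', hc'⟩ := exists_add_pow_prime hp y δ
  have hπy : π ∣ y ^ (p - 1) - 1 := by
    have h1 : y - 1 ∣ y ^ (p - 1) - 1 := by
      simpa using sub_dvd_pow_sub_pow y 1 (p - 1)
    exact dvd_trans (dvd_trans (dvd_pow_self π hn0.ne') hy1) h1
  obtain ⟨d, hd⟩ := hπy
  have hle : e < (p - 1) * (n + k) :=
    lt_of_lt_of_le hn (Nat.mul_le_mul_left _ (Nat.le_add_right n k))
  have hpk : e + n + (k + 1) ≤ p * (n + k) := by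
    have : p * (n + k) = (p - 1) * (n + k) + (n + k) := by
      conv_lhs => rw [show p = (p - 1) + 1 by omega]
      ring
    omega
  refine ⟨y + δ, ?_, ?_, ?_⟩
  · have : y + δ - 1 = (y - 1) + δ := by ring
    rw [this]
    exact dvd_add hy1 (dvd_trans (pow_dvd_pow π (Nat.le_add_right n k)) hδdvd)
  · -- main computation
    have hmain : (p : R) * y ^ (p - 1) * δ = -(π ^ (e + n + k) * c * y ^ (p - 1)) := by
      rw [hδ, hu, pow_add, pow_add, pow_add]
      have hu1 : (u : R) * (↑u⁻¹ : R) = 1 := Units.mul_inv u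
      linear_combination (-(π ^ e * y ^ (p - 1) * (π ^ n * π ^ k) * c)) * hu1
    have e1 : (y + δ) ^ p - w =
        -(π ^ (e + n + k) * c * (π * d)) + (p : R) * δ ^ 2 * c' + δ ^ p := by
      rw [hc', hmain, ← hd]
      linear_combination hc
    rw [e1]
    refine dvd_add (dvd_add ?_ ?_) ?_
    · refine (dvd_neg).2 ⟨c * d, ?_⟩
      rw [show e + n + (k + 1) = (e + n + k) + 1 by omega, pow_succ]
      ring
    · have ha : π ^ (e + ((n + k) + (n + k))) ∣ (p : R) * δ ^ 2 * c' := by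
        rw [pow_add, pow_add, sq]
        exact Dvd.dvd.mul_right (mul_dvd_mul h.pow_dvd_p (mul_dvd_mul hδdvd hδdvd)) c'
      exact dvd_trans (pow_dvd_pow π (by omega)) ha
    · have ha : π ^ (p * (n + k)) ∣ δ ^ p := by
        rw [mul_comm, pow_mul]
        exact pow_dvd_pow_of_dvd hδdvd p
      exact dvd_trans (pow_dvd_pow π hpk) ha
  · have : y + δ - y = δ := by ring
    rw [this]
    exact hδdvd

/-- **Extraction of `p`-th roots** of elements congruent to `1` modulo `π ^ (e + n)`,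
`n / e > 1 / (p - 1)`. -/
theorem exists_pth_root (h : Setup R π p e) (hcomp : Complete R π) (hp : p.Prime) {n : ℕ}
    (hn : e < (p - 1) * n) {w : R} (hw : π ^ (e + n) ∣ w - 1) :
    ∃ y : R, π ^ n ∣ y - 1 ∧ y ^ p = w := by
  classical
  let P : ℕ → R → Prop := fun k y => π ^ n ∣ y - 1 ∧ π ^ (e + n + k) ∣ y ^ p - w
  have step : ∀ (k : ℕ) (y : {y : R // P k y}),
      ∃ y' : {y' : R // P (k + 1) y'}, π ^ (n + k) ∣ y'.1 - y.1 := by
    intro k y
    obtain ⟨y', h1, h2, h3⟩ := h.newton_step hp hn w k y.1 y.2.1 y.2.2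
    exact ⟨⟨y', h1, h2⟩, h3⟩
  have h0 : P 0 1 := by
    refine ⟨by simp, ?_⟩
    rw [one_pow, Nat.add_zero]
    have : (1 : R) - w = -(w - 1) := by ring
    rw [this]
    exact (dvd_neg).2 hw
  let seq : ∀ k : ℕ, {y : R // P k y} := fun k =>
    Nat.rec (motive := fun k => {y : R // P k y}) ⟨1, h0⟩
      (fun k y => Classical.choose (step k y)) k
  have hseq : ∀ k, π ^ (n + k) ∣ (seq (k + 1)).1 - (seq k).1 := fun k =>
    Classical.choose_spec (step k (seq k))
  obtain ⟨L, hL⟩ := hcomp (fun k => (seq k).1)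
    (fun k => dvd_trans (pow_dvd_pow π (Nat.le_add_left k n)) (hseq k))
  refine ⟨L, ?_, ?_⟩
  · have : L - 1 = (L - (seq n).1) + ((seq n).1 - 1) := by ring
    rw [this]
    exact dvd_add (hL n) (seq n).2.1
  · apply sub_eq_zero.1
    apply h.sep
    intro k
    have h1 : π ^ k ∣ L ^ p - (seq k).1 ^ p :=
      dvd_trans (hL k) (sub_dvd_pow_sub_pow L (seq k).1 p)
    have h2 : π ^ k ∣ (seq k).1 ^ p - w :=
      dvd_trans (pow_dvd_pow π (Nat.le_add_left k (e + n))) (seq k).2.2
    have : L ^ p - w = (L ^ p - (seq k).1 ^ p) + ((seq k).1 ^ p - w) := by ring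
    rw [this]
    exact dvd_add h1 h2

/-- In a `π`-adically complete ring, elements congruent to `1` modulo `π` are units. -/
theorem exists_mul_eq_one (h : Setup R π p e) (hcomp : Complete R π) {w : R} (hw : π ∣ w - 1) :
    ∃ w' : R, w * w' = 1 ∧ ∀ k, π ^ k ∣ w - 1 → π ^ k ∣ w' - 1 := by
  set t : R := 1 - w with ht
  have htd : π ∣ t := by
    have : t = -(w - 1) := by rw [ht]; ring
    rw [this]; exact (dvd_neg).2 hw
  obtain ⟨L, hL⟩ := hcomp (fun k => ∑ j ∈ Finset.range k, t ^ j) (fun k => by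
    simp only [Finset.sum_range_succ, add_sub_cancel_left]
    exact pow_dvd_pow_of_dvd htd k)
  have hgeom : ∀ k, w * ∑ j ∈ Finset.range k, t ^ j = 1 - t ^ k := by
    intro k
    have h1 := mul_neg_geom_sum t k
    have : w = 1 - t := by rw [ht]; ring
    rw [this]
    exact h1
  have hwL : w * L = 1 := by
    apply sub_eq_zero.1
    apply h.sep
    intro k
    have e1 : w * L - 1 = w * (L - ∑ j ∈ Finset.range k, t ^ j) - t ^ k := by
      rw [mul_sub, hgeom k]; ring
    rw [e1]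
    exact dvd_sub (Dvd.dvd.mul_left (hL k) w) (pow_dvd_pow_of_dvd htd k)
  refine ⟨L, hwL, fun k hk => ?_⟩
  -- `L - 1 = L * (1 - w)`
  have : L - 1 = L * t := by
    rw [ht, mul_sub, mul_one, mul_comm L w, hwL]
  rw [this]
  have : t = -(w - 1) := by rw [ht]; ring
  rw [this]
  exact Dvd.dvd.mul_left ((dvd_neg).2 hk) L

end Setup

end Fermat.Agent.TW.FF.PthRoot83
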