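/-
Program TW (S56), chapter FF (flat local bound), brick F1-b — helper83.

FONTAINE'S LIFTING LEMMA for `p`-torsion finite flat commutative group schemes, WITHOUT
complete-intersection presentations or differentials.  `B` is a commutative cocommutative
bialgebra, finite free over `A`, killed by `p` (`id ^ p = 1` for the convolution product).
`S` is a commutative `A`-algebra with `π : S`, `PthRoot83.Setup S π p e`, `π`-adically complete,
and `e < (p - 1) * n`.  The points `B →ₐ[A] S` are the multiplicative elements of the convolution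
algebra `WithConv (B →ₗ[A] S)`, which is again `π`-adically separated and complete. Then:

* `algHom_ext_of_dvd` (INJECTIVITY): two points congruent modulo `π ^ n` are equal;
* `exists_algHom_of_approx` (LIFTING): an `A`-linear map `φ : B → S` which is an algebra
  homomorphism modulo `π ^ (e + n)` is congruent modulo `π ^ n` to a genuine point.
-/
import Mathlib
import Fermat.Agent.TW.FF.PthRoot83

set_option autoImplicit false
set_option linter.unusedSectionVars false

namespace Fermat.Agent.TW.FF.ConvLift83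

open TensorProduct WithConv Coalgebra
open Fermat.Agent.TW.FF.PthRoot83

noncomputable section

/-! ### The convolution algebra of a finite free coalgebra -/

section Conv

variable {A : Type*} [CommRing A] {C : Type*} [AddCommGroup C] [Module A C] [Coalgebra A C]
  [IsCocomm A C] [Module.Free A C] [Module.Finite A C]
  {S : Type*} [CommRing S] [Algebra A S]

/-- Shorthand for the convolution algebra `Hom_A(C, S)`. -/
abbrev Conv (A C S : Type*) [CommRing A] [AddCommGroup C] [Module A C] [CommRing S]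
    [Algebra A S] : Type _ := WithConv (C →ₗ[A] S)

theorem algebraMap_mul_apply (s : S) (f : Conv A C S) (x : C) :
    (algebraMap S (Conv A C S) s * f) x = s * f x := by
  rw [← Algebra.smul_def]
  rfl

theorem dvd_apply_of_basis {ι : Type*} [Fintype ι] (b : Module.Basis ι A C) (g : C →ₗ[A] S)
    (s : S) (h : ∀ i, s ∣ g (b i)) (x : C) : s ∣ g x := by
  rw [← b.sum_repr x, map_sum]
  refine Finset.dvd_sum fun i _ => ?_
  rw [map_smul, Algebra.smul_def]
  exact Dvd.dvd.mul_left (h i) _

theorem algebraMap_dvd_iff (s : S) (f : Conv A C S) :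
    algebraMap S (Conv A C S) s ∣ f ↔ ∀ x, s ∣ f x := by
  classical
  constructor
  · rintro ⟨g, rfl⟩ x
    exact ⟨g x, algebraMap_mul_apply s g x⟩
  · intro h
    let b := Module.Free.chooseBasis A C
    choose g hg using fun i => h (b i)
    refine ⟨toConv (b.constr A g), ?_⟩
    apply WithConv.ext
    apply b.ext
    intro i
    have := algebraMap_mul_apply s (toConv (b.constr A g) : Conv A C S) (b i)
    change f (b i) = (algebraMap S (Conv A C S) s * toConv (b.constr A g)) (b i)
    rw [this]
    change f (b i) = s * (b.constr A g) (b i)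
    rw [Module.Basis.constr_basis]
    exact hg i

theorem pow_dvd_iff (π : S) (k : ℕ) (f : Conv A C S) :
    algebraMap S (Conv A C S) π ^ k ∣ f ↔ ∀ x, π ^ k ∣ f x := by
  rw [← map_pow]
  exact algebraMap_dvd_iff _ _

variable {π : S} {p e : ℕ}

theorem setup_conv (h : Setup S π p e) :
    Setup (Conv A C S) (algebraMap S (Conv A C S) π) p e where
  nzd f hf := by
    apply WithConv.ext
    apply LinearMap.ext
    intro x
    apply h.nzd
    rw [← algebraMap_mul_apply, hf]
    rfl
  sep f hf := by
    apply WithConv.ext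
    apply LinearMap.ext
    intro x
    apply h.sep
    intro k
    exact (pow_dvd_iff π k f).1 (hf k) x
  assoc := by
    obtain ⟨u, hu⟩ := h.assoc
    refine ⟨Units.map (algebraMap S (Conv A C S)).toMonoidHom u, ?_⟩
    have := congrArg (algebraMap S (Conv A C S)) hu
    rw [map_natCast, map_mul, map_pow] at this
    exact this

theorem complete_conv (hc : Complete S π) :
    Complete (Conv A C S) (algebraMap S (Conv A C S) π) := by
  classical
  intro F hF
  let b := Module.Free.chooseBasis A C
  have hF' : ∀ i k, π ^ k ∣ (F (k + 1)) (b i) - (F k) (b i) := fun i k =>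
    (pow_dvd_iff π k (F (k + 1) - F k)).1 (hF k) (b i)
  choose L hL using fun i => hc (fun k => (F k) (b i)) (hF' i)
  refine ⟨toConv (b.constr A L), fun k => ?_⟩
  rw [pow_dvd_iff]
  intro x
  refine dvd_apply_of_basis b (toConv (b.constr A L) - F k : Conv A C S).ofConv _ (fun i => ?_) x
  change π ^ k ∣ (b.constr A L) (b i) - (F k) (b i)
  rw [Module.Basis.constr_basis]
  exact hL i k

end Conv

/-! ### Functoriality of the convolution algebra -/

section Functor

variable {A : Type*} [CommRing A]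

/-- Post-composition with an algebra homomorphism, as a ring homomorphism of convolution
algebras. -/
def postComp {C : Type*} [AddCommGroup C] [Module A C] [Coalgebra A C]
    {T T' : Type*} [CommRing T] [Algebra A T] [CommRing T'] [Algebra A T'] (g : T →ₐ[A] T') :
    Conv A C T →+* Conv A C T' where
  toFun f := toConv (g.toLinearMap ∘ₗ f.ofConv)
  map_one' := by
    apply WithConv.ext
    apply LinearMap.ext
    intro x
    change g (algebraMap A T (counit x)) = algebraMap A T' (counit x)
    exact g.commutes _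
  map_mul' f f' := by
    apply WithConv.ext
    exact LinearMap.algHom_comp_convMul_distrib g f f'
  map_zero' := by
    apply WithConv.ext
    apply LinearMap.ext
    intro x
    change g ((0 : C →ₗ[A] T) x) = 0
    simp
  map_add' f f' := by
    apply WithConv.ext
    apply LinearMap.ext
    intro x
    change g (f x + f' x) = g (f x) + g (f' x)
    exact map_add g _ _

@[simp] theorem postComp_apply {C : Type*} [AddCommGroup C] [Module A C] [Coalgebra A C]
    {T T' : Type*} [CommRing T] [Algebra A T] [CommRing T'] [Algebra A T'] (g : T →ₐ[A] T')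
    (f : Conv A C T) (x : C) : postComp g f x = g (f x) := rfl

/-- Pre-composition with a coalgebra homomorphism, as a ring homomorphism of convolution
algebras. -/
def preComp {C C' : Type*} [AddCommGroup C] [Module A C] [Coalgebra A C]
    [AddCommGroup C'] [Module A C'] [Coalgebra A C']
    {T : Type*} [CommRing T] [Algebra A T] (h : C' →ₗc[A] C) :
    Conv A C T →+* Conv A C' T where
  toFun f := toConv (f.ofConv ∘ₗ h.toLinearMap)
  map_one' := by
    apply WithConv.ext
    apply LinearMap.ext
    intro x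
    change algebraMap A T (counit (h x)) = algebraMap A T (counit x)
    rw [CoalgHomClass.counit_comp_apply]
  map_mul' f f' := by
    apply WithConv.ext
    exact LinearMap.convMul_comp_coalgHom_distrib f f' h
  map_zero' := rfl
  map_add' f f' := rfl

@[simp] theorem preComp_apply {C C' : Type*} [AddCommGroup C] [Module A C] [Coalgebra A C]
    [AddCommGroup C'] [Module A C'] [Coalgebra A C']
    {T : Type*} [CommRing T] [Algebra A T] (h : C' →ₗc[A] C) (f : Conv A C T) (x : C') :
    preComp h f x = f (h x) := rfl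

variable {B : Type*} [CommRing B] [Bialgebra A B] {T : Type*} [CommRing T] [Algebra A T]

/-- `f ↦ (b ⊗ b' ↦ f b * f b')`, a monoid homomorphism of convolution algebras. -/
def tensorSq : Conv A B T →* Conv A (B ⊗[A] B) T where
  toFun f := postComp (Algebra.TensorProduct.lmul' A (S := T))
    (toConv (TensorProduct.map f.ofConv f.ofConv))
  map_one' := by
    apply WithConv.ext
    apply TensorProduct.ext'
    intro b b'
    change algebraMap A T (counit b) * algebraMap A T (counit b') =
      algebraMap A T (counit (R := A) (b ⊗ₜ[A] b'))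
    rw [TensorProduct.counit_tmul, smul_eq_mul, map_mul, mul_comm]
  map_mul' f f' := by
    rw [← map_mul]
    congr 1
    exact (TensorProduct.map_convMul_map (f := f) (h := f') (g := f) (k := f')).symm

@[simp] theorem tensorSq_tmul (f : Conv A B T) (b b' : B) :
    tensorSq f (b ⊗ₜ[A] b') = f b * f b' := rfl

end Functor

/-! ### Points: injectivity and lifting -/

section Points

variable {A : Type*} [CommRing A] {B : Type*} [CommRing B] [Bialgebra A B] [IsCocomm A B]
  [Module.Free A B] [Module.Finite A B]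
  {S : Type*} [CommRing S] [Algebra A S] {π : S} {p e : ℕ}

/-- The bialgebra `B` is killed by `p`: the `p`-th convolution power of the identity is the
unit. -/
def KilledBy (A B : Type*) [CommRing A] [CommRing B] [Bialgebra A B] (p : ℕ) : Prop :=
  (toConv (LinearMap.id : B →ₗ[A] B) : Conv A B B) ^ p = 1

/-- A point with values in `T`, as an element of the convolution algebra. -/
def pt {T : Type*} [CommRing T] [Algebra A T] (φ : B →ₐ[A] T) : Conv A B T :=
  toConv φ.toLinearMap

omit [IsCocomm A B] [Module.Free A B] [Module.Finite A B] in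
theorem pt_pow_eq_one (hk : KilledBy A B p) {T : Type*} [CommRing T] [Algebra A T]
    (φ : B →ₐ[A] T) : pt φ ^ p = 1 := by
  have h1 : pt φ = postComp φ (toConv (LinearMap.id : B →ₗ[A] B) : Conv A B B) := rfl
  rw [h1, ← map_pow, hk, map_one]

/-- **Injectivity**: two points with values in `S` which are congruent modulo `π ^ n`,
`n / e > 1 / (p - 1)`, are equal. -/
theorem algHom_ext_of_dvd (h : Setup S π p e) (hp : p.Prime) {n : ℕ} (hn : e < (p - 1) * n)
    (hk : KilledBy A B p) (φ φ' : B →ₐ[A] S) (hφ : ∀ b, π ^ n ∣ φ b - φ' b) : φ = φ' := by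
  have hS := setup_conv (A := A) (C := B) h
  have h1 := pt_pow_eq_one hk φ
  have h2 := pt_pow_eq_one hk φ'
  have hp1 : 1 ≤ p := hp.one_le
  have hdvd : algebraMap S (Conv A B S) π ^ n ∣ pt φ - pt φ' := by
    rw [pow_dvd_iff]
    exact hφ
  have hz : algebraMap S (Conv A B S) π ^ n ∣ pt φ * pt φ' ^ (p - 1) - 1 := by
    have : pt φ * pt φ' ^ (p - 1) - 1 = (pt φ - pt φ') * pt φ' ^ (p - 1) := by
      rw [sub_mul, ← pow_succ', Nat.sub_add_cancel hp1, h2]
    rw [this]
    exact Dvd.dvd.mul_right hdvd _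
  have hone : (1 + (pt φ * pt φ' ^ (p - 1) - 1)) ^ p = 1 := by
    rw [add_sub_cancel, mul_pow, ← pow_mul, mul_comm (p - 1) p, pow_mul, h1, h2, one_pow, one_mul]
  have hzero := hS.rigid hp hn hz hone
  have heq : pt φ = pt φ' := by
    have e1 : pt φ * pt φ' ^ (p - 1) = 1 := sub_eq_zero.1 hzero
    calc pt φ = pt φ * pt φ' ^ p := by rw [h2, mul_one]
      _ = (pt φ * pt φ' ^ (p - 1)) * pt φ' := by
          rw [mul_assoc, ← pow_succ, Nat.sub_add_cancel hp1]
      _ = pt φ' := by rw [e1, one_mul]
  apply AlgHom.toLinearMap_injective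
  exact congrArg WithConv.ofConv heq

/-- `φ` is an algebra homomorphism modulo `π ^ N`. -/
structure IsApproxHom (π : S) (N : ℕ) (φ : B →ₗ[A] S) : Prop where
  map_one : π ^ N ∣ φ 1 - 1
  map_mul : ∀ b b' : B, π ^ N ∣ φ (b * b') - φ b * φ b'

omit [IsCocomm A B] [Module.Free A B] [Module.Finite A B] in
/-- The reduction of an approximate homomorphism is a genuine point of the quotient ring. -/
theorem IsApproxHom.exists_algHom {N : ℕ} {φ : B →ₗ[A] S} (hφ : IsApproxHom π N φ) :
    ∃ φT : B →ₐ[A] S ⧸ Ideal.span {π ^ N},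
      ∀ b, φT b = Ideal.Quotient.mk (Ideal.span {π ^ N}) (φ b) := by
  refine ⟨AlgHom.ofLinearMap
    ((Ideal.Quotient.mkₐ A (Ideal.span {π ^ N})).toLinearMap ∘ₗ φ) ?_ ?_, fun b => rfl⟩
  · change Ideal.Quotient.mk (Ideal.span {π ^ N}) (φ 1) = 1
    rw [← _root_.map_one (Ideal.Quotient.mk (Ideal.span {π ^ N})), Ideal.Quotient.eq,
      Ideal.mem_span_singleton]
    exact hφ.map_one
  · intro b b'
    change Ideal.Quotient.mk (Ideal.span {π ^ N}) (φ (b * b')) =
      Ideal.Quotient.mk (Ideal.span {π ^ N}) (φ b) * Ideal.Quotient.mk (Ideal.span {π ^ N}) (φ b')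
    rw [← _root_.map_mul, Ideal.Quotient.eq, Ideal.mem_span_singleton]
    exact hφ.map_mul b b'

/-- **Lifting**: an `A`-linear map `φ : B → S` which is an algebra homomorphism modulo
`π ^ (e + n)`, `n / e > 1 / (p - 1)`, is congruent modulo `π ^ n` to a genuine algebra
homomorphism. -/
theorem exists_algHom_of_approx (h : Setup S π p e) (hc : Complete S π) (hp : p.Prime) {n : ℕ}
    (hn : e < (p - 1) * n) (hk : KilledBy A B p) (φ : B →ₗ[A] S)
    (hφ : IsApproxHom π (e + n) φ) : ∃ ψ : B →ₐ[A] S, ∀ b, π ^ n ∣ ψ b - φ b := by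
  have hn0 : 0 < n := by
    rcases Nat.eq_zero_or_pos n with h0 | h0
    · rw [h0] at hn; omega
    · exact h0
  have hp1 : 1 ≤ p := hp.one_le
  have hS := setup_conv (A := A) (C := B) h
  have hC := complete_conv (A := A) (C := B) hc
  have hS₂ := setup_conv (A := A) (C := B ⊗[A] B) h
  set πR : Conv A B S := algebraMap S (Conv A B S) π with hπR
  set X : Conv A B S := toConv φ with hX
  -- Step 1: `X ^ p ≡ 1` modulo `π ^ (e + n)`.
  obtain ⟨φT, hφT⟩ := hφ.exists_algHom
  have hXp : πR ^ (e + n) ∣ X ^ p - 1 := by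
    rw [hπR, pow_dvd_iff]
    intro x
    have h1 : postComp (Ideal.Quotient.mkₐ A (Ideal.span {π ^ (e + n)})) X = pt φT := by
      apply WithConv.ext
      apply LinearMap.ext
      intro b
      exact (hφT b).symm
    have h2 : postComp (Ideal.Quotient.mkₐ A (Ideal.span {π ^ (e + n)})) (X ^ p - 1) = 0 := by
      rw [map_sub, map_pow, map_one, h1, pt_pow_eq_one hk, sub_self]
    have h3 := congrArg (fun f : Conv A B (S ⧸ Ideal.span {π ^ (e + n)}) => f x) h2
    change Ideal.Quotient.mk (Ideal.span {π ^ (e + n)}) ((X ^ p - 1) x) = 0 at h3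
    rwa [Ideal.Quotient.eq_zero_iff_mem, Ideal.mem_span_singleton] at h3
  -- Step 2: correct `X` by a `p`-th root.
  have hXp1 : πR ∣ X ^ p - 1 := dvd_trans (dvd_pow_self πR (by omega)) hXp
  obtain ⟨w', hww', hw'⟩ := hS.exists_mul_eq_one hC hXp1
  obtain ⟨t, ht1, htp⟩ := hS.exists_pth_root hC hp hn (hw' _ hXp)
  set ψ₀ : Conv A B S := X * t with hψ₀
  have hψp : ψ₀ ^ p = 1 := by rw [hψ₀, mul_pow, htp, hww']
  have hψX : ∀ b, π ^ n ∣ ψ₀ b - φ b := by
    have : πR ^ n ∣ ψ₀ - X := by
      have : ψ₀ - X = X * (t - 1) := by rw [hψ₀]; ring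
      rw [this]
      exact Dvd.dvd.mul_left ht1 X
    rw [hπR, pow_dvd_iff] at this
    exact this
  -- Step 3: `ψ₀` is multiplicative.
  set m₁ : Conv A (B ⊗[A] B) S := preComp (Bialgebra.mulCoalgHom A B) ψ₀ with hm₁
  set m₂ : Conv A (B ⊗[A] B) S := tensorSq ψ₀ with hm₂
  have hm₁p : m₁ ^ p = 1 := by rw [hm₁, ← map_pow, hψp, map_one]
  have hm₂p : m₂ ^ p = 1 := by rw [hm₂, ← map_pow, hψp, map_one]
  have hcong : algebraMap S (Conv A (B ⊗[A] B) S) π ^ n ∣ m₁ - m₂ := by
    rw [pow_dvd_iff]
    intro x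
    induction x using TensorProduct.induction_on with
    | zero =>
      have : (m₁ - m₂) (0 : B ⊗[A] B) = 0 := map_zero (m₁ - m₂).ofConv
      rw [this]
      exact dvd_zero _
    | tmul b b' =>
      change π ^ n ∣ ψ₀ (b * b') - ψ₀ b * ψ₀ b'
      have e1 : ψ₀ (b * b') - ψ₀ b * ψ₀ b' =
          (ψ₀ (b * b') - φ (b * b')) + (φ (b * b') - φ b * φ b') -
            (φ b * (ψ₀ b' - φ b') + (ψ₀ b - φ b) * ψ₀ b') := by ring
      rw [e1]
      refine dvd_sub (dvd_add (hψX _) ?_) (dvd_add ?_ ?_)
      · exact dvd_trans (pow_dvd_pow π (Nat.le_add_left n e)) (hφ.map_mul b b')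
      · exact Dvd.dvd.mul_left (hψX b') _
      · exact Dvd.dvd.mul_right (hψX b) _
    | add x y hx hy =>
      have : (m₁ - m₂) (x + y) = (m₁ - m₂) x + (m₁ - m₂) y := map_add (m₁ - m₂).ofConv x y
      rw [this]
      exact dvd_add hx hy
  have hm : m₁ = m₂ := by
    have hz : algebraMap S (Conv A (B ⊗[A] B) S) π ^ n ∣ m₁ * m₂ ^ (p - 1) - 1 := by
      have : m₁ * m₂ ^ (p - 1) - 1 = (m₁ - m₂) * m₂ ^ (p - 1) := by
        rw [sub_mul, ← pow_succ', Nat.sub_add_cancel hp1, hm₂p]
      rw [this]
      exact Dvd.dvd.mul_right hcong _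
    have hone : (1 + (m₁ * m₂ ^ (p - 1) - 1)) ^ p = 1 := by
      rw [add_sub_cancel, mul_pow, ← pow_mul, mul_comm (p - 1) p, pow_mul, hm₁p, hm₂p, one_pow,
        one_mul]
    have hzero := hS₂.rigid hp hn hz hone
    have e1 : m₁ * m₂ ^ (p - 1) = 1 := sub_eq_zero.1 hzero
    calc m₁ = m₁ * m₂ ^ p := by rw [hm₂p, mul_one]
      _ = (m₁ * m₂ ^ (p - 1)) * m₂ := by
          rw [mul_assoc, ← pow_succ, Nat.sub_add_cancel hp1]
      _ = m₂ := by rw [e1, one_mul]
  have hmul : ∀ b b' : B, ψ₀ (b * b') = ψ₀ b * ψ₀ b' := by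
    intro b b'
    have := congrArg (fun f : Conv A (B ⊗[A] B) S => f (b ⊗ₜ[A] b')) hm
    exact this
  -- Step 4: `ψ₀ 1 = 1`.
  have hone : ψ₀ 1 = 1 := by
    have hid : ψ₀ 1 * ψ₀ 1 = ψ₀ 1 := by rw [← hmul, mul_one]
    have hd : π ^ n ∣ ψ₀ 1 - 1 := by
      have : ψ₀ 1 - 1 = (ψ₀ 1 - φ 1) + (φ 1 - 1) := by ring
      rw [this]
      exact dvd_add (hψX 1) (dvd_trans (pow_dvd_pow π (Nat.le_add_left n e)) hφ.map_one)
    have hd1 : π ∣ 1 - ψ₀ 1 := by
      have : 1 - ψ₀ 1 = -(ψ₀ 1 - 1) := by ring
      rw [this]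
      exact (dvd_neg).2 (dvd_trans (dvd_pow_self π hn0.ne') hd)
    have hidem : (1 - ψ₀ 1) * (1 - ψ₀ 1) = 1 - ψ₀ 1 := by
      have : (1 - ψ₀ 1) * (1 - ψ₀ 1) = 1 - ψ₀ 1 - ψ₀ 1 + ψ₀ 1 * ψ₀ 1 := by ring
      rw [this, hid]; ring
    have hpow : ∀ k : ℕ, (1 - ψ₀ 1) ^ (k + 1) = 1 - ψ₀ 1 := by
      intro k
      induction k with
      | zero => rw [zero_add, pow_one]
      | succ k ih => rw [pow_succ, ih, hidem]
    have : 1 - ψ₀ 1 = 0 := by
      apply h.sep
      intro k
      rw [← hpow k]
      exact dvd_trans (pow_dvd_pow π (Nat.le_succ k)) (pow_dvd_pow_of_dvd hd1 (k + 1))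
    exact (sub_eq_zero.1 this).symm
  exact ⟨AlgHom.ofLinearMap ψ₀.ofConv hone hmul, hψX⟩

end Points

end

end Fermat.Agent.TW.FF.ConvLift83
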