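/-
TW / WP7 (flat local bound), helper77: the ABSTRACT STABILITY THEOREM behind the Kummer form of
Fontaine's bound (report #357, item (3)).  No ramification theory, no Herbrand, no Krasner.

Setting (`Setup`): `OK = R₀[ϖ]`, `ϖ` a root of an Eisenstein-shaped polynomial `X ^ e + p * B` over
`R₀`; `OL = OK[Z]/(Q)`; `OE = OK[Z]/(Qt)` where `Qt` is congruent modulo `p * ϖ ^ n` to the image
of `Q` under the TWIST `theta : ϖ ↦ ϖ * (1 + ϖ ^ n * a)` (an `R₀`-algebra homomorphism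
`OK → OK ⧸ (p * ϖ ^ n)`; it is NOT `OK`-linear: this is where "the group scheme is defined over
the unramified base `R₀`" enters).

* `mul_dvd_aeval_twist`, `theta`, `theta_root`: the twist.
* `Setup.Theta : OL →+* OE ⧸ (p ϖ^n)`: the induced comparison map; `Setup.ThetaI` its reduction
  modulo `ϖ ^ n`, which is `OK`-linear and identifies the power bases
  (`ThetaI_eq_mk_β`, `dvd_of_ThetaI_eq_zero`).
* `HasFontaineLift A H S p ϖ n`: interface for Fontaine's lifting lemma (to be discharged by the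
  convolution-algebra proof, e.g. `ConvLift40`).
* `Setup.exists_transfer`: an INJECTION `(H →ₐ[A] OL) → (H →ₐ[A] OE)`; so if all points of `H` are
  `OL`-rational they are `OE`-rational, and `Frac OE` contains `Frac OL`.
* `Setup.exists_pow_eq_add`, `Setup.exists_pow_eq`: if `u ∈ OK` is a `p`-th power in `OL`, then
  every representative `ut = ϖ ^ j * unit` of the twist of `u` is a `p`-th power in `OE`
  (uses `PadicRoots40`).
Consequence (next file): `K^× ∩ L^{×p}` is stable under the twists, hence contained in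
`(1 + p O_K) K^{×p}` (Kummer generators of `K(G(K̄))/K` are `≡ 1 mod p`).
-/
import Mathlib
import Fermat.Agent.TW.FF.PadicRoots40

set_option autoImplicit false

namespace Fermat.Agent.TW.FF.Stab77

open Polynomial

section Twist

variable {R₀ : Type*} [CommRing R₀] {T : Type*} [CommRing T] [Algebra R₀ T]

/-- For an "Eisenstein-shaped" polynomial `X ^ e + p * B` and a root `x` of it, the twisted element
`x * (1 + c)` is a root modulo `p * c`. -/
theorem mul_dvd_aeval_twist {e p : ℕ} (B : R₀[X]) (x c : T)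
    (hx : aeval x (X ^ e + C (p : R₀) * B) = 0) :
    (p : T) * c ∣ aeval (x * (1 + c)) (X ^ e + C (p : R₀) * B) := by
  have h1 : aeval (x * (1 + c)) (X ^ e + C (p : R₀) * B)
      = aeval (x * (1 + c)) (X ^ e + C (p : R₀) * B)
        - (1 + c) ^ e * aeval x (X ^ e + C (p : R₀) * B) := by rw [hx]; ring
  rw [h1]
  simp only [map_add, map_mul, map_pow, aeval_X, map_natCast]
  obtain ⟨d₁, hd₁⟩ : c ∣ aeval (x * (1 + c)) B - aeval x B := by
    have h := Polynomial.sub_dvd_eval_sub (x * (1 + c)) x (B.map (algebraMap R₀ T))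
    rw [eval_map_algebraMap, eval_map_algebraMap] at h
    refine Dvd.dvd.trans ⟨x, ?_⟩ h
    ring
  obtain ⟨d₂, hd₂⟩ : c ∣ (1 + c) ^ e - 1 := by
    have h := sub_dvd_pow_sub_pow (1 + c) 1 e
    simpa using h
  refine ⟨d₁ - d₂ * aeval x B, ?_⟩
  have e1 : aeval (x * (1 + c)) B = aeval x B + c * d₁ := by rw [← hd₁]; ring
  have e2 : (1 + c) ^ e = 1 + c * d₂ := by rw [← hd₂]; ring
  rw [mul_pow, e1, e2]
  ring

end Twist

/-- The ideal `(p * ϖ ^ n)`. -/
def twistIdeal {S : Type*} [CommRing S] (p : ℕ) (ϖ : S) (n : ℕ) : Ideal S :=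
  Ideal.span {(p : S) * ϖ ^ n}

theorem mem_twistIdeal {S : Type*} [CommRing S] {p : ℕ} {ϖ : S} {n : ℕ} {x : S} :
    x ∈ twistIdeal p ϖ n ↔ (p : S) * ϖ ^ n ∣ x := Ideal.mem_span_singleton

section Theta

variable {R₀ OK : Type*} [CommRing R₀] [CommRing OK] [Algebra R₀ OK]
  {e p : ℕ} {B : R₀[X]}

/-- The twist `ϖ ↦ ϖ * (1 + ϖ ^ n * a)`, an `R₀`-algebra homomorphism modulo `p * ϖ ^ n`. -/
noncomputable def theta (hK : IsAdjoinRoot OK (X ^ e + C (p : R₀) * B)) (n : ℕ) (a : OK) :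
    OK →ₐ[R₀] OK ⧸ twistIdeal p hK.root n :=
  hK.liftHom (Ideal.Quotient.mk _ (hK.root * (1 + hK.root ^ n * a))) (by
    have h := mul_dvd_aeval_twist (e := e) (p := p) B hK.root (hK.root ^ n * a) hK.aeval_root_self
    have h2 : aeval (Ideal.Quotient.mk (twistIdeal p hK.root n) (hK.root * (1 + hK.root ^ n * a)))
        (X ^ e + C (p : R₀) * B)
        = Ideal.Quotient.mk (twistIdeal p hK.root n)
          (aeval (hK.root * (1 + hK.root ^ n * a)) (X ^ e + C (p : R₀) * B)) := by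
      rw [← Ideal.Quotient.mkₐ_eq_mk R₀, aeval_algHom_apply]
    rw [h2, Ideal.Quotient.eq_zero_iff_mem, mem_twistIdeal]
    exact Dvd.dvd.trans ⟨a, by ring⟩ h)

theorem theta_root (hK : IsAdjoinRoot OK (X ^ e + C (p : R₀) * B)) (n : ℕ) (a : OK) :
    theta hK n a hK.root = Ideal.Quotient.mk _ (hK.root * (1 + hK.root ^ n * a)) :=
  hK.liftHom_root _

end Theta
section Main

/-- The data of a twisted Eisenstein perturbation: `OK = R₀[ϖ]` with `ϖ` a root of
`X ^ e + p * B`, `OL = OK[Z]/(Q)`, `OE = OK[Z]/(Qt)` where `Qt` is congruent modulo `p * ϖ ^ n`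
to the image of `Q` under the twist `ϖ ↦ ϖ * (1 + ϖ ^ n * a)`. -/
structure Setup (R₀ OK OL OE : Type*) [CommRing R₀] [CommRing OK] [CommRing OL] [CommRing OE]
    [Algebra R₀ OK] [Algebra OK OL] [Algebra OK OE] where
  p : ℕ
  e : ℕ
  B : R₀[X]
  hK : IsAdjoinRoot OK (X ^ e + C (p : R₀) * B)
  n : ℕ
  a : OK
  Q : OK[X]
  hL : IsAdjoinRootMonic OL Q
  Qt : OK[X]
  hE : IsAdjoinRootMonic OE Qt
  hdeg : Qt.natDegree = Q.natDegree
  hQt : Qt.map (Ideal.Quotient.mk (twistIdeal p hK.root n))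
    = Q.map (theta hK n a : OK →+* OK ⧸ twistIdeal p hK.root n)

variable {R₀ OK OL OE : Type*} [CommRing R₀] [CommRing OK] [CommRing OL] [CommRing OE]
  [Algebra R₀ OK] [Algebra OK OL] [Algebra OK OE]

namespace Setup

variable (D : Setup R₀ OK OL OE)

/-- The uniformizer of `OK`. -/
noncomputable abbrev ϖ : OK := D.hK.root

/-- The ideal `(p * ϖ ^ n)` of `OE`. -/
noncomputable abbrev JE : Ideal OE := twistIdeal D.p (algebraMap OK OE D.ϖ) D.n

/-- The ideal `(p * ϖ ^ n)` of `OK`. -/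
noncomputable abbrev JK : Ideal OK := twistIdeal D.p D.ϖ D.n

theorem JK_le_comap : D.JK ≤ D.JE.comap (algebraMap OK OE) := by
  intro x hx
  rw [JK, mem_twistIdeal] at hx
  rw [Ideal.mem_comap, JE, mem_twistIdeal]
  obtain ⟨y, rfl⟩ := hx
  exact ⟨algebraMap OK OE y, by simp⟩

/-- The induced map `OK ⧸ (p ϖ^n) → OE ⧸ (p ϖ^n)`. -/
noncomputable def qm : OK ⧸ D.JK →+* OE ⧸ D.JE :=
  Ideal.quotientMap D.JE (algebraMap OK OE) D.JK_le_comap

/-- The twist on `OK` with values in `OE ⧸ (p ϖ^n)`. -/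
noncomputable def thetaE : OK →+* OE ⧸ D.JE :=
  D.qm.comp (theta D.hK D.n D.a : OK →+* OK ⧸ D.JK)

theorem eval₂_thetaE : D.Q.eval₂ D.thetaE (Ideal.Quotient.mk D.JE D.hE.root) = 0 := by
  have h1 : D.Q.eval₂ D.thetaE (Ideal.Quotient.mk D.JE D.hE.root)
      = (D.Q.map (theta D.hK D.n D.a : OK →+* OK ⧸ D.JK)).eval₂ D.qm
          (Ideal.Quotient.mk D.JE D.hE.root) := by
    rw [eval₂_map]; rfl
  rw [h1, ← D.hQt, eval₂_map]
  have h2 : D.qm.comp (Ideal.Quotient.mk (twistIdeal D.p D.hK.root D.n))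
      = (Ideal.Quotient.mk D.JE).comp (algebraMap OK OE) := by
    ext x
    simp [qm, JK, ϖ]
  rw [h2, ← hom_eval₂, ← aeval_def, D.hE.aeval_root_self, map_zero]

/-- The semilinear comparison map `OL → OE ⧸ (p ϖ^n)`. -/
noncomputable def Theta : OL →+* OE ⧸ D.JE :=
  D.hL.lift D.thetaE (Ideal.Quotient.mk D.JE D.hE.root) D.eval₂_thetaE

theorem Theta_root : D.Theta D.hL.root = Ideal.Quotient.mk D.JE D.hE.root :=
  D.hL.lift_root _

theorem Theta_algebraMap (x : OK) : D.Theta (algebraMap OK OL x) = D.thetaE x :=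
  D.hL.lift_algebraMap _ x
/-- The ideal `(ϖ ^ n)` of `OE`. -/
noncomputable abbrev IE : Ideal OE := Ideal.span {(algebraMap OK OE D.ϖ) ^ D.n}

theorem JE_le_IE : D.JE ≤ D.IE := by
  intro x hx
  rw [mem_twistIdeal] at hx
  rw [Ideal.mem_span_singleton]
  exact Dvd.dvd.trans ⟨(D.p : OE), by ring⟩ hx

/-- Reduction `OE ⧸ (p ϖ^n) → OE ⧸ (ϖ^n)`. -/
noncomputable def red : OE ⧸ D.JE →+* OE ⧸ D.IE := Ideal.Quotient.factor D.JE_le_IE

@[simp] theorem red_mk (x : OE) : D.red (Ideal.Quotient.mk D.JE x) = Ideal.Quotient.mk D.IE x := rfl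

omit [Algebra OK OL] [Algebra OK OE] in
/-- Two ring homs out of `OK = R₀[ϖ]` agreeing on `R₀` and on `ϖ` are equal. -/
theorem ringHom_ext_of_root {e p : ℕ} {B : R₀[X]} (hK : IsAdjoinRoot OK (X ^ e + C (p : R₀) * B))
    {T : Type*} [CommRing T] (g₁ g₂ : OK →+* T)
    (h0 : ∀ r : R₀, g₁ (algebraMap R₀ OK r) = g₂ (algebraMap R₀ OK r))
    (h1 : g₁ hK.root = g₂ hK.root) (x : OK) : g₁ x = g₂ x := by
  obtain ⟨q, rfl⟩ := hK.map_surjective x
  rw [← hK.aeval_root_eq_map, aeval_def, hom_eval₂, hom_eval₂, h1]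
  congr 1
  ext r
  exact h0 r

/-- Modulo `ϖ ^ n` the twist is the identity. -/
theorem red_thetaE (x : OK) : D.red (D.thetaE x) = Ideal.Quotient.mk D.IE (algebraMap OK OE x) := by
  refine ringHom_ext_of_root D.hK (D.red.comp D.thetaE)
    ((Ideal.Quotient.mk D.IE).comp (algebraMap OK OE)) ?_ ?_ x
  · intro r
    simp only [RingHom.comp_apply, thetaE]
    rw [show (theta D.hK D.n D.a : OK →+* OK ⧸ D.JK) (algebraMap R₀ OK r)
        = Ideal.Quotient.mk D.JK (algebraMap R₀ OK r) from by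
      rw [RingHom.coe_coe, AlgHom.commutes]; rfl]
    rw [qm, Ideal.quotientMap_mk, red_mk]
  · simp only [RingHom.comp_apply, thetaE]
    rw [show (theta D.hK D.n D.a : OK →+* OK ⧸ D.JK) D.hK.root
        = Ideal.Quotient.mk D.JK (D.hK.root * (1 + D.hK.root ^ D.n * D.a)) from theta_root _ _ _]
    rw [qm, Ideal.quotientMap_mk, red_mk, Ideal.Quotient.eq, Ideal.mem_span_singleton]
    exact ⟨algebraMap OK OE D.hK.root * algebraMap OK OE D.a, by
      simp only [map_mul, map_add, map_one, map_pow]; ring⟩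

/-- The comparison map modulo `ϖ ^ n`. -/
noncomputable def ThetaI : OL →+* OE ⧸ D.IE := D.red.comp D.Theta

theorem ThetaI_algebraMap_mul (x : OK) (y : OL) :
    D.ThetaI (algebraMap OK OL x * y) = Ideal.Quotient.mk D.IE (algebraMap OK OE x) * D.ThetaI y := by
  simp only [ThetaI, RingHom.comp_apply, map_mul, Theta_algebraMap, red_thetaE]

/-- `ThetaI` as an `OK`-linear map. -/
noncomputable def ThetaIₗ : OL →ₗ[OK] OE ⧸ D.IE where
  toFun := D.ThetaI
  map_add' := map_add _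
  map_smul' x y := by
    rw [Algebra.smul_def, ThetaI_algebraMap_mul, RingHom.id_apply, Algebra.smul_def]
    rfl

/-- The `OK`-linear identification of `OL` and `OE` by their power bases. -/
noncomputable def β : OL ≃ₗ[OK] OE :=
  D.hL.basis.equiv D.hE.basis (finCongr D.hdeg.symm)

theorem β_root_pow (i : Fin D.Q.natDegree) : D.β (D.hL.root ^ (i : ℕ)) = D.hE.root ^ (i : ℕ) := by
  rw [← D.hL.basis_apply, β, Module.Basis.equiv_apply, D.hE.basis_apply]
  rfl

theorem ThetaI_eq_mk_β (y : OL) : D.ThetaI y = Ideal.Quotient.mk D.IE (D.β y) := by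
  have h : D.ThetaIₗ = (Ideal.Quotient.mkₐ OK D.IE).toLinearMap.comp D.β.toLinearMap := by
    refine D.hL.basis.ext fun i => ?_
    rw [D.hL.basis_apply]
    simp only [LinearMap.comp_apply, LinearEquiv.coe_coe, AlgHom.toLinearMap_apply,
      Ideal.Quotient.mkₐ_eq_mk, β_root_pow]
    change D.ThetaI (D.hL.root ^ (i : ℕ)) = _
    rw [map_pow, map_pow, ThetaI, RingHom.comp_apply, Theta_root, red_mk]
  exact congrArg (fun f => f y) h

/-- The kernel of the comparison map modulo `ϖ ^ n` is `ϖ ^ n * OL`. -/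
theorem dvd_of_ThetaI_eq_zero (y : OL) (hy : D.ThetaI y = 0) :
    (algebraMap OK OL D.ϖ) ^ D.n ∣ y := by
  rw [ThetaI_eq_mk_β, Ideal.Quotient.eq_zero_iff_mem, Ideal.mem_span_singleton] at hy
  obtain ⟨z, hz⟩ := hy
  refine ⟨D.β.symm z, ?_⟩
  have : D.β y = (D.ϖ ^ D.n) • z := by rw [hz, Algebra.smul_def, map_pow]
  rw [← map_pow, ← Algebra.smul_def, ← map_smul, ← this, LinearEquiv.symm_apply_apply]
end Setup

/-- Fontaine's lifting property for the functor of points `S ↦ (H →ₐ[A] S)` at `(S, ϖ, n)`: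
points are determined by their reduction modulo `ϖ ^ n`, and every `A`-linear map which is
multiplicative modulo `p * ϖ ^ n` is congruent modulo `ϖ ^ n` to a genuine point. -/
structure HasFontaineLift (A H S : Type*) [CommRing A] [CommRing H] [Algebra A H] [CommRing S]
    [Algebra A S] (p : ℕ) (ϖ : S) (n : ℕ) : Prop where
  inj : ∀ f g : H →ₐ[A] S, (∀ h, ϖ ^ n ∣ f h - g h) → f = g
  lift : ∀ g₀ : H →ₗ[A] S, (p : S) * ϖ ^ n ∣ g₀ 1 - 1 →
    (∀ h h', (p : S) * ϖ ^ n ∣ g₀ (h * h') - g₀ h * g₀ h') →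
    ∃ g : H →ₐ[A] S, ∀ h, ϖ ^ n ∣ g h - g₀ h

namespace Setup

variable (D : Setup R₀ OK OL OE)
variable {A H : Type*} [CommRing A] [CommRing H] [Algebra A H]
  [Algebra A R₀] [Algebra A OK] [Algebra A OL] [Algebra A OE]
  [IsScalarTower A R₀ OK] [IsScalarTower A OK OL] [IsScalarTower A OK OE]

theorem Theta_algebraMap_base (r : A) :
    D.Theta (algebraMap A OL r) = algebraMap A (OE ⧸ D.JE) r := by
  rw [IsScalarTower.algebraMap_apply A OK OL, Theta_algebraMap,
    IsScalarTower.algebraMap_apply A R₀ OK, thetaE, RingHom.comp_apply]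
  rw [show (theta D.hK D.n D.a : OK →+* OK ⧸ D.JK) (algebraMap R₀ OK (algebraMap A R₀ r))
      = Ideal.Quotient.mk D.JK (algebraMap R₀ OK (algebraMap A R₀ r)) from by
    rw [RingHom.coe_coe, AlgHom.commutes]; rfl]
  rw [qm, Ideal.quotientMap_mk, ← IsScalarTower.algebraMap_apply A R₀ OK,
    ← IsScalarTower.algebraMap_apply A OK OE]
  rfl

/-- `Theta` as an `A`-algebra homomorphism. -/
noncomputable def ThetaA : OL →ₐ[A] OE ⧸ D.JE :=
  { D.Theta with commutes' := D.Theta_algebraMap_base }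

@[simp] theorem ThetaA_apply (y : OL) : (D.ThetaA (A := A)) y = D.Theta y := rfl

/-- **Transfer of points.** If the points of `H` in `OL` are determined modulo `ϖ ^ n` and `H` has
Fontaine's lifting property at `(OE, ϖ, n)`, then there is an injection from the `OL`-points to the
`OE`-points of `H`, compatible with the comparison map modulo `ϖ ^ n`. -/
theorem exists_transfer [Module.Projective A H]
    (hLinj : ∀ f g : H →ₐ[A] OL, (∀ h, (algebraMap OK OL D.ϖ) ^ D.n ∣ f h - g h) → f = g)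
    (hE : HasFontaineLift A H OE D.p (algebraMap OK OE D.ϖ) D.n) :
    ∃ tr : (H →ₐ[A] OL) → (H →ₐ[A] OE), Function.Injective tr ∧
      ∀ w h, Ideal.Quotient.mk D.IE (tr w h) = D.ThetaI (w h) := by
  have key : ∀ w : H →ₐ[A] OL, ∃ g : H →ₐ[A] OE,
      ∀ h, Ideal.Quotient.mk D.IE (g h) = D.ThetaI (w h) := by
    intro w
    obtain ⟨g₀, hg₀⟩ := Module.projective_lifting_property
      (Ideal.Quotient.mkₐ A D.JE).toLinearMap ((D.ThetaA (A := A)).comp w).toLinearMap
      (Ideal.Quotient.mkₐ_surjective A D.JE)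
    have hg₀' : ∀ h, Ideal.Quotient.mk D.JE (g₀ h) = D.Theta (w h) := fun h =>
      congrArg (fun f => f h) hg₀
    have h1 : (D.p : OE) * (algebraMap OK OE D.ϖ) ^ D.n ∣ g₀ 1 - 1 := by
      rw [← mem_twistIdeal, ← Ideal.Quotient.eq_zero_iff_mem, map_sub, hg₀', map_one, map_one,
        map_one, sub_self]
    have h2 : ∀ h h', (D.p : OE) * (algebraMap OK OE D.ϖ) ^ D.n ∣
        g₀ (h * h') - g₀ h * g₀ h' := by
      intro h h'
      rw [← mem_twistIdeal, ← Ideal.Quotient.eq_zero_iff_mem, map_sub, hg₀' (h * h'),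
        (Ideal.Quotient.mk D.JE).map_mul, hg₀', hg₀', map_mul w, map_mul D.Theta, sub_self]
    obtain ⟨g, hg⟩ := hE.lift g₀ h1 h2
    refine ⟨g, fun h => ?_⟩
    have h3 : Ideal.Quotient.mk D.IE (g h) = Ideal.Quotient.mk D.IE (g₀ h) := by
      rw [Ideal.Quotient.eq, Ideal.mem_span_singleton]
      exact hg h
    rw [h3, ThetaI, RingHom.comp_apply, ← hg₀', red_mk]
  choose tr htr using key
  refine ⟨tr, fun w w' hww' => ?_, htr⟩
  apply hLinj
  intro h
  apply D.dvd_of_ThetaI_eq_zero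
  rw [map_sub, ← htr, ← htr, hww', sub_self]
omit [Algebra A OK] [Algebra A OL] [Algebra A OE] [Algebra A R₀] [IsScalarTower A R₀ OK]
  [IsScalarTower A OK OL] [IsScalarTower A OK OE] in
/-- **Transfer of `p`-th roots, raw form.** If `u ∈ OK` is a `p`-th power in `OL` and `ut ∈ OK`
represents the twist of `u`, then `ut` is a `p`-th power in `OE` modulo `p * ϖ ^ n`. -/
theorem exists_pow_eq_add (x : OL) (u ut : OK) (hx : x ^ D.p = algebraMap OK OL u)
    (hut : Ideal.Quotient.mk D.JK ut = theta D.hK D.n D.a u) :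
    ∃ xt z : OE, xt ^ D.p = algebraMap OK OE ut + D.p * (algebraMap OK OE D.ϖ) ^ D.n * z := by
  obtain ⟨xt, hxt⟩ := Ideal.Quotient.mk_surjective (D.Theta x)
  have h1 : Ideal.Quotient.mk D.JE (xt ^ D.p) = Ideal.Quotient.mk D.JE (algebraMap OK OE ut) := by
    rw [map_pow, hxt, ← map_pow, hx, Theta_algebraMap, thetaE, RingHom.comp_apply]
    rw [show (theta D.hK D.n D.a : OK →+* OK ⧸ D.JK) u = theta D.hK D.n D.a u from rfl, ← hut,
      qm, Ideal.quotientMap_mk]
  rw [Ideal.Quotient.eq, mem_twistIdeal] at h1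
  obtain ⟨z, hz⟩ := h1
  exact ⟨xt, z, by rw [← hz]; ring⟩

omit [Algebra A OK] [Algebra A OL] [Algebra A OE] [Algebra A R₀] [IsScalarTower A R₀ OK]
  [IsScalarTower A OK OL] [IsScalarTower A OK OE] in
/-- **Transfer of `p`-th roots.** Assume `OE` is `ϖ`-adically complete, `p = unit * ϖ ^ e'`,
`n = j + n'` with `e' < n' * (p - 1)`, and `ut = ϖ ^ j * (unit)` represents the twist of
`u = x ^ p`. Then `ut` is a `p`-th power in `OE`. -/
theorem exists_pow_eq (hp : D.p.Prime)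
    (hC : PadicRoots40.IsDvdComplete (algebraMap OK OE D.ϖ)) {u₁ u₁' : OE} {e' : ℕ}
    (hpu : (D.p : OE) = u₁ * (algebraMap OK OE D.ϖ) ^ e') (hu : u₁' * u₁ = 1)
    {j n' : ℕ} (hn : D.n = j + n') (hc : e' < n' * (D.p - 1))
    (x : OL) (u ut ut₀ : OK) (hx : x ^ D.p = algebraMap OK OL u)
    (hut : Ideal.Quotient.mk D.JK ut = theta D.hK D.n D.a u)
    (hut₀ : IsUnit ut₀) (hutj : ut = D.ϖ ^ j * ut₀) :
    ∃ y : OE, y ^ D.p = algebraMap OK OE ut := by
  obtain ⟨xt, z, hxz⟩ := D.exists_pow_eq_add x u ut hx hut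
  obtain ⟨v, hv⟩ := hut₀.map (algebraMap OK OE)
  set ϖE := algebraMap OK OE D.ϖ with hϖE
  obtain ⟨a, ha⟩ := PadicRoots40.exists_pow_prime_eq hC hp hpu hu hc (z * (v⁻¹ : OEˣ))
  have hn'1 : 1 ≤ n' := by
    rcases Nat.eq_zero_or_pos n' with h | h
    · subst h; simp at hc
    · exact h
  obtain ⟨s, hs⟩ : IsUnit (1 + ϖE ^ n' * a) := by
    have := hC.isUnit_one_add_mul (ϖE ^ (n' - 1) * a)
    have e1 : ϖE * (ϖE ^ (n' - 1) * a) = ϖE ^ n' * a := by
      rw [← mul_assoc, ← pow_succ', Nat.sub_add_cancel hn'1]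
    rwa [e1] at this
  refine ⟨xt * (s⁻¹ : OEˣ), ?_⟩
  have h3 : xt ^ D.p = algebraMap OK OE ut * (s : OE) ^ D.p := by
    rw [hxz, hs, ha, hutj, map_mul, map_pow, ← hv, hn, pow_add]
    have : (v : OE) * ((v⁻¹ : OEˣ) : OE) = 1 := by simp
    linear_combination (-(D.p : OE) * ϖE ^ j * ϖE ^ n' * z) * this
  rw [mul_pow, h3, mul_assoc, ← mul_pow]
  simp

end Setup

end Main

end Fermat.Agent.TW.FF.Stab77
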