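/-
TW / WP7, brick B8 (helper77): KF route B, the ABSTRACT CORE of the twist argument.

Setting: `OK = R₀[ϖ]` with `ϖ` a root of the Eisenstein-shaped polynomial `X ^ e + p * B`,
`p = ε ϖ ^ e`, `e = r (p - 1)`, `OK` a `ϖ`-adically complete integrally closed domain with `ϖ` prime
and finite residue ring, containing a primitive `p`-th root of unity; `OL = OK[Π]`, `Π` a root of the
Eisenstein polynomial `Q`, `OL` a valuation ring embedded in an algebraically closed field `Ω`;
`H` a cocommutative bialgebra, projective over `A`, killed by `p`, all of whose `Ω`-points are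
`OL`-valued and generate `K(Π)` over `K = Frac OK`.

Main results:
* `hasFontaineLift` : `Stab77.HasFontaineLift` from the convolution lifting lemma `ConvLift40`;
* `isDvdComplete_of_basis` : `ϖ`-adic completeness passes to finite free extensions;
* `exists_artinSchreier` : top-level obstruction: if `1 + ϖ ^ (p r) s` is a `p`-th power in `OL`
  then `s mod ϖ` is of the form `y ^ p + ε y`;
* `exists_embedding` : identification of the perturbed field `K[X]/(Qt)` with `K(Π)` inside `Ω`;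
* `exists_artinSchreier_of_twist` : the core theorem of the twist route;
* `exists_not_dvd_artinSchreier` : `y ↦ y ^ p + ε y` is not surjective on `OK / ϖ`;
* `not_exists_pow_eq_root` (N1) : `ϖ` has no `p`-th root in `OL` (`p ≠ 2`);
* `not_exists_pow_eq_one_add` (N2) : `1 + ϖ ^ i w`, `w` a unit, `0 < i < e`, `p ∤ i`, has no `p`-th
  root in `OL`.
-/
import Mathlib
import Fermat.Agent.TW.FF.Stab77
import Fermat.Agent.TW.FF.ConvLift40

set_option autoImplicit false
set_option linter.unusedSectionVars false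
set_option linter.style.haveILetI false

namespace Fermat.Agent.TW.FF.Core77

open Polynomial
open Fermat.Agent.TW.FF.Stab77 Fermat.Agent.TW.FF.PadicRoots40 Fermat.Agent.TW.FF.ConvLift40

section Bridge

variable {A H S : Type*} [CommRing A] [CommRing H] [Bialgebra A H] [Coalgebra.IsCocomm A H]
  [Module.Projective A H] [CommRing S] [Algebra A S] {ϖ u u' : S} {p e c : ℕ}

/-- Fontaine's lifting property, from the convolution lifting lemma of `ConvLift40`. -/
theorem hasFontaineLift (hC : IsDvdComplete ϖ) (hp : p.Prime) (hpu : (p : S) = u * ϖ ^ e)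
    (hu : u' * u = 1) (hc : e < c * (p - 1))
    (hN : (WithConv.toConv (AlgHom.id A H)) ^ (p ^ 1) = 1) : HasFontaineLift A H S p ϖ c where
  inj := fun f g h => algHom_ext_of_dvd_of_id hC hp hpu hu hc hN f g h
  lift := by
    intro g₀ h1 hmul
    have hJ : twistIdeal p ϖ c ≤ Ideal.span {ϖ ^ (1 * e + c)} := by
      intro x hx
      rw [mem_twistIdeal] at hx
      rw [Ideal.mem_span_singleton]
      obtain ⟨y, rfl⟩ := hx
      exact ⟨u * y, by rw [hpu, one_mul, pow_add]; ring⟩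
    let f₀ : H →ₐ[A] S ⧸ twistIdeal p ϖ c :=
      AlgHom.ofLinearMap ((Ideal.Quotient.mkₐ A (twistIdeal p ϖ c)).toLinearMap ∘ₗ g₀)
        (by
          show Ideal.Quotient.mk _ (g₀ 1) = 1
          rw [← map_one (Ideal.Quotient.mk (twistIdeal p ϖ c)), Ideal.Quotient.eq, mem_twistIdeal]
          exact h1)
        (by
          intro x y
          show Ideal.Quotient.mk _ (g₀ (x * y)) = Ideal.Quotient.mk _ (g₀ x) * Ideal.Quotient.mk _ (g₀ y)
          rw [← map_mul, Ideal.Quotient.eq, mem_twistIdeal]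
          exact hmul x y)
    obtain ⟨F, hF⟩ := exists_algHom_lift_of_le hC hp hpu hu hc hN _ hJ f₀
    exact ⟨F, fun h => hF h (g₀ h) rfl⟩

end Bridge

section Complete

variable {R S ι : Type*} [CommRing R] [CommRing S] [Algebra R S] [Fintype ι]

theorem pow_dvd_iff_repr (b : Module.Basis ι R S) (ϖ : R) (n : ℕ) (x : S) :
    algebraMap R S ϖ ^ n ∣ x ↔ ∀ i, ϖ ^ n ∣ b.repr x i := by
  constructor
  · rintro ⟨y, rfl⟩ i
    refine ⟨b.repr y i, ?_⟩
    rw [← map_pow, ← Algebra.smul_def, map_smul, Finsupp.smul_apply, smul_eq_mul]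
  · intro h
    choose c hc using h
    refine ⟨b.equivFun.symm c, ?_⟩
    apply b.repr.injective
    ext i
    rw [← map_pow, ← Algebra.smul_def, map_smul, Finsupp.smul_apply, smul_eq_mul, hc i]
    congr 1
    have := congrFun (b.equivFun.apply_symm_apply c) i
    rw [Module.Basis.equivFun_apply] at this
    exact this.symm

/-- `ϖ`-adic completeness passes to finite free extensions. -/
theorem isDvdComplete_of_basis (b : Module.Basis ι R S) {ϖ : R} (h : IsDvdComplete ϖ) :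
    IsDvdComplete (algebraMap R S ϖ) where
  regular := by
    intro x hx
    apply b.repr.injective
    ext i
    rw [map_zero, Finsupp.zero_apply]
    apply h.regular
    have := congrArg (fun y => b.repr y i) hx
    simpa [← Algebra.smul_def] using this
  hausdorff := by
    intro x hx
    apply b.repr.injective
    ext i
    rw [map_zero, Finsupp.zero_apply]
    apply h.hausdorff
    intro n
    exact (pow_dvd_iff_repr b ϖ n x).1 (hx n) i
  precomplete := by
    intro f hf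
    have key : ∀ i, ∃ L : R, ∀ n, ϖ ^ n ∣ L - b.repr (f n) i := by
      intro i
      apply h.precomplete (fun n => b.repr (f n) i)
      intro n
      have := (pow_dvd_iff_repr b ϖ n _).1 (hf n) i
      simpa using this
    choose L hL using key
    refine ⟨b.equivFun.symm L, fun n => ?_⟩
    rw [pow_dvd_iff_repr b]
    intro i
    have := congrFun (b.equivFun.apply_symm_apply L) i
    rw [Module.Basis.equivFun_apply] at this
    rw [map_sub, Finsupp.sub_apply, this]
    exact hL i n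

end Complete

section TopLevel

variable {OK OL : Type*} [CommRing OK] [CommRing OL] [IsDomain OL] [ValuationRing OL]
  [Algebra OK OL]

/-- In a valuation ring, if a product of `#s` factors is divisible by `c ^ #s`, some factor is
divisible by `c`. -/
theorem exists_dvd_of_prod_dvd {ι : Type*} (s : Finset ι) (hs : s.Nonempty) (f : ι → OL) (c w : OL)
    (hc : c ≠ 0) (h : ∏ i ∈ s, f i = c ^ s.card * w) : ∃ i ∈ s, c ∣ f i := by
  by_contra hcon
  push Not at hcon
  have h1 : ∀ i ∈ s, ∃ m : OL, c = f i * m := by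
    intro i hi
    rcases ValuationRing.dvd_total (f i) c with h | h
    · exact h
    · exact absurd h (hcon i hi)
  choose! m hm using h1
  have h2 : c ^ s.card = (∏ i ∈ s, f i) * ∏ i ∈ s, m i := by
    rw [← Finset.prod_mul_distrib, ← Finset.prod_const]
    exact Finset.prod_congr rfl hm
  rw [h, mul_assoc] at h2
  have h3 : w * ∏ i ∈ s, m i = 1 := by
    have hcs : c ^ s.card ≠ 0 := pow_ne_zero _ hc
    have : c ^ s.card * (w * ∏ i ∈ s, m i) = c ^ s.card * 1 := by rw [← h2, mul_one]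
    exact mul_left_cancel₀ hcs this
  obtain ⟨i, hi⟩ := hs
  have h4 : IsUnit (m i) := by
    apply isUnit_of_dvd_one
    rw [← h3]
    exact Dvd.dvd.mul_left (Finset.dvd_prod_of_mem m hi) w
  obtain ⟨v, hv⟩ := h4
  apply hcon i hi
  refine ⟨(v⁻¹ : OLˣ), ?_⟩
  rw [hm i hi, ← hv, mul_assoc, Units.mul_inv, mul_one]

/-- **Top-level Artin–Schreier obstruction.** `OL = OK[Π]` with `ϖ ∣ Q(0)` (e.g. `Q` Eisenstein),
`OL` a valuation ring containing a primitive `p`-th root of unity, `p = ε ϖ ^ e`,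
`e = r (p - 1)`. If `1 + ϖ ^ (p r) s` is a `p`-th power in `OL`, then the residue of `s` modulo `ϖ`
lies in the image of `y ↦ y ^ p + ε y`. -/
theorem exists_artinSchreier {p : ℕ} (hp : p.Prime) {ϖ ε : OK} {e r : ℕ}
    (hpε : (p : OK) = ε * ϖ ^ e) (her : e = r * (p - 1)) (hr : 1 ≤ r)
    {Q : OK[X]} (hL : IsAdjoinRoot OL Q) (hQ0 : ϖ ∣ Q.coeff 0)
    (hϖL : algebraMap OK OL ϖ ≠ 0) {ζ : OL} (hζ : IsPrimitiveRoot ζ p)
    (s : OK) (t : OL) (ht : t ^ p = algebraMap OK OL (1 + ϖ ^ (p * r) * s)) :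
    ∃ y : OK, ϖ ∣ y ^ p + ε * y - s := by
  classical
  set c : OL := algebraMap OK OL ϖ with hc
  have hpr : p * r = e + r := by
    rw [her]
    have : p = (p - 1) + 1 := (Nat.sub_add_cancel hp.one_le).symm
    conv_lhs => rw [this]
    ring
  -- the factorisation of `t ^ p - 1`
  have hprod := hζ.pow_sub_pow_eq_prod_sub_mul t 1 hp.pos
  simp only [one_pow, mul_one] at hprod
  have hcard : (nthRootsFinset p (1 : OL)).card = p := hζ.card_nthRootsFinset
  have h1 : ∏ μ ∈ nthRootsFinset p (1 : OL), (t - μ)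
      = (c ^ r) ^ (nthRootsFinset p (1 : OL)).card * algebraMap OK OL s := by
    rw [← hprod, ht, hcard, ← pow_mul, mul_comm r p, hc]
    simp only [map_add, map_one, map_mul, map_pow]
    ring
  obtain ⟨μ, hμ, T', hT'⟩ := exists_dvd_of_prod_dvd (nthRootsFinset p (1 : OL))
    ⟨1, one_mem_nthRootsFinset hp.pos⟩ (fun μ => t - μ) (c ^ r) (algebraMap OK OL s)
    (pow_ne_zero _ hϖL) h1
  have hμp : μ ^ p = 1 := (mem_nthRootsFinset hp.pos 1).1 hμ
  -- `t = μ * (1 + c ^ r * T)`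
  set T : OL := μ ^ (p - 1) * T' with hT
  have hμμ : μ * μ ^ (p - 1) = 1 := by
    rw [← pow_succ', Nat.sub_add_cancel hp.one_le, hμp]
  have ht2 : t = μ * (1 + c ^ r * T) := by
    have : t = μ + c ^ r * T' := by linear_combination hT'
    rw [this, hT]
    linear_combination (-(c ^ r * T')) * hμμ
  obtain ⟨q, hq⟩ := exists_one_add_pow_prime hp (c ^ r * T)
  have hpc : (p : OL) = algebraMap OK OL ε * c ^ e := by
    have := congrArg (algebraMap OK OL) hpε
    simpa using this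
  have h2 : c ^ (p * r) * (T ^ p + algebraMap OK OL ε * T * (1 + c ^ r * T * q)
      - algebraMap OK OL s) = 0 := by
    have e1 : t ^ p = 1 + (c ^ r * T) ^ p + (p : OL) * (c ^ r * T) * (1 + c ^ r * T * q) := by
      rw [ht2, mul_pow, hμp, one_mul, hq]
    rw [ht, hpc] at e1
    simp only [map_add, map_one, map_mul, map_pow] at e1
    rw [hpr] at e1 ⊢
    have e2 : (c ^ r * T) ^ p = c ^ (e + r) * T ^ p := by
      rw [mul_pow, ← pow_mul, mul_comm r p, hpr]
    rw [e2] at e1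
    linear_combination (-1 : OL) * e1
  have h3 : T ^ p + algebraMap OK OL ε * T * (1 + c ^ r * T * q) - algebraMap OK OL s = 0 := by
    rcases mul_eq_zero.1 h2 with h | h
    · exact absurd h (pow_ne_zero _ hϖL)
    · exact h
  -- the residue map `OL → OK / ϖ`
  let φ : OL →+* OK ⧸ Ideal.span {ϖ} := hL.lift (Ideal.Quotient.mk _) 0 (by
    rw [eval₂_at_zero, Ideal.Quotient.eq_zero_iff_mem, Ideal.mem_span_singleton]
    exact hQ0)
  have hφ : ∀ a : OK, φ (algebraMap OK OL a) = Ideal.Quotient.mk _ a := fun a =>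
    hL.lift_algebraMap _ a
  have hφc : φ c = 0 := by
    rw [hc, hφ, Ideal.Quotient.eq_zero_iff_mem]
    exact Ideal.mem_span_singleton_self ϖ
  obtain ⟨y, hy⟩ := Ideal.Quotient.mk_surjective (φ T)
  refine ⟨y, ?_⟩
  rw [← Ideal.mem_span_singleton, ← Ideal.Quotient.eq_zero_iff_mem]
  have h4 := congrArg φ h3
  obtain ⟨r', rfl⟩ : ∃ r', r = r' + 1 := ⟨r - 1, by omega⟩
  simp only [map_sub, map_add, map_mul, map_pow, map_one, hφ, hφc, map_zero, pow_succ,
    mul_zero, zero_mul, add_zero] at h4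
  rw [← hy] at h4
  simpa using h4

end TopLevel

section Eis

variable {OK : Type*} [CommRing OK]

/-- `Q` is a monic Eisenstein polynomial at `ϖ`. -/
structure IsEis (ϖ : OK) (Q : OK[X]) : Prop where
  monic : Q.Monic
  pos : 0 < Q.natDegree
  dvd : ∀ i < Q.natDegree, ϖ ∣ Q.coeff i
  not_dvd : ¬ ϖ ^ 2 ∣ Q.coeff 0

variable [IsDomain OK] 

theorem IsEis.irreducible {ϖ : OK} (hϖ : Prime ϖ) {Q : OK[X]} (hQ : IsEis ϖ Q) :
    Irreducible Q := by
  have hprime : (Ideal.span {ϖ}).IsPrime :=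
    (Ideal.span_singleton_prime hϖ.ne_zero).2 hϖ
  have hE : Q.IsEisensteinAt (Ideal.span {ϖ}) := by
    refine ⟨?_, ?_, ?_⟩
    · rw [hQ.monic.leadingCoeff, Ideal.mem_span_singleton]
      exact hϖ.not_dvd_one
    · intro n hn
      rw [Ideal.mem_span_singleton]
      exact hQ.dvd n hn
    · rw [Ideal.span_singleton_pow, Ideal.mem_span_singleton]
      exact hQ.not_dvd
  exact hE.irreducible hprime hQ.monic.isPrimitive hQ.pos

variable [IsIntegrallyClosed OK] {K Ω : Type*} [Field K] [Algebra OK K] [IsFractionRing OK K]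
  [Field Ω] [Algebra K Ω] [Algebra OK Ω] [IsScalarTower OK K Ω]

theorem IsEis.irreducible_map {ϖ : OK} (hϖ : Prime ϖ) {Q : OK[X]} (hQ : IsEis ϖ Q) :
    Irreducible (Q.map (algebraMap OK K)) :=
  (hQ.monic.irreducible_iff_irreducible_map_fraction_map).1 (hQ.irreducible hϖ)

theorem IsEis.minpoly_eq {ϖ : OK} (hϖ : Prime ϖ) {Q : OK[X]} (hQ : IsEis ϖ Q) {ρ : Ω}
    (hρ : aeval ρ Q = 0) : minpoly K ρ = Q.map (algebraMap OK K) := by
  refine (minpoly.eq_of_irreducible_of_monic (hQ.irreducible_map hϖ) ?_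
    (hQ.monic.map _)).symm
  rw [aeval_map_algebraMap]
  exact hρ

theorem IsEis.finrank_adjoin {ϖ : OK} (hϖ : Prime ϖ) {Q : OK[X]} (hQ : IsEis ϖ Q) {ρ : Ω}
    (hρ : aeval ρ Q = 0) : Module.finrank K (IntermediateField.adjoin K {ρ}) = Q.natDegree := by
  have hint : IsIntegral K ρ := by
    refine ⟨Q.map (algebraMap OK K), hQ.monic.map _, ?_⟩
    rw [← aeval_def, aeval_map_algebraMap]
    exact hρ
  rw [IntermediateField.adjoin.finrank hint, hQ.minpoly_eq hϖ hρ, hQ.monic.natDegree_map]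

variable (K) in
include K in
/-- An `OK`-algebra map from `OK[X]/(Q)` (`Q` Eisenstein) to a field extension of `K` is
injective. -/
theorem IsEis.injective_of_isAdjoinRootMonic {ϖ : OK} (hϖ : Prime ϖ) {Q : OK[X]}
    (hQ : IsEis ϖ Q) {S : Type*} [CommRing S] [Algebra OK S] (hS : IsAdjoinRootMonic S Q)
    (f : S →ₐ[OK] Ω) : Function.Injective f := by
  rw [injective_iff_map_eq_zero]
  intro x hx
  obtain ⟨g₀, rfl⟩ := hS.map_surjective x
  set g := g₀ %ₘ Q with hg
  have hmap : hS.map g₀ = hS.map g := (hS.map_modByMonic g₀).symm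
  rw [hmap] at hx ⊢
  have hρ : aeval (f hS.root) Q = 0 := by
    rw [aeval_algHom_apply, hS.aeval_root_self, map_zero]
  have h1 : aeval (f hS.root) g = 0 := by
    rw [aeval_algHom_apply, hS.aeval_root_eq_map]
    exact hx
  have h2 : aeval (f hS.root) (g.map (algebraMap OK K)) = 0 := by
    rw [aeval_map_algebraMap]; exact h1
  have h3 := minpoly.dvd K (f hS.root) h2
  rw [hQ.minpoly_eq hϖ hρ] at h3
  have h4 : (g.map (algebraMap OK K)).degree < (Q.map (algebraMap OK K)).degree := by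
    rw [hQ.monic.degree_map]
    exact lt_of_le_of_lt degree_map_le (degree_modByMonic_lt g₀ hQ.monic)
  have h5 : g.map (algebraMap OK K) = 0 := eq_zero_of_dvd_of_degree_lt h3 h4
  have h6 : g = 0 := by
    apply Polynomial.map_injective _ (IsFractionRing.injective OK K)
    rw [h5, Polynomial.map_zero]
  rw [h6, map_zero]

end Eis

section MonicLift

variable {R : Type*} [CommRing R]

/-- A monic polynomial over a quotient lifts to a monic polynomial of the same degree. -/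
theorem exists_monic_lift (I : Ideal R) (P : (R ⧸ I)[X]) (hP : P.Monic) :
    ∃ Pt : R[X], Pt.Monic ∧ Pt.natDegree = P.natDegree ∧ Pt.map (Ideal.Quotient.mk I) = P := by
  have hl : P ∈ lifts (Ideal.Quotient.mk I) := by
    rw [lifts_iff_coeff_lifts]
    intro n
    exact Ideal.Quotient.mk_surjective _
  obtain ⟨q, h1, h2, h3⟩ := lifts_and_natDegree_eq_and_monic hl hP
  exact ⟨q, h3, h2, h1⟩

end MonicLift

section ThetaSharp

variable {R₀ OK : Type*} [CommRing R₀] [CommRing OK] [Algebra R₀ OK] {e p : ℕ} {B : R₀[X]}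

/-- The twist is the identity modulo any ideal containing `p ϖ ^ n` and `ϖ ^ (n + 1) a`. -/
theorem factor_theta (hK : IsAdjoinRoot OK (X ^ e + C (p : R₀) * B)) (n : ℕ) (a : OK)
    (I : Ideal OK) (hJI : twistIdeal p hK.root n ≤ I) (hI : hK.root ^ (n + 1) * a ∈ I) (x : OK) :
    Ideal.Quotient.factor hJI (theta hK n a x) = Ideal.Quotient.mk I x := by
  refine Setup.ringHom_ext_of_root hK ((Ideal.Quotient.factor hJI).comp
    (theta hK n a : OK →+* OK ⧸ twistIdeal p hK.root n)) (Ideal.Quotient.mk I) ?_ ?_ x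
  · intro r
    simp only [RingHom.comp_apply]
    rw [show (theta hK n a : OK →+* OK ⧸ twistIdeal p hK.root n) (algebraMap R₀ OK r)
        = Ideal.Quotient.mk _ (algebraMap R₀ OK r) from by
      rw [RingHom.coe_coe, AlgHom.commutes]; rfl]
    rfl
  · simp only [RingHom.comp_apply]
    rw [show (theta hK n a : OK →+* OK ⧸ twistIdeal p hK.root n) hK.root
        = Ideal.Quotient.mk _ (hK.root * (1 + hK.root ^ n * a)) from theta_root _ _ _]
    rw [Ideal.Quotient.factor_mk, Ideal.Quotient.eq]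
    have : hK.root * (1 + hK.root ^ n * a) - hK.root = hK.root ^ (n + 1) * a := by ring
    rw [this]
    exact hI

/-- A representative of `θ(u)` is congruent to `u` modulo `ϖ ^ (n + 1)`. -/
theorem dvd_sub_of_mk_eq_theta (hK : IsAdjoinRoot OK (X ^ e + C (p : R₀) * B)) (n : ℕ) (a : OK)
    (hϖp : hK.root ∣ (p : OK)) {u ut : OK}
    (hut : Ideal.Quotient.mk (twistIdeal p hK.root n) ut = theta hK n a u) :
    hK.root ^ (n + 1) ∣ ut - u := by
  have hJI : twistIdeal p hK.root n ≤ Ideal.span {hK.root ^ (n + 1)} := by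
    intro x hx
    rw [mem_twistIdeal] at hx
    rw [Ideal.mem_span_singleton]
    refine Dvd.dvd.trans ?_ hx
    obtain ⟨c, hc⟩ := hϖp
    exact ⟨c, by rw [hc, pow_succ]; ring⟩
  have h := factor_theta hK n a (Ideal.span {hK.root ^ (n + 1)}) hJI
    (Ideal.mem_span_singleton.2 ⟨a, rfl⟩) u
  rw [← hut, Ideal.Quotient.factor_mk, Ideal.Quotient.eq, Ideal.mem_span_singleton] at h
  exact h

end ThetaSharp

section Ident

variable {A OK OL OE : Type*} [CommRing A] [CommRing OK] [CommRing OL] [CommRing OE]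
  [Algebra OK OL] [Algebra OK OE] [Algebra A OK] [Algebra A OL] [Algebra A OE]
  [IsScalarTower A OK OL] [IsScalarTower A OK OE]
  [IsDomain OK] [IsIntegrallyClosed OK]
  {K Ω : Type*} [Field K] [Algebra OK K] [IsFractionRing OK K] [Field Ω] [IsAlgClosed Ω]
  [Algebra K Ω] [Algebra OK Ω] [IsScalarTower OK K Ω] [Algebra OL Ω] [IsScalarTower OK OL Ω]
  [Algebra A Ω] [IsScalarTower A OK Ω] [IsScalarTower A OL Ω]
  {H : Type*} [CommRing H] [Algebra A H]

omit [IsDomain OK] [IsIntegrallyClosed OK] [IsAlgClosed Ω] [IsFractionRing OK K] in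
/-- The image of `OK[x]` lies in `K(x)`. -/
theorem algHom_mem_adjoin {S : Type*} [CommRing S] [Algebra OK S] {Q : OK[X]}
    (hS : IsAdjoinRoot S Q) (f : S →ₐ[OK] Ω) (y : S) :
    f y ∈ IntermediateField.adjoin K {f hS.root} := by
  obtain ⟨g, rfl⟩ := hS.map_surjective y
  rw [← hS.aeval_root_eq_map, ← aeval_algHom_apply, ← aeval_map_algebraMap K]
  exact IntermediateField.algebra_adjoin_le_adjoin K _ (aeval_mem_adjoin_singleton K _)

/-- **Identification of the perturbed field with the original one.** If the points of `H` in `Ω`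
are all `OL`-valued and generate `K(Π)` over `K`, and there is an injection from the `OL`-points
to the `OE`-points, `OE = OK[X]/(Qt)` with `Qt` Eisenstein of the same degree as `Q`, then every
`OK`-embedding of `OE` in `Ω` has image inside `K(Π)`. -/
theorem exists_embedding {ϖ : OK} (hϖ : Prime ϖ) {Q Qt : OK[X]} (hL : IsAdjoinRootMonic OL Q)
    (hE : IsAdjoinRootMonic OE Qt) (hQ : IsEis ϖ Q) (hQt : IsEis ϖ Qt)
    (hdeg : Qt.natDegree = Q.natDegree)
    (hι : Function.Injective (algebraMap OL Ω)) [Finite (H →ₐ[A] Ω)]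
    (hrat : ∀ g : H →ₐ[A] Ω, ∃ g₀ : H →ₐ[A] OL, ∀ h, g h = algebraMap OL Ω (g₀ h))
    (hgen : ∀ E' : IntermediateField K Ω, (∀ (g : H →ₐ[A] Ω) (h : H), g h ∈ E') →
      algebraMap OL Ω hL.root ∈ E')
    (tr : (H →ₐ[A] OL) → (H →ₐ[A] OE)) (htr : Function.Injective tr) :
    ∃ ιE : OE →ₐ[OK] Ω, Function.Injective ιE ∧
      ∀ y, ιE y ∈ IntermediateField.adjoin K {algebraMap OL Ω hL.root} := by
  have hOKΩ : Function.Injective (algebraMap OK Ω) := by
    rw [IsScalarTower.algebraMap_eq OK K Ω]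
    exact (algebraMap K Ω).injective.comp (IsFractionRing.injective OK K)
  have : FaithfulSMul OK Ω := (faithfulSMul_iff_algebraMap_injective OK Ω).2 hOKΩ
  obtain ⟨ρ, hρ⟩ := IsAlgClosed.exists_aeval_eq_zero Ω Qt (by
    intro h0
    have := natDegree_eq_zero_iff_degree_le_zero.2 h0.le
    exact absurd this hQt.pos.ne')
  -- the embedding of `OE`
  let ιE : OE →ₐ[OK] Ω := hE.liftHom ρ hρ
  have hιEroot : ιE hE.root = ρ := hE.liftHom_root hρ
  have hιE : Function.Injective ιE := hQt.injective_of_isAdjoinRootMonic K hϖ hE ιE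
  refine ⟨ιE, hιE, ?_⟩
  -- the three point sets
  let a₁ : (H →ₐ[A] OL) → (H →ₐ[A] Ω) := fun g => (IsScalarTower.toAlgHom A OL Ω).comp g
  let a₂ : (H →ₐ[A] OE) → (H →ₐ[A] Ω) := fun g => (ιE.restrictScalars A).comp g
  have ha₁ : Function.Bijective a₁ := by
    constructor
    · intro g g' hgg'
      ext h
      apply hι
      exact congrArg (fun f : H →ₐ[A] Ω => f h) hgg'
    · intro g
      obtain ⟨g₀, hg₀⟩ := hrat g
      refine ⟨g₀, ?_⟩
      ext h
      exact (hg₀ h).symm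
  have ha₂ : Function.Injective a₂ := by
    intro g g' hgg'
    ext h
    apply hιE
    exact congrArg (fun f : H →ₐ[A] Ω => f h) hgg'
  let e₁ := Equiv.ofBijective a₁ ha₁
  have hsurj : Function.Surjective (fun g : H →ₐ[A] Ω => a₂ (tr (e₁.symm g))) :=
    Finite.surjective_of_injective (ha₂.comp (htr.comp e₁.symm.injective))
  -- all values lie in `K(ρ)`
  have hval : ∀ (g : H →ₐ[A] Ω) (h : H), g h ∈ IntermediateField.adjoin K {ρ} := by
    intro g h
    obtain ⟨g', rfl⟩ := hsurj g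
    have := algHom_mem_adjoin (K := K) hE.toIsAdjoinRoot ιE (tr (e₁.symm g') h)
    rw [hιEroot] at this
    exact this
  have hPi := hgen _ hval
  have hle : IntermediateField.adjoin K {algebraMap OL Ω hL.root} ≤ IntermediateField.adjoin K {ρ} :=
    IntermediateField.adjoin_simple_le_iff.2 hPi
  have hρint : IsIntegral K ρ := by
    refine ⟨Qt.map (algebraMap OK K), hQt.monic.map _, ?_⟩
    rw [← aeval_def, aeval_map_algebraMap]
    exact hρ
  haveI : FiniteDimensional K (IntermediateField.adjoin K {ρ}) :=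
    IntermediateField.adjoin.finiteDimensional hρint
  have hPiroot : aeval (algebraMap OL Ω hL.root) Q = 0 := by
    rw [aeval_algebraMap_apply, hL.aeval_root_self, map_zero]
  have heq : IntermediateField.adjoin K {algebraMap OL Ω hL.root} = IntermediateField.adjoin K {ρ} := by
    apply IntermediateField.eq_of_le_of_finrank_eq hle
    rw [hQ.finrank_adjoin hϖ hPiroot, hQt.finrank_adjoin hϖ hρ, hdeg]
  intro y
  rw [heq]
  have := algHom_mem_adjoin (K := K) hE.toIsAdjoinRoot ιE y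
  rw [hιEroot] at this
  exact this

end Ident

section Main

variable {A R₀ OK OL : Type*} [CommRing A] [CommRing R₀] [CommRing OK] [CommRing OL]
  [Algebra R₀ OK] [Algebra OK OL] [Algebra A R₀] [Algebra A OK] [Algebra A OL]
  [IsScalarTower A R₀ OK] [IsScalarTower A OK OL]
  [IsDomain OK] [IsIntegrallyClosed OK] [IsDomain OL] [ValuationRing OL]
  {K Ω : Type*} [Field K] [Algebra OK K] [IsFractionRing OK K] [Field Ω] [IsAlgClosed Ω]
  [Algebra K Ω] [Algebra OK Ω] [IsScalarTower OK K Ω] [Algebra OL Ω] [IsScalarTower OK OL Ω]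
  [Algebra A Ω] [IsScalarTower A OK Ω] [IsScalarTower A OL Ω]
  {H : Type*} [CommRing H] [Bialgebra A H] [Coalgebra.IsCocomm A H] [Module.Projective A H]

/-- **Core theorem of the twist route.** -/
theorem exists_artinSchreier_of_twist {p e r : ℕ} (hp : p.Prime) {B : R₀[X]}
    (hK : IsAdjoinRoot OK (X ^ e + C (p : R₀) * B)) (hϖ : Prime hK.root)
    {ε ε' : OK} (hpε : (p : OK) = ε * hK.root ^ e) (hε : ε' * ε = 1)
    (her : e = r * (p - 1)) (hr : 1 ≤ r) (hC : IsDvdComplete hK.root)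
    {Q : OK[X]} (hL : IsAdjoinRootMonic OL Q) (hQ : IsEis hK.root Q)
    (hι : Function.Injective (algebraMap OL Ω))
    (hcl : ∀ t ∈ IntermediateField.adjoin K {algebraMap OL Ω hL.root}, IsIntegral OK t →
      t ∈ Set.range (algebraMap OL Ω))
    (hN : (WithConv.toConv (AlgHom.id A H)) ^ (p ^ 1) = 1)
    [Finite (H →ₐ[A] Ω)]
    (hrat : ∀ g : H →ₐ[A] Ω, ∃ g₀ : H →ₐ[A] OL, ∀ h, g h = algebraMap OL Ω (g₀ h))
    (hgen : ∀ E' : IntermediateField K Ω, (∀ (g : H →ₐ[A] Ω) (h : H), g h ∈ E') →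
      algebraMap OL Ω hL.root ∈ E')
    {ζ : OK} (hζ : IsPrimitiveRoot ζ p)
    (n : ℕ) (a : OK) (hn : e < n * (p - 1))
    (u ut ut₀ s : OK) (x : OL) (hx : x ^ p = algebraMap OK OL u) (hu0 : u ≠ 0)
    (hut : Ideal.Quotient.mk (twistIdeal p hK.root n) ut = theta hK n a u)
    {j n' : ℕ} (hjn : n = j + n') (hn' : e < n' * (p - 1)) (hut₀ : IsUnit ut₀)
    (hutj : ut = hK.root ^ j * ut₀) (hs : ut = u * (1 + hK.root ^ (p * r) * s)) :
    ∃ y : OK, hK.root ∣ y ^ p + ε * y - s := by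
  set ϖ := hK.root with hϖdef
  have hp1 : 1 ≤ p - 1 := by have := hp.two_le; omega
  have he1 : 1 ≤ e := by rw [her]; exact Nat.mul_pos hr hp1
  have hn1 : 1 ≤ n := by
    rcases Nat.eq_zero_or_pos n with h | h
    · subst h; simp at hn
    · exact h
  have hϖp : ϖ ∣ (p : OK) := ⟨ε * ϖ ^ (e - 1), by
    rw [hpε]
    conv_lhs => rw [show e = (e - 1) + 1 by omega, pow_succ]
    ring⟩
  have hOKΩ : Function.Injective (algebraMap OK Ω) := by
    rw [IsScalarTower.algebraMap_eq OK K Ω]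
    exact (algebraMap K Ω).injective.comp (IsFractionRing.injective OK K)
  have hOKOL : Function.Injective (algebraMap OK OL) := by
    have : (algebraMap OK Ω : OK → Ω) = (algebraMap OL Ω) ∘ (algebraMap OK OL) := by
      ext y; exact IsScalarTower.algebraMap_apply OK OL Ω y
    rw [this] at hOKΩ
    exact Function.Injective.of_comp hOKΩ
  -- the twisted polynomial
  have hJK : twistIdeal p ϖ n ≠ ⊤ := by
    intro h
    have h1 : (1 : OK) ∈ twistIdeal p ϖ n := by rw [h]; trivial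
    rw [mem_twistIdeal] at h1
    have : ϖ ∣ 1 := Dvd.dvd.trans (Dvd.dvd.mul_right hϖp _) h1
    exact hϖ.not_dvd_one this
  haveI : Nontrivial (OK ⧸ twistIdeal p ϖ n) := Ideal.Quotient.nontrivial_iff.2 hJK
  have hθQ : (Q.map (theta hK n a : OK →+* OK ⧸ twistIdeal p ϖ n)).Monic := hQ.monic.map _
  obtain ⟨Qt, hQtm, hQtdeg, hQtmap⟩ := exists_monic_lift _ _ hθQ
  rw [hQ.monic.natDegree_map] at hQtdeg
  have hcoeff : ∀ i, ϖ ^ (n + 1) ∣ Qt.coeff i - Q.coeff i := by
    intro i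
    apply dvd_sub_of_mk_eq_theta hK n a hϖp
    have := congrArg (fun P => P.coeff i) hQtmap
    simpa [coeff_map] using this
  have hQt : IsEis ϖ Qt := by
    refine ⟨hQtm, by rw [hQtdeg]; exact hQ.pos, ?_, ?_⟩
    · intro i hi
      rw [hQtdeg] at hi
      have h1 := hQ.dvd i hi
      have h2 : ϖ ∣ Qt.coeff i - Q.coeff i :=
        Dvd.dvd.trans (dvd_pow_self ϖ (Nat.succ_ne_zero n)) (hcoeff i)
      have := dvd_add h2 h1
      rwa [sub_add_cancel] at this
    · intro h
      apply hQ.not_dvd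
      have h2 : ϖ ^ 2 ∣ Qt.coeff 0 - Q.coeff 0 :=
        Dvd.dvd.trans (pow_dvd_pow ϖ (by omega)) (hcoeff 0)
      have := dvd_sub h h2
      rwa [sub_sub_cancel] at this
  -- the perturbed ring
  let hE : IsAdjoinRootMonic (AdjoinRoot Qt) Qt := AdjoinRoot.isAdjoinRootMonic Qt hQtm
  let D : Setup R₀ OK OL (AdjoinRoot Qt) :=
    { p := p, e := e, B := B, hK := hK, n := n, a := a, Q := Q, hL := hL, Qt := Qt, hE := hE,
      hdeg := hQtdeg, hQt := hQtmap }
  -- completeness and the lifting property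
  have hCL : IsDvdComplete (algebraMap OK OL ϖ) := isDvdComplete_of_basis hL.basis hC
  have hCE : IsDvdComplete (algebraMap OK (AdjoinRoot Qt) ϖ) := isDvdComplete_of_basis hE.basis hC
  have hpL : (p : OL) = algebraMap OK OL ε * (algebraMap OK OL ϖ) ^ e := by
    have := congrArg (algebraMap OK OL) hpε
    simpa using this
  have hεL : algebraMap OK OL ε' * algebraMap OK OL ε = 1 := by rw [← map_mul, hε, map_one]
  have hpE : (p : AdjoinRoot Qt) = algebraMap OK (AdjoinRoot Qt) ε *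
      (algebraMap OK (AdjoinRoot Qt) ϖ) ^ e := by
    have := congrArg (algebraMap OK (AdjoinRoot Qt)) hpε
    simpa using this
  have hεE : algebraMap OK (AdjoinRoot Qt) ε' * algebraMap OK (AdjoinRoot Qt) ε = 1 := by
    rw [← map_mul, hε, map_one]
  have hLinj := (hasFontaineLift (A := A) (H := H) hCL hp hpL hεL hn hN).inj
  have hEL := hasFontaineLift (A := A) (H := H) hCE hp hpE hεE hn hN
  obtain ⟨tr, htr, -⟩ := D.exists_transfer hLinj hEL
  obtain ⟨ιE, hιE, hιEmem⟩ :=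
    exists_embedding (K := K) hϖ hL hE hQ hQt hQtdeg hι hrat hgen tr htr
  obtain ⟨y, hy⟩ := D.exists_pow_eq hp hCE hpE hεE hjn hn' x u ut ut₀ hx hut hut₀ hutj
  -- the quotient of the two `p`-th roots
  have hxL' : algebraMap OL Ω x ∈ IntermediateField.adjoin K {algebraMap OL Ω hL.root} :=
    algHom_mem_adjoin (K := K) hL.toIsAdjoinRoot (IsScalarTower.toAlgHom OK OL Ω) x
  have hu0' : algebraMap OK Ω u ≠ 0 := fun h => hu0 (hOKΩ (by rw [h, map_zero]))
  have hx0 : algebraMap OL Ω x ≠ 0 := by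
    intro h
    apply hu0'
    rw [IsScalarTower.algebraMap_apply OK OL Ω, ← hx, map_pow, h, zero_pow hp.ne_zero]
  have ht : ιE y / algebraMap OL Ω x ∈ IntermediateField.adjoin K {algebraMap OL Ω hL.root} :=
    div_mem (hιEmem y) hxL'
  have htp : (ιE y / algebraMap OL Ω x) ^ p = algebraMap OK Ω (1 + ϖ ^ (p * r) * s) := by
    have h1 : ιE y ^ p = algebraMap OK Ω ut := by
      rw [← map_pow, hy, AlgHom.commutes]
    have h2 : algebraMap OL Ω x ^ p = algebraMap OK Ω u := by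
      rw [← map_pow, hx, ← IsScalarTower.algebraMap_apply]
    rw [div_pow, h1, h2, hs, map_mul, mul_div_cancel_left₀ _ hu0']
  have hint : IsIntegral OK (ιE y / algebraMap OL Ω x) := by
    refine ⟨X ^ p - C (1 + ϖ ^ (p * r) * s), monic_X_pow_sub_C _ hp.ne_zero, ?_⟩
    rw [← aeval_def]
    simp only [map_sub, map_pow, aeval_X, aeval_C]
    rw [htp, sub_self]
  obtain ⟨t₀, ht₀⟩ := hcl _ ht hint
  have ht₀p : t₀ ^ p = algebraMap OK OL (1 + ϖ ^ (p * r) * s) := by
    apply hι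
    rw [map_pow, ht₀, htp, ← IsScalarTower.algebraMap_apply]
  have hϖL : algebraMap OK OL ϖ ≠ 0 := fun h => hϖ.ne_zero (hOKOL (by rw [h, map_zero]))
  exact exists_artinSchreier hp hpε her hr hL.toIsAdjoinRoot (hQ.dvd 0 hQ.pos) hϖL
    (hζ.map_of_injective hOKOL) s t₀ ht₀p

end Main

section Cyclo

variable {OK : Type*} [CommRing OK] [IsDomain OK]

/-- `(ζ - 1) ^ (p - 1)` is associated to `p`. -/
theorem associated_sub_one_pow {p : ℕ} (hp : p.Prime) {ζ : OK} (hζ : IsPrimitiveRoot ζ p) :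
    Associated ((ζ - 1) ^ (p - 1)) (p : OK) := by
  have hp1 : p - 1 + 1 = p := Nat.sub_add_cancel hp.one_le
  have hζ' : IsPrimitiveRoot ζ (p - 1 + 1) := by rwa [hp1]
  have h1 := hζ'.prod_pow_sub_one_eq_order
  have h2 : ∀ k ∈ Finset.range (p - 1), Associated (ζ - 1) (ζ ^ (k + 1) - 1) := by
    intro k hk
    apply hζ.associated_sub_one_pow_sub_one_of_coprime
    rw [Finset.mem_range] at hk
    apply Nat.Coprime.symm
    rw [hp.coprime_iff_not_dvd]
    intro h
    have := Nat.le_of_dvd (Nat.succ_pos k) h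
    omega
  have h3 : Associated (∏ _k ∈ Finset.range (p - 1), (ζ - 1))
      (∏ k ∈ Finset.range (p - 1), (ζ ^ (k + 1) - 1)) :=
    Associated.prod _ _ _ h2
  rw [Finset.prod_const, Finset.card_range] at h3
  refine h3.trans ?_
  have h4 : ((p - 1 : ℕ) : OK) + 1 = (p : OK) := by
    rw [← Nat.cast_succ, Nat.succ_eq_add_one, hp1]
  rw [h4] at h1
  rw [← h1]
  have hu : IsUnit ((-1 : OK) ^ (p - 1)) := (isUnit_one.neg).pow _
  exact (associated_isUnit_mul_left_iff hu).2 (Associated.refl _) |>.symm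

/-- In a domain with a prime `ϖ`, `ϖ`-adically separated, with `p = ε ϖ ^ (r (p - 1))`, a primitive
`p`-th root of unity is `1 + ϖ ^ r v` with `v` a unit. -/
theorem exists_sub_one_eq {p : ℕ} (hp : p.Prime) {ϖ ε ε' : OK} (hϖ : Prime ϖ)
    (hsep : ∀ x : OK, (∀ n : ℕ, ϖ ^ n ∣ x) → x = 0) {e r : ℕ}
    (hpε : (p : OK) = ε * ϖ ^ e) (hε : ε' * ε = 1) (her : e = r * (p - 1))
    {ζ : OK} (hζ : IsPrimitiveRoot ζ p) : ∃ v : OK, IsUnit v ∧ ζ = 1 + ϖ ^ r * v := by
  have hp1 : 1 ≤ p - 1 := by have := hp.two_le; omega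
  have hζ1 : ζ - 1 ≠ 0 := sub_ne_zero.2 (hζ.ne_one hp.one_lt)
  -- finite multiplicity
  obtain ⟨m, v, hv, hm⟩ : ∃ (m : ℕ) (v : OK), ¬ ϖ ∣ v ∧ ζ - 1 = ϖ ^ m * v := by
    by_contra hcon
    push Not at hcon
    apply hζ1
    apply hsep
    intro n
    induction n with
    | zero => simp
    | succ n ih =>
      obtain ⟨c, hc⟩ := ih
      have := hcon n c
      by_contra h2
      apply h2
      have h3 : ϖ ∣ c := by
        by_contra h4
        exact this h4 hc
      obtain ⟨c', rfl⟩ := h3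
      exact ⟨c', by rw [hc, pow_succ]; ring⟩
  obtain ⟨W, hW⟩ := associated_sub_one_pow hp hζ
  rw [hm, mul_pow, ← pow_mul, hpε] at hW
  have hεu : IsUnit ε := IsUnit.of_mul_eq_one ε' (by rw [mul_comm]; exact hε)
  have hnd1 : ¬ ϖ ∣ v ^ (p - 1) * (W : OK) := by
    intro h
    rcases hϖ.dvd_or_dvd h with h | h
    · exact hv (hϖ.dvd_of_dvd_pow h)
    · exact hϖ.not_isUnit (isUnit_of_dvd_unit h W.isUnit)
  have hnd2 : ¬ ϖ ∣ ε := fun h => hϖ.not_isUnit (isUnit_of_dvd_unit h hεu)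
  have hϖ0 : ϖ ≠ 0 := hϖ.ne_zero
  have hme : m * (p - 1) = e := by
    rcases lt_trichotomy (m * (p - 1)) e with h | h | h
    · exfalso
      obtain ⟨d, hd⟩ : ∃ d, e = m * (p - 1) + (d + 1) := ⟨e - m * (p - 1) - 1, by omega⟩
      rw [hd, pow_add] at hW
      have : v ^ (p - 1) * (W : OK) = ε * ϖ ^ (d + 1) := by
        apply mul_left_cancel₀ (pow_ne_zero (m * (p - 1)) hϖ0)
        linear_combination hW
      apply hnd1
      rw [this, pow_succ]
      exact ⟨ε * ϖ ^ d, by ring⟩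
    · exact h
    · exfalso
      obtain ⟨d, hd⟩ : ∃ d, m * (p - 1) = e + (d + 1) := ⟨m * (p - 1) - e - 1, by omega⟩
      rw [hd, pow_add] at hW
      have : ϖ ^ (d + 1) * (v ^ (p - 1) * (W : OK)) = ε := by
        apply mul_left_cancel₀ (pow_ne_zero e hϖ0)
        linear_combination hW
      apply hnd2
      rw [← this, pow_succ]
      exact ⟨ϖ ^ d * (v ^ (p - 1) * (W : OK)), by ring⟩
  have hmr : m = r := by
    rw [her] at hme
    exact Nat.eq_of_mul_eq_mul_right (by omega) hme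
  subst hmr
  refine ⟨v, ?_, by linear_combination hm⟩
  rw [hme] at hW
  have : v ^ (p - 1) * (W : OK) = ε := by
    apply mul_left_cancel₀ (pow_ne_zero e hϖ0)
    linear_combination hW
  have hvu : IsUnit (v ^ (p - 1)) := by
    apply isUnit_of_dvd_unit _ hεu
    exact ⟨(W : OK), this.symm⟩
  exact (isUnit_pow_iff (by omega)).1 hvu

end Cyclo

section Choice

variable {OK : Type*} [CommRing OK] [IsDomain OK]

/-- The Artin–Schreier type map `y ↦ y ^ p + ε y` is not surjective on the finite residue ring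
`OK / ϖ` when `OK` contains a primitive `p`-th root of unity. -/
theorem exists_not_dvd_artinSchreier {p : ℕ} (hp : p.Prime) {ϖ ε ε' : OK} (hϖ : Prime ϖ)
    (hsep : ∀ x : OK, (∀ n : ℕ, ϖ ^ n ∣ x) → x = 0) [Finite (OK ⧸ Ideal.span {ϖ})] {e r : ℕ}
    (hpε : (p : OK) = ε * ϖ ^ e) (hε : ε' * ε = 1) (her : e = r * (p - 1)) (hr : 1 ≤ r)
    {ζ : OK} (hζ : IsPrimitiveRoot ζ p) :
    ∃ s₀ : OK, ∀ y : OK, ¬ ϖ ∣ y ^ p + ε * y - s₀ := by
  obtain ⟨v, hvu, hv⟩ := exists_sub_one_eq hp hϖ hsep hpε hε her hζ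
  have hpr : p * r = e + r := by
    rw [her]
    have : p = (p - 1) + 1 := (Nat.sub_add_cancel hp.one_le).symm
    conv_lhs => rw [this]
    ring
  -- `v ^ p + ε v ≡ 0 mod ϖ`
  have h1 : ϖ ∣ v ^ p + ε * v := by
    obtain ⟨q, hq⟩ := exists_one_add_pow_prime hp (ϖ ^ r * v)
    rw [← hv, hζ.pow_eq_one, hpε] at hq
    have e2 : (ϖ ^ r * v) ^ p = ϖ ^ (e + r) * v ^ p := by
      rw [mul_pow, ← pow_mul, mul_comm r p, hpr]
    rw [e2] at hq
    have h2 : ϖ ^ (e + r) * (v ^ p + ε * v * (1 + ϖ ^ r * v * q)) = 0 := by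
      rw [pow_add] at hq ⊢
      linear_combination (-1 : OK) * hq
    rcases mul_eq_zero.1 h2 with h | h
    · exact absurd h (pow_ne_zero _ hϖ.ne_zero)
    · obtain ⟨r', rfl⟩ : ∃ r', r = r' + 1 := ⟨r - 1, by omega⟩
      refine ⟨-(ε * v * ϖ ^ r' * v * q), ?_⟩
      rw [pow_succ] at h
      linear_combination h
  let k := OK ⧸ Ideal.span {ϖ}
  let mk : OK →+* k := Ideal.Quotient.mk _
  let f : k → k := fun y => y ^ p + mk ε * y
  have hf : ¬ Function.Injective f := by
    intro hinj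
    have h0 : f (mk v) = f 0 := by
      show mk v ^ p + mk ε * mk v = 0 ^ p + mk ε * 0
      rw [zero_pow hp.ne_zero, mul_zero, add_zero, ← map_pow, ← map_mul, ← map_add,
        Ideal.Quotient.eq_zero_iff_mem, Ideal.mem_span_singleton]
      exact h1
    have h2 := hinj h0
    rw [Ideal.Quotient.eq_zero_iff_mem, Ideal.mem_span_singleton] at h2
    exact hϖ.not_isUnit (isUnit_of_dvd_unit h2 hvu)
  have hf2 : ¬ Function.Surjective f := fun h => hf (Finite.injective_iff_surjective.2 h)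
  rw [Function.Surjective] at hf2
  push Not at hf2
  obtain ⟨sbar, hsbar⟩ := hf2
  obtain ⟨s₀, rfl⟩ := Ideal.Quotient.mk_surjective sbar
  refine ⟨s₀, fun y hy => hsbar (mk y) ?_⟩
  show mk y ^ p + mk ε * mk y = mk s₀
  rw [← map_pow, ← map_mul, ← map_add, ← sub_eq_zero, ← map_sub]
  exact (Ideal.Quotient.eq_zero_iff_mem).2 (Ideal.mem_span_singleton.2 hy)

end Choice

section Cases

variable {A R₀ OK OL : Type*} [CommRing A] [CommRing R₀] [CommRing OK] [CommRing OL]
  [Algebra R₀ OK] [Algebra OK OL] [Algebra A R₀] [Algebra A OK] [Algebra A OL]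
  [IsScalarTower A R₀ OK] [IsScalarTower A OK OL]
  [IsDomain OK] [IsIntegrallyClosed OK] [IsDomain OL] [ValuationRing OL]
  {K Ω : Type*} [Field K] [Algebra OK K] [IsFractionRing OK K] [Field Ω] [IsAlgClosed Ω]
  [Algebra K Ω] [Algebra OK Ω] [IsScalarTower OK K Ω] [Algebra OL Ω] [IsScalarTower OK OL Ω]
  [Algebra A Ω] [IsScalarTower A OK Ω] [IsScalarTower A OL Ω]
  {H : Type*} [CommRing H] [Bialgebra A H] [Coalgebra.IsCocomm A H] [Module.Projective A H]

/-- **Case (N1).** The uniformizer `ϖ` of `OK` has no `p`-th root in `OL`. -/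
theorem not_exists_pow_eq_root {p e r : ℕ} (hp : p.Prime) (hp2 : p ≠ 2) {B : R₀[X]}
    (hK : IsAdjoinRoot OK (X ^ e + C (p : R₀) * B)) (hϖ : Prime hK.root)
    [Finite (OK ⧸ Ideal.span {hK.root})]
    {ε ε' : OK} (hpε : (p : OK) = ε * hK.root ^ e) (hε : ε' * ε = 1)
    (her : e = r * (p - 1)) (hr : 1 ≤ r) (hC : IsDvdComplete hK.root)
    {Q : OK[X]} (hL : IsAdjoinRootMonic OL Q) (hQ : IsEis hK.root Q)
    (hι : Function.Injective (algebraMap OL Ω))
    (hcl : ∀ t ∈ IntermediateField.adjoin K {algebraMap OL Ω hL.root}, IsIntegral OK t →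
      t ∈ Set.range (algebraMap OL Ω))
    (hN : (WithConv.toConv (AlgHom.id A H)) ^ (p ^ 1) = 1)
    [Finite (H →ₐ[A] Ω)]
    (hrat : ∀ g : H →ₐ[A] Ω, ∃ g₀ : H →ₐ[A] OL, ∀ h, g h = algebraMap OL Ω (g₀ h))
    (hgen : ∀ E' : IntermediateField K Ω, (∀ (g : H →ₐ[A] Ω) (h : H), g h ∈ E') →
      algebraMap OL Ω hL.root ∈ E')
    {ζ : OK} (hζ : IsPrimitiveRoot ζ p)
    (x : OL) (hx : x ^ p = algebraMap OK OL hK.root) : False := by
  set ϖ := hK.root with hϖdef
  obtain ⟨s₀, hs₀⟩ := exists_not_dvd_artinSchreier hp hϖ hC.hausdorff hpε hε her hr hζ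
  have hp3 : 3 ≤ p := by have := hp.two_le; omega
  have hpr1 : 1 ≤ p * r := Nat.mul_pos hp.pos hr
  have hn : e < p * r * (p - 1) := by
    rw [her]
    have : r < p * r := by nlinarith
    exact Nat.mul_lt_mul_of_pos_right this (by omega)
  have hn' : e < (p * r - 1) * (p - 1) := by
    rw [her]
    have : r < p * r - 1 := by
      have : 3 * r ≤ p * r := Nat.mul_le_mul_right r hp3
      omega
    exact Nat.mul_lt_mul_of_pos_right this (by omega)
  have hut₀ : IsUnit (1 + ϖ ^ (p * r) * s₀) := by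
    have := hC.isUnit_one_add_mul (ϖ ^ (p * r - 1) * s₀)
    have e1 : ϖ * (ϖ ^ (p * r - 1) * s₀) = ϖ ^ (p * r) * s₀ := by
      rw [← mul_assoc, ← pow_succ', Nat.sub_add_cancel hpr1]
    rwa [e1] at this
  obtain ⟨y, hy⟩ := exists_artinSchreier_of_twist (K := K) (Ω := Ω) (H := H) (A := A) hp hK hϖ hpε hε
    her hr hC hL hQ hι hcl hN hrat hgen hζ (p * r) s₀ hn ϖ (ϖ * (1 + ϖ ^ (p * r) * s₀))
    (1 + ϖ ^ (p * r) * s₀) s₀ x hx hϖ.ne_zero (theta_root hK (p * r) s₀).symm
    (j := 1) (n' := p * r - 1) (by omega) hn' hut₀ (by rw [pow_one]) rfl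
  exact hs₀ y hy

/-- **Case (N2).** An element `1 + ϖ ^ i w` with `w` a unit, `0 < i < e`, `p ∤ i` has no `p`-th
root in `OL`. -/
theorem not_exists_pow_eq_one_add {p e r : ℕ} (hp : p.Prime) {B : R₀[X]}
    (hK : IsAdjoinRoot OK (X ^ e + C (p : R₀) * B)) (hϖ : Prime hK.root)
    [Finite (OK ⧸ Ideal.span {hK.root})]
    {ε ε' : OK} (hpε : (p : OK) = ε * hK.root ^ e) (hε : ε' * ε = 1)
    (her : e = r * (p - 1)) (hr : 1 ≤ r) (hC : IsDvdComplete hK.root)
    {Q : OK[X]} (hL : IsAdjoinRootMonic OL Q) (hQ : IsEis hK.root Q)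
    (hι : Function.Injective (algebraMap OL Ω))
    (hcl : ∀ t ∈ IntermediateField.adjoin K {algebraMap OL Ω hL.root}, IsIntegral OK t →
      t ∈ Set.range (algebraMap OL Ω))
    (hN : (WithConv.toConv (AlgHom.id A H)) ^ (p ^ 1) = 1)
    [Finite (H →ₐ[A] Ω)]
    (hrat : ∀ g : H →ₐ[A] Ω, ∃ g₀ : H →ₐ[A] OL, ∀ h, g h = algebraMap OL Ω (g₀ h))
    (hgen : ∀ E' : IntermediateField K Ω, (∀ (g : H →ₐ[A] Ω) (h : H), g h ∈ E') →
      algebraMap OL Ω hL.root ∈ E')
    {ζ : OK} (hζ : IsPrimitiveRoot ζ p)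
    (i : ℕ) (hi0 : 0 < i) (hie : i < e) (hip : ¬ p ∣ i) (w w' : OK) (hw : w' * w = 1)
    (x : OL) (hx : x ^ p = algebraMap OK OL (1 + hK.root ^ i * w)) : False := by
  obtain ⟨s₀, hs₀⟩ := exists_not_dvd_artinSchreier hp hϖ hC.hausdorff hpε hε her hr hζ
  have hp1 : 1 ≤ p - 1 := by have := hp.two_le; omega
  have hpr : p * r = e + r := by
    rw [her]
    have : p = (p - 1) + 1 := (Nat.sub_add_cancel hp.one_le).symm
    conv_lhs => rw [this]
    ring
  obtain ⟨n, hn_def⟩ : ∃ n, p * r = i + n := ⟨p * r - i, by omega⟩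
  have hnr : r < n := by omega
  have hn : e < n * (p - 1) := by
    rw [her]
    exact Nat.mul_lt_mul_of_pos_right hnr (by omega)
  obtain ⟨pc, hpc⟩ : hK.root ∣ (p : OK) := by
    obtain ⟨e', rfl⟩ : ∃ e', e = e' + 1 := ⟨e - 1, by omega⟩
    exact ⟨ε * hK.root ^ e', by rw [hpε, pow_succ]; ring⟩
  -- an inverse of `i` modulo `p`
  obtain ⟨i', -, hi'⟩ := Nat.exists_mul_mod_eq_one_of_coprime
    ((Nat.Prime.coprime_iff_not_dvd hp).2 hip).symm hp.one_lt
  have hii' : ((i : OK) * (i' : OK)) = (p : OK) * ((i * i' / p : ℕ) : OK) + 1 := by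
    have := Nat.div_add_mod (i * i') p
    rw [hi'] at this
    have h2 := congrArg (Nat.cast (R := OK)) this
    push_cast at h2
    exact h2.symm
  obtain ⟨i₀, rfl⟩ : ∃ i₀, i = i₀ + 1 := ⟨i - 1, by omega⟩
  obtain ⟨n₀, rfl⟩ : ∃ n₀, n = n₀ + 1 := ⟨n - 1, by omega⟩
  obtain ⟨a, ha⟩ : ∃ a : OK, a = s₀ * w' * (i' : OK) := ⟨_, rfl⟩
  obtain ⟨wt, hwt⟩ := Ideal.Quotient.mk_surjective (theta hK (n₀ + 1) a w)
  obtain ⟨c', hc'⟩ := dvd_sub_of_mk_eq_theta hK (n₀ + 1) a ⟨pc, hpc⟩ hwt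
  obtain ⟨ut, hut_def⟩ : ∃ ut : OK,
      ut = 1 + (hK.root * (1 + hK.root ^ (n₀ + 1) * a)) ^ (i₀ + 1) * wt := ⟨_, rfl⟩
  have hut : Ideal.Quotient.mk (twistIdeal p hK.root (n₀ + 1)) ut
      = theta hK (n₀ + 1) a (1 + hK.root ^ (i₀ + 1) * w) := by
    rw [hut_def]
    simp only [map_add, map_one, map_mul, map_pow, hwt, theta_root]
  -- binomial expansion of `(1 + ϖ ^ n a) ^ i`
  obtain ⟨k, hk⟩ : ∃ k : OK, (1 + hK.root ^ (n₀ + 1) * a) ^ (i₀ + 1)
      = 1 + ((i₀ + 1 : ℕ) : OK) * (hK.root ^ (n₀ + 1) * a)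
      + k * (hK.root ^ (n₀ + 1) * a) ^ 2 := by
    obtain ⟨k, hk⟩ := Polynomial.binomExpansion (X ^ (i₀ + 1) : OK[X]) 1 (hK.root ^ (n₀ + 1) * a)
    refine ⟨k, ?_⟩
    simp only [eval_pow, eval_X, derivative_X_pow, eval_mul, one_pow, mul_one] at hk
    rw [hk]
    simp
  have hu₁ : IsUnit (1 + hK.root ^ (i₀ + 1) * w) := by
    have := hC.isUnit_one_add_mul (hK.root ^ i₀ * w)
    have e1 : hK.root * (hK.root ^ i₀ * w) = hK.root ^ (i₀ + 1) * w := by ring
    rwa [e1] at this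
  obtain ⟨u', hu'⟩ := hu₁.exists_left_inv
  have hut₀ : IsUnit ut := by
    have := hC.isUnit_one_add_mul
      (hK.root ^ i₀ * (1 + hK.root ^ (n₀ + 1) * a) ^ (i₀ + 1) * wt)
    have e1 : hK.root * (hK.root ^ i₀ * (1 + hK.root ^ (n₀ + 1) * a) ^ (i₀ + 1) * wt)
        = (hK.root * (1 + hK.root ^ (n₀ + 1) * a)) ^ (i₀ + 1) * wt := by
      rw [mul_pow, pow_succ hK.root i₀]
      ring
    rw [e1, ← hut_def] at this
    exact this
  obtain ⟨M, hM⟩ : ∃ M : OK, M = c' + k * hK.root ^ n₀ * a ^ 2 * wt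
      + ((i₀ + 1 : ℕ) : OK) * a * hK.root ^ (n₀ + 1) * c' := ⟨_, rfl⟩
  obtain ⟨s, hs_def⟩ : ∃ s : OK, s = u' * (((i₀ + 1 : ℕ) : OK) * a * w + hK.root * M) := ⟨_, rfl⟩
  have hs : ut = (1 + hK.root ^ (i₀ + 1) * w) * (1 + hK.root ^ (p * r) * s) := by
    have hwt' : wt = w + hK.root ^ (n₀ + 1 + 1) * c' := by linear_combination hc'
    have e1 : (1 + hK.root ^ (i₀ + 1) * w) * (1 + hK.root ^ (p * r) * s)
        = (1 + hK.root ^ (i₀ + 1) * w) + hK.root ^ (p * r) *
          ((u' * (1 + hK.root ^ (i₀ + 1) * w)) * (((i₀ + 1 : ℕ) : OK) * a * w + hK.root * M)) := by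
      rw [hs_def]; ring
    rw [e1, hu', one_mul, hut_def, mul_pow, hk, hn_def, hM, hwt']
    ring
  obtain ⟨y, hy⟩ := exists_artinSchreier_of_twist (K := K) (Ω := Ω) (H := H) (A := A) hp hK hϖ hpε hε
    her hr hC hL hQ hι hcl hN hrat hgen hζ (n₀ + 1) a hn (1 + hK.root ^ (i₀ + 1) * w) ut ut s x hx
    hu₁.ne_zero hut (j := 0) (n' := n₀ + 1) (by omega) hn hut₀ (by rw [pow_zero, one_mul]) hs
  apply hs₀ y
  have hss₀ : hK.root ∣ s - s₀ := by
    have hu'' : u' = 1 - u' * (hK.root ^ (i₀ + 1) * w) := by linear_combination hu'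
    have hiaw : ((i₀ + 1 : ℕ) : OK) * a * w
        = s₀ + hK.root * (pc * ((((i₀ + 1) * i' / p : ℕ) : OK)) * s₀) := by
      rw [ha]
      have : ((i₀ + 1 : ℕ) : OK) * (s₀ * w' * (i' : OK)) * w
          = (((i₀ + 1 : ℕ) : OK) * (i' : OK)) * s₀ * (w' * w) := by ring
      rw [this, hii', hw, hpc]
      ring
    rw [hs_def, hiaw]
    refine ⟨pc * ((((i₀ + 1) * i' / p : ℕ) : OK)) * s₀ + M
      - u' * hK.root ^ i₀ * w * (s₀ + hK.root * (pc * ((((i₀ + 1) * i' / p : ℕ) : OK)) * s₀)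
        + hK.root * M), ?_⟩
    conv_lhs => rw [hu'']
    ring
  have h3 := dvd_add hy hss₀
  have e3 : y ^ p + ε * y - s + (s - s₀) = y ^ p + ε * y - s₀ := by ring
  rwa [e3] at h3

end Cases

end Fermat.Agent.TW.FF.Core77
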