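/-
TW / WP7 brick B7 (helper83): DESCENT of ramification bounds (multiplicative Herbrand theory of
`HerbrandAbs90` on the PT/LOC model of finite extensions of `ℚ_q`).

`T/ℚ_q` finite Galois, `L, K ⊆ T` Galois over `ℚ_q` with `T = L K`, `K ⊆ M ⊆ T` with `M/K` normal.
All lower index functions are computed with `ℤ_q`-generators of the rings of integers
(`GalGen83.lowerIdx`).

* `boundedBy_compositum` : `Gal(L/ℚ_q)`, `Gal(K/ℚ_q)` bounded by `s`  ⇒  `Gal(T/ℚ_q)` bounded by `s`.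
* `boundedBy_fixing`     : `Gal(T/ℚ_q)` bounded by `φ_{K/ℚ_q}(s₁)`  ⇒  `Gal(T/K)` bounded by `s₁`.
* `boundedBy_layer`      : the combination, pushed down to `Gal(M/K)`.
-/
import Mathlib
import Fermat.Agent.TW.FF.GalGen83

set_option autoImplicit false
set_option linter.unusedSectionVars false

open scoped Fermat.Agent.PT.LOC.Interface12 NNReal
open Fermat.Agent.PT.LOC.Interface12 Fermat.Agent.PT.LOC.Structure14
  Fermat.Agent.PT.LOC.StructureNorm14 Fermat.Agent.PT.LOC.StructureTower27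
open Fermat.Agent.TW.Ram.HerbrandAbs90 Fermat.Agent.TW.Ram.HerbrandField90
open Fermat.Agent.TW.FF.GalGen83
open Polynomial

namespace Fermat.Agent.TW.FF.Desc83

noncomputable section

variable {q : ℕ} [Fact q.Prime]

section Compositum

variable (L : Type) [Field L] [Algebra ℚ_[q] L] [FiniteDimensional ℚ_[q] L]
variable (K : Type) [Field K] [Algebra ℚ_[q] K] [FiniteDimensional ℚ_[q] K]
variable (T : Type) [Field T] [Algebra ℚ_[q] T] [FiniteDimensional ℚ_[q] T]
variable [Algebra L T] [IsScalarTower ℚ_[q] L T] [Algebra K T] [IsScalarTower ℚ_[q] K T]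
variable [Normal ℚ_[q] L] [Normal ℚ_[q] K] [IsGalois ℚ_[q] T]

/-- Bounded ramification passes to composita. -/
theorem boundedBy_compositum [DecidableEq (L ≃ₐ[ℚ_[q]] L)] [DecidableEq (K ≃ₐ[ℚ_[q]] K)]
    {xT : T} (hxT : IsGen q T xT) {xL : L} (hxL : IsGen q L xL) {xK : K} (hxK : IsGen q K xK)
    (hLK : ∀ σ : T ≃ₐ[ℚ_[q]] T, (∀ l : L, σ (algebraMap L T l) = algebraMap L T l) →
      (∀ k : K, σ (algebraMap K T k) = algebraMap K T k) → σ = 1)
    {s : ℝ≥0} (hL : (lowerIdx q ℚ_[q] L xL).BoundedBy s)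
    (hK : (lowerIdx q ℚ_[q] K xK).BoundedBy s) :
    (lowerIdx q ℚ_[q] T xT).BoundedBy s := by
  have hQL := isQuot_restrict ℚ_[q] L T hxT hxL
  have hQK := isQuot_restrict ℚ_[q] K T hxT hxK
  refine hQL.boundedBy_of_quots hQK ?_ hL hK
  intro σ h1 h2
  apply hLK σ
  · intro l
    have := AlgEquiv.restrictNormal_commutes σ L l
    rw [← this]
    have h3 : σ.restrictNormal L = 1 := h1
    rw [h3]
    rfl
  · intro k
    have := AlgEquiv.restrictNormal_commutes σ K k
    rw [← this]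
    have h3 : σ.restrictNormal K = 1 := h2
    rw [h3]
    rfl

end Compositum

section Fixing

variable (K : Type) [Field K] [Algebra ℚ_[q] K] [FiniteDimensional ℚ_[q] K]
variable (T : Type) [Field T] [Algebra ℚ_[q] T] [FiniteDimensional ℚ_[q] T]
variable [Algebra K T] [IsScalarTower ℚ_[q] K T] [FiniteDimensional K T]
variable [Normal ℚ_[q] K] [IsGalois ℚ_[q] T]

/-- An element of `Gal(T/ℚ_q)` fixing `K` pointwise, as an element of `Gal(T/K)`. -/
def liftFix (ρ : T ≃ₐ[ℚ_[q]] T) (h : ∀ k : K, ρ (algebraMap K T k) = algebraMap K T k) :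
    T ≃ₐ[K] T :=
  { ρ.toRingEquiv with
    commutes' := h }

theorem liftFix_restrictScalars (ρ : T ≃ₐ[ℚ_[q]] T)
    (h : ∀ k : K, ρ (algebraMap K T k) = algebraMap K T k) :
    (liftFix K T ρ h).restrictScalars ℚ_[q] = ρ := by
  ext t
  rfl

theorem restrictNormalHom_restrictScalars (τ : T ≃ₐ[K] T) :
    AlgEquiv.restrictNormalHom (F := ℚ_[q]) (K₁ := T) K (τ.restrictScalars ℚ_[q]) = 1 := by
  ext k
  apply (algebraMap K T).injective
  have := AlgEquiv.restrictNormal_commutes (τ.restrictScalars ℚ_[q]) K k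
  show algebraMap K T (((τ.restrictScalars ℚ_[q]).restrictNormal K) k) = _
  rw [this]
  simp

theorem apply_algebraMap_of_restrictNormalHom_eq_one (ρ : T ≃ₐ[ℚ_[q]] T)
    (h : AlgEquiv.restrictNormalHom (F := ℚ_[q]) (K₁ := T) K ρ = 1) (k : K) :
    ρ (algebraMap K T k) = algebraMap K T k := by
  have := AlgEquiv.restrictNormal_commutes ρ K k
  rw [← this]
  have h3 : ρ.restrictNormal K = 1 := h
  rw [h3]
  rfl

/-- The upper index computed in the kernel of restriction to `K` is the upper index of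
`Gal(T/K)`. -/
theorem upperKer_eq_upper [DecidableEq (K ≃ₐ[ℚ_[q]] K)] (xT : T) (τ : T ≃ₐ[K] T) :
    upperKer (AlgEquiv.restrictNormalHom (F := ℚ_[q]) (K₁ := T) K) (lowerIdx q ℚ_[q] T xT)
      (τ.restrictScalars ℚ_[q]) = (lowerIdx q K T xT).upper τ := by
  unfold upperKer phiKer LowerIndex.upper LowerIndex.phi LowerIndex.phiOn
  symm
  apply Finset.prod_bij (fun (ρ : T ≃ₐ[K] T) _ => ρ.restrictScalars ℚ_[q])
  · intro ρ _
    rw [mem_fibre]
    exact restrictNormalHom_restrictScalars K T ρ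
  · intro a _ b _ hab
    exact AlgEquiv.restrictScalars_injective ℚ_[q] hab
  · intro ρ hρ
    rw [mem_fibre] at hρ
    exact ⟨liftFix K T ρ (apply_algebraMap_of_restrictNormalHom_eq_one K T ρ hρ),
      Finset.mem_univ _, liftFix_restrictScalars K T ρ _⟩
  · intro ρ _
    rfl

/-- Base change of a ramification bound to the fixing group of a Galois subfield `K`. -/
theorem boundedBy_fixing [DecidableEq (K ≃ₐ[ℚ_[q]] K)] {xT : T} (hxT : IsGen q T xT) {xK : K}
    (hxK : IsGen q K xK) {s₁ : ℝ≥0}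
    (h : (lowerIdx q ℚ_[q] T xT).BoundedBy ((lowerIdx q ℚ_[q] K xK).phi s₁)) :
    (lowerIdx q K T xT).BoundedBy s₁ := by
  intro τ hτ
  have hQ := isQuot_restrict ℚ_[q] K T hxT hxK
  have hτ' : τ.restrictScalars ℚ_[q] ≠ 1 := by
    intro h1
    apply hτ
    ext t
    have := congrArg (fun ρ : T ≃ₐ[ℚ_[q]] T => ρ t) h1
    exact this
  have h1 := hQ.le_upperKer_of_boundedBy h hτ'
  rwa [upperKer_eq_upper] at h1

end Fixing

section Layer

variable (L : Type) [Field L] [Algebra ℚ_[q] L] [FiniteDimensional ℚ_[q] L]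
variable (K : Type) [Field K] [Algebra ℚ_[q] K] [FiniteDimensional ℚ_[q] K]
variable (M : Type) [Field M] [Algebra ℚ_[q] M] [FiniteDimensional ℚ_[q] M]
variable (T : Type) [Field T] [Algebra ℚ_[q] T] [FiniteDimensional ℚ_[q] T]
variable [Algebra L T] [IsScalarTower ℚ_[q] L T] [Algebra K T] [IsScalarTower ℚ_[q] K T]
variable [Algebra K M] [IsScalarTower ℚ_[q] K M] [Algebra M T] [IsScalarTower K M T]
  [IsScalarTower ℚ_[q] M T]
variable [FiniteDimensional K T] [FiniteDimensional K M]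
variable [Normal ℚ_[q] L] [Normal ℚ_[q] K] [IsGalois ℚ_[q] T] [Normal K M]

/-- **Descent.**  If `Gal(L/ℚ_q)` and `Gal(K/ℚ_q)` have ramification bounded by `s₀`, `T = L K`,
and `φ_{K/ℚ_q}(s₁) ≤ s₀`, then for `K ⊆ M ⊆ T` with `M/K` normal, `Gal(M/K)` has ramification
bounded by `s₁`. -/
theorem boundedBy_layer [DecidableEq (L ≃ₐ[ℚ_[q]] L)] [DecidableEq (K ≃ₐ[ℚ_[q]] K)]
    [DecidableEq (M ≃ₐ[K] M)]
    {xT : T} (hxT : IsGen q T xT) {xL : L} (hxL : IsGen q L xL) {xK : K} (hxK : IsGen q K xK)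
    {xM : M} (hxM : IsGen q M xM)
    (hLK : ∀ σ : T ≃ₐ[ℚ_[q]] T, (∀ l : L, σ (algebraMap L T l) = algebraMap L T l) →
      (∀ k : K, σ (algebraMap K T k) = algebraMap K T k) → σ = 1)
    {s₀ s₁ : ℝ≥0} (hL : (lowerIdx q ℚ_[q] L xL).BoundedBy s₀)
    (hK : (lowerIdx q ℚ_[q] K xK).BoundedBy s₀)
    (hs : (lowerIdx q ℚ_[q] K xK).phi s₁ ≤ s₀) :
    (lowerIdx q K M xM).BoundedBy s₁ := by
  have hT := boundedBy_compositum L K T hxT hxL hxK hLK hL hK
  have hH := boundedBy_fixing K T hxT hxK (hT.mono _ hs)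
  have : IsGalois K T := IsGalois.tower_top_of_isGalois ℚ_[q] K T
  exact (isQuot_restrict K M T hxT hxM).boundedBy hH

end Layer

end

end Fermat.Agent.TW.FF.Desc83
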