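/-
TW / WP7 chapter CLOSURE (helper14).  Galois descent, elementary form.

`exists_invariant_of_stable`: a nonzero `Ω`-subspace of `ι → Ω` (`ι` finite) which is stable under the
coordinatewise action of a group `G` of ring automorphisms of the field `Ω` contains a nonzero vector
with `G`-invariant coordinates.

`lattice_indep`: let `R → Ω` be injective with "every `G`-invariant element of `Ω` is a fraction of
elements of `R`", let `B` be an `R`-module with a finite basis `bs`, and `Φ : B →ₗ[R] (X → Ω)` an
injective map whose set of coordinate functionals is `G`-stable.  Then the functions `Φ (bs i)` are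
linearly independent over `Ω`.
-/
import Mathlib

set_option autoImplicit false

open scoped BigOperators

namespace Fermat.Agent.TW.FF.Descent14

section Core

variable {Ω : Type*} [Field Ω] {G : Type*} [Group G] [MulSemiringAction G Ω]
variable {ι : Type*} [Fintype ι]

/-- The support of a vector, as a finset (classically). -/
noncomputable def supp (n : ι → Ω) : Finset ι := by
  classical exact Finset.univ.filter fun i => n i ≠ 0

theorem mem_supp {n : ι → Ω} {i : ι} : i ∈ supp n ↔ n i ≠ 0 := by
  classical simp [supp]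

/-- **Galois descent, core form.** -/
theorem exists_invariant_of_stable (N : Submodule Ω (ι → Ω))
    (hN : ∀ (σ : G) (n : ι → Ω), n ∈ N → (fun i => σ • n i) ∈ N) (hne : N ≠ ⊥) :
    ∃ n ∈ N, n ≠ 0 ∧ ∀ (σ : G) (i : ι), σ • n i = n i := by
  classical
  -- choose a nonzero vector with support of minimal cardinality
  have hex : ∃ k : ℕ, ∃ n ∈ N, n ≠ 0 ∧ (supp n).card = k := by
    obtain ⟨n, hn, hn0⟩ := (Submodule.ne_bot_iff N).1 hne
    exact ⟨_, n, hn, hn0, rfl⟩
  obtain ⟨n, hn, hn0, hk⟩ := Nat.find_spec hex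
  have hmin : ∀ m ∈ N, m ≠ 0 → (Nat.find hex) ≤ (supp m).card := fun m hm hm0 =>
    Nat.find_min' hex ⟨m, hm, hm0, rfl⟩
  -- a coordinate where `n` does not vanish
  obtain ⟨i₀, hi₀⟩ : ∃ i, n i ≠ 0 := by
    by_contra h
    exact hn0 (funext fun i => not_not.1 fun hi => h ⟨i, hi⟩)
  -- normalise
  set n' : ι → Ω := (n i₀)⁻¹ • n with hn'
  have hn'N : n' ∈ N := N.smul_mem _ hn
  have hn'i₀ : n' i₀ = 1 := by simp [hn', hi₀]
  have hn'0 : n' ≠ 0 := fun h => by
    have := congrFun h i₀
    rw [hn'i₀] at this
    exact one_ne_zero this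
  have hsupp : supp n' = supp n := by
    ext i
    simp [mem_supp, hn', hi₀]
  refine ⟨n', hn'N, hn'0, ?_⟩
  intro σ
  -- the difference has strictly smaller support, hence vanishes
  set m : ι → Ω := (fun i => σ • n' i) - n' with hm
  have hmN : m ∈ N := N.sub_mem (hN σ n' hn'N) hn'N
  have hmsub : supp m ⊆ (supp n').erase i₀ := by
    intro i hi
    rw [mem_supp] at hi
    rw [Finset.mem_erase, mem_supp]
    refine ⟨?_, ?_⟩
    · rintro rfl
      apply hi
      simp [hm, hn'i₀]
    · intro h0
      apply hi
      simp [hm, h0]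
  have hm0 : m = 0 := by
    by_contra hm0
    have h1 := hmin m hmN hm0
    have h2 : (supp m).card ≤ ((supp n').erase i₀).card := Finset.card_le_card hmsub
    have h3 : ((supp n').erase i₀).card < (supp n').card :=
      Finset.card_erase_lt_of_mem (by rw [mem_supp, hn'i₀]; exact one_ne_zero)
    have h4 : (supp n').card = Nat.find hex := by rw [hsupp, hk]
    omega
  intro i
  have := congrFun hm0 i
  simpa [hm, sub_eq_zero] using this

end Core

section Lattice

variable {R : Type*} [CommRing R] [IsDomain R]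
variable {Ω : Type*} [Field Ω] [Algebra R Ω] [FaithfulSMul R Ω]
variable {G : Type*} [Group G] [MulSemiringAction G Ω]
variable {ι : Type*} [Fintype ι]

omit [FaithfulSMul R Ω] in
/-- Clearing denominators of finitely many fractions. -/
theorem exists_common_denominator (c : ι → Ω)
    (hc : ∀ i, ∃ a s : R, s ≠ 0 ∧ algebraMap R Ω s * c i = algebraMap R Ω a) :
    ∃ (s : R) (a : ι → R), s ≠ 0 ∧ ∀ i, algebraMap R Ω s * c i = algebraMap R Ω (a i) := by
  classical
  choose a s hs h using hc
  refine ⟨∏ i, s i, fun i => a i * ∏ j ∈ Finset.univ.erase i, s j,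
    Finset.prod_ne_zero_iff.2 fun i _ => hs i, fun i => ?_⟩
  rw [← Finset.mul_prod_erase Finset.univ s (Finset.mem_univ i), map_mul, map_mul, ← h i]
  ring

variable {B : Type*} [AddCommGroup B] [Module R B] {X : Type*}

/-- **Descent for lattices of equivariant functions.** -/
theorem lattice_indep
    (hfix : ∀ c : Ω, (∀ σ : G, σ • c = c) →
      ∃ a s : R, s ≠ 0 ∧ algebraMap R Ω s * c = algebraMap R Ω a)
    (bs : Module.Basis ι R B) (Φ : B →ₗ[R] (X → Ω)) (hΦinj : Function.Injective Φ)
    (hΦ : ∀ (σ : G) (x : X), ∃ x' : X, ∀ b : B, σ • Φ b x' = Φ b x)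
    (c : ι → Ω) (hc : ∀ x : X, ∑ i, c i * Φ (bs i) x = 0) : c = 0 := by
  classical
  -- the space of relations
  let N : Submodule Ω (ι → Ω) :=
    { carrier := {c | ∀ x : X, ∑ i, c i * Φ (bs i) x = 0}
      add_mem' := by
        intro c d hc hd x
        simp only [Pi.add_apply, add_mul, Finset.sum_add_distrib]
        rw [hc x, hd x, add_zero]
      zero_mem' := by
        intro x
        simp
      smul_mem' := by
        intro r c hc x
        simp only [Pi.smul_apply, smul_eq_mul, mul_assoc]
        rw [← Finset.mul_sum, hc x, mul_zero] }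
  have hNmem : ∀ c : ι → Ω, c ∈ N ↔ ∀ x : X, ∑ i, c i * Φ (bs i) x = 0 := fun _ => Iff.rfl
  have hstable : ∀ (σ : G) (n : ι → Ω), n ∈ N → (fun i => σ • n i) ∈ N := by
    intro σ n hn
    rw [hNmem] at hn ⊢
    intro x
    obtain ⟨x', hx'⟩ := hΦ σ x
    have h1 := hn x'
    have h2 := congrArg (fun z => σ • z) h1
    simp only [smul_zero, Finset.smul_sum, smul_mul'] at h2
    rw [← h2]
    refine Finset.sum_congr rfl fun i _ => ?_
    rw [hx']
  by_contra hc0
  have hNne : N ≠ ⊥ := by
    intro h
    apply hc0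
    have : c ∈ N := (hNmem c).2 hc
    rw [h] at this
    simpa using this
  obtain ⟨n, hnN, hn0, hninv⟩ := exists_invariant_of_stable N hstable hNne
  obtain ⟨s, a, hs, ha⟩ := exists_common_denominator (R := R) n fun i =>
    hfix (n i) fun σ => hninv σ i
  -- the element `∑ a i • bs i` of `B` is killed by `Φ`
  have hΦ0 : Φ (∑ i, a i • bs i) = 0 := by
    funext x
    have h1 : Φ (∑ i, a i • bs i) x = ∑ i, algebraMap R Ω (a i) * Φ (bs i) x := by
      rw [map_sum, Finset.sum_apply]
      refine Finset.sum_congr rfl fun i _ => ?_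
      rw [map_smul, Pi.smul_apply, Algebra.smul_def]
    rw [h1, Pi.zero_apply]
    have h2 : ∑ i, algebraMap R Ω (a i) * Φ (bs i) x =
        algebraMap R Ω s * ∑ i, n i * Φ (bs i) x := by
      rw [Finset.mul_sum]
      refine Finset.sum_congr rfl fun i _ => ?_
      rw [← ha i, mul_assoc]
    rw [h2, (hNmem n).1 hnN x, mul_zero]
  have hsum0 : ∑ i, a i • bs i = 0 := hΦinj (by rw [hΦ0, map_zero])
  have ha0 : ∀ i, a i = 0 := by
    have := bs.linearIndependent
    rw [Fintype.linearIndependent_iff] at this
    exact this a hsum0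
  apply hn0
  funext i
  have h3 := ha i
  rw [ha0 i, map_zero] at h3
  have hs' : algebraMap R Ω s ≠ 0 := fun h =>
    hs ((FaithfulSMul.algebraMap_injective R Ω) (by rw [h, map_zero]))
  exact (mul_eq_zero.1 h3).resolve_left hs'

end Lattice

end Fermat.Agent.TW.FF.Descent14
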