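/-
TW / WP7 brick B7 (helper83): the bridge between `PadicAlgCl p` (the language of `Spec72`) and the
PT/LOC model, and the proof of `Spec72.KummerFontaine` (THEOREM KF) from
  B3.1  `PmFlat92.pmHom_of_points`          (helper92),
  B4    `FontaineBound41.boundedBy_of_fontaine` (helper41),
  B5/B6 `HerbrandAbs90/HerbrandField90/KummerBreak90` (helper90),
  B7    `KFCore83.kf_core`                    (this series).
-/
import Mathlib
import Fermat.Agent.TW.FF.KFCore83
import Fermat.Agent.TW.FF.Spec72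
import Fermat.Agent.TW.FF.KilledModel68
import Fermat.Agent.TW.FF.PmFlat92
import Fermat.Agent.TW.RAM.FontaineBound41

set_option autoImplicit false
set_option linter.unusedSectionVars false

open scoped NNReal
open Fermat.Agent.TW.FF.FlatModel68 Fermat.Agent.TW.FF.KilledModel68
open Fermat.Agent.TW.FF.GalGen83 Fermat.Agent.TW.FF.KFCore83
open Fermat.Agent.TW.Ram.HerbrandAbs90
open IntermediateField

namespace Fermat.Agent.TW.FF.KFOmega83

noncomputable section

variable (p : ℕ) [Fact p.Prime]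

local notation "Ω" => PadicAlgCl p

/-! ### The field generated by the values of the points -/

section PtField

variable (H : Type) [CommRing H] [Algebra ℤ_[p] H]

/-- The set of all values of all `Ω`-points of `H`. -/
def ptValues : Set Ω := {x | ∃ (g : H →ₐ[ℤ_[p]] Ω) (h : H), g h = x}

/-- The field generated by the values of the points. -/
def ptField : IntermediateField ℚ_[p] Ω := IntermediateField.adjoin ℚ_[p] (ptValues p H)

variable {H}

theorem mem_ptField (g : H →ₐ[ℤ_[p]] Ω) (h : H) : g h ∈ ptField p H :=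
  IntermediateField.subset_adjoin _ _ ⟨g, h, rfl⟩

theorem algebraMap_int_mem (E : IntermediateField ℚ_[p] Ω) (a : ℤ_[p]) :
    algebraMap ℤ_[p] Ω a ∈ E := by
  rw [IsScalarTower.algebraMap_apply ℤ_[p] ℚ_[p] Ω]
  exact E.algebraMap_mem _

variable (H)

theorem normal_ptField : Normal ℚ_[p] (ptField p H) := by
  rw [IntermediateField.normal_iff_forall_map_le']
  intro σ
  unfold ptField
  rw [IntermediateField.adjoin_map]
  apply IntermediateField.adjoin.mono
  rintro _ ⟨_, ⟨g, h, rfl⟩, rfl⟩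
  refine ⟨((σ : Ω →ₐ[ℚ_[p]] Ω).restrictScalars ℤ_[p]).comp g, h, rfl⟩

theorem finiteDimensional_ptField [Module.Finite ℤ_[p] H] [Finite (H →ₐ[ℤ_[p]] Ω)] :
    FiniteDimensional ℚ_[p] (ptField p H) := by
  obtain ⟨n, s, hs⟩ := Module.Finite.exists_fin (R := ℤ_[p]) (M := H)
  set S' : Set Ω := Set.range (fun gi : (H →ₐ[ℤ_[p]] Ω) × Fin n => gi.1 (s gi.2)) with hS'
  have hfin : Finite S' := Set.finite_range _
  have hsub : S' ⊆ ptValues p H := by
    rintro _ ⟨gi, rfl⟩
    exact ⟨gi.1, s gi.2, rfl⟩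
  have heq : ptField p H = IntermediateField.adjoin ℚ_[p] S' := by
    apply le_antisymm
    · unfold ptField
      rw [IntermediateField.adjoin_le_iff]
      rintro _ ⟨g, h, rfl⟩
      have hh : h ∈ Submodule.span ℤ_[p] (Set.range s) := by rw [hs]; trivial
      refine Submodule.span_induction (p := fun h _ => g h ∈ IntermediateField.adjoin ℚ_[p] S')
        ?_ ?_ ?_ ?_ hh
      · rintro _ ⟨i, rfl⟩
        exact IntermediateField.subset_adjoin _ _ ⟨(g, i), rfl⟩
      · rw [map_zero]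
        exact zero_mem _
      · intro x y _ _ hx hy
        rw [map_add]
        exact add_mem hx hy
      · intro a x _ hx
        rw [map_smul, Algebra.smul_def]
        exact mul_mem (algebraMap_int_mem p _ a) hx
    · exact IntermediateField.adjoin.mono _ _ _ hsub
  rw [heq]
  exact IntermediateField.finiteDimensional_adjoin
    (fun x _ => Algebra.IsIntegral.isIntegral x)

end PtField

/-! ### Norms -/

section Norms

open Fermat.Agent.PT.LOC.Structure14 in
theorem snorm_eq_norm (E : IntermediateField ℚ_[p] Ω) [FiniteDimensional ℚ_[p] E] (x : E) :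
    snorm p E x = ‖(x : Ω)‖ := by
  show spectralNorm ℚ_[p] E x = _
  rw [spectralNorm.eq_of_tower (L := Ω)]
  rfl

open Fermat.Agent.PT.LOC.Structure14 Fermat.Agent.PT.LOC.StructureNorm14 in
theorem snorm_eq_norm' (E : IntermediateField ℚ_[p] Ω) [FiniteDimensional ℚ_[p] E]
    (K : IntermediateField ℚ_[p] E) (x : K) :
    snorm p K x = ‖(((x : K) : E) : Ω)‖ := by
  rw [← snorm_eq_norm p E (x : E)]
  exact (snorm_algebraMap_tower p K E x).symm

open Fermat.Agent.PT.LOC.Structure14 Fermat.Agent.PT.LOC.StructureTowerEF27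
  Fermat.Agent.PT.LOC.Interface12 in
/-- Tameness in terms of norms implies `p ∤ e`. -/
theorem not_dvd_ramIdx (E : Type) [Field E] [Algebra ℚ_[p] E] [FiniteDimensional ℚ_[p] E]
    (e' : ℕ) (he' : ¬ p ∣ e')
    (h : ∀ x : E, x ≠ 0 → ∃ m : ℤ, snorm p E x ^ e' = (p : ℝ) ^ m) :
    ¬ p ∣ ramIdx p ℚ_[p] E := by
  obtain ⟨πu, hπ⟩ := exists_isUniformizer p E
  have hπ0 : (πu : E) ≠ 0 := hπ.2.1
  obtain ⟨m, hm⟩ := h _ hπ0
  have he := Tame83.snorm_pow_ramIdx p E hπ
  have hp1 : (1 : ℝ) < p := by exact_mod_cast (Fact.out : p.Prime).one_lt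
  have hp0 : (0 : ℝ) < p := by linarith
  have h1 : ((p : ℝ) ^ m) ^ ramIdx p ℚ_[p] E = ((p : ℝ)⁻¹) ^ e' := by
    rw [← hm, ← he, ← pow_mul, ← pow_mul, mul_comm]
  rw [← zpow_natCast, ← zpow_mul, ← zpow_natCast, ← zpow_neg_one, ← zpow_mul] at h1
  have h2 : m * (ramIdx p ℚ_[p] E : ℤ) = -1 * (e' : ℤ) :=
    zpow_right_injective₀ hp0 hp1.ne' h1
  intro hdvd
  apply he'
  have h3 : (ramIdx p ℚ_[p] E : ℤ) ∣ (e' : ℤ) := ⟨-m, by linarith⟩
  have h4 : ramIdx p ℚ_[p] E ∣ e' := Int.natCast_dvd_natCast.1 h3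
  exact hdvd.trans h4

end Norms

/-! ### THEOREM KF -/

open Fermat.Agent.PT.LOC.Structure14 Fermat.Agent.PT.LOC.StructureTowerEF27 in
/-- **THEOREM KF** (`Spec72.KummerFontaine`): the Kummer form of Fontaine's bound. -/
theorem kummerFontaine : Spec72.KummerFontaine p := by
  intro _hp2 V _ _ act hflat hkill K0 _ _ htame hζex u z hu hz hfix
  obtain ⟨ζ0, hζ0⟩ := hζex
  obtain ⟨H, i1, i2, hfin, hfree, hco, hN, -, -, e, hmul, hact⟩ :=
    localReducedModel_of_localFlatModel p hflat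
  have hk : LiftGroupLike92.IsKilledBy ℤ_[p] H p := hN p hkill
  have hfinW : Finite (WithConv (H →ₐ[ℤ_[p]] Ω)) := Finite.of_equiv V e.symm
  have hfinPts : Finite (H →ₐ[ℤ_[p]] Ω) :=
    Finite.of_injective (WithConv.toConv : (H →ₐ[ℤ_[p]] Ω) → WithConv (H →ₐ[ℤ_[p]] Ω))
      (fun a b hab => by cases hab; rfl)
  set L0 : IntermediateField ℚ_[p] Ω := ptField p H with hL0
  have : FiniteDimensional ℚ_[p] L0 := finiteDimensional_ptField p H
  have : Normal ℚ_[p] L0 := normal_ptField p H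
  set T0 : IntermediateField ℚ_[p] Ω := L0 ⊔ K0 with hT0
  have : FiniteDimensional ℚ_[p] T0 := IntermediateField.finiteDimensional_sup L0 K0
  have : Normal ℚ_[p] T0 := IntermediateField.normal_sup ℚ_[p] Ω L0 K0
  have : IsGalois ℚ_[p] T0 := ⟨⟩
  have hL0T : L0 ≤ T0 := le_sup_left
  have hK0T : K0 ≤ T0 := le_sup_right
  -- `z ∈ T0` by Galois theory
  have hzT : z ∈ T0 := by
    rw [← InfiniteGalois.fixedField_fixingSubgroup T0, IntermediateField.mem_fixedField_iff]
    intro τ hτ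
    rw [IntermediateField.mem_fixingSubgroup_iff] at hτ
    apply hfix τ
    · intro x
      exact hτ _ (hK0T x.2)
    · intro v
      obtain ⟨f, rfl⟩ := e.surjective v
      refine (hact τ f f (fun h => ?_)).symm
      exact (hτ _ (hL0T (mem_ptField p f.ofConv h))).symm
  -- the PT/LOC fields
  set L : IntermediateField ℚ_[p] T0 := IntermediateField.restrict hL0T with hL
  set K : IntermediateField ℚ_[p] T0 := IntermediateField.restrict hK0T with hK
  have : Normal ℚ_[p] L := Normal.of_algEquiv (IntermediateField.restrictAlgEquiv hL0T)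
  have : IsGalois ℚ_[p] K := IsGalois.of_algEquiv (IntermediateField.restrictAlgEquiv hK0T)
  have hLK : L ⊔ K = ⊤ := by
    apply IntermediateField.lift_injective T0
    show (L ⊔ K).map T0.val = (⊤ : IntermediateField ℚ_[p] T0).map T0.val
    rw [IntermediateField.map_sup]
    have h1 : L.map T0.val = L0 := IntermediateField.lift_restrict hL0T
    have h2 : K.map T0.val = K0 := IntermediateField.lift_restrict hK0T
    rw [h1, h2, ← AlgHom.fieldRange_eq_map, IntermediateField.fieldRange_val]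
  -- tameness
  obtain ⟨e', he', htame'⟩ := htame
  have htameK : ¬ p ∣ ramIdx p ℚ_[p] K := by
    apply not_dvd_ramIdx p K e' he'
    intro x hx
    have hxK0 : ((x : T0) : Ω) ∈ K0 := (IntermediateField.mem_restrict hK0T (x : T0)).1 x.2
    have hx0 : (⟨((x : T0) : Ω), hxK0⟩ : K0) ≠ 0 := by
      intro h0
      apply hx
      have h1 : ((x : T0) : Ω) = 0 := congrArg Subtype.val h0
      exact Subtype.ext (Subtype.ext h1)
    obtain ⟨m, hm⟩ := htame' ⟨((x : T0) : Ω), hxK0⟩ hx0
    exact ⟨m, by rw [snorm_eq_norm' p T0 K x]; exact hm⟩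
  -- the root of unity and the unit
  have hζmem : (⟨(ζ0 : Ω), hK0T ζ0.2⟩ : T0) ∈ K := (IntermediateField.mem_restrict hK0T _).2 ζ0.2
  set ζ : K := ⟨⟨(ζ0 : Ω), hK0T ζ0.2⟩, hζmem⟩ with hζdef
  have hζ : IsPrimitiveRoot ζ p := by
    have hinj : Function.Injective (fun w : K => (((w : T0) : Ω))) := by
      intro a b hab
      exact Subtype.ext (Subtype.ext hab)
    have h1 : IsPrimitiveRoot ((ζ0 : K0) : Ω) p :=
      hζ0.map_of_injective (f := K0.val) K0.val.injective
    exact IsPrimitiveRoot.of_map_of_injective (f := (T0.val.comp K.val)) h1 (by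
      intro a b hab
      exact hinj hab)
  have humem : (⟨(u : Ω), hK0T u.2⟩ : T0) ∈ K := (IntermediateField.mem_restrict hK0T _).2 u.2
  set uK : K := ⟨⟨(u : Ω), hK0T u.2⟩, humem⟩ with huK
  have huK0 : uK ≠ 0 := by
    intro h0
    apply hu
    have h1 : (u : Ω) = 0 := congrArg (fun w : K => (((w : T0) : Ω))) h0
    exact Subtype.ext h1
  -- Fontaine's bound for `L`
  have hLbound : ∀ xL : L, IsGen p L xL →
      (lowerIdx p ℚ_[p] L xL).BoundedBy (normVal p K (ζ - 1) * (p : ℝ≥0)⁻¹) := by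
    intro xL hxL
    have : IsGalois ℚ_[p] L := ⟨⟩
    refine Fermat.Agent.TW.RAM.FontaineBound41.boundedBy_of_fontaine hxL ?_ ?_
    · have hZ := normVal_zeta_sub_one_pow hζ
      have h1 : (normVal p K (ζ - 1) * (p : ℝ≥0)⁻¹) ^ (p - 1)
          = (p : ℝ≥0)⁻¹ * ((p : ℝ≥0)⁻¹) ^ (p - 1) := by
        rw [mul_pow, hZ]
      have h2 : (p : ℝ≥0)⁻¹ * ((p : ℝ≥0)⁻¹) ^ (p - 1) = ((p : ℝ≥0)⁻¹) ^ p := by
        rw [← pow_succ', Nat.sub_add_cancel (Fact.out : p.Prime).one_lt.le]
      have h3 : ((normVal p K (ζ - 1) * (p : ℝ≥0)⁻¹ : ℝ≥0) : ℝ) ^ (p - 1)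
          = ((p : ℝ)⁻¹) ^ p := by
        have := congrArg (fun w : ℝ≥0 => (w : ℝ)) (h1.trans h2)
        simpa using this
      rw [h3, zpow_neg, zpow_natCast, inv_pow]
    · intro r hr0 hr
      refine PmFlat92.pmHom_of_points hk L (T0.val.comp L.val) ?_ ?_ r hr0 hr
      · intro g h
        have hmem : g h ∈ L0 := mem_ptField p g h
        exact ⟨⟨⟨g h, hL0T hmem⟩, (IntermediateField.mem_restrict hL0T _).2 hmem⟩, rfl⟩
      · rintro _ ⟨x, rfl⟩
        exact (IntermediateField.mem_restrict hL0T (x : T0)).1 x.2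
  -- apply the core theorem
  have hzT' : (⟨z, hzT⟩ : T0) ^ p = ((uK : K) : T0) := by
    apply Subtype.ext
    simpa using hz
  obtain ⟨a, y, ha, hy0, huay⟩ := kf_core T0 L K hLK htameK ζ hζ hLbound uK huK0 ⟨z, hzT⟩ hzT'
  have haK0 : ((a : T0) : Ω) ∈ K0 := (IntermediateField.mem_restrict hK0T (a : T0)).1 a.2
  have hyK0 : ((y : T0) : Ω) ∈ K0 := (IntermediateField.mem_restrict hK0T (y : T0)).1 y.2
  refine ⟨⟨((a : T0) : Ω), haK0⟩, ⟨((y : T0) : Ω), hyK0⟩, ?_, ?_, ?_⟩
  · rw [← snorm_eq_norm' p T0 K a]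
    exact ha
  · intro h0
    apply hy0
    have h1 : ((y : T0) : Ω) = 0 := congrArg Subtype.val h0
    exact Subtype.ext (Subtype.ext h1)
  · apply Subtype.ext
    have h1 := congrArg (fun w : K => (((w : T0) : Ω))) huay
    simpa using h1

end

end Fermat.Agent.TW.FF.KFOmega83
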