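/-
TW / WP7 (helper83): brick INERTIA-BRIDGE.  For a finite normal `K0/ℚ_p` inside `Ω = PadicAlgCl p`
the restriction `res : G_p → Gal(K0/ℚ_p)` maps `Spec72.inertiaSet p` ONTO the inertia subgroup of
`Gal(K0/ℚ_p)` (in all three of its incarnations: norm form, `Tame83.inertia`, and Mathlib's
`Ideal.inertia` at the maximal ideal of `intRing p K0` used by `InstSetup90`).  Surjectivity is
helper97's LS1 (`LocalStruct97.exists_inertia_eq_on`).  Also: descent of characters of `G_p` which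
are trivial on `K0.fixingSubgroup` to `Gal(K0/ℚ_p)`.
-/
import Mathlib
import Fermat.Agent.TW.FF.KFOmega83
import Fermat.Agent.TW.Cnt.LocalStruct97
import Fermat.Agent.TW.Cnt.InstSetup90
import Fermat.Agent.TW.OrdLocal.KummerQp71
import Fermat.Agent.TW.Cnt.KumSpec72

set_option autoImplicit false
set_option linter.unusedSectionVars false

open Fermat.Agent.TW.FF.FlatModel68 Fermat.Agent.TW.FF.Spec72
open Fermat.Agent.PT.LOC.Interface12 Fermat.Agent.PT.LOC.Structure14
  Fermat.Agent.PT.LOC.StructureNorm14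

namespace Fermat.Agent.TW.FF.InertiaBridge83

noncomputable section

variable (p : ℕ) [Fact p.Prime]

local notation "Ω" => PadicAlgCl p

variable (K0 : IntermediateField ℚ_[p] (PadicAlgCl p)) [FiniteDimensional ℚ_[p] K0]
  [Normal ℚ_[p] K0]

/-- The restriction `G_p → Gal(K0/ℚ_p)`. -/
def res : GQp p →* (K0 ≃ₐ[ℚ_[p]] K0) := AlgEquiv.restrictNormalHom K0

theorem res_apply (τ : GQp p) (x : K0) : ((res p K0 τ x : K0) : Ω) = τ (x : Ω) :=
  AlgEquiv.restrictNormal_commutes τ K0 x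

theorem res_surjective : Function.Surjective (res p K0) :=
  AlgEquiv.restrictNormalHom_surjective Ω

theorem res_ker : (res p K0).ker = K0.fixingSubgroup :=
  IntermediateField.restrictNormalHom_ker K0

theorem res_eq_one_iff (τ : GQp p) : res p K0 τ = 1 ↔ τ ∈ K0.fixingSubgroup := by
  rw [← res_ker p K0, MonoidHom.mem_ker]

theorem res_eq_iff (σ τ : GQp p) :
    res p K0 σ = res p K0 τ ↔ ∀ x : K0, σ (x : Ω) = τ (x : Ω) := by
  constructor
  · intro h x
    rw [← res_apply, ← res_apply, h]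
  · intro h
    ext x
    rw [res_apply, res_apply, h]

/-! ### Inertia, norm form -/

/-- The norm form of "`i` acts trivially on the residue field of `K0`". -/
def IsInert (i : K0 ≃ₐ[ℚ_[p]] K0) : Prop :=
  ∀ z : K0, ‖(z : Ω)‖ ≤ 1 → ‖((i z : K0) : Ω) - (z : Ω)‖ < 1

theorem isInert_res {τ : GQp p} (hτ : τ ∈ inertiaSet p) : IsInert p K0 (res p K0 τ) := by
  intro z hz
  rw [res_apply]
  exact hτ _ hz

/-- LS1 in restriction form: every inert element of `Gal(K0/ℚ_p)` is the restriction of an element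
of `Spec72.inertiaSet p`. -/
theorem exists_inertiaSet_res_eq (i : K0 ≃ₐ[ℚ_[p]] K0) (hi : IsInert p K0 i) :
    ∃ τ ∈ inertiaSet p, res p K0 τ = i := by
  obtain ⟨g, rfl⟩ := res_surjective p K0 i
  obtain ⟨τ, hτ, hτg⟩ := Fermat.Agent.TW.Cnt.LocalStruct97.exists_inertia_eq_on K0 g (by
    intro x hx
    have := hi x hx
    rwa [res_apply] at this)
  exact ⟨τ, hτ, (res_eq_iff p K0 τ g).2 hτg⟩

/-! ### Inertia, `Tame83.inertia` form -/

theorem mem_inertia_iff_isInert (i : K0 ≃ₐ[ℚ_[p]] K0) :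
    i ∈ Tame83.inertia p K0 ↔ IsInert p K0 i := by
  have : IsGalois ℚ_[p] K0 := ⟨⟩
  rw [Tame83.mem_inertia_iff]
  constructor
  · intro h z hz
    have hz' : z ∈ intRing p K0 := by
      rw [mem_intRing_iff]
      have := KFOmega83.snorm_eq_norm p K0 z
      unfold snorm at this
      rw [this]
      exact hz
    have := h z hz'
    rw [KFOmega83.snorm_eq_norm] at this
    simpa using this
  · intro h z hz
    rw [KFOmega83.snorm_eq_norm]
    have hz' : ‖(z : Ω)‖ ≤ 1 := by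
      rw [mem_intRing_iff] at hz
      have := KFOmega83.snorm_eq_norm p K0 z
      unfold snorm at this
      rw [← this]
      exact hz
    simpa using h z hz'

theorem res_mem_inertia {τ : GQp p} (hτ : τ ∈ inertiaSet p) :
    res p K0 τ ∈ Tame83.inertia p K0 :=
  (mem_inertia_iff_isInert p K0 _).2 (isInert_res p K0 hτ)

theorem exists_inertiaSet_res_eq_of_mem_inertia (i : K0 ≃ₐ[ℚ_[p]] K0)
    (hi : i ∈ Tame83.inertia p K0) : ∃ τ ∈ inertiaSet p, res p K0 τ = i :=
  exists_inertiaSet_res_eq p K0 i ((mem_inertia_iff_isInert p K0 i).1 hi)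


/-! ### Inertia, Mathlib's `Ideal.inertia` form (as used by `InstSetup90`) -/

/-- Type-level comparison (PT/LOC model): Mathlib's inertia subgroup at the maximal ideal of
`intRing q E` is `Tame83.inertia`. -/
theorem mem_idealInertia_iff_mem_inertia (q : ℕ) [Fact q.Prime] (E : Type) [Field E]
    [Algebra ℚ_[q] E] [FiniteDimensional ℚ_[q] E] [IsGalois ℚ_[q] E] (g : E ≃ₐ[ℚ_[q]] E) :
    g ∈ (IsLocalRing.maximalIdeal (intRing q E)).inertia (E ≃ₐ[ℚ_[q]] E)
      ↔ g ∈ Tame83.inertia q E := by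
  rw [AddSubgroup.mem_inertia, Tame83.mem_inertia_iff]
  constructor
  · intro h z hz
    have := (mem_maximalIdeal_iff_snorm q E _).1 (h ⟨z, hz⟩)
    exact this
  · intro h x
    show g • x - x ∈ IsLocalRing.maximalIdeal (intRing q E)
    rw [mem_maximalIdeal_iff_snorm]
    exact h x x.2

theorem mem_idealInertia_iff_isInert (i : K0 ≃ₐ[ℚ_[p]] K0) :
    i ∈ (IsLocalRing.maximalIdeal (intRing p K0)).inertia (K0 ≃ₐ[ℚ_[p]] K0)
      ↔ IsInert p K0 i := by
  have : IsGalois ℚ_[p] K0 := ⟨⟩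
  rw [mem_idealInertia_iff_mem_inertia, mem_inertia_iff_isInert]

theorem res_mem_idealInertia {τ : GQp p} (hτ : τ ∈ inertiaSet p) :
    res p K0 τ ∈ (IsLocalRing.maximalIdeal (intRing p K0)).inertia (K0 ≃ₐ[ℚ_[p]] K0) :=
  (mem_idealInertia_iff_isInert p K0 _).2 (isInert_res p K0 hτ)

theorem exists_inertiaSet_res_eq_of_mem_idealInertia (i : K0 ≃ₐ[ℚ_[p]] K0)
    (hi : i ∈ (IsLocalRing.maximalIdeal (intRing p K0)).inertia (K0 ≃ₐ[ℚ_[p]] K0)) :
    ∃ τ ∈ inertiaSet p, res p K0 τ = i :=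
  exists_inertiaSet_res_eq p K0 i ((mem_idealInertia_iff_isInert p K0 i).1 hi)

/-! ### Descent of characters -/

section Descent

variable {M : Type*} [Group M]

/-- A homomorphism on `G_p` which is trivial on `Gal(Ω/K0)` descends to `Gal(K0/ℚ_p)`. -/
def descend (ψ : GQp p →* M) (hψ : ∀ s ∈ K0.fixingSubgroup, ψ s = 1) :
    (K0 ≃ₐ[ℚ_[p]] K0) →* M :=
  (res p K0).liftOfSurjective (res_surjective p K0) ⟨ψ, by
    intro s hs
    rw [res_ker] at hs
    exact hψ s hs⟩

theorem descend_res (ψ : GQp p →* M) (hψ : ∀ s ∈ K0.fixingSubgroup, ψ s = 1) (τ : GQp p) :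
    descend p K0 ψ hψ (res p K0 τ) = ψ τ :=
  MonoidHom.liftOfRightInverse_comp_apply _ _ _ _ τ

/-- Two homomorphisms on `Gal(K0/ℚ_p)` agree as soon as they agree after restriction. -/
theorem hom_ext_res {ψ₁ ψ₂ : (K0 ≃ₐ[ℚ_[p]] K0) →* M}
    (h : ∀ τ : GQp p, ψ₁ (res p K0 τ) = ψ₂ (res p K0 τ)) : ψ₁ = ψ₂ := by
  ext i
  obtain ⟨τ, rfl⟩ := res_surjective p K0 i
  exact h τ

/-- `ψ` trivial on inertia iff its descent is trivial on the inertia subgroup of `Gal(K0/ℚ_p)`. -/
theorem descend_inertia_iff (ψ : GQp p →* M) (hψ : ∀ s ∈ K0.fixingSubgroup, ψ s = 1) :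
    (∀ i : K0 ≃ₐ[ℚ_[p]] K0, IsInert p K0 i → descend p K0 ψ hψ i = 1)
      ↔ ∀ τ ∈ inertiaSet p, ψ τ = 1 := by
  constructor
  · intro h τ hτ
    rw [← descend_res p K0 ψ hψ τ]
    exact h _ (isInert_res p K0 hτ)
  · intro h i hi
    obtain ⟨τ, hτ, rfl⟩ := exists_inertiaSet_res_eq p K0 i hi
    rw [descend_res]
    exact h τ hτ

end Descent

/-! ### Subgroups containing `Gal(Ω/K0)` -/

section Sub

variable (H : Subgroup (GQp p)) (hH : K0.fixingSubgroup ≤ H)

include hH in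
theorem res_mem_map_iff (τ : GQp p) : res p K0 τ ∈ H.map (res p K0) ↔ τ ∈ H := by
  constructor
  · rintro ⟨σ, hσ, hστ⟩
    have h1 : σ⁻¹ * τ ∈ K0.fixingSubgroup := by
      rw [← res_eq_one_iff, map_mul, map_inv, hστ, inv_mul_cancel]
    have : τ = σ * (σ⁻¹ * τ) := by group
    rw [this]
    exact H.mul_mem hσ (hH h1)
  · intro hτ
    exact ⟨τ, hτ, rfl⟩

include hH in
theorem index_map_res : (H.map (res p K0)).index = H.index :=
  Subgroup.index_map_eq H (res_surjective p K0) (by rw [res_ker]; exact hH)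

/-- The restriction `H → H₀ := res(H)`. -/
def resSub : ↥H →* ↥(H.map (res p K0)) := (res p K0).subgroupMap H

theorem coe_resSub (h : ↥H) : ((resSub p K0 H h : ↥(H.map (res p K0))) : K0 ≃ₐ[ℚ_[p]] K0)
    = res p K0 (h : GQp p) := rfl

theorem resSub_surjective : Function.Surjective (resSub p K0 H) :=
  (res p K0).subgroupMap_surjective H

variable {M : Type*} [Group M]

/-- A homomorphism on `H` trivial on `Gal(Ω/K0)` descends to `H₀ = res(H)`. -/
def descendSub (ξ : ↥H →* M) (hξ : ∀ h : ↥H, (h : GQp p) ∈ K0.fixingSubgroup → ξ h = 1) :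
    ↥(H.map (res p K0)) →* M :=
  (resSub p K0 H).liftOfSurjective (resSub_surjective p K0 H) ⟨ξ, by
    intro h hh
    apply hξ
    rw [← res_eq_one_iff]
    have : resSub p K0 H h = 1 := hh
    have h2 := congrArg Subtype.val this
    rwa [coe_resSub] at h2⟩

theorem descendSub_resSub (ξ : ↥H →* M)
    (hξ : ∀ h : ↥H, (h : GQp p) ∈ K0.fixingSubgroup → ξ h = 1) (h : ↥H) :
    descendSub p K0 H ξ hξ (resSub p K0 H h) = ξ h :=
  MonoidHom.liftOfRightInverse_comp_apply _ _ _ _ h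

end Sub

/-! ### The cyclotomic character on `p`-th roots of unity -/

open Fermat.Agent.TW.OrdLocal in
/-- Every `p`-th root of unity of `Ω` is moved by `g` through the exponent `chiLoc p g`. -/
theorem apply_eq_pow_chiLoc (g : GQp p) {z : Ω} (hz : z ^ p = 1) :
    g z = z ^ (KummerQp71.chiLoc p g).val := by
  have hpos : 0 < p := (Fact.out : p.Prime).pos
  have hprim : IsPrimitiveRoot (((KummerQp71.zetaLoc p : (PadicAlgCl p)ˣ)) : Ω) p :=
    IsPrimitiveRoot.coe_units_iff.2 (KummerQp71.zetaLoc_spec p)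
  have : NeZero p := ⟨hpos.ne'⟩
  obtain ⟨n, -, hn⟩ := hprim.eq_pow_of_pow_eq_one hz
  have h := congrArg (fun u : (PadicAlgCl p)ˣ => (u : PadicAlgCl p)) (KummerQp71.smul_zetaLoc p g)
  simp only [AlgEquiv.smul_units_def, Units.coe_map, MonoidHom.coe_coe,
    Units.val_pow_eq_pow_val] at h
  rw [← hn, map_pow, h, ← pow_mul, ← pow_mul, mul_comm]


open Fermat.Agent.TW.OrdLocal in
/-- If `ζ_p ∈ K0`, an element of `G_p` fixing `ζ_p` has trivial mod `p` cyclotomic character. -/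
theorem chiLoc_eq_one_of_apply_eq {ζ : Ω} (hζ : IsPrimitiveRoot ζ p) {s : GQp p}
    (hs : s ζ = ζ) : KummerQp71.chiLoc p s = 1 := by
  have hp : p.Prime := Fact.out
  have h1 := apply_eq_pow_chiLoc p s hζ.pow_eq_one
  rw [hs] at h1
  have h2 : ζ ^ (KummerQp71.chiLoc p s).val = ζ ^ 1 := by rw [← h1, pow_one]
  have h3 := hζ.pow_inj (ZMod.val_lt _) hp.one_lt h2
  have h4 : ((KummerQp71.chiLoc p s).val : ZMod p) = KummerQp71.chiLoc p s :=
    ZMod.natCast_zmod_val _
  rw [← h4, h3, Nat.cast_one]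

open Fermat.Agent.TW.OrdLocal Fermat.Agent.TW.Cnt in
/-- If `ζ_p ∈ K0` then `omegaU` is trivial on `Gal(Ω/K0)` (so it descends to `Gal(K0/ℚ_p)`). -/
theorem omegaU_eq_one_of_mem_fixingSubgroup (k : Type) [Field k] [Algebra (ZMod p) k] {ζ : K0}
    (hζ : IsPrimitiveRoot ζ p) {s : GQp p} (hs : s ∈ K0.fixingSubgroup) :
    KumSpec72.omegaU p k s = 1 := by
  apply Units.ext
  rw [KumSpec72.coe_omegaU, Units.val_one]
  have hζ' : IsPrimitiveRoot ((ζ : K0) : Ω) p :=
    hζ.map_of_injective (algebraMap K0 Ω).injective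
  rw [chiLoc_eq_one_of_apply_eq p hζ' ((IntermediateField.mem_fixingSubgroup_iff _ _).1 hs _ ζ.2),
    map_one]

open Fermat.Agent.TW.OrdLocal in
/-- The action of `Gal(K0/ℚ_p)` on a `p`-th root of unity of `K0` through `chiLoc`. -/
theorem res_apply_eq_pow_chiLoc (τ : GQp p) {z : K0} (hz : z ^ p = 1) :
    res p K0 τ z = z ^ (KummerQp71.chiLoc p τ).val := by
  apply Subtype.ext
  rw [res_apply, SubmonoidClass.coe_pow]
  apply apply_eq_pow_chiLoc
  rw [← SubmonoidClass.coe_pow, hz]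
  rfl

end

end Fermat.Agent.TW.FF.InertiaBridge83
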