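/-
TW / WP7 (helper92).  THE Ω-SIDE REDUCTION OF THEOREM KF.

`Spec72.KummerFontaine p` (stated inside `PadicAlgCl p`, for a flat module `V` killed by `p`) follows from
the purely type-level statement `LocKF p` on the PT/LOC model of `p`-adic fields:

  `K, L, T` finite Galois over `ℚ_p`, `K → T`, `L → T`, `T = L·K`, `L` has Fontaine's property `(P_m)` for
  all `m > p/(p-1)`, `K` tame containing `ζ_p`; if `u ∈ Kˣ` is a `p`-th power in `T` then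
  `u ∈ (1 + p 𝒪_K) · K^{×p}`.

* `LocKF p`                    : the statement;
* `not_dvd_ramIdx_of_isTame`   : `Spec72.IsTame` ⇒ `p ∤ e(K0/ℚ_p)` (PT/LOC `ramIdx`);
* `kummerFontaine_of_locKF`    : `LocKF p → Spec72.KummerFontaine p`.
-/
import Mathlib
import Fermat.Agent.PT.LOC.Interface12
import Fermat.Agent.PT.LOC.Structure14
import Fermat.Agent.PT.LOC.StructureTowerEF27
import Fermat.Agent.TW.RAM.Pm41
import Fermat.Agent.TW.FF.Tame83
import Fermat.Agent.TW.FF.SplitField92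

set_option autoImplicit false
set_option linter.unusedSectionVars false

open Fermat.Agent.PT.LOC.Interface12 Fermat.Agent.PT.LOC.Structure14
  Fermat.Agent.PT.LOC.StructureTowerEF27
open Fermat.Agent.TW.FF.FlatModel68 Fermat.Agent.TW.FF.Spec72 Fermat.Agent.TW.FF.SplitField92
open Fermat.Agent.TW.RAM.Pm41

namespace Fermat.Agent.TW.FF.KFBridge92

noncomputable section

variable (p : ℕ) [Fact p.Prime]

/-- THEOREM KF on the PT/LOC model of `p`-adic fields (no `PadicAlgCl`). -/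
def LocKF : Prop :=
  p ≠ 2 →
  ∀ (K L T : Type) [Field K] [Field L] [Field T] [Algebra ℚ_[p] K] [Algebra ℚ_[p] L]
    [Algebra ℚ_[p] T] [FiniteDimensional ℚ_[p] K] [FiniteDimensional ℚ_[p] L]
    [FiniteDimensional ℚ_[p] T] [Algebra K T] [IsScalarTower ℚ_[p] K T] [Algebra L T]
    [IsScalarTower ℚ_[p] L T] [IsGalois ℚ_[p] K] [IsGalois ℚ_[p] L] [IsGalois ℚ_[p] T],
    (∀ σ : T ≃ₐ[ℚ_[p]] T, (∀ x : L, σ (algebraMap L T x) = algebraMap L T x) →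
      (∀ x : K, σ (algebraMap K T x) = algebraMap K T x) → σ = 1) →
    (∀ r : ℝ, 0 ≤ r → r ^ (p - 1) < (p : ℝ) ^ (-(p : ℤ)) → PmHom p ℚ_[p] L r) →
    ¬ p ∣ ramIdx p ℚ_[p] K →
    (∃ ζ : K, IsPrimitiveRoot ζ p) →
    ∀ (u : K) (z : T), u ≠ 0 → z ^ p = algebraMap K T u →
      ∃ a y : K, snorm p K a ≤ 1 ∧ y ≠ 0 ∧ u = (1 + (p : K) * a) * y ^ p

variable {p}

/-- `Spec72.IsTame` gives tameness in the PT/LOC sense. -/
theorem not_dvd_ramIdx_of_isTame (K0 : IntermediateField ℚ_[p] (PadicAlgCl p))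
    [FiniteDimensional ℚ_[p] K0] (h : IsTame p K0) : ¬ p ∣ ramIdx p ℚ_[p] K0 := by
  obtain ⟨e, he, hval⟩ := h
  obtain ⟨π, hπ⟩ := exists_isUniformizer p K0
  have hπ0 : (π : K0) ≠ 0 := π.ne_zero
  obtain ⟨m, hm⟩ := hval (π : K0) hπ0
  have h1 := Tame83.snorm_pow_ramIdx p K0 hπ
  rw [show snorm p K0 (π : K0) = ‖((π : K0) : PadicAlgCl p)‖ from
    spectralNorm_eq_norm_coe K0 (π : K0)] at h1
  set s := ‖((π : K0) : PadicAlgCl p)‖ with hs
  set E := ramIdx p ℚ_[p] K0 with hE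
  have hp1 : (1 : ℝ) < p := by exact_mod_cast (Fact.out : p.Prime).one_lt
  have hp0 : (0 : ℝ) < p := by linarith
  -- `s ^ (E * e)` computed in two ways
  have h2 : ((p : ℝ) ^ m) ^ E = ((p : ℝ)⁻¹) ^ e := by
    rw [← hm, ← h1, ← pow_mul, ← pow_mul, mul_comm]
  have h3 : (p : ℝ) ^ (m * (E : ℤ)) = (p : ℝ) ^ (-(e : ℤ)) := by
    rw [zpow_mul, zpow_natCast, h2, zpow_neg, zpow_natCast, inv_pow]
  have h4 : m * (E : ℤ) = -(e : ℤ) := zpow_right_injective₀ hp0 hp1.ne' h3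
  intro hdvd
  apply he
  have h5 : (E : ℤ) ∣ (e : ℤ) := ⟨-m, by linarith⟩
  exact Nat.dvd_trans hdvd (Int.natCast_dvd_natCast.1 h5)

/-- **The Ω-side reduction of THEOREM KF.** -/
theorem kummerFontaine_of_locKF (h : LocKF p) : KummerFontaine p := by
  intro hp2 V _ _ act hV hk K0 _ _ htame hζ u z hu hzu hz
  obtain ⟨L, hLfd, hLgal, hL, hPm⟩ := exists_splitField V act hV hk
  have hzT : z ∈ K0 ⊔ L := (mem_sup_iff K0 L act hL z).2 hz
  let _ : Algebra K0 ↥(K0 ⊔ L) :=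
    (IntermediateField.inclusion (le_sup_left : K0 ≤ K0 ⊔ L)).toRingHom.toAlgebra
  let _ : Algebra L ↥(K0 ⊔ L) :=
    (IntermediateField.inclusion (le_sup_right : L ≤ K0 ⊔ L)).toRingHom.toAlgebra
  have : IsScalarTower ℚ_[p] K0 ↥(K0 ⊔ L) := IsScalarTower.of_algebraMap_eq fun x => rfl
  have : IsScalarTower ℚ_[p] L ↥(K0 ⊔ L) := IsScalarTower.of_algebraMap_eq fun x => rfl
  have : IsGalois ℚ_[p] ↥(K0 ⊔ L) := ⟨⟩
  have hLK : ∀ σ : ↥(K0 ⊔ L) ≃ₐ[ℚ_[p]] ↥(K0 ⊔ L),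
      (∀ x : L, σ (algebraMap L ↥(K0 ⊔ L) x) = algebraMap L ↥(K0 ⊔ L) x) →
      (∀ x : K0, σ (algebraMap K0 ↥(K0 ⊔ L) x) = algebraMap K0 ↥(K0 ⊔ L) x) → σ = 1 := by
    intro σ h1 h0
    ext x
    -- lift `σ` to `PadicAlgCl p`
    have hlift : ∀ y : ↥(K0 ⊔ L), ((σ.liftNormal (PadicAlgCl p)) (y : PadicAlgCl p)) =
        ((σ y : ↥(K0 ⊔ L)) : PadicAlgCl p) := fun y => σ.liftNormal_commutes (PadicAlgCl p) y
    have hfix := fixed_of_mem_sup K0 L (x : PadicAlgCl p) x.2 (σ.liftNormal (PadicAlgCl p))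
      (fun y => by
        have := hlift (algebraMap K0 ↥(K0 ⊔ L) y)
        rw [h0 y] at this
        exact this)
      (fun y => by
        have := hlift (algebraMap L ↥(K0 ⊔ L) y)
        rw [h1 y] at this
        exact this)
    rw [hlift x] at hfix
    exact hfix
  obtain ⟨ζ, hζ⟩ := hζ
  have hzu' : (⟨z, hzT⟩ : ↥(K0 ⊔ L)) ^ p = algebraMap K0 ↥(K0 ⊔ L) u := Subtype.ext hzu
  obtain ⟨a, y, ha, hy, huy⟩ := h hp2 K0 L ↥(K0 ⊔ L) hLK hPm (not_dvd_ramIdx_of_isTame K0 htame)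
    ⟨ζ, hζ⟩ u ⟨z, hzT⟩ hu hzu'
  refine ⟨a, y, ?_, hy, huy⟩
  rw [← spectralNorm_eq_norm_coe K0 a]
  exact ha

end

end Fermat.Agent.TW.FF.KFBridge92
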