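/-
TW / WP7 brick B7 (helper83): NORMAL FORMS of elements of `Kˣ` modulo `p`-th powers, for a finite
extension `K/ℚ_q` (PT/LOC model), `π` a uniformizer, `e = e(K/ℚ_q)`.

Every `u ∈ Kˣ` is `y ^ q * u'` with `u'` of one of the shapes
* (N1) `‖u'‖ = ‖π‖ ^ j`, `q ∤ j`;
* (N2) `u' = 1 + π ^ i * w`, `‖w‖ = 1`, `0 < i < e`, `q ∤ i`;
* (N3) `u' = 1 + q * b`, `‖b‖ ≤ 1`.
(Successive approximation: the residue field is perfect, so a level divisible by `q` and `< e`
can be pushed up.)
-/
import Mathlib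
import Fermat.Agent.PT.LOC.Unram11
import Fermat.Agent.PT.LOC.RootsUnity14
import Fermat.Agent.PT.LOC.StructureTowerEF27
import Fermat.Agent.TW.FF.PthRoot83
import Fermat.Agent.TW.FF.Tame83

set_option autoImplicit false
set_option linter.unusedSectionVars false

open scoped Fermat.Agent.PT.LOC.Interface12
open Fermat.Agent.PT.LOC.Interface12 Fermat.Agent.PT.LOC.Structure14
  Fermat.Agent.PT.LOC.StructureNorm14 Fermat.Agent.PT.LOC.StructureTower27
  Fermat.Agent.PT.LOC.StructureTowerEF27 Fermat.Agent.PT.LOC.Unram11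
  Fermat.Agent.PT.LOC.RootsUnity14

namespace Fermat.Agent.TW.FF.KumNormal83

noncomputable section

variable (q : ℕ) [Fact q.Prime]
variable (K : Type) [Field K] [Algebra ℚ_[q] K] [FiniteDimensional ℚ_[q] K]

/-- shape (N2) -/
def IsN2 (π : K) (e : ℕ) (u' : K) : Prop :=
  ∃ i : ℕ, 0 < i ∧ i < e ∧ ¬ q ∣ i ∧ ∃ w : K, snorm q K w = 1 ∧ u' = 1 + π ^ i * w

/-- shape (N3) -/
def IsN3 (u' : K) : Prop := ∃ b : K, snorm q K b ≤ 1 ∧ u' = 1 + (q : K) * b

/-- shape (N1) -/
def IsN1 (π : K) (u' : K) : Prop :=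
  ∃ j : ℤ, ¬ (q : ℤ) ∣ j ∧ snorm q K u' = snorm q K π ^ j

variable {q K}

theorem natCast_q_ne_zero : (q : K) ≠ 0 := by
  intro h
  have := snorm_natCast_q q K
  rw [h, snorm_zero] at this
  have hq : (0 : ℝ) < q := by exact_mod_cast (Fact.out : q.Prime).pos
  have : (0 : ℝ) < (q : ℝ)⁻¹ := inv_pos.2 hq
  linarith

/-- The residue field is perfect: every integer is a `q`-th power modulo the maximal ideal. -/
theorem exists_pow_close {w : K} (hw : w ∈ intRing q K) :
    ∃ c ∈ intRing q K, snorm q K (w - c ^ q) < 1 := by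
  obtain ⟨k, hk, hQ⟩ := exists_resCard_eq_pow q K
  refine ⟨w ^ (q ^ (k - 1)), Subalgebra.pow_mem _ hw _, ?_⟩
  have h1 : (w ^ (q ^ (k - 1))) ^ q = w ^ resCard q K := by
    rw [← pow_mul, hQ, ← pow_succ, Nat.sub_add_cancel hk]
  rw [h1]
  have h2 : (Ideal.Quotient.mk (mI q K) ⟨w, hw⟩ : resF q K) ^ Fintype.card (resF q K)
      = Ideal.Quotient.mk (mI q K) ⟨w, hw⟩ := FiniteField.pow_card _
  rw [fintypeCard_resF, ← map_pow] at h2
  have h3 : (⟨w, hw⟩ : intRing q K) ^ resCard q K - ⟨w, hw⟩ ∈ mI q K := (Ideal.Quotient.eq).1 h2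
  have h4 := (mem_mI_iff_snorm q K _).1 h3
  have h5 : (((⟨w, hw⟩ : intRing q K) ^ resCard q K - ⟨w, hw⟩ : intRing q K) : K)
      = w ^ resCard q K - w := by
    rw [Subalgebra.coe_sub, Subalgebra.coe_pow]
  rw [h5] at h4
  rw [← snorm_neg, neg_sub]
  exact h4

theorem snorm_eq_one_of_sub_lt {x y : K} (hy : snorm q K y = 1) (h : snorm q K (x - y) < 1) :
    snorm q K x = 1 := by
  apply le_antisymm
  · have : x = (x - y) + y := by ring
    rw [this]
    refine (snorm_add_le_max q K _ _).trans (max_le h.le hy.le)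
  · by_contra hcon
    have hlt : snorm q K x < 1 := not_le.1 hcon
    have : y = x - (x - y) := by ring
    have h2 : snorm q K y < 1 := by
      rw [this]
      refine lt_of_le_of_lt (snorm_sub_le_max q K _ _) (max_lt hlt h)
    linarith

/-- Discreteness: `‖x‖ < ‖π‖ ^ i` implies `‖x‖ ≤ ‖π‖ ^ (i+1)`. -/
theorem snorm_le_pow_succ {π : K} (hπ : IsUniformizer q K π) {x : K} {i : ℕ}
    (h : snorm q K x < snorm q K π ^ i) : snorm q K x ≤ snorm q K π ^ (i + 1) := by
  have hπpos : 0 < snorm q K π := snorm_pos q K hπ.2.1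
  have hpow : 0 < snorm q K π ^ i := pow_pos hπpos i
  have h1 : snorm q K (x * (π ^ i)⁻¹) < 1 := by
    rw [snorm_mul, snorm_inv, snorm_pow, mul_inv_lt_iff₀ hpow, one_mul]
    exact h
  have h2 := (snorm_lt_one_iff_le_uniformizer q K π hπ _).1 h1
  rw [snorm_mul, snorm_inv, snorm_pow, mul_inv_le_iff₀ hpow] at h2
  rw [pow_succ']
  exact h2

theorem isN3_of_le {π : K} (hπ : IsUniformizer q K π) {e i : ℕ}
    (he : snorm q K π ^ e = (q : ℝ)⁻¹) (hei : e ≤ i) {u₂ : K}
    (h : snorm q K (u₂ - 1) ≤ snorm q K π ^ i) : IsN3 q K u₂ := by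
  have hq : (0 : ℝ) < q := by exact_mod_cast (Fact.out : q.Prime).pos
  have hπ1 : snorm q K π ≤ 1 := (snorm_uniformizer_lt_one q K π hπ).le
  refine ⟨(u₂ - 1) * (q : K)⁻¹, ?_, ?_⟩
  · rw [snorm_mul, snorm_inv, snorm_natCast_q, inv_inv]
    have h1 : snorm q K π ^ i ≤ snorm q K π ^ e :=
      pow_le_pow_of_le_one (snorm_nonneg q K π) hπ1 hei
    calc snorm q K (u₂ - 1) * (q : ℝ) ≤ (q : ℝ)⁻¹ * q :=
          mul_le_mul_of_nonneg_right (by rw [← he]; exact h.trans h1) hq.le
      _ = 1 := inv_mul_cancel₀ hq.ne'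
  · have := natCast_q_ne_zero (q := q) (K := K)
    field_simp
    ring

/-- The successive approximation step. -/
theorem step {π : K} (hπ : IsUniformizer q K π) {e : ℕ} (he : snorm q K π ^ e = (q : ℝ)⁻¹) :
    ∀ k i : ℕ, 0 < i → e ≤ i + k → ∀ u₂ : K, snorm q K (u₂ - 1) ≤ snorm q K π ^ i →
      ∃ y u' : K, y ≠ 0 ∧ u₂ = y ^ q * u' ∧ (IsN2 q K π e u' ∨ IsN3 q K u') := by
  have hqp : q.Prime := Fact.out
  have hπ0 : π ≠ 0 := hπ.2.1
  have hπpos : 0 < snorm q K π := snorm_pos q K hπ0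
  have hπlt : snorm q K π < 1 := snorm_uniformizer_lt_one q K π hπ
  intro k
  induction k with
  | zero =>
    intro i _ hei u₂ h
    exact ⟨1, u₂, one_ne_zero, by simp, Or.inr (isN3_of_le hπ he (by omega) h)⟩
  | succ k ih =>
    intro i hi hei u₂ h
    by_cases hei' : e ≤ i
    · exact ⟨1, u₂, one_ne_zero, by simp, Or.inr (isN3_of_le hπ he hei' h)⟩
    have hie : i < e := not_le.1 hei'
    have IH := ih (i + 1) (Nat.succ_pos i) (by omega)
    by_cases hlt : snorm q K (u₂ - 1) < snorm q K π ^ i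
    · exact IH u₂ (snorm_le_pow_succ hπ hlt)
    have heq : snorm q K (u₂ - 1) = snorm q K π ^ i := le_antisymm h (not_lt.1 hlt)
    have hpowpos : 0 < snorm q K π ^ i := pow_pos hπpos i
    have hpow0 : π ^ i ≠ 0 := pow_ne_zero i hπ0
    set w : K := (u₂ - 1) * (π ^ i)⁻¹ with hw
    have hw1 : snorm q K w = 1 := by
      rw [hw, snorm_mul, snorm_inv, snorm_pow, heq]
      exact mul_inv_cancel₀ hpowpos.ne'
    have hu₂ : u₂ = 1 + π ^ i * w := by
      rw [hw]
      field_simp
      ring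
    by_cases hdiv : q ∣ i
    · obtain ⟨j, hj⟩ := hdiv
      have hj0 : 0 < j := by
        rcases Nat.eq_zero_or_pos j with h0 | h0
        · rw [h0, mul_zero] at hj
          omega
        · exact h0
      have hwint : w ∈ intRing q K := (mem_intRing_iff q K w).2 hw1.le
      obtain ⟨c, hcint, hc⟩ := exists_pow_close hwint
      have hc1 : snorm q K c ≤ 1 := (mem_intRing_iff q K c).1 hcint
      -- binomial expansion in the ring of integers
      have hbint : π ^ j * c ∈ intRing q K :=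
        Subalgebra.mul_mem _ (Subalgebra.pow_mem _ hπ.1 j) hcint
      obtain ⟨r, hr⟩ := PthRoot83.exists_add_pow_prime hqp (1 : intRing q K)
        (⟨π ^ j * c, hbint⟩ : intRing q K)
      have hr' : (1 + π ^ j * c) ^ q = 1 + (q : K) * (π ^ j * c)
          + (q : K) * (π ^ j * c) ^ 2 * (r : K) + (π ^ j * c) ^ q := by
        have := congrArg (fun z : intRing q K => (z : K)) hr
        simpa using this
      have hr1 : snorm q K (r : K) ≤ 1 := (mem_intRing_iff q K _).1 r.2
      set y : K := 1 + π ^ j * c with hy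
      have hbn : snorm q K (π ^ j * c) ≤ snorm q K π ^ j := by
        rw [snorm_mul, snorm_pow]
        calc snorm q K π ^ j * snorm q K c ≤ snorm q K π ^ j * 1 :=
              mul_le_mul_of_nonneg_left hc1 (pow_pos hπpos j).le
          _ = snorm q K π ^ j := mul_one _
      have hbn1 : snorm q K (π ^ j * c) < 1 :=
        lt_of_le_of_lt hbn (pow_lt_one₀ hπpos.le hπlt hj0.ne')
      have hy1 : snorm q K y = 1 := by
        apply snorm_eq_one_of_sub_lt (y := 1) (snorm_one q K)
        rw [hy, add_sub_cancel_left]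
        exact hbn1
      have hy0 : y ≠ 0 := by
        intro h0
        rw [h0, snorm_zero] at hy1
        exact zero_ne_one hy1
      have hyq1 : snorm q K (y ^ q) = 1 := by rw [snorm_pow, hy1, one_pow]
      have hyq0 : y ^ q ≠ 0 := pow_ne_zero _ hy0
      -- the difference `u₂ - y ^ q`
      have hdiff : u₂ - y ^ q = π ^ i * (w - c ^ q)
          - (q : K) * ((π ^ j * c) * (1 + (π ^ j * c) * (r : K))) := by
        rw [hr', hu₂, hj]
        ring
      have hd1 : snorm q K (π ^ i * (w - c ^ q)) ≤ snorm q K π ^ (i + 1) := by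
        apply snorm_le_pow_succ hπ
        rw [snorm_mul, snorm_pow]
        calc snorm q K π ^ i * snorm q K (w - c ^ q) < snorm q K π ^ i * 1 :=
              mul_lt_mul_of_pos_left hc hpowpos
          _ = snorm q K π ^ i := mul_one _
      have hd2 : snorm q K ((q : K) * ((π ^ j * c) * (1 + (π ^ j * c) * (r : K))))
          ≤ snorm q K π ^ (i + 1) := by
        rw [snorm_mul, snorm_natCast_q, ← he, snorm_mul]
        have h3 : snorm q K (1 + (π ^ j * c) * (r : K)) ≤ 1 := by
          refine (snorm_add_le_max q K _ _).trans (max_le (snorm_one q K).le ?_)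
          rw [snorm_mul]
          calc snorm q K (π ^ j * c) * snorm q K (r : K) ≤ 1 * 1 :=
                mul_le_mul hbn1.le hr1 (snorm_nonneg q K _) zero_le_one
            _ = 1 := one_mul 1
        have h4 : snorm q K (π ^ j * c) * snorm q K (1 + (π ^ j * c) * (r : K))
            ≤ snorm q K π ^ j := by
          calc snorm q K (π ^ j * c) * snorm q K (1 + (π ^ j * c) * (r : K))
              ≤ snorm q K π ^ j * 1 :=
                mul_le_mul hbn h3 (snorm_nonneg q K _) (pow_pos hπpos j).le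
            _ = snorm q K π ^ j := mul_one _
        calc snorm q K π ^ e * (snorm q K (π ^ j * c) * snorm q K (1 + (π ^ j * c) * (r : K)))
            ≤ snorm q K π ^ e * snorm q K π ^ j :=
              mul_le_mul_of_nonneg_left h4 (pow_pos hπpos e).le
          _ = snorm q K π ^ (e + j) := (pow_add _ _ _).symm
          _ ≤ snorm q K π ^ (i + 1) :=
              pow_le_pow_of_le_one hπpos.le hπlt.le (by omega)
      have hd : snorm q K (u₂ - y ^ q) ≤ snorm q K π ^ (i + 1) := by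
        rw [hdiff]
        exact (snorm_sub_le_max q K _ _).trans (max_le hd1 hd2)
      set u₃ : K := u₂ * (y ^ q)⁻¹ with hu₃
      have hu₃1 : snorm q K (u₃ - 1) ≤ snorm q K π ^ (i + 1) := by
        have : u₃ - 1 = (u₂ - y ^ q) * (y ^ q)⁻¹ := by
          rw [hu₃]
          field_simp
        rw [this, snorm_mul, snorm_inv, hyq1, inv_one, mul_one]
        exact hd
      obtain ⟨y', u', hy'0, hu', hN⟩ := IH u₃ hu₃1
      refine ⟨y * y', u', mul_ne_zero hy0 hy'0, ?_, hN⟩
      have : u₂ = y ^ q * u₃ := by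
        rw [hu₃]
        field_simp
      rw [this, hu', mul_pow]
      ring
    · exact ⟨1, u₂, one_ne_zero, by simp, Or.inl ⟨i, hi, hie, hdiv, w, hw1, hu₂⟩⟩

/-- **Normal forms modulo `q`-th powers.** -/
theorem exists_normal_form {π : K} (hπ : IsUniformizer q K π) (u : K) (hu : u ≠ 0) :
    ∃ y u' : K, y ≠ 0 ∧ u = y ^ q * u' ∧
      (IsN1 q K π u' ∨ IsN2 q K π (ramIdx q ℚ_[q] K) u' ∨ IsN3 q K u') := by
  have hπ0 : π ≠ 0 := hπ.2.1
  have hπpos : 0 < snorm q K π := snorm_pos q K hπ0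
  have he := Tame83.snorm_pow_ramIdx q K hπ
  have hn := snorm_eq_zpow q K (Units.mk0 π hπ0) hπ (Units.mk0 u hu)
  rw [Units.val_mk0, Units.val_mk0] at hn
  set n : ℤ := ord q K (Units.mk0 u hu) with hndef
  by_cases hdiv : (q : ℤ) ∣ n
  · obtain ⟨m, hm⟩ := hdiv
    set t : K := π ^ m with ht
    have ht0 : t ≠ 0 := zpow_ne_zero m hπ0
    have htn : snorm q K t = snorm q K π ^ m := by
      have := snorm_zpow q K (Units.mk0 π hπ0) m
      rw [Units.val_zpow_eq_zpow_val, Units.val_mk0] at this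
      exact this
    set u₁ : K := u * (t ^ q)⁻¹ with hu₁
    have hu₁1 : snorm q K u₁ = 1 := by
      rw [hu₁, snorm_mul, snorm_inv, snorm_pow, htn, hn, hm, ← zpow_natCast, ← zpow_mul,
        mul_comm m]
      exact mul_inv_cancel₀ (zpow_pos hπpos _).ne'
    have hu₁int : u₁ ∈ intRing q K := (mem_intRing_iff q K u₁).2 hu₁1.le
    obtain ⟨c, hcint, hc⟩ := exists_pow_close hu₁int
    have hcq1 : snorm q K (c ^ q) = 1 := by
      have h1 : snorm q K (c ^ q - u₁) < 1 := by rw [← snorm_neg, neg_sub]; exact hc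
      exact snorm_eq_one_of_sub_lt hu₁1 h1
    have hcq0 : c ^ q ≠ 0 := by
      intro h0
      rw [h0, snorm_zero] at hcq1
      exact zero_ne_one hcq1
    have hc0 : c ≠ 0 := fun h0 => hcq0 (by rw [h0, zero_pow (Fact.out : q.Prime).ne_zero])
    set u₂ : K := u₁ * (c ^ q)⁻¹ with hu₂
    have hu₂1 : snorm q K (u₂ - 1) ≤ snorm q K π ^ 1 := by
      have : u₂ - 1 = (u₁ - c ^ q) * (c ^ q)⁻¹ := by
        rw [hu₂]
        field_simp
      rw [this, snorm_mul, snorm_inv, hcq1, inv_one, mul_one, pow_one]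
      exact (snorm_lt_one_iff_le_uniformizer q K π hπ _).1 hc
    obtain ⟨y, u', hy0, hu', hN⟩ := step hπ he (ramIdx q ℚ_[q] K) 1 one_pos (by omega) u₂ hu₂1
    refine ⟨t * c * y, u', mul_ne_zero (mul_ne_zero ht0 hc0) hy0, ?_, Or.inr hN⟩
    have h1 : u = t ^ q * (c ^ q * u₂) := by
      rw [hu₂, hu₁]
      have := pow_ne_zero q ht0
      field_simp
    rw [h1, hu', mul_pow, mul_pow]
    ring
  · exact ⟨1, u, one_ne_zero, by simp, Or.inl ⟨n, hdiv, hn⟩⟩

end

end Fermat.Agent.TW.FF.KumNormal83
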