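/-
TW / WP7 brick B7 (helper83): the KUMMER LAYER step of the Kummer form of Fontaine's bound, on the
PT/LOC model.

`T/ℚ_p` finite Galois, `T = L K`, `K/ℚ_p` tame Galois containing a primitive `p`-th root of unity
`ζ`, `Gal(L/ℚ_p)` with ramification bounded by `‖ζ - 1‖ · p⁻¹ = p^(-p/(p-1))` (Fontaine).  For a
Kummer layer `K ⊆ M = K(α) ⊆ T`, `α ^ p = u' ∈ K`, `[M : K] = p`:

* `le_upper_layer` : every nontrivial element of `Gal(M/K)` has upper index `≥ ‖ζ - 1‖ · ‖π_K‖`;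
* `not_isN1`, `not_isN2` : `u'` is not of the shapes (N1), (N2) of `KumNormal83`.
-/
import Mathlib
import Fermat.Agent.TW.FF.Desc83
import Fermat.Agent.TW.FF.Tame83
import Fermat.Agent.TW.FF.KumNormal83
import Fermat.Agent.TW.Ram.KummerBreak90

set_option autoImplicit false
set_option linter.unusedSectionVars false

open scoped Fermat.Agent.PT.LOC.Interface12 NNReal
open Fermat.Agent.PT.LOC.Interface12 Fermat.Agent.PT.LOC.Structure14
  Fermat.Agent.PT.LOC.StructureNorm14 Fermat.Agent.PT.LOC.StructureTower27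
  Fermat.Agent.PT.LOC.StructureTowerEF27
open Fermat.Agent.TW.Ram.HerbrandAbs90 Fermat.Agent.TW.Ram.HerbrandField90
open Fermat.Agent.TW.Ram.KummerBreak90
open Fermat.Agent.TW.FF.GalGen83 Fermat.Agent.TW.FF.Desc83 Fermat.Agent.TW.FF.Tame83
  Fermat.Agent.TW.FF.KumNormal83
open Polynomial

namespace Fermat.Agent.TW.FF.KFLayer83

noncomputable section

variable {p : ℕ} [Fact p.Prime]

variable (L : Type) [Field L] [Algebra ℚ_[p] L] [FiniteDimensional ℚ_[p] L]
variable (K : Type) [Field K] [Algebra ℚ_[p] K] [FiniteDimensional ℚ_[p] K]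
variable (M : Type) [Field M] [Algebra ℚ_[p] M] [FiniteDimensional ℚ_[p] M]
variable (T : Type) [Field T] [Algebra ℚ_[p] T] [FiniteDimensional ℚ_[p] T]
variable [Algebra L T] [IsScalarTower ℚ_[p] L T] [Algebra K T] [IsScalarTower ℚ_[p] K T]
variable [Algebra K M] [IsScalarTower ℚ_[p] K M] [Algebra M T] [IsScalarTower K M T]
  [IsScalarTower ℚ_[p] M T]
variable [FiniteDimensional K T] [FiniteDimensional K M]
variable [Normal ℚ_[p] L] [IsGalois ℚ_[p] K] [IsGalois ℚ_[p] T] [Normal K M]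

/-- Lower bound for the upper indices of the layer `M/K`. -/
theorem le_upper_layer
    {xT : T} (hxT : IsGen p T xT) {xL : L} (hxL : IsGen p L xL) {xK : K} (hxK : IsGen p K xK)
    {xM : M} (hxM : IsGen p M xM)
    (hLK : ∀ σ : T ≃ₐ[ℚ_[p]] T, (∀ l : L, σ (algebraMap L T l) = algebraMap L T l) →
      (∀ k : K, σ (algebraMap K T k) = algebraMap K T k) → σ = 1)
    {π : K} (hπ : IsUniformizer p K π) (htame : ¬ p ∣ ramIdx p ℚ_[p] K)
    {c₁ : ℝ≥0} (hc₁ : c₁ ≤ 1)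
    (hL : (lowerIdx p ℚ_[p] L xL).BoundedBy (c₁ * (p : ℝ≥0)⁻¹)) :
    (lowerIdx p K M xM).BoundedBy (c₁ * normVal p K π) := by
  classical
  have he : 0 < ramIdx p ℚ_[p] K := ramIdx_pos p ℚ_[p] K
  have hK : (lowerIdx p ℚ_[p] K xK).BoundedBy (c₁ * (p : ℝ≥0)⁻¹) :=
    (boundedBy_of_tame hxK htame).mono _ (mul_le_of_le_one_left zero_le hc₁)
  have hs : (lowerIdx p ℚ_[p] K xK).phi (c₁ * normVal p K π) ≤ c₁ * (p : ℝ≥0)⁻¹ := by
    rw [phi_of_tame hxK hπ htame (mul_le_of_le_one_left zero_le hc₁), mul_assoc, ← pow_succ',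
      Nat.sub_add_cancel he, normVal_pow_ramIdx hπ]
  exact boundedBy_layer L K M T hxT hxL hxK hxM hLK hL hK hs

section Kummer

variable {L K M T}

theorem normVal_algebraMap (c : K) : normVal p M (algebraMap K M c) = normVal p K c :=
  NNReal.eq (snorm_algebraMap_tower p K M c)

theorem exists_zpow_eq {π : K} (hπ : IsUniformizer p K π) (c : K) (hc : c ≠ 0) :
    ∃ n : ℤ, normVal p M (algebraMap K M c) = normVal p M (algebraMap K M π) ^ n := by
  refine ⟨ord p K (Units.mk0 c hc), ?_⟩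
  rw [normVal_algebraMap, normVal_algebraMap]
  apply NNReal.eq
  rw [NNReal.coe_zpow]
  have := snorm_eq_zpow p K (Units.mk0 π hπ.2.1) hπ (Units.mk0 c hc)
  rwa [Units.val_mk0, Units.val_mk0] at this

variable
    {xT : T} (hxT : IsGen p T xT) {xL : L} (hxL : IsGen p L xL) {xK : K} (hxK : IsGen p K xK)
    {xM : M} (hxM : IsGen p M xM)
    (hLK : ∀ σ : T ≃ₐ[ℚ_[p]] T, (∀ l : L, σ (algebraMap L T l) = algebraMap L T l) →
      (∀ k : K, σ (algebraMap K T k) = algebraMap K T k) → σ = 1)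
    {π : K} (hπ : IsUniformizer p K π) (htame : ¬ p ∣ ramIdx p ℚ_[p] K)
    {ζ : K} (hζ : IsPrimitiveRoot ζ p)
    (hZ : normVal p K (ζ - 1) ^ (p - 1) = (p : ℝ≥0)⁻¹)
    (hL : (lowerIdx p ℚ_[p] L xL).BoundedBy (normVal p K (ζ - 1) * (p : ℝ≥0)⁻¹))
    {α : M} {u' : K} (hα : α ^ p = algebraMap K M u')
    (hαgen : ∀ y : M, y ∈ Algebra.adjoin K {α})
    (hcard : Fintype.card (M ≃ₐ[K] M) = p)

include hxT hxL hxK hxM hLK hπ htame hζ hZ hL hα hαgen hcard

/-- The Kummer generator of a layer inside `T` is not of shape (N1). -/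
theorem not_isN1 (hN1 : IsN1 p K π u') : False := by
  classical
  have hp : p.Prime := Fact.out
  have hp1 : 1 < p := hp.one_lt
  obtain ⟨j, hj, hju⟩ := hN1
  set Z : ℝ≥0 := normVal p K (ζ - 1) with hZdef
  set ω : ℝ≥0 := normVal p K π with hωdef
  have hp0' : (0 : ℝ≥0) < (p : ℝ≥0)⁻¹ := by
    have : (0 : ℝ≥0) < p := by exact_mod_cast hp.pos
    exact inv_pos.2 this
  have hplt : (p : ℝ≥0)⁻¹ < 1 := by
    have : (1 : ℝ≥0) < p := by exact_mod_cast hp1
    exact inv_lt_one_of_one_lt₀ this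
  have hZ0 : Z ≠ 0 := by
    intro h
    rw [h, zero_pow (by omega)] at hZ
    exact hp0'.ne hZ
  have hZ1 : Z ≤ 1 := by
    by_contra hcon
    have h1 : 1 < Z := not_le.1 hcon
    have : 1 ≤ Z ^ (p - 1) := one_le_pow₀ h1.le
    rw [hZ] at this
    exact absurd this (not_le.2 hplt)
  have hω0 : ω ≠ 0 := by
    rw [hωdef, Valuation.ne_zero_iff]
    exact hπ.2.1
  have hω1 : ω < 1 := snorm_uniformizer_lt_one p K π hπ
  -- lower bound
  have hnt : Nontrivial (M ≃ₐ[K] M) := by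
    rw [← Fintype.one_lt_card_iff_nontrivial, hcard]
    exact hp1
  obtain ⟨σ', hσ'⟩ := exists_ne (1 : M ≃ₐ[K] M)
  have hlow := le_upper_layer L K M T hxT hxL hxK hxM hLK hπ htame hZ1 hL σ' hσ'
  -- upper bound
  have hvπ : normVal p M (algebraMap K M π) = ω := normVal_algebraMap π
  have hup : (lowerIdx p K M xM).upper σ' ≤ Z ^ p * ω := by
    refine upper_le_of_card _ hp.ne_zero hcard (fun τ' => ?_) σ'
    have := lowerIndex_pow_le_of_val_prime (invariant_normVal p K M) hp π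
      (by rw [hvπ]; exact hω0) (by rw [hvπ]; exact hω1) (exists_zpow_eq hπ) u' ζ hζ α hα j hj
      (by
        rw [normVal_algebraMap, hvπ]
        apply NNReal.eq
        rw [NNReal.coe_zpow]
        exact hju)
      τ' (fun c => τ'.commutes c) xM (hαgen xM) ((normVal_le_one_iff p M xM).2 hxM.1)
    rw [hvπ, ← map_one (algebraMap K M), ← map_sub, normVal_algebraMap] at this
    exact this
  have h1 : Z * ω ≤ Z ^ p * ω := hlow.trans hup
  have h2 : Z ≤ Z ^ p := le_of_mul_le_mul_right h1 (zero_lt_iff.2 hω0)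
  have h3 : Z ^ p = Z * Z ^ (p - 1) := by
    rw [← pow_succ', Nat.sub_add_cancel hp1.le]
  rw [h3, hZ] at h2
  have h4 : Z * (p : ℝ≥0)⁻¹ < Z * 1 := mul_lt_mul_of_pos_left hplt (zero_lt_iff.2 hZ0)
  rw [mul_one] at h4
  exact absurd h2 (not_le.2 h4)

/-- The Kummer generator of a layer inside `T` is not of shape (N2). -/
theorem not_isN2 (hN2 : IsN2 p K π (ramIdx p ℚ_[p] K) u') : False := by
  classical
  have hp : p.Prime := Fact.out
  have hp1 : 1 < p := hp.one_lt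
  obtain ⟨i, hi0, hie, hpi, w, hw1, hu'⟩ := hN2
  set Z : ℝ≥0 := normVal p K (ζ - 1) with hZdef
  set ω : ℝ≥0 := normVal p K π with hωdef
  have hp0' : (0 : ℝ≥0) < (p : ℝ≥0)⁻¹ := by
    have : (0 : ℝ≥0) < p := by exact_mod_cast hp.pos
    exact inv_pos.2 this
  have hplt : (p : ℝ≥0)⁻¹ < 1 := by
    have : (1 : ℝ≥0) < p := by exact_mod_cast hp1
    exact inv_lt_one_of_one_lt₀ this
  have hZ0 : Z ≠ 0 := by
    intro h
    rw [h, zero_pow (by omega)] at hZ
    exact hp0'.ne hZ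
  have hZ1 : Z ≤ 1 := by
    by_contra hcon
    have h1 : 1 < Z := not_le.1 hcon
    have : 1 ≤ Z ^ (p - 1) := one_le_pow₀ h1.le
    rw [hZ] at this
    exact absurd this (not_le.2 hplt)
  have hω0 : ω ≠ 0 := by
    rw [hωdef, Valuation.ne_zero_iff]
    exact hπ.2.1
  have hω1 : ω < 1 := snorm_uniformizer_lt_one p K π hπ
  have hωi : 0 < ω ^ i := zero_lt_iff.2 (pow_ne_zero _ hω0)
  have hnt : Nontrivial (M ≃ₐ[K] M) := by
    rw [← Fintype.one_lt_card_iff_nontrivial, hcard]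
    exact hp1
  obtain ⟨σ', hσ'⟩ := exists_ne (1 : M ≃ₐ[K] M)
  have hlow := le_upper_layer L K M T hxT hxL hxK hxM hLK hπ htame hZ1 hL σ' hσ'
  have hvπ : normVal p M (algebraMap K M π) = ω := normVal_algebraMap π
  have hα' : α ^ p = 1 + algebraMap K M π ^ i * algebraMap K M w := by
    rw [hα, hu', map_add, map_one, map_mul, map_pow]
  have hup : (lowerIdx p K M xM).upper σ' ≤ Z ^ p * ω / ω ^ i := by
    refine upper_le_of_card _ hp.ne_zero hcard (fun τ' => ?_) σ'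
    rw [le_div_iff₀ hωi]
    have := lowerIndex_pow_le_of_unit_level (invariant_normVal p K M) hp π
      (by rw [hvπ]; exact hω0) (by rw [hvπ]; exact hω1) (exists_zpow_eq hπ) w ζ i hpi
      (by rw [normVal_algebraMap]; exact NNReal.eq hw1) hζ α hα'
      τ' (fun c => τ'.commutes c) xM (hαgen xM) ((normVal_le_one_iff p M xM).2 hxM.1)
    rw [hvπ, ← map_one (algebraMap K M), ← map_sub, normVal_algebraMap] at this
    exact this
  have h1 : Z * ω ≤ Z ^ p * ω / ω ^ i := hlow.trans hup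
  rw [le_div_iff₀ hωi] at h1
  have h3 : Z ^ p = Z * Z ^ (p - 1) := by
    rw [← pow_succ', Nat.sub_add_cancel hp1.le]
  rw [h3, hZ, ← normVal_pow_ramIdx hπ] at h1
  -- `Z * ω * ω ^ i ≤ Z * ω ^ e * ω`
  have h4 : Z * (ω * ω ^ i) ≤ Z * (ω * ω ^ ramIdx p ℚ_[p] K) := by
    calc Z * (ω * ω ^ i) = Z * ω * ω ^ i := by ring
      _ ≤ Z * ω ^ ramIdx p ℚ_[p] K * ω := h1
      _ = Z * (ω * ω ^ ramIdx p ℚ_[p] K) := by ring
  have h5 : ω * ω ^ i ≤ ω * ω ^ ramIdx p ℚ_[p] K :=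
    le_of_mul_le_mul_left h4 (zero_lt_iff.2 hZ0)
  have h6 : ω ^ i ≤ ω ^ ramIdx p ℚ_[p] K := le_of_mul_le_mul_left h5 (zero_lt_iff.2 hω0)
  have h7 : ramIdx p ℚ_[p] K ≤ i :=
    (pow_le_pow_iff_right_of_lt_one₀ (zero_lt_iff.2 hω0) hω1).1 h6
  omega

end Kummer

end

end Fermat.Agent.TW.FF.KFLayer83
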