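/-
TW / WP7 (helper40): if the points of a commutative bialgebra `H` with values in `Ω` separate the
elements of `H` and every point is killed by `N` (convolution power), then `[N] = η ∘ ε` on `H`,
in the three shapes used by the landed lifting lemmas (ConvLift40, LiftGroupLike92, ConvLift83).
-/
import Mathlib

set_option autoImplicit false

open WithConv

namespace Fermat.Agent.TW.FF.KilledOfSep40

universe u v w

variable {R : Type u} [CommRing R] {H : Type v} [CommRing H] [Bialgebra R H]
variable {Ω : Type w} [CommRing Ω] [Algebra R Ω]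

/-- Composition with the `k`-th convolution power of the identity is the `k`-th convolution
power. -/
theorem comp_id_pow (f : WithConv (H →ₐ[R] Ω)) (k : ℕ) :
    toConv (f.ofConv.comp ((toConv (AlgHom.id R H)) ^ k).ofConv) = f ^ k := by
  induction k with
  | zero =>
    apply WithConv.ext
    apply AlgHom.ext
    intro h
    simp [AlgHom.convOne_def]
  | succ k ih =>
    rw [pow_succ, pow_succ, AlgHom.comp_convMul_distrib, ← ih]
    simp

/-- Separating points + every point killed by `N` ⟹ `[N] = η ∘ ε` (algebra-hom form). -/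
theorem id_pow_eq_one_of_separating (N : ℕ)
    (hsep : ∀ h : H, (∀ x : H →ₐ[R] Ω, x h = 0) → h = 0)
    (hkill : ∀ x : WithConv (H →ₐ[R] Ω), x ^ N = 1) :
    (toConv (AlgHom.id R H)) ^ N = 1 := by
  apply WithConv.ext
  apply AlgHom.ext
  intro h
  rw [← sub_eq_zero]
  apply hsep
  intro x
  rw [map_sub, sub_eq_zero]
  have h1 := comp_id_pow (toConv x) N
  rw [hkill (toConv x)] at h1
  have h2 := congrArg (fun g : WithConv (H →ₐ[R] Ω) => g.ofConv h) h1
  simp only [ofConv_toConv, AlgHom.comp_apply] at h2
  rw [h2]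
  simp [AlgHom.convOne_def]

/-- The same in linear-map form: `(toConv LinearMap.id) ^ N = 1` in `WithConv (H →ₗ[R] H)`. -/
theorem linearMap_id_pow_eq_one_of_separating (N : ℕ)
    (hsep : ∀ h : H, (∀ x : H →ₐ[R] Ω, x h = 0) → h = 0)
    (hkill : ∀ x : WithConv (H →ₐ[R] Ω), x ^ N = 1) :
    (toConv (LinearMap.id : H →ₗ[R] H)) ^ N = 1 := by
  have h1 := id_pow_eq_one_of_separating N hsep hkill
  have h2 := AlgHom.toLinearMap_convPow (toConv (AlgHom.id R H)) N
  rw [h1] at h2
  simp only [ofConv_toConv] at h2
  have h3 : (AlgHom.id R H).toLinearMap = (LinearMap.id : H →ₗ[R] H) := rfl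
  rw [h3] at h2
  rw [← h2]
  rfl

end Fermat.Agent.TW.FF.KilledOfSep40
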