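/-
TW / WP7 chapter CLOSURE (helper14).  The abstract notion of a "flat model".

`IsModel R Ω G H e act`: the finite flat commutative cocommutative Hopf algebra `H` over `R`, with the
bijection `e` between its `Ω`-points and `M`, is a model of the abelian group `M` with the maps
`act σ : M → M` (`σ : G`).
`Model R Ω G M act`: such a model exists.  For `R = ℤ_[p]`, `Ω = PadicAlgCl p`, `G = Gal(Ω/ℚ_[p])` this is
literally helper68's `FlatModel68.LocalFlatModel` (see `LocalClosure14`).
-/
import Mathlib

set_option autoImplicit false

namespace Fermat.Agent.TW.FF.Model14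

/-- `(H, e)` is a flat model of `(M, act)`. -/
structure IsModel (R Ω G : Type*) [CommRing R] [Field Ω] [Algebra R Ω] [Group G]
    [MulSemiringAction G Ω] (H : Type*) [CommRing H] [HopfAlgebra R H]
    {M : Type*} [AddCommGroup M] (e : WithConv (H →ₐ[R] Ω) ≃ M) (act : G → M → M) : Prop where
  finite : Module.Finite R H
  flat : Module.Flat R H
  cocomm : Coalgebra.IsCocomm R H
  map_mul : ∀ f g : WithConv (H →ₐ[R] Ω), e (f * g) = e f + e g
  map_act : ∀ (σ : G) (f g : WithConv (H →ₐ[R] Ω)), (∀ h : H, g h = σ • f h) → e g = act σ (e f)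

/-- `M` is the group of `Ω`-points of a finite flat commutative cocommutative Hopf algebra over `R`,
`G`-equivariantly. -/
def Model (R Ω G : Type*) [CommRing R] [Field Ω] [Algebra R Ω] [Group G] [MulSemiringAction G Ω]
    (M : Type*) [AddCommGroup M] (act : G → M → M) : Prop :=
  ∃ (H : Type) (_ : CommRing H) (_ : HopfAlgebra R H) (e : WithConv (H →ₐ[R] Ω) ≃ M),
    IsModel R Ω G H e act

section

variable {R Ω G : Type*} [CommRing R] [Field Ω] [Algebra R Ω] [Group G] [MulSemiringAction G Ω]
variable {H : Type*} [CommRing H] [HopfAlgebra R H] {M : Type*} [AddCommGroup M]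
variable {e : WithConv (H →ₐ[R] Ω) ≃ M} {act : G → M → M}

theorem IsModel.map_one (hM : IsModel R Ω G H e act) : e 1 = 0 := by
  have := hM.map_mul 1 1
  rw [one_mul] at this
  exact left_eq_add.1 this

/-- The convolution inverse of a point (Mathlib's group instance on points asks for a bialgebra
structure on the target, which a field does not have). -/
noncomputable def invPt (x : WithConv (H →ₐ[R] Ω)) : WithConv (H →ₐ[R] Ω) :=
  WithConv.toConv (x.ofConv.comp (HopfAlgebra.antipodeAlgHom R H))

theorem invPt_mul (x : WithConv (H →ₐ[R] Ω)) : invPt x * x = 1 := by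
  apply WithConv.ext
  apply AlgHom.ext
  intro h
  have h1 := AlgHom.convMul_apply (invPt x) x h
  have key : ∀ t : TensorProduct R H H,
      Algebra.TensorProduct.lift (invPt x).ofConv x.ofConv (fun _ _ => Commute.all _ _) t =
        x.ofConv (LinearMap.mul' R H ((HopfAlgebra.antipode R).rTensor H t)) := by
    intro t
    induction t using TensorProduct.induction_on with
    | zero => simp
    | tmul a b => simp [invPt]
    | add u v hu hv => simp only [map_add, hu, hv]
  refine h1.trans ?_
  rw [key, HopfAlgebra.mul_antipode_rTensor_comul_apply]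
  simp

theorem mul_invPt (x : WithConv (H →ₐ[R] Ω)) : x * invPt x = 1 := by
  apply WithConv.ext
  apply AlgHom.ext
  intro h
  have h1 := AlgHom.convMul_apply x (invPt x) h
  have key : ∀ t : TensorProduct R H H,
      Algebra.TensorProduct.lift x.ofConv (invPt x).ofConv (fun _ _ => Commute.all _ _) t =
        x.ofConv (LinearMap.mul' R H ((HopfAlgebra.antipode R).lTensor H t)) := by
    intro t
    induction t using TensorProduct.induction_on with
    | zero => simp
    | tmul a b => simp [invPt]
    | add u v hu hv => simp only [map_add, hu, hv]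
  refine h1.trans ?_
  rw [key, HopfAlgebra.mul_antipode_lTensor_comul_apply]
  simp

theorem IsModel.map_invPt (hM : IsModel R Ω G H e act) (a : WithConv (H →ₐ[R] Ω)) :
    e (invPt a) = - e a := by
  have := hM.map_mul (invPt a) a
  rw [invPt_mul, hM.map_one] at this
  exact eq_neg_of_add_eq_zero_left this.symm

theorem IsModel.symm_add (hM : IsModel R Ω G H e act) (m n : M) :
    e.symm (m + n) = e.symm m * e.symm n := by
  apply e.injective
  rw [hM.map_mul, Equiv.apply_symm_apply, Equiv.apply_symm_apply, Equiv.apply_symm_apply]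

theorem IsModel.symm_zero (hM : IsModel R Ω G H e act) : e.symm 0 = 1 := by
  apply e.injective
  rw [hM.map_one, Equiv.apply_symm_apply]

/-- Transport of a model along an equivariant additive isomorphism. -/
theorem IsModel.of_addEquiv {N : Type*} [AddCommGroup N] {actN : G → N → N} (φ : M ≃+ N)
    (hφ : ∀ σ m, φ (act σ m) = actN σ (φ m)) (hM : IsModel R Ω G H e act) :
    IsModel R Ω G H (e.trans φ.toEquiv) actN where
  finite := hM.finite
  flat := hM.flat
  cocomm := hM.cocomm
  map_mul := by
    intro f g
    simp [hM.map_mul]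
  map_act := by
    intro σ f g hfg
    simp [hM.map_act σ f g hfg, hφ]

end

/-- Transport of a model along an equivariant additive isomorphism. -/
theorem Model.of_addEquiv {R Ω G : Type*} [CommRing R] [Field Ω] [Algebra R Ω] [Group G]
    [MulSemiringAction G Ω] {M N : Type*} [AddCommGroup M] [AddCommGroup N]
    {actM : G → M → M} {actN : G → N → N} (φ : M ≃+ N)
    (hφ : ∀ σ m, φ (actM σ m) = actN σ (φ m)) (h : Model R Ω G M actM) :
    Model R Ω G N actN := by
  obtain ⟨H, i1, i2, e, hM⟩ := h
  exact ⟨H, i1, i2, e.trans φ.toEquiv, hM.of_addEquiv φ hφ⟩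

end Fermat.Agent.TW.FF.Model14
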