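/-
TW / WP7 B3 export (helper92): `Spec72.RigidPoints p` (rigidity of points, in the literal
interface shape of the WP7 plan).
-/
import Mathlib
import Fermat.Agent.TW.FF.Spec72
import Fermat.Agent.TW.FF.RigidOmega92

namespace Fermat.Agent.TW.FF.RigidSpec92

open Fermat.Agent.TW.FF.RigidOmega92

/-- **Rigidity of points** in the interface shape `Spec72.RigidPoints` (valid for all primes,
the hypothesis `p ≠ 2` is not used). -/
theorem rigidPoints (p : ℕ) [Fact p.Prime] : Spec72.RigidPoints p := by
  intro _ H _ _ _ _ _ hkill f g hfg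
  have : Module.Free ℤ_[p] H := Module.free_of_flat_of_isLocalRing
  have key : ∀ f : H →ₐ[ℤ_[p]] PadicAlgCl p, (WithConv.toConv f.toLinearMap) ^ p = 1 := by
    intro f
    have h1 := AlgHom.toLinearMap_convPow (WithConv.toConv f) p
    rw [hkill (WithConv.toConv f), AlgHom.toLinearMap_convOne] at h1
    exact h1.symm
  exact eq_of_norm_pow_lt_padic_of_pow p f g (key f) (key g) hfg

end Fermat.Agent.TW.FF.RigidSpec92
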