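/-
TW / WP7 (helper83): inputs of SHAPE (`Table72.IndShape`) in the norm language of `Spec72`.

* `exists_uniformizer_norm` : every finite `K0/ℚ_p` inside `Ω = PadicAlgCl p` has a uniformizer in
  norm language (the hypothesis `hπ`, `hπ1` of `LocalStruct97` LS5).
* `wild K0` : the wild inertia subgroup relative to a finite normal `K0` (elements of inertia moving
  every `x ∈ K0ˣ` by a principal unit), a NORMAL subgroup of `G_p`.
* (a) `exists_pow_mem_fixingSubgroup` : wild inertia is a `p`-group modulo `Gal(Ω/K0)`       [LS5];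
* (b) `comm_mem_wild` : commutators of inertia elements are wild;
* (c) `frob_conj_mem_wild` : `φ τ φ⁻¹ (τ ^ p)⁻¹` is wild for a local Frobenius `φ`           [LS6];
* (d) `exists_frob_pow_mul` : every `g` is `φ ^ m * τ` on `K0`                                [LS3b];
and the same for a homomorphism `ρ` on `G_p` trivial on `Gal(Ω/K0)` (`rho_*`), which are literally
the hypotheses (a)-(d) of the abstract shape lemma.
-/
import Mathlib
import Fermat.Agent.TW.FF.KFOmega83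
import Fermat.Agent.TW.Cnt.LocalStruct97

set_option autoImplicit false
set_option linter.unusedSectionVars false

open Fermat.Agent.TW.FF.FlatModel68 Fermat.Agent.TW.FF.Spec72
open Fermat.Agent.TW.Cnt.TameField97 Fermat.Agent.TW.Cnt.LocalStruct97

namespace Fermat.Agent.TW.FF.ShapeInputs83

noncomputable section

variable (p : ℕ) [Fact p.Prime]

local notation "Ω" => PadicAlgCl p

/-! ### [A] Uniformizers in norm language -/

open Fermat.Agent.PT.LOC.Interface12 Fermat.Agent.PT.LOC.Structure14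
  Fermat.Agent.PT.LOC.StructureNorm14 in
theorem exists_uniformizer_norm (K0 : IntermediateField ℚ_[p] (PadicAlgCl p))
    [FiniteDimensional ℚ_[p] K0] :
    ∃ π : K0, π ≠ 0 ∧ ‖(π : Ω)‖ < 1 ∧
      ∀ x : K0, x ≠ 0 → ∃ n : ℤ, ‖(x : Ω)‖ = ‖(π : Ω)‖ ^ n := by
  obtain ⟨πu, hπ⟩ := exists_isUniformizer p K0
  refine ⟨(πu : K0), πu.ne_zero, ?_, ?_⟩
  · rw [← KFOmega83.snorm_eq_norm]
    exact snorm_uniformizer_lt_one p K0 _ hπ
  · intro x hx
    refine ⟨ord p K0 (Units.mk0 x hx), ?_⟩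
    rw [← KFOmega83.snorm_eq_norm, ← KFOmega83.snorm_eq_norm]
    have := snorm_eq_zpow p K0 πu hπ (Units.mk0 x hx)
    rwa [Units.val_mk0] at this

/-! ### Congruences modulo the maximal ideal -/

/-- `x ≡ y` modulo the maximal ideal of the valuation ring of `Ω`. -/
def Near (x y : Ω) : Prop := ‖x - y‖ < 1

variable {p}

theorem Near.refl (x : Ω) : Near p x x := by
  unfold Near
  rw [sub_self, norm_zero]
  exact one_pos

theorem Near.symm {x y : Ω} (h : Near p x y) : Near p y x := by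
  unfold Near at *
  rwa [norm_sub_rev]

theorem Near.trans {x y z : Ω} (h1 : Near p x y) (h2 : Near p y z) : Near p x z := by
  unfold Near at *
  have e : x - z = (x - y) + (y - z) := by ring
  rw [e]
  exact lt_of_le_of_lt (norm_add_le_max' _ _) (max_lt h1 h2)

theorem Near.mul {a a' b b' : Ω} (ha' : ‖a'‖ ≤ 1) (hb : ‖b‖ ≤ 1) (h1 : Near p a a')
    (h2 : Near p b b') : Near p (a * b) (a' * b') := by
  unfold Near at *
  have e : a * b - a' * b' = (a - a') * b + a' * (b - b') := by ring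
  rw [e]
  refine lt_of_le_of_lt (norm_add_le_max' _ _) (max_lt ?_ ?_)
  · rw [norm_mul]
    calc ‖a - a'‖ * ‖b‖ ≤ ‖a - a'‖ * 1 := mul_le_mul_of_nonneg_left hb (norm_nonneg _)
      _ < 1 := by rw [mul_one]; exact h1
  · rw [norm_mul]
    calc ‖a'‖ * ‖b - b'‖ ≤ 1 * ‖b - b'‖ := mul_le_mul_of_nonneg_right ha' (norm_nonneg _)
      _ < 1 := by rw [one_mul]; exact h2

theorem Near.norm_eq_one {x y : Ω} (h : Near p x y) (hy : ‖y‖ = 1) : ‖x‖ = 1 := by
  unfold Near at h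
  have e : x = (x - y) + y := by ring
  rw [e]
  have := IsUltrametricDist.norm_add_eq_max_of_norm_ne_norm (x := x - y) (y := y)
    (by rw [hy]; exact h.ne)
  rw [this, hy, max_eq_right h.le]

theorem Near.pow {a a' : Ω} (ha : ‖a‖ ≤ 1) (ha' : ‖a'‖ ≤ 1) (h : Near p a a') (n : ℕ) :
    Near p (a ^ n) (a' ^ n) := by
  induction n with
  | zero => simpa using Near.refl (p := p) 1
  | succ n ih =>
    rw [pow_succ, pow_succ]
    exact Near.mul (by rw [norm_pow]; exact pow_le_one₀ (norm_nonneg _) ha') ha ih h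

/-! ### The multiplier `τ y / y` -/

/-- The multiplier `τ y / y`. -/
def mult (τ : GQp p) (y : Ω) : Ω := τ y / y

theorem norm_mult (τ : GQp p) {y : Ω} (hy : y ≠ 0) : ‖mult τ y‖ = 1 := by
  unfold mult
  rw [norm_div, norm_apply, div_self (norm_ne_zero_iff.2 hy)]

theorem mult_one {y : Ω} (hy : y ≠ 0) : mult (1 : GQp p) y = 1 := by
  unfold mult
  rw [AlgEquiv.one_apply, div_self hy]

theorem mult_mul (τ σ : GQp p) {y : Ω} (hy : y ≠ 0) :
    mult (τ * σ) y = mult τ y * τ (mult σ y) := by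
  unfold mult
  rw [AlgEquiv.mul_apply, map_div₀]
  have h1 : τ y ≠ 0 := (map_ne_zero τ).2 hy
  field_simp

/-- On inertia the multiplier is multiplicative modulo the maximal ideal. -/
theorem near_mult_mul {τ : GQp p} (hτ : τ ∈ inertiaSet p) (σ : GQp p) {y : Ω} (hy : y ≠ 0) :
    Near p (mult (τ * σ) y) (mult τ y * mult σ y) := by
  rw [mult_mul τ σ hy]
  refine Near.mul (norm_mult τ hy).le ?_ (Near.refl _) ?_
  · rw [norm_apply, norm_mult σ hy]
  · exact hτ _ (norm_mult σ hy).le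

theorem near_mult_inv {τ : GQp p} (hτ : τ ∈ inertiaSet p) {y : Ω} (hy : y ≠ 0) :
    Near p (mult τ y * mult τ⁻¹ y) 1 := by
  have h := near_mult_mul hτ τ⁻¹ hy
  rw [mul_inv_cancel, mult_one hy] at h
  exact h.symm

theorem near_mult_pow {τ : GQp p} (hτ : τ ∈ inertiaSet p) {y : Ω} (hy : y ≠ 0) (n : ℕ) :
    Near p (mult (τ ^ n) y) (mult τ y ^ n) := by
  induction n with
  | zero => rw [pow_zero, pow_zero, mult_one hy]; exact Near.refl _
  | succ n ih =>
    rw [pow_succ, pow_succ]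
    refine (near_mult_mul (pow_mem_inertiaSet hτ n) τ hy).trans ?_
    refine Near.mul ?_ (norm_mult τ hy).le ih (Near.refl _)
    rw [norm_pow, norm_mult τ hy, one_pow]

/-- `τ` moves `y` by a principal unit. -/
def Mild (τ : GQp p) (y : Ω) : Prop := ‖τ y - y‖ < ‖y‖

theorem mild_iff_near {τ : GQp p} {y : Ω} (hy : y ≠ 0) : Mild τ y ↔ Near p (mult τ y) 1 := by
  unfold Mild Near mult
  have hy' : 0 < ‖y‖ := norm_pos_iff.2 hy
  have e : τ y / y - 1 = (τ y - y) / y := by field_simp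
  rw [e, norm_div, div_lt_one hy']

/-! ### The wild inertia subgroup relative to `K0` -/

variable (K0 : IntermediateField ℚ_[p] (PadicAlgCl p))

/-- The wild inertia subgroup relative to `K0`. -/
def wild : Subgroup (GQp p) where
  carrier := {τ | τ ∈ inertiaSet p ∧ ∀ x : Ω, x ∈ K0 → x ≠ 0 → Mild τ x}
  one_mem' := by
    refine ⟨one_mem_inertiaSet, fun x _ hx => ?_⟩
    unfold Mild
    rw [AlgEquiv.one_apply, sub_self, norm_zero]
    exact norm_pos_iff.2 hx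
  mul_mem' := by
    rintro σ τ ⟨hσ, hσ'⟩ ⟨hτ, hτ'⟩
    refine ⟨mul_mem_inertiaSet hσ hτ, fun x hxK hx => ?_⟩
    rw [mild_iff_near hx]
    refine (near_mult_mul hσ τ hx).trans ?_
    have h1 := (mild_iff_near hx).1 (hσ' x hxK hx)
    have h2 := (mild_iff_near hx).1 (hτ' x hxK hx)
    have := Near.mul (p := p) (by rw [norm_one]) (norm_mult τ hx).le h1 h2
    rwa [one_mul] at this
  inv_mem' := by
    rintro τ ⟨hτ, hτ'⟩
    refine ⟨inv_mem_inertiaSet hτ, fun x hxK hx => ?_⟩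
    unfold Mild
    have e : τ⁻¹ x - x = - τ⁻¹ (τ x - x) := by
      rw [map_sub]
      have : τ⁻¹ (τ x) = x := τ.symm_apply_apply x
      rw [this]; ring
    rw [e, norm_neg, norm_apply]
    exact hτ' x hxK hx

variable {K0}

theorem mem_wild_iff {τ : GQp p} :
    τ ∈ wild K0 ↔ τ ∈ inertiaSet p ∧ ∀ x : Ω, x ∈ K0 → x ≠ 0 → ‖τ x - x‖ < ‖x‖ := Iff.rfl

theorem wild_le_inertia : wild K0 ≤ inertiaSubgroup p := fun _ h => h.1

instance wild_normal [Normal ℚ_[p] K0] : (wild K0).Normal := by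
  refine ⟨fun τ hτ g => ⟨conj_mem_inertiaSet hτ.1 g, fun x hxK hx => ?_⟩⟩
  unfold Mild
  have e : (g * τ * g⁻¹) x - x = g (τ (g⁻¹ x) - g⁻¹ x) := by
    rw [AlgEquiv.mul_apply, AlgEquiv.mul_apply, map_sub]
    have : g (g⁻¹ x) = x := g.apply_symm_apply x
    rw [this]
  rw [e, norm_apply]
  have h1 : g⁻¹ x ∈ K0 := apply_mem_of_normal K0 g⁻¹ hxK
  have h2 : g⁻¹ x ≠ 0 := (map_ne_zero _).2 hx
  have := hτ.2 _ h1 h2
  unfold Mild at this
  rwa [norm_apply] at this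

/-- (b) Commutators of inertia elements are wild (relative to any `K0`; in fact they move every
nonzero element of `Ω` by a principal unit). -/
theorem comm_mild {τ τ' : GQp p} (hτ : τ ∈ inertiaSet p) (hτ' : τ' ∈ inertiaSet p) {y : Ω}
    (hy : y ≠ 0) : Mild (τ * τ' * τ⁻¹ * τ'⁻¹) y := by
  rw [mild_iff_near hy]
  have hi := inv_mem_inertiaSet hτ
  have hi' := inv_mem_inertiaSet hτ'
  have n1 := norm_mult τ hy
  have n2 := norm_mult τ' hy
  have n3 := norm_mult τ⁻¹ hy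
  have n4 := norm_mult τ'⁻¹ hy
  -- split off the factors one by one
  have s1 : Near p (mult (τ * τ' * τ⁻¹ * τ'⁻¹) y) (mult (τ * τ' * τ⁻¹) y * mult τ'⁻¹ y) :=
    near_mult_mul (mul_mem_inertiaSet (mul_mem_inertiaSet hτ hτ') hi) _ hy
  have s2 : Near p (mult (τ * τ' * τ⁻¹) y) (mult (τ * τ') y * mult τ⁻¹ y) :=
    near_mult_mul (mul_mem_inertiaSet hτ hτ') _ hy
  have s3 : Near p (mult (τ * τ') y) (mult τ y * mult τ' y) := near_mult_mul hτ _ hy
  have t1 : Near p (mult (τ * τ') y * mult τ⁻¹ y) (mult τ y * mult τ' y * mult τ⁻¹ y) :=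
    Near.mul (by rw [norm_mul, n1, n2, one_mul]) n3.le s3 (Near.refl _)
  have t2 : Near p (mult (τ * τ' * τ⁻¹) y * mult τ'⁻¹ y)
      (mult τ y * mult τ' y * mult τ⁻¹ y * mult τ'⁻¹ y) :=
    Near.mul (by rw [norm_mul, norm_mul, n1, n2, n3, one_mul, one_mul]) n4.le (s2.trans t1)
      (Near.refl _)
  have e : mult τ y * mult τ' y * mult τ⁻¹ y * mult τ'⁻¹ y
      = (mult τ y * mult τ⁻¹ y) * (mult τ' y * mult τ'⁻¹ y) := by ring
  have t3 : Near p ((mult τ y * mult τ⁻¹ y) * (mult τ' y * mult τ'⁻¹ y)) (1 * 1) :=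
    Near.mul (by rw [norm_one]) (by rw [norm_mul, n2, n4, one_mul]) (near_mult_inv hτ hy)
      (near_mult_inv hτ' hy)
  rw [one_mul] at t3
  rw [e] at t2
  exact (s1.trans t2).trans t3

theorem comm_mem_wild {τ τ' : GQp p} (hτ : τ ∈ inertiaSet p) (hτ' : τ' ∈ inertiaSet p) :
    τ * τ' * τ⁻¹ * τ'⁻¹ ∈ wild K0 :=
  ⟨mul_mem_inertiaSet (mul_mem_inertiaSet (mul_mem_inertiaSet hτ hτ') (inv_mem_inertiaSet hτ))
    (inv_mem_inertiaSet hτ'), fun _ _ hx => comm_mild hτ hτ' hx⟩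

/-- (c) `φ τ φ⁻¹ (τ ^ p)⁻¹` is wild, `φ` a local Frobenius. -/
theorem frob_conj_mild {φ : GQp p} (hφ : IsFrobLoc φ) {τ : GQp p} (hτ : τ ∈ inertiaSet p) {y : Ω}
    (hy : y ≠ 0) : Mild (φ * τ * φ⁻¹ * (τ ^ p)⁻¹) y := by
  rw [mild_iff_near hy]
  have hc := conj_mem_inertiaSet hτ φ
  have hpw := pow_mem_inertiaSet hτ p
  have n1 := norm_mult τ hy
  have s1 : Near p (mult (φ * τ * φ⁻¹ * (τ ^ p)⁻¹) y) (mult (φ * τ * φ⁻¹) y * mult (τ ^ p)⁻¹ y) :=
    near_mult_mul hc _ hy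
  have s2 : Near p (mult (φ * τ * φ⁻¹) y) (mult τ y ^ p) := norm_conj_div_sub_pow_lt hφ hτ hy
  have s3 : Near p (mult (τ ^ p) y) (mult τ y ^ p) := near_mult_pow hτ hy p
  have s4 : Near p (mult (φ * τ * φ⁻¹) y) (mult (τ ^ p) y) := s2.trans s3.symm
  have t1 : Near p (mult (φ * τ * φ⁻¹) y * mult (τ ^ p)⁻¹ y) (mult (τ ^ p) y * mult (τ ^ p)⁻¹ y) :=
    Near.mul (norm_mult _ hy).le (norm_mult _ hy).le s4 (Near.refl _)
  exact (s1.trans t1).trans (near_mult_inv hpw hy)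

theorem frob_conj_mem_wild {φ : GQp p} (hφ : IsFrobLoc φ) {τ : GQp p} (hτ : τ ∈ inertiaSet p) :
    φ * τ * φ⁻¹ * (τ ^ p)⁻¹ ∈ wild K0 :=
  ⟨mul_mem_inertiaSet (conj_mem_inertiaSet hτ φ) (inv_mem_inertiaSet (pow_mem_inertiaSet hτ p)),
    fun _ _ hx => frob_conj_mild hφ hτ hx⟩

/-- (a) Wild inertia is a `p`-group modulo `Gal(Ω/K0)`. -/
theorem exists_pow_mem_fixingSubgroup [FiniteDimensional ℚ_[p] K0] [Normal ℚ_[p] K0] {w : GQp p}
    (hw : w ∈ wild K0) : ∃ a : ℕ, w ^ p ^ a ∈ K0.fixingSubgroup := by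
  obtain ⟨π, hπ0, hπ1, hπ⟩ := exists_uniformizer_norm p K0
  refine exists_pow_mem_fixingSubgroup_of_wild hπ hπ1 hw.1 ?_
  exact hw.2 _ π.2 (fun h => hπ0 (Subtype.ext h))

/-- The wild subgroup is detected on a uniformizer. -/
theorem mem_wild_of_uniformizer {π : K0} (hπ0 : π ≠ 0)
    (hπ : ∀ x : K0, x ≠ 0 → ∃ n : ℤ, ‖(x : Ω)‖ = ‖(π : Ω)‖ ^ n) {τ : GQp p}
    (hτ : τ ∈ inertiaSet p) (hw : ‖τ (π : Ω) - π‖ < ‖(π : Ω)‖) : τ ∈ wild K0 := by
  refine ⟨hτ, fun x hxK hx => ?_⟩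
  have hπΩ : (π : Ω) ≠ 0 := fun h => hπ0 (Subtype.ext h)
  obtain ⟨n, hn⟩ := hπ ⟨x, hxK⟩ (fun h => hx (congrArg Subtype.val h))
  change ‖x‖ = _ at hn
  -- `x = π ^ n * u` with `u` a unit
  set u : Ω := x / (π : Ω) ^ n with hu
  have hπn : ((π : Ω) ^ n) ≠ 0 := zpow_ne_zero n hπΩ
  have hxu : x = (π : Ω) ^ n * u := by rw [hu]; field_simp
  have hu1 : ‖u‖ = 1 := by
    rw [hu, norm_div, norm_zpow, ← hn, div_self (norm_ne_zero_iff.2 hx)]
  have hu0 : u ≠ 0 := by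
    intro h; rw [h, norm_zero] at hu1; exact zero_ne_one hu1
  rw [mild_iff_near hx]
  have hπnear : Near p (mult τ (π : Ω)) 1 := (mild_iff_near hπΩ).1 hw
  -- multiplier of a power
  have hzpow : mult τ ((π : Ω) ^ n) = mult τ (π : Ω) ^ n := by
    unfold mult
    rw [map_zpow₀, div_zpow]
  have hpow_near : Near p (mult τ (π : Ω) ^ n) 1 := by
    have hm1 := norm_mult τ hπΩ
    rcases Int.eq_nat_or_neg n with ⟨k, rfl | rfl⟩
    · rw [zpow_natCast]
      have := Near.pow (p := p) hm1.le (by rw [norm_one]) hπnear k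
      rwa [one_pow] at this
    · rw [zpow_neg, zpow_natCast]
      have h1 : Near p (mult τ (π : Ω) ^ k) 1 := by
        have := Near.pow (p := p) hm1.le (by rw [norm_one]) hπnear k
        rwa [one_pow] at this
      -- inverse of something near one is near one
      unfold Near at h1 ⊢
      have hk : ‖mult τ (π : Ω) ^ k‖ = 1 := by rw [norm_pow, hm1, one_pow]
      have hk0 : mult τ (π : Ω) ^ k ≠ 0 := by
        intro h; rw [h, norm_zero] at hk; exact zero_ne_one hk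
      have e : (mult τ (π : Ω) ^ k)⁻¹ - 1 = (1 - mult τ (π : Ω) ^ k) / (mult τ (π : Ω) ^ k) := by
        field_simp
      rw [e, norm_div, hk, div_one, norm_sub_rev]
      exact h1
  have hmul : mult τ x = mult τ ((π : Ω) ^ n) * mult τ u := by
    unfold mult
    rw [hxu, map_mul]
    have h1 : τ ((π : Ω) ^ n) ≠ 0 := (map_ne_zero τ).2 hπn
    field_simp
  rw [hmul, hzpow]
  have hunear : Near p (mult τ u) 1 := by
    unfold Near mult
    exact norm_apply_div_sub_one_lt hτ hu1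
  have := Near.mul (p := p) (by rw [norm_one]) (norm_mult τ hu0).le hpow_near hunear
  rwa [one_mul] at this

/-! ### The package for a homomorphism trivial on `Gal(Ω/K0)` -/

section Rho

variable {M : Type*} [Monoid M] (ρ : GQp p →* M) (hρ : ∀ s ∈ K0.fixingSubgroup, ρ s = 1)

include hρ

/-- (a) for `ρ`. -/
theorem rho_pow_eq_one [FiniteDimensional ℚ_[p] K0] [Normal ℚ_[p] K0] {w : GQp p}
    (hw : w ∈ wild K0) : ∃ a : ℕ, ρ w ^ p ^ a = 1 := by
  obtain ⟨a, ha⟩ := exists_pow_mem_fixingSubgroup hw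
  exact ⟨a, by rw [← map_pow]; exact hρ _ ha⟩

/-- `ρ` only depends on the restriction to `K0`. -/
theorem rho_eq_of_eq_on {g h : GQp p} (hgh : ∀ x : K0, g (x : Ω) = h x) : ρ g = ρ h := by
  have h1 : h⁻¹ * g ∈ K0.fixingSubgroup := by
    rw [IntermediateField.mem_fixingSubgroup_iff]
    intro x hx
    rw [AlgEquiv.mul_apply, hgh ⟨x, hx⟩]
    exact h.symm_apply_apply x
  have h2 : g = h * (h⁻¹ * g) := by group
  rw [h2, map_mul, hρ _ h1, mul_one]

/-- (d) for `ρ`. -/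
theorem rho_eq_frob_pow_mul [FiniteDimensional ℚ_[p] K0] {φ : GQp p} (hφ : IsFrobLoc φ)
    (g : GQp p) : ∃ m : ℕ, ∃ τ ∈ inertiaSet p, ρ g = ρ (φ ^ m * τ) := by
  obtain ⟨m, τ, hτ, h⟩ := exists_frob_pow_mul_inertia K0 hφ g
  exact ⟨m, τ, hτ, rho_eq_of_eq_on ρ hρ h⟩

theorem rho_eq_frob_zpow_mul [FiniteDimensional ℚ_[p] K0] {φ : GQp p} (hφ : IsFrobLoc φ)
    (g : GQp p) : ∃ m : ℤ, ∃ τ ∈ inertiaSubgroup p, ρ g = ρ (φ ^ m * τ) := by
  obtain ⟨m, τ, hτ, h⟩ := rho_eq_frob_pow_mul ρ hρ hφ g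
  exact ⟨(m : ℤ), τ, hτ, by rw [zpow_natCast]; exact h⟩

end Rho

end

end Fermat.Agent.TW.FF.ShapeInputs83
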