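/-
TW / WP7 chapter CLOSURE (helper14).  Flat closure of a Galois-stable subgroup of points.

Abstract setting: `R` a principal ideal domain, `Ω` a field containing `R`, `G` a group of ring
automorphisms of `Ω` fixing `R` such that every `G`-invariant element of `Ω` is a fraction of elements
of `R`; `H` a commutative Hopf algebra, finite over `R`.  For a `G`-stable subgroup `S` of the group of
points `H →ₐ[R] Ω` the ideal `J` of functions vanishing on `S` is a Hopf ideal, `H ⧸ J` is finite and
torsion-free, and its points are exactly `S`.  Consequently the class of `G`-modules which are groups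
of points of finite flat commutative cocommutative Hopf algebras is closed under `G`-submodules
(`Model.sub`).
-/
import Mathlib
import Fermat.Agent.TW.FF.Descent14

set_option autoImplicit false

noncomputable section

open scoped TensorProduct BigOperators
open Coalgebra WithConv

namespace Fermat.Agent.TW.FF.SubClosure14

open Fermat.Agent.TW.FF.Descent14

/-! ### Points, twists, vanishing ideals -/

section Setup

variable {R : Type*} [CommRing R]
variable {Ω : Type*} [Field Ω] [Algebra R Ω]
variable {G : Type*} [Group G] [MulSemiringAction G Ω]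
variable {H : Type*} [CommRing H] [Algebra R H]

/-- Post-composition of a point with an automorphism of `Ω` fixing `R`. -/
def twist (hGR : ∀ (σ : G) (r : R), σ • algebraMap R Ω r = algebraMap R Ω r) (σ : G)
    (x : H →ₐ[R] Ω) : H →ₐ[R] Ω :=
  { (MulSemiringAction.toRingHom G Ω σ).comp (x : H →+* Ω) with
    commutes' := fun r => by
      change σ • x (algebraMap R H r) = algebraMap R Ω r
      rw [x.commutes, hGR] }

@[simp] theorem twist_apply (hGR : ∀ (σ : G) (r : R), σ • algebraMap R Ω r = algebraMap R Ω r)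
    (σ : G) (x : H →ₐ[R] Ω) (h : H) : twist hGR σ x h = σ • x h := rfl

/-- The ideal of functions vanishing at all points of `S`. -/
def vanishingIdeal (S : Set (H →ₐ[R] Ω)) : Ideal H where
  carrier := {h | ∀ x ∈ S, x h = 0}
  add_mem' := by
    intro a b ha hb x hx
    rw [map_add, ha x hx, hb x hx, add_zero]
  zero_mem' := by
    intro x _
    exact map_zero x
  smul_mem' := by
    intro c a ha x hx
    rw [smul_eq_mul, map_mul, ha x hx, mul_zero]

theorem mem_vanishingIdeal {S : Set (H →ₐ[R] Ω)} {h : H} :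
    h ∈ vanishingIdeal S ↔ ∀ x ∈ S, x h = 0 := Iff.rfl

/-- The point of `H ⧸ J` induced by a point in `S`. -/
def barPt (S : Set (H →ₐ[R] Ω)) (x : H →ₐ[R] Ω) (hx : x ∈ S) :
    (H ⧸ vanishingIdeal S) →ₐ[R] Ω :=
  Ideal.Quotient.liftₐ (vanishingIdeal S) x (fun _ hh => hh x hx)

@[simp] theorem barPt_mk (S : Set (H →ₐ[R] Ω)) (x : H →ₐ[R] Ω) (hx : x ∈ S) (h : H) :
    barPt S x hx (Ideal.Quotient.mk (vanishingIdeal S) h) = x h := rfl

theorem barPt_comp_mk (S : Set (H →ₐ[R] Ω)) (x : H →ₐ[R] Ω) (hx : x ∈ S) :
    (barPt S x hx).comp (Ideal.Quotient.mkₐ R (vanishingIdeal S)) = x :=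
  AlgHom.ext fun _ => rfl

/-- Evaluation of elements of `H ⧸ J` at the points of `S`. -/
def evalMap (S : Set (H →ₐ[R] Ω)) : (H ⧸ vanishingIdeal S) →ₗ[R] (S → Ω) :=
  LinearMap.pi fun x => (barPt S x.1 x.2).toLinearMap

@[simp] theorem evalMap_apply (S : Set (H →ₐ[R] Ω)) (b : H ⧸ vanishingIdeal S) (x : S) :
    evalMap S b x = barPt S x.1 x.2 b := rfl

theorem evalMap_injective (S : Set (H →ₐ[R] Ω)) : Function.Injective (evalMap S) := by
  rw [injective_iff_map_eq_zero]
  intro b hb
  obtain ⟨h, rfl⟩ := Ideal.Quotient.mk_surjective b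
  rw [Ideal.Quotient.eq_zero_iff_mem]
  intro x hx
  have := congrFun hb ⟨x, hx⟩
  simpa using this

theorem isTorsionFree_quot [IsDomain R] [FaithfulSMul R Ω] (S : Set (H →ₐ[R] Ω)) :
    Module.IsTorsionFree R (H ⧸ vanishingIdeal S) := by
  refine Module.IsTorsionFree.of_smul_eq_zero fun r b hrb => ?_
  by_cases hr : r = 0
  · exact Or.inl hr
  right
  apply evalMap_injective S
  funext x
  have h1 : evalMap S (r • b) x = 0 := by rw [hrb, map_zero]; rfl
  rw [map_smul, Pi.smul_apply, Algebra.smul_def] at h1
  have hr' : algebraMap R Ω r ≠ 0 := fun h =>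
    hr ((FaithfulSMul.algebraMap_injective R Ω) (by rw [h, map_zero]))
  simpa using (mul_eq_zero.1 h1).resolve_left hr'

end Setup

/-! ### Stable subgroups of points -/

section Stable

variable {R : Type*} [CommRing R]
variable {Ω : Type*} [Field Ω] [Algebra R Ω]
variable {G : Type*} [Group G] [MulSemiringAction G Ω]
variable {H : Type*} [CommRing H] [HopfAlgebra R H]

/-- A set of points which is a subgroup for convolution and is stable under `G`. -/
structure IsStableSubgroup (hGR : ∀ (σ : G) (r : R), σ • algebraMap R Ω r = algebraMap R Ω r)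
    (S : Set (H →ₐ[R] Ω)) : Prop where
  one_mem : (1 : WithConv (H →ₐ[R] Ω)).ofConv ∈ S
  mul_mem : ∀ x ∈ S, ∀ y ∈ S, (toConv x * toConv y).ofConv ∈ S
  inv_mem : ∀ x ∈ S, x.comp (HopfAlgebra.antipodeAlgHom R H) ∈ S
  twist_mem : ∀ (σ : G), ∀ x ∈ S, twist hGR σ x ∈ S

end Stable

/-! ### The vanishing ideal of a stable subgroup is a Hopf ideal -/

section Hopf

variable {R : Type*} [CommRing R] [IsDomain R] [IsPrincipalIdealRing R]
variable {Ω : Type*} [Field Ω] [Algebra R Ω] [FaithfulSMul R Ω]
variable {G : Type*} [Group G] [MulSemiringAction G Ω]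
variable {H : Type*} [CommRing H] [HopfAlgebra R H] [Module.Finite R H]
variable (hGR : ∀ (σ : G) (r : R), σ • algebraMap R Ω r = algebraMap R Ω r)
variable (hfix : ∀ c : Ω, (∀ σ : G, σ • c = c) →
  ∃ a s : R, s ≠ 0 ∧ algebraMap R Ω s * c = algebraMap R Ω a)
variable {S : Set (H →ₐ[R] Ω)}

omit [IsDomain R] [IsPrincipalIdealRing R] [FaithfulSMul R Ω] in
theorem finite_quot (S : Set (H →ₐ[R] Ω)) : Module.Finite R (H ⧸ vanishingIdeal S) :=
  inferInstance

theorem free_quot (S : Set (H →ₐ[R] Ω)) : Module.Free R (H ⧸ vanishingIdeal S) := by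
  have := isTorsionFree_quot (R := R) S
  infer_instance

omit [IsPrincipalIdealRing R] [Module.Finite R H] in
include hfix in
/-- Descent: an `R`-basis of `H ⧸ J` stays `Ω`-linearly independent as functions on `S`. -/
theorem indep_quot (hS : IsStableSubgroup hGR S) {ι : Type*} [Fintype ι]
    (bs : Module.Basis ι R (H ⧸ vanishingIdeal S)) (c : ι → Ω)
    (hc : ∀ x : S, ∑ i, c i * barPt S x.1 x.2 (bs i) = 0) : c = 0 := by
  refine lattice_indep hfix bs (evalMap S) (evalMap_injective S) ?_ c (fun x => hc x)
  intro σ x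
  refine ⟨⟨twist hGR σ⁻¹ x.1, hS.twist_mem σ⁻¹ x.1 x.2⟩, fun b => ?_⟩
  obtain ⟨h, rfl⟩ := Ideal.Quotient.mk_surjective b
  simp only [evalMap_apply, barPt_mk, twist_apply, smul_inv_smul]

omit [IsDomain R] [IsPrincipalIdealRing R] [FaithfulSMul R Ω] [Module.Finite R H] in
/-- Evaluating `(x̄ ⊗ ȳ)` on the image of `Δ h` gives the convolution product. -/
theorem mul_map_bar_comul (x y : H →ₐ[R] Ω) (hx : x ∈ S) (hy : y ∈ S) (h : H) :
    LinearMap.mul' R Ω (TensorProduct.map (barPt S x hx).toLinearMap (barPt S y hy).toLinearMap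
      (TensorProduct.map (Ideal.Quotient.mkₐ R (vanishingIdeal S)).toLinearMap
        (Ideal.Quotient.mkₐ R (vanishingIdeal S)).toLinearMap (comul h))) =
    (toConv x * toConv y).ofConv h := by
  have h1 : (toConv x * toConv y).ofConv h =
      Algebra.TensorProduct.lift x y (fun _ _ => Commute.all _ _) (comul h) :=
    AlgHom.convMul_apply (toConv x) (toConv y) h
  rw [h1]
  generalize (comul h : H ⊗[R] H) = t
  induction t using TensorProduct.induction_on with
  | zero => simp
  | tmul a b => simp
  | add u v hu hv => simp only [map_add, hu, hv]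

include hfix in
/-- The coideal property of the vanishing ideal. -/
theorem map_mk_comul_eq_zero (hS : IsStableSubgroup hGR S) (j : H)
    (hj : j ∈ vanishingIdeal S) :
    TensorProduct.map (Ideal.Quotient.mkₐ R (vanishingIdeal S)).toLinearMap
      (Ideal.Quotient.mkₐ R (vanishingIdeal S)).toLinearMap (comul j) = 0 := by
  classical
  have := free_quot (R := R) S
  set B := H ⧸ vanishingIdeal S
  let ι := Module.Free.ChooseBasisIndex R B
  let bs : Module.Basis ι R B := Module.Free.chooseBasis R B
  let bt : Module.Basis (ι × ι) R (B ⊗[R] B) := bs.tensorProduct bs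
  set t : B ⊗[R] B := TensorProduct.map (Ideal.Quotient.mkₐ R (vanishingIdeal S)).toLinearMap
      (Ideal.Quotient.mkₐ R (vanishingIdeal S)).toLinearMap (comul j) with ht
  -- the coordinates of `t`
  set a : ι × ι → R := fun ik => bt.repr t ik with ha
  have hsum : t = ∑ ik, a ik • (bs ik.1 ⊗ₜ[R] bs ik.2) := by
    have := bt.sum_repr t
    rw [← this]
    refine Finset.sum_congr rfl fun ik _ => ?_
    rw [Module.Basis.tensorProduct_apply]
  -- evaluate at pairs of points
  have hev : ∀ (x y : S), ∑ i, (∑ k, algebraMap R Ω (a (i, k)) * barPt S y.1 y.2 (bs k)) *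
      barPt S x.1 x.2 (bs i) = 0 := by
    intro x y
    have h1 := mul_map_bar_comul (R := R) x.1 y.1 x.2 y.2 j
    rw [← ht] at h1
    have h2 : (toConv x.1 * toConv y.1).ofConv j = 0 :=
      hj _ (hS.mul_mem x.1 x.2 y.1 y.2)
    rw [h2, hsum] at h1
    simp only [map_sum, map_smul, TensorProduct.map_tmul, LinearMap.mul'_apply,
      AlgHom.toLinearMap_apply] at h1
    rw [Fintype.sum_prod_type] at h1
    rw [← h1]
    refine Finset.sum_congr rfl fun i _ => ?_
    rw [Finset.sum_mul]
    refine Finset.sum_congr rfl fun k _ => ?_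
    rw [Algebra.smul_def]
    ring
  -- first descent: for fixed `y` and all `i`
  have hstep1 : ∀ (y : S) (i : ι),
      ∑ k, algebraMap R Ω (a (i, k)) * barPt S y.1 y.2 (bs k) = 0 := by
    intro y i
    have := indep_quot hGR hfix hS bs
      (fun i => ∑ k, algebraMap R Ω (a (i, k)) * barPt S y.1 y.2 (bs k)) (fun x => hev x y)
    exact congrFun this i
  -- second descent
  have hstep2 : ∀ i k, a (i, k) = 0 := by
    intro i k
    have := indep_quot hGR hfix hS bs (fun k => algebraMap R Ω (a (i, k)))
      (fun y => hstep1 y i)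
    have h3 := congrFun this k
    exact (FaithfulSMul.algebraMap_injective R Ω) (by rw [h3]; simp)
  rw [hsum]
  refine Finset.sum_eq_zero fun ik _ => ?_
  rw [hstep2 ik.1 ik.2, zero_smul]

include hfix in
/-- **The vanishing ideal of a `G`-stable subgroup of points is a Hopf ideal.** -/
theorem isHopfIdeal (hS : IsStableSubgroup hGR S) : (vanishingIdeal S).IsHopfIdeal R where
  counit_eq_zero := by
    intro j hj
    have h1 : (1 : WithConv (H →ₐ[R] Ω)).ofConv j = 0 := hj _ hS.one_mem
    have h2 : (1 : WithConv (H →ₐ[R] Ω)).ofConv j = algebraMap R Ω (counit j) :=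
      AlgHom.convOne_apply j
    rw [h2] at h1
    exact (FaithfulSMul.algebraMap_injective R Ω) (by rw [h1, map_zero])
  map_mkQ_comul_eq_zero := by
    intro j hj
    exact map_mk_comul_eq_zero hGR hfix hS j hj
  antipode_mem := by
    intro j hj x hx
    have := hj _ (hS.inv_mem x hx)
    simpa using this

end Hopf

end Fermat.Agent.TW.FF.SubClosure14
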