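/-
TW / WP7 chapter CLOSURE (helper14).  Hopf subalgebras.

Mathlib has Hopf ideals and quotients but no Hopf subalgebras.  Let `H` be a commutative Hopf algebra
over `R` and `B` a subalgebra which is a direct summand as an `R`-module (there is an `R`-linear
retraction `H → B`), such that `Δ(B) ⊆ B ⊗ B` (image of `B ⊗ B → H ⊗ H`) and `S(B) ⊆ B`.  Then `B`
carries a unique Hopf algebra structure making the inclusion a morphism (`SubHopf14.hopfAlgebra`).
-/
import Mathlib

set_option autoImplicit false

noncomputable section

open scoped TensorProduct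
open Coalgebra

namespace Fermat.Agent.TW.FF.SubHopf14

variable {R : Type*} [CommRing R] {H : Type*} [CommRing H] [HopfAlgebra R H]

/-- `B` is a Hopf subalgebra of `H` (which is a direct summand as a module). -/
structure IsSubHopf (B : Subalgebra R H) : Prop where
  retract : ∃ r : H →ₗ[R] B, ∀ b : B, r (b : H) = b
  comul_mem : ∀ b : B, comul (R := R) (b : H) ∈
    LinearMap.range (TensorProduct.map B.val.toLinearMap B.val.toLinearMap)
  antipode_mem : ∀ b : B, HopfAlgebra.antipode R (b : H) ∈ B

variable {B : Subalgebra R H}

/-- The inclusion `B ⊗ B → H ⊗ H`. -/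
abbrev J₂ (B : Subalgebra R H) : B ⊗[R] B →ₐ[R] H ⊗[R] H :=
  Algebra.TensorProduct.map B.val B.val

/-- The inclusion `B ⊗ (B ⊗ B) → H ⊗ (H ⊗ H)`. -/
abbrev J₃ (B : Subalgebra R H) : B ⊗[R] (B ⊗[R] B) →ₐ[R] H ⊗[R] (H ⊗[R] H) :=
  Algebra.TensorProduct.map B.val (J₂ B)

/-- A chosen retraction. -/
def retr (hB : IsSubHopf B) : H →ₗ[R] B := hB.retract.choose

theorem retr_coe (hB : IsSubHopf B) (b : B) : retr hB (b : H) = b := hB.retract.choose_spec b

theorem retr_of_mem (hB : IsSubHopf B) {h : H} (hh : h ∈ B) : (retr hB h : H) = h := by
  have := retr_coe hB ⟨h, hh⟩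
  exact congrArg Subtype.val this

theorem map_retr_J₂ (hB : IsSubHopf B) (t : B ⊗[R] B) :
    TensorProduct.map (retr hB) (retr hB) (J₂ B t) = t := by
  induction t using TensorProduct.induction_on with
  | zero => simp
  | tmul a b => simp [retr_coe]
  | add u v hu hv => simp only [map_add, hu, hv]

theorem J₂_injective (hB : IsSubHopf B) : Function.Injective (J₂ B) :=
  Function.LeftInverse.injective (g := TensorProduct.map (retr hB) (retr hB)) (map_retr_J₂ hB)

theorem map_retr_J₃ (hB : IsSubHopf B) (t : B ⊗[R] (B ⊗[R] B)) :
    TensorProduct.map (retr hB) (TensorProduct.map (retr hB) (retr hB)) (J₃ B t) = t := by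
  induction t using TensorProduct.induction_on with
  | zero => simp
  | tmul a s =>
    rw [Algebra.TensorProduct.map_tmul, TensorProduct.map_tmul, map_retr_J₂ hB]
    simp [retr_coe]
  | add u v hu hv => simp only [map_add, hu, hv]

theorem J₃_injective (hB : IsSubHopf B) : Function.Injective (J₃ B) :=
  Function.LeftInverse.injective
    (g := TensorProduct.map (retr hB) (TensorProduct.map (retr hB) (retr hB))) (map_retr_J₃ hB)

/-- The induced comultiplication. -/
def comulL (hB : IsSubHopf B) : B →ₗ[R] B ⊗[R] B :=
  TensorProduct.map (retr hB) (retr hB) ∘ₗ comul ∘ₗ B.val.toLinearMap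

/-- The induced counit. -/
def counitL (B : Subalgebra R H) : B →ₗ[R] R := counit ∘ₗ B.val.toLinearMap

/-- The induced antipode. -/
def antipodeL (hB : IsSubHopf B) : B →ₗ[R] B :=
  retr hB ∘ₗ HopfAlgebra.antipode R ∘ₗ B.val.toLinearMap

@[simp] theorem counitL_apply (b : B) : counitL B b = counit (R := R) (b : H) := rfl

theorem J₂_comulL (hB : IsSubHopf B) (b : B) : J₂ B (comulL hB b) = comul (R := R) (b : H) := by
  obtain ⟨t, ht⟩ := hB.comul_mem b
  have h1 : comulL hB b = t := by
    change TensorProduct.map (retr hB) (retr hB) (comul (R := R) (b : H)) = t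
    rw [← ht]
    exact map_retr_J₂ hB t
  rw [h1]
  exact ht

theorem coe_antipodeL (hB : IsSubHopf B) (b : B) :
    (antipodeL hB b : H) = HopfAlgebra.antipode R (b : H) :=
  retr_of_mem hB (hB.antipode_mem b)

/-! ### Auxiliary naturality statements -/

theorem aux_assoc (s : B ⊗[R] B) (b : B) :
    J₃ B (TensorProduct.assoc R B B B (s ⊗ₜ[R] b)) =
      TensorProduct.assoc R H H H (J₂ B s ⊗ₜ[R] (b : H)) := by
  induction s using TensorProduct.induction_on with
  | zero =>
    rw [TensorProduct.zero_tmul, LinearEquiv.map_zero, map_zero, map_zero,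
      TensorProduct.zero_tmul, LinearEquiv.map_zero]
  | tmul a a' =>
    rw [TensorProduct.assoc_tmul, Algebra.TensorProduct.map_tmul, Algebra.TensorProduct.map_tmul,
      Algebra.TensorProduct.map_tmul, TensorProduct.assoc_tmul]
    rfl
  | add u v hu hv =>
    rw [TensorProduct.add_tmul, LinearEquiv.map_add, map_add, hu, hv, map_add,
      TensorProduct.add_tmul, LinearEquiv.map_add]

theorem aux_rTensor (hB : IsSubHopf B) (t : B ⊗[R] B) :
    J₃ B (TensorProduct.assoc R B B B ((comulL hB).rTensor B t)) =
      TensorProduct.assoc R H H H ((comul (R := R) (A := H)).rTensor H (J₂ B t)) := by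
  induction t using TensorProduct.induction_on with
  | zero =>
    rw [map_zero, LinearEquiv.map_zero, map_zero, map_zero, map_zero, LinearEquiv.map_zero]
  | tmul a b =>
    rw [LinearMap.rTensor_tmul, aux_assoc, J₂_comulL, Algebra.TensorProduct.map_tmul,
      LinearMap.rTensor_tmul]
    rfl
  | add u v hu hv =>
    rw [map_add, LinearEquiv.map_add, map_add, hu, hv, map_add, map_add, LinearEquiv.map_add]

theorem aux_lTensor (hB : IsSubHopf B) (t : B ⊗[R] B) :
    J₃ B ((comulL hB).lTensor B t) = (comul (R := R) (A := H)).lTensor H (J₂ B t) := by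
  induction t using TensorProduct.induction_on with
  | zero => simp
  | tmul a b =>
    rw [LinearMap.lTensor_tmul, Algebra.TensorProduct.map_tmul, J₂_comulL,
      Algebra.TensorProduct.map_tmul, LinearMap.lTensor_tmul]
    rfl
  | add u v hu hv => simp only [map_add, hu, hv]

theorem aux_counit_r (t : B ⊗[R] B) :
    (B.val.toLinearMap).lTensor R ((counitL B).rTensor B t) =
      (counit (R := R) (A := H)).rTensor H (J₂ B t) := by
  induction t using TensorProduct.induction_on with
  | zero => simp
  | tmul a b => simp
  | add u v hu hv => simp only [map_add, hu, hv]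

theorem aux_counit_l (t : B ⊗[R] B) :
    (B.val.toLinearMap).rTensor R ((counitL B).lTensor B t) =
      (counit (R := R) (A := H)).lTensor H (J₂ B t) := by
  induction t using TensorProduct.induction_on with
  | zero => simp
  | tmul a b => simp
  | add u v hu hv => simp only [map_add, hu, hv]

theorem lTensor_val_injective (hB : IsSubHopf B) :
    Function.Injective ((B.val.toLinearMap).lTensor R : R ⊗[R] B → R ⊗[R] H) := by
  refine Function.LeftInverse.injective (g := (retr hB).lTensor R) fun t => ?_
  induction t using TensorProduct.induction_on with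
  | zero => simp
  | tmul a b => simp [retr_coe]
  | add u v hu hv => simp only [map_add, hu, hv]

theorem rTensor_val_injective (hB : IsSubHopf B) :
    Function.Injective ((B.val.toLinearMap).rTensor R : B ⊗[R] R → H ⊗[R] R) := by
  refine Function.LeftInverse.injective (g := (retr hB).rTensor R) fun t => ?_
  induction t using TensorProduct.induction_on with
  | zero => simp
  | tmul a b => simp [retr_coe]
  | add u v hu hv => simp only [map_add, hu, hv]

theorem aux_antipode_r (hB : IsSubHopf B) (t : B ⊗[R] B) :
    ((LinearMap.mul' R B ((antipodeL hB).rTensor B t) : B) : H) =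
      LinearMap.mul' R H ((HopfAlgebra.antipode R).rTensor H (J₂ B t)) := by
  induction t using TensorProduct.induction_on with
  | zero => simp
  | tmul a b => simp [coe_antipodeL]
  | add u v hu hv => simp only [map_add, hu, hv, Subalgebra.coe_add]

theorem aux_antipode_l (hB : IsSubHopf B) (t : B ⊗[R] B) :
    ((LinearMap.mul' R B ((antipodeL hB).lTensor B t) : B) : H) =
      LinearMap.mul' R H ((HopfAlgebra.antipode R).lTensor H (J₂ B t)) := by
  induction t using TensorProduct.induction_on with
  | zero => simp
  | tmul a b => simp [coe_antipodeL]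
  | add u v hu hv => simp only [map_add, hu, hv, Subalgebra.coe_add]

/-! ### The structures -/

/-- The induced coalgebra structure on a Hopf subalgebra. -/
@[reducible] def coalgebra (hB : IsSubHopf B) : Coalgebra R B where
  comul := comulL hB
  counit := counitL B
  coassoc := by
    apply LinearMap.ext
    intro b
    apply J₃_injective hB
    simp only [LinearMap.comp_apply, LinearEquiv.coe_coe]
    rw [aux_rTensor, aux_lTensor, J₂_comulL]
    exact Coalgebra.coassoc_apply (R := R) (b : H)
  rTensor_counit_comp_comul := by
    apply LinearMap.ext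
    intro b
    apply lTensor_val_injective hB
    simp only [LinearMap.comp_apply]
    rw [aux_counit_r, J₂_comulL, Coalgebra.rTensor_counit_comul]
    simp
  lTensor_counit_comp_comul := by
    apply LinearMap.ext
    intro b
    apply rTensor_val_injective hB
    simp only [LinearMap.comp_apply]
    rw [aux_counit_l, J₂_comulL, Coalgebra.lTensor_counit_comul]
    simp

/-- The induced bialgebra structure on a Hopf subalgebra. -/
@[reducible] def bialgebra (hB : IsSubHopf B) : Bialgebra R B :=
  letI := coalgebra hB
  Bialgebra.mk' R B
    (by change counit (R := R) ((1 : B) : H) = 1; simp)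
    (by intro a b; change counit (R := R) ((a * b : B) : H) = counit (R := R) (a : H) *
          counit (R := R) (b : H); simp)
    (by
      apply J₂_injective hB
      change J₂ B (comulL hB 1) = J₂ B 1
      rw [J₂_comulL, map_one]
      simp)
    (by
      intro a b
      apply J₂_injective hB
      change J₂ B (comulL hB (a * b)) = J₂ B (comulL hB a * comulL hB b)
      rw [J₂_comulL, map_mul, J₂_comulL, J₂_comulL]
      simp)

/-- **The induced Hopf algebra structure on a Hopf subalgebra.** -/
@[reducible] def hopfAlgebra (hB : IsSubHopf B) : HopfAlgebra R B :=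
  letI := bialgebra hB
  { antipode := antipodeL hB
    mul_antipode_rTensor_comul := by
      apply LinearMap.ext
      intro b
      apply Subtype.ext
      simp only [LinearMap.comp_apply]
      change ((LinearMap.mul' R B ((antipodeL hB).rTensor B (comulL hB b)) : B) : H) = _
      rw [aux_antipode_r, J₂_comulL, HopfAlgebra.mul_antipode_rTensor_comul_apply]
      rfl
    mul_antipode_lTensor_comul := by
      apply LinearMap.ext
      intro b
      apply Subtype.ext
      simp only [LinearMap.comp_apply]
      change ((LinearMap.mul' R B ((antipodeL hB).lTensor B (comulL hB b)) : B) : H) = _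
      rw [aux_antipode_l, J₂_comulL, HopfAlgebra.mul_antipode_lTensor_comul_apply]
      rfl }

section Props

variable (hB : IsSubHopf B)

/-- The inclusion is compatible with comultiplication. -/
theorem map_val_comul (b : B) :
    letI := hopfAlgebra hB
    J₂ B (comul (R := R) b) = comul (R := R) (b : H) := J₂_comulL hB b

theorem counit_coe (b : B) :
    letI := hopfAlgebra hB
    counit (R := R) b = counit (R := R) (b : H) := rfl

/-- Hopf subalgebras of cocommutative Hopf algebras are cocommutative. -/
theorem isCocomm [IsCocomm R H] :
    letI := hopfAlgebra hB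
    IsCocomm R B := by
  letI := hopfAlgebra hB
  refine ⟨?_⟩
  apply LinearMap.ext
  intro b
  apply J₂_injective hB
  have key : ∀ t : B ⊗[R] B, J₂ B (TensorProduct.comm R B B t) =
      TensorProduct.comm R H H (J₂ B t) := by
    intro t
    induction t using TensorProduct.induction_on with
    | zero => simp
    | tmul a b => simp
    | add u v hu hv => simp only [map_add, hu, hv]
  rw [LinearMap.comp_apply, LinearEquiv.coe_coe, key]
  change TensorProduct.comm R H H (J₂ B (comulL hB b)) = J₂ B (comulL hB b)
  rw [J₂_comulL, Coalgebra.comm_comul]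

end Props

end Fermat.Agent.TW.FF.SubHopf14
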