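/-
TW / WP7 chapter CLOSURE (helper14).  Flat models are closed under `G`-stable subgroups
(scheme-theoretic closure = quotient by the vanishing ideal), and one may always assume that the
points of the model separate its elements.
-/
import Mathlib
import Fermat.Agent.TW.FF.SubClosure14
import Fermat.Agent.TW.FF.Model14

set_option autoImplicit false

noncomputable section

open scoped TensorProduct BigOperators
open Coalgebra WithConv

namespace Fermat.Agent.TW.FF.SubModel14

open Fermat.Agent.TW.FF.Descent14 Fermat.Agent.TW.FF.SubClosure14 Fermat.Agent.TW.FF.Model14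

section Quot

variable {R : Type*} [CommRing R]
variable {Ω : Type*} [Field Ω] [Algebra R Ω]
variable {H : Type*} [CommRing H] [HopfAlgebra R H]

/-- Quotients of cocommutative coalgebras by (bi)ideals are cocommutative. -/
theorem isCocomm_quot [IsCocomm R H] (J : Ideal H) [(J.restrictScalars R).IsCoideal] :
    IsCocomm R (H ⧸ J) where
  comm_comp_comul := by
    have key : ∀ t : H ⊗[R] H,
        TensorProduct.comm R (H ⧸ J) (H ⧸ J)
          (TensorProduct.map (Ideal.Quotient.mkₐ R J).toLinearMap
            (Ideal.Quotient.mkₐ R J).toLinearMap t) =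
        TensorProduct.map (Ideal.Quotient.mkₐ R J).toLinearMap
            (Ideal.Quotient.mkₐ R J).toLinearMap (TensorProduct.comm R H H t) := by
      intro t
      induction t using TensorProduct.induction_on with
      | zero => simp
      | tmul a b => simp
      | add u v hu hv => simp only [map_add, hu, hv]
    apply LinearMap.ext
    intro b
    obtain ⟨h, rfl⟩ := Ideal.Quotient.mk_surjective b
    rw [LinearMap.comp_apply, LinearEquiv.coe_coe, Bialgebra.Quotient.comul_mk, key,
      Coalgebra.comm_comul]

/-- Pull-back of points along the quotient map is multiplicative. -/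
theorem comp_mk_mul (J : Ideal H) [(J.restrictScalars R).IsCoideal]
    (y₁ y₂ : WithConv ((H ⧸ J) →ₐ[R] Ω)) :
    toConv ((y₁ * y₂).ofConv.comp (Ideal.Quotient.mkₐ R J)) =
      toConv (y₁.ofConv.comp (Ideal.Quotient.mkₐ R J)) *
        toConv (y₂.ofConv.comp (Ideal.Quotient.mkₐ R J)) := by
  apply WithConv.ext
  apply AlgHom.ext
  intro h
  have h1 := AlgHom.convMul_apply y₁ y₂ (Ideal.Quotient.mk J h)
  have h2 := AlgHom.convMul_apply (toConv (y₁.ofConv.comp (Ideal.Quotient.mkₐ R J)))
    (toConv (y₂.ofConv.comp (Ideal.Quotient.mkₐ R J))) h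
  change (y₁ * y₂).ofConv (Ideal.Quotient.mk J h) = _
  refine h1.trans (Eq.trans ?_ h2.symm)
  rw [Bialgebra.Quotient.comul_mk]
  generalize (comul h : H ⊗[R] H) = t
  induction t using TensorProduct.induction_on with
  | zero => simp
  | tmul a b => simp
  | add u v hu hv => simp only [map_add, hu, hv]

end Quot

section Main

variable {R : Type*} [CommRing R] [IsDomain R] [IsPrincipalIdealRing R]
variable {Ω : Type*} [Field Ω] [Algebra R Ω] [FaithfulSMul R Ω]
variable {G : Type*} [Group G] [MulSemiringAction G Ω]
variable (hGR : ∀ (σ : G) (r : R), σ • algebraMap R Ω r = algebraMap R Ω r)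
variable (hfix : ∀ c : Ω, (∀ σ : G, σ • c = c) →
  ∃ a s : R, s ≠ 0 ∧ algebraMap R Ω s * c = algebraMap R Ω a)

section Points

variable {H : Type*} [CommRing H] [HopfAlgebra R H] [Module.Finite R H] [Module.Flat R H]
variable {S : Set (H →ₐ[R] Ω)}

include hfix in
/-- The points of `H ⧸ J` are exactly the points in `S`. -/
theorem barPt_bijective (hS : IsStableSubgroup hGR S) :
    Function.Bijective (fun x : S => barPt S x.1 x.2) := by
  classical
  have hfreeH : Module.Free R H := inferInstance
  have hfreeB : Module.Free R (H ⧸ vanishingIdeal S) := free_quot (R := R) S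
  have hfinB : Module.Finite R (H ⧸ vanishingIdeal S) := finite_quot (R := R) S
  have hfinH : Finite (H →ₐ[R] Ω) := inferInstance
  have hfinPB : Finite ((H ⧸ vanishingIdeal S) →ₐ[R] Ω) := inferInstance
  have hinj : Function.Injective (fun x : S => barPt S x.1 x.2) := by
    intro x y hxy
    apply Subtype.ext
    have h1 := barPt_comp_mk S x.1 x.2
    have h2 := barPt_comp_mk S y.1 y.2
    rw [← h1, ← h2]
    exact congrArg (fun z => AlgHom.comp z (Ideal.Quotient.mkₐ R (vanishingIdeal S))) hxy
  refine hinj.bijective_of_nat_card_le ?_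
  letI : Fintype S := Fintype.ofFinite S
  letI : Fintype ((H ⧸ vanishingIdeal S) →ₐ[R] Ω) := Fintype.ofFinite _
  rw [Nat.card_eq_fintype_card, Nat.card_eq_fintype_card]
  set B := H ⧸ vanishingIdeal S
  let ι := Module.Free.ChooseBasisIndex R B
  let bs : Module.Basis ι R B := Module.Free.chooseBasis R B
  -- number of points of `B` is at most the rank
  have h1 : Fintype.card (B →ₐ[R] Ω) ≤ Module.finrank R B := by
    have := (linearIndependent_toLinearMap R B Ω).fintype_card_le_finrank
    rwa [Module.finrank_linearMap_self R Ω B] at this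
  -- the rank is at most the number of points in `S`
  have h2 : Module.finrank R B ≤ Fintype.card S := by
    have hli : LinearIndependent Ω (fun i => evalMap S (bs i)) := by
      rw [Fintype.linearIndependent_iff]
      intro c hc i
      have := indep_quot hGR hfix hS bs c (fun x => by
        have := congrFun hc x
        simpa [Finset.sum_apply] using this)
      exact congrFun this i
    have := hli.fintype_card_le_finrank
    rwa [Module.finrank_fintype_fun_eq_card, ← Module.finrank_eq_card_basis bs] at this
  exact h1.trans h2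

end Points

section Sub

variable {H : Type*} [CommRing H] [HopfAlgebra R H]
variable {M : Type*} [AddCommGroup M] {e : WithConv (H →ₐ[R] Ω) ≃ M} {act : G → M → M}

/-- The set of points of `H` corresponding to a subgroup of `M`. -/
def pointSet (e : WithConv (H →ₐ[R] Ω) ≃ M) (W : AddSubgroup M) : Set (H →ₐ[R] Ω) :=
  {x | e (toConv x) ∈ W}

omit [IsDomain R] [IsPrincipalIdealRing R] [FaithfulSMul R Ω] in
theorem mem_pointSet {W : AddSubgroup M} {x : H →ₐ[R] Ω} :
    x ∈ pointSet e W ↔ e (toConv x) ∈ W := Iff.rfl

omit [IsDomain R] [IsPrincipalIdealRing R] [FaithfulSMul R Ω] in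
theorem isStable_pointSet (hM : IsModel R Ω G H e act) (W : AddSubgroup M)
    (hW : ∀ (σ : G), ∀ w ∈ W, act σ w ∈ W) : IsStableSubgroup hGR (pointSet e W) where
  one_mem := by
    rw [mem_pointSet, toConv_ofConv, hM.map_one]
    exact W.zero_mem
  mul_mem := by
    intro x hx y hy
    rw [mem_pointSet, toConv_ofConv, hM.map_mul]
    exact W.add_mem hx hy
  inv_mem := by
    intro x hx
    have := hM.map_invPt (toConv x)
    rw [mem_pointSet]
    change e (invPt (toConv x)) ∈ W
    rw [this]
    exact W.neg_mem hx
  twist_mem := by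
    intro σ x hx
    rw [mem_pointSet, hM.map_act σ (toConv x) (toConv (twist hGR σ x)) (fun h => rfl)]
    exact hW σ _ hx

include hGR hfix in
/-- **Closure under subobjects, structured form.** For a `G`-stable subgroup `W` of `M`, the
quotient of `H` by the ideal of functions vanishing on the points in `W` is a model of `W`, and
its points are the points of `H` lying in `W`. -/
theorem isModel_sub (hM : IsModel R Ω G H e act) (W : AddSubgroup M)
    (hW : ∀ (σ : G), ∀ w ∈ W, act σ w ∈ W)
    (actW : G → W → W) (hactW : ∀ (σ : G) (w : W), (actW σ w : M) = act σ w)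
    [hI : (vanishingIdeal (pointSet e W)).IsHopfIdeal R] :
    ∃ e' : WithConv ((H ⧸ vanishingIdeal (pointSet e W)) →ₐ[R] Ω) ≃ W,
      IsModel R Ω G (H ⧸ vanishingIdeal (pointSet e W)) e' actW ∧
      ∀ y : WithConv ((H ⧸ vanishingIdeal (pointSet e W)) →ₐ[R] Ω),
        ((e' y : W) : M) =
          e (toConv (y.ofConv.comp (Ideal.Quotient.mkₐ R (vanishingIdeal (pointSet e W))))) := by
  classical
  have hfin := hM.finite
  have hflat := hM.flat
  have hco := hM.cocomm
  set S := pointSet e W with hSdef
  have hS : IsStableSubgroup hGR S := isStable_pointSet hGR hM W hW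
  have hbij := barPt_bijective hGR hfix hS
  have htf : Module.IsTorsionFree R (H ⧸ vanishingIdeal S) := isTorsionFree_quot S
  have hmemS : ∀ y : (H ⧸ vanishingIdeal S) →ₐ[R] Ω,
      y.comp (Ideal.Quotient.mkₐ R (vanishingIdeal S)) ∈ S := by
    intro y
    obtain ⟨x, rfl⟩ := hbij.2 y
    change (barPt S x.1 x.2).comp _ ∈ S
    rw [barPt_comp_mk]
    exact x.2
  let f : WithConv ((H ⧸ vanishingIdeal S) →ₐ[R] Ω) → W := fun y =>
    ⟨e (toConv (y.ofConv.comp (Ideal.Quotient.mkₐ R (vanishingIdeal S)))), hmemS y.ofConv⟩
  have hfinj : Function.Injective f := by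
    intro y₁ y₂ h12
    have h1 : e (toConv (y₁.ofConv.comp (Ideal.Quotient.mkₐ R (vanishingIdeal S)))) =
        e (toConv (y₂.ofConv.comp (Ideal.Quotient.mkₐ R (vanishingIdeal S)))) :=
      congrArg Subtype.val h12
    have h2 := WithConv.toConv_injective (e.injective h1)
    apply WithConv.ext
    exact (AlgHom.cancel_right (Ideal.Quotient.mkₐ_surjective R (vanishingIdeal S))).1 h2
  have hfsurj : Function.Surjective f := by
    intro w
    have hx : (e.symm w.1).ofConv ∈ S := by
      rw [hSdef, mem_pointSet, toConv_ofConv, Equiv.apply_symm_apply]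
      exact w.2
    refine ⟨toConv (barPt S _ hx), Subtype.ext ?_⟩
    change e (toConv ((barPt S _ hx).comp _)) = w.1
    rw [barPt_comp_mk, toConv_ofConv, Equiv.apply_symm_apply]
  refine ⟨Equiv.ofBijective f ⟨hfinj, hfsurj⟩, ?_, fun y => rfl⟩
  exact
    { finite := finite_quot (R := R) S
      flat := inferInstance
      cocomm := isCocomm_quot (R := R) (vanishingIdeal S)
      map_mul := by
        intro y₁ y₂
        apply Subtype.ext
        change e (toConv ((y₁ * y₂).ofConv.comp _)) = e (toConv _) + e (toConv _)
        rw [comp_mk_mul, hM.map_mul]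
      map_act := by
        intro σ y₁ y₂ h12
        apply Subtype.ext
        rw [hactW]
        change e (toConv (y₂.ofConv.comp _)) = act σ (e (toConv (y₁.ofConv.comp _)))
        exact hM.map_act σ _ _ (fun h => h12 (Ideal.Quotient.mk _ h)) }

include hGR hfix in
/-- **Closure under subobjects.** A `G`-stable subgroup of a flat model is a flat model. -/
theorem model_sub {M : Type*} [AddCommGroup M] {act : G → M → M} (hM : Model R Ω G M act)
    (W : AddSubgroup M) (hW : ∀ (σ : G), ∀ w ∈ W, act σ w ∈ W)
    (actW : G → W → W) (hactW : ∀ (σ : G) (w : W), (actW σ w : M) = act σ w) :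
    Model R Ω G W actW := by
  obtain ⟨H, instCR, instHopf, e, hM⟩ := hM
  have hfin := hM.finite
  haveI : (vanishingIdeal (pointSet e W)).IsHopfIdeal R :=
    isHopfIdeal hGR hfix (isStable_pointSet hGR hM W hW)
  obtain ⟨e', he', -⟩ := isModel_sub hGR hfix hM W hW actW hactW
  exact ⟨H ⧸ vanishingIdeal (pointSet e W), inferInstance, inferInstance, e', he'⟩

end Sub

end Main

end Fermat.Agent.TW.FF.SubModel14
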